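import Mathlib
import Fermat.Prelude.Def_ModularCurve_LaurentCoeff
import Fermat.Agent.LG.Gauss

/-!
The Gauss valuation of Laurent series over a general valuation ring.
-/

set_option autoImplicit false
set_option linter.unusedSectionVars false

noncomputable section

namespace Fermat.Agent.Flat

open IsLocalRing ModularCurve

variable {Ω : Type*} [Field Ω] (A : ValuationSubring Ω)

/-- coefficients in the fraction field -/
def lA : LaurentSeries A →+* LaurentSeries Ω := coeffMap A.subtype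

/-- reduction of the coefficients -/
def lK : LaurentSeries A →+* LaurentSeries (ResidueField A) := coeffMap (residue A)

@[simp] lemma lA_coeff (x : LaurentSeries A) (n : ℤ) : (lA A x).coeff n = x.coeff n := rfl

@[simp] lemma lK_coeff (x : LaurentSeries A) (n : ℤ) :
    (lK A x).coeff n = residue A (x.coeff n) := rfl

lemma lA_injective : Function.Injective (lA A) := by
  intro x y h
  ext n
  exact congrArg (fun z : LaurentSeries Ω => z.coeff n) h

/-- The Gauss valuation ring (of the fractions of bounded series). -/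
def gA : Subring (LaurentSeries Ω) where
  carrier := {x | ∃ a b : LaurentSeries A, lK A b ≠ 0 ∧ lA A b * x = lA A a}
  mul_mem' := by
    rintro x y ⟨a, b, hb, h⟩ ⟨c, d, hd, h'⟩
    refine ⟨a * c, b * d, by rw [map_mul]; exact mul_ne_zero hb hd, ?_⟩
    rw [map_mul, map_mul, ← h, ← h']; ring
  one_mem' := ⟨1, 1, by simp, by simp⟩
  add_mem' := by
    rintro x y ⟨a, b, hb, h⟩ ⟨c, d, hd, h'⟩
    refine ⟨a * d + b * c, b * d, by rw [map_mul]; exact mul_ne_zero hb hd, ?_⟩
    rw [map_mul, map_add, map_mul, map_mul, ← h, ← h']; ring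
  zero_mem' := ⟨0, 1, by simp, by simp⟩
  neg_mem' := by
    rintro x ⟨a, b, hb, h⟩
    exact ⟨-a, b, hb, by rw [map_neg, ← h]; ring⟩

variable {A}

lemma mem_gA {x : LaurentSeries Ω} : x ∈ gA A ↔
    ∃ a b : LaurentSeries A, lK A b ≠ 0 ∧ lA A b * x = lA A a := Iff.rfl

lemma lA_mem_gA (a : LaurentSeries A) : lA A a ∈ gA A := ⟨a, 1, by simp, by simp⟩

lemma gA_repr (x : gA A) : ∃ ab : LaurentSeries A × LaurentSeries A, lK A ab.2 ≠ 0 ∧
    lA A ab.2 * (x : LaurentSeries Ω) = lA A ab.1 := by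
  obtain ⟨a, b, h, h'⟩ := x.2
  exact ⟨(a, b), h, h'⟩

/-- The reduction map. -/
def gAfun (x : gA A) : LaurentSeries (ResidueField A) :=
  lK A (gA_repr x).choose.1 / lK A (gA_repr x).choose.2

lemma gAfun_eq {x : gA A} {a b : LaurentSeries A} (hb : lK A b ≠ 0)
    (h : lA A b * (x : LaurentSeries Ω) = lA A a) : gAfun x = lK A a / lK A b := by
  have h1 := (gA_repr x).choose_spec
  change lK A (gA_repr x).choose.1 / lK A (gA_repr x).choose.2 = _
  generalize (gA_repr x).choose = ab at h1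
  obtain ⟨a1, b1⟩ := ab
  simp only at h1 ⊢
  rw [div_eq_div_iff h1.1 hb, ← map_mul, ← map_mul]
  congr 1
  apply lA_injective A
  rw [map_mul, map_mul, ← h1.2, ← h]
  ring

/-- The reduction map. -/
def gAR : gA A →+* LaurentSeries (ResidueField A) where
  toFun := gAfun
  map_one' := by
    rw [gAfun_eq (a := 1) (b := 1) (by simp) (by simp)]
    simp
  map_zero' := by
    rw [gAfun_eq (a := 0) (b := 1) (by simp) (by simp)]
    simp
  map_mul' x y := by
    obtain ⟨⟨a, b⟩, hb, h⟩ := gA_repr x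
    obtain ⟨⟨c, d⟩, hd, h'⟩ := gA_repr y
    simp only at hb h hd h'
    rw [gAfun_eq hb h, gAfun_eq hd h', gAfun_eq (a := a * c) (b := b * d)
      (by rw [map_mul]; exact mul_ne_zero hb hd)
      (by rw [map_mul, map_mul, ← h, ← h', Subring.coe_mul]; ring), map_mul, map_mul,
      div_mul_div_comm]
  map_add' x y := by
    obtain ⟨⟨a, b⟩, hb, h⟩ := gA_repr x
    obtain ⟨⟨c, d⟩, hd, h'⟩ := gA_repr y
    simp only at hb h hd h'
    rw [gAfun_eq hb h, gAfun_eq hd h', gAfun_eq (a := a * d + b * c) (b := b * d)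
      (by rw [map_mul]; exact mul_ne_zero hb hd)
      (by rw [map_mul, map_add, map_mul, map_mul, ← h, ← h', Subring.coe_add]; ring), map_add,
      map_mul, map_mul, map_mul, div_add_div _ _ hb hd]

lemma gAR_eq {x : gA A} {a b : LaurentSeries A} (hb : lK A b ≠ 0)
    (h : lA A b * (x : LaurentSeries Ω) = lA A a) : gAR x = lK A a / lK A b :=
  gAfun_eq hb h

lemma gAR_lA (a : LaurentSeries A) : gAR (⟨lA A a, lA_mem_gA a⟩ : gA A) = lK A a := by
  rw [gAR_eq (a := a) (b := 1) (by simp) (by simp)]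
  simp

lemma lA_C (c : A) : lA A (HahnSeries.C c) = HahnSeries.C (c : Ω) := by
  rw [HahnSeries.C_apply, HahnSeries.C_apply]
  exact coeffMap_single _ _ _

lemma C_mem_gA (c : A) : HahnSeries.C (c : Ω) ∈ gA A := by
  rw [← lA_C]
  exact lA_mem_gA _

lemma gAR_C (c : A) : gAR (⟨HahnSeries.C (c : Ω), C_mem_gA c⟩ : gA A) =
    HahnSeries.C (residue A c) := by
  have h : lA A 1 * (HahnSeries.C (c : Ω) : LaurentSeries Ω) =
      lA A (HahnSeries.C c) := by rw [lA_C, map_one, one_mul]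
  have h1 : lK A (1 : LaurentSeries A) ≠ 0 := by rw [map_one]; exact one_ne_zero
  rw [gAR_eq (x := ⟨HahnSeries.C (c : Ω), C_mem_gA c⟩) h1 h, map_one, div_one]
  rw [HahnSeries.C_apply, HahnSeries.C_apply]
  exact coeffMap_single _ _ _

lemma inv_mem_gA {x : gA A} (h : gAR x ≠ 0) : ((x : LaurentSeries Ω))⁻¹ ∈ gA A := by
  obtain ⟨a, b, hb, hx⟩ := x.2
  rw [gAR_eq hb hx] at h
  have ha : lK A a ≠ 0 := fun h0 => h (by rw [h0, zero_div])
  have hb' : lA A b ≠ 0 := (map_ne_zero_iff _ (lA_injective A)).mpr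
      (fun h0 => hb (by rw [h0, map_zero]))
  have ha' : lA A a ≠ 0 := (map_ne_zero_iff _ (lA_injective A)).mpr
      (fun h0 => ha (by rw [h0, map_zero]))
  have hx0 : (x : LaurentSeries Ω) ≠ 0 := by
    rintro h0
    rw [h0, mul_zero] at hx
    exact ha' hx.symm
  refine ⟨b, a, ha, ?_⟩
  rw [← hx]
  field_simp

section Galois

variable {σ : Ω ≃+* Ω} (hσ : ∀ a ∈ A, σ a ∈ A)
  (hσr : ∀ (a : A), residue A ⟨σ a, hσ a a.2⟩ = residue A a)

/-- the restriction to `A` -/
def σA : A →+* A := ((σ : Ω →+* Ω).comp A.subtype).codRestrict A fun a => hσ a a.2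

include hσr in
theorem lK_σA (x : LaurentSeries A) : lK A (coeffMap (σA hσ) x) = lK A x := by
  ext n
  exact hσr (x.coeff n)

theorem lA_σA (x : LaurentSeries A) :
    lA A (coeffMap (σA hσ) x) = coeffMap (σ : Ω →+* Ω) (lA A x) := by
  ext n
  rfl

include hσr in
theorem coeffMap_mem_gA {x : LaurentSeries Ω} (hx : x ∈ gA A) :
    ∃ h : coeffMap (σ : Ω →+* Ω) x ∈ gA A, gAR ⟨_, h⟩ = gAR ⟨x, hx⟩ := by
  obtain ⟨a, b, hb, h⟩ := hx
  have hb' : lK A (coeffMap (σA hσ) b) ≠ 0 := by rw [lK_σA hσ hσr]; exact hb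
  have h' : lA A (coeffMap (σA hσ) b) * coeffMap (σ : Ω →+* Ω) x = lA A (coeffMap (σA hσ) a) := by
    rw [lA_σA, lA_σA, ← map_mul, h]
  refine ⟨⟨_, _, hb', h'⟩, ?_⟩
  rw [gAR_eq (x := ⟨_, ⟨_, _, hb', h'⟩⟩) hb' h', gAR_eq (x := ⟨x, ⟨a, b, hb, h⟩⟩) hb h,
    lK_σA hσ hσr, lK_σA hσ hσr]

end Galois

section Sub

variable {L : Type*} [Field L] [Algebra L Ω]

/-- The map on valuation rings. -/
def subA : (A.comap (algebraMap L Ω)) →+* A :=
  ((algebraMap L Ω).comp (A.comap (algebraMap L Ω)).subtype).codRestrict A fun a => a.2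

theorem subA_coe (a : A.comap (algebraMap L Ω)) : ((subA a : A) : Ω) = algebraMap L Ω a := rfl

instance : IsLocalHom (subA : (A.comap (algebraMap L Ω)) →+* A) := by
  refine ⟨fun a ha => ?_⟩
  obtain ⟨u, hu⟩ := ha
  have h1 : (subA a : A) * ((u⁻¹ : Aˣ) : A) = 1 := by
    rw [← hu]
    exact u.mul_inv
  have h2 : algebraMap L Ω (a : L) * (((u⁻¹ : Aˣ) : A) : Ω) = 1 := congrArg Subtype.val h1
  have ha0 : (a : L) ≠ 0 := by
    intro h0
    rw [h0, map_zero, zero_mul] at h2
    exact zero_ne_one h2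
  have h3 : algebraMap L Ω ((a : L)⁻¹) = (((u⁻¹ : Aˣ) : A) : Ω) := by
    rw [map_inv₀]
    exact (eq_inv_of_mul_eq_one_right h2).symm
  refine IsUnit.of_mul_eq_one ⟨(a : L)⁻¹, ?_⟩ (Subtype.ext (mul_inv_cancel₀ ha0))
  change algebraMap L Ω ((a : L)⁻¹) ∈ A
  rw [h3]
  exact ((u⁻¹ : Aˣ) : A).2

/-- The map on residue fields. -/
def subK : ResidueField (A.comap (algebraMap L Ω)) →+* ResidueField A :=
  ResidueField.map subA

theorem subK_residue (a : A.comap (algebraMap L Ω)) :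
    subK (residue _ a) = residue A (subA a) := rfl

theorem lA_subA (x : LaurentSeries (A.comap (algebraMap L Ω))) :
    lA A (coeffMap subA x) = coeffMap (algebraMap L Ω)
      (coeffMap (A.comap (algebraMap L Ω)).subtype x) := by
  ext n
  rfl

theorem lK_subA (x : LaurentSeries (A.comap (algebraMap L Ω))) :
    lK A (coeffMap subA x) = coeffMap subK (coeffMap (residue _) x) := by
  ext n
  rfl

theorem coeffMap_inj {R S : Type*} [CommRing R] [CommRing S] {f : R →+* S}
    (hf : Function.Injective f) : Function.Injective (coeffMap f) := by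
  intro x y h
  ext n
  exact hf (congrArg (fun z : LaurentSeries S => z.coeff n) h)

/-- Comparison with the Gauss valuation over a discretely valued subfield. -/
theorem mem_gA_of_gV [IsDiscreteValuationRing (A.comap (algebraMap L Ω))] {x : LaurentSeries L}
    (hx : x ∈ LG.gV (A.comap (algebraMap L Ω)) L) :
    ∃ h : coeffMap (algebraMap L Ω) x ∈ gA A,
      gAR ⟨_, h⟩ = coeffMap subK (LG.gR (⟨x, hx⟩ : LG.gV (A.comap (algebraMap L Ω)) L)) := by
  obtain ⟨a, b, hb, h⟩ := hx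
  have hb' : lK A (coeffMap subA b) ≠ 0 := by
    rw [lK_subA]
    exact (map_ne_zero_iff _ (coeffMap_inj subK.injective)).mpr hb
  have h' : lA A (coeffMap subA b) * coeffMap (algebraMap L Ω) x = lA A (coeffMap subA a) := by
    rw [lA_subA, lA_subA, ← map_mul]
    exact congrArg _ h
  refine ⟨⟨_, _, hb', h'⟩, ?_⟩
  rw [gAR_eq (x := ⟨_, ⟨_, _, hb', h'⟩⟩) hb' h', LG.gR_eq (x := ⟨x, ⟨a, b, hb, h⟩⟩) hb h,
    lK_subA, lK_subA, map_div₀]
  rfl

end Sub

end Fermat.Agent.Flat
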