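import Mathlib

/-!
Hopf orders in algebras of functions on a finite group with Galois action.
-/

set_option autoImplicit false
set_option linter.unusedSectionVars false

noncomputable section

namespace Fermat.Agent.Flat

section Pull

variable (R : Type*) {X Y Z Ω : Type*} [CommSemiring R] [CommSemiring Ω] [Algebra R Ω]

/-- Pull back of functions. -/
def pull (φ : X → Y) : (Y → Ω) →ₐ[R] (X → Ω) where
  toFun f := fun x => f (φ x)
  map_one' := rfl
  map_mul' _ _ := rfl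
  map_zero' := rfl
  map_add' _ _ := rfl
  commutes' _ := rfl

@[simp] theorem pull_apply (φ : X → Y) (f : Y → Ω) (x : X) : pull R φ f x = f (φ x) := rfl

/-- Functions `∑ aᵢ(x) bᵢ(y)` with `aᵢ ∈ H₁`, `bᵢ ∈ H₂`. -/
def tens₂ (H₁ : Subalgebra R (X → Ω)) (H₂ : Subalgebra R (Y → Ω)) : Subalgebra R (X × Y → Ω) :=
  H₁.map (pull R Prod.fst) ⊔ H₂.map (pull R Prod.snd)

variable {R}

theorem fst_mem_tens₂ {H₁ : Subalgebra R (X → Ω)} {H₂ : Subalgebra R (Y → Ω)} {f : X → Ω}
    (hf : f ∈ H₁) : (fun p : X × Y => f p.1) ∈ tens₂ R H₁ H₂ :=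
  (le_sup_left : _ ≤ tens₂ R H₁ H₂) ⟨f, hf, rfl⟩

theorem snd_mem_tens₂ {H₁ : Subalgebra R (X → Ω)} {H₂ : Subalgebra R (Y → Ω)} {f : Y → Ω}
    (hf : f ∈ H₂) : (fun p : X × Y => f p.2) ∈ tens₂ R H₁ H₂ :=
  (le_sup_right : _ ≤ tens₂ R H₁ H₂) ⟨f, hf, rfl⟩

theorem mul_mem_tens₂ {H₁ : Subalgebra R (X → Ω)} {H₂ : Subalgebra R (Y → Ω)} {f : X → Ω}
    {g : Y → Ω} (hf : f ∈ H₁) (hg : g ∈ H₂) :
    (fun p : X × Y => f p.1 * g p.2) ∈ tens₂ R H₁ H₂ :=
  mul_mem (fst_mem_tens₂ hf) (snd_mem_tens₂ hg)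

theorem tens₂_mono {H₁ H₁' : Subalgebra R (X → Ω)} {H₂ H₂' : Subalgebra R (Y → Ω)}
    (h₁ : H₁ ≤ H₁') (h₂ : H₂ ≤ H₂') : tens₂ R H₁ H₂ ≤ tens₂ R H₁' H₂' :=
  sup_le_sup (Subalgebra.map_mono h₁) (Subalgebra.map_mono h₂)

theorem tens₂_induction {H₁ : Subalgebra R (X → Ω)} {H₂ : Subalgebra R (Y → Ω)}
    {P : (X × Y → Ω) → Prop} (h₁ : ∀ f ∈ H₁, P fun p => f p.1) (h₂ : ∀ f ∈ H₂, P fun p => f p.2)
    (hadd : ∀ f g, P f → P g → P (f + g)) (hmul : ∀ f g, P f → P g → P (f * g))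
    {F : X × Y → Ω} (hF : F ∈ tens₂ R H₁ H₂) : P F := by
  have h : tens₂ R H₁ H₂ = Algebra.adjoin R
      (((H₁.map (pull R (Prod.fst : X × Y → X)) : Subalgebra R (X × Y → Ω)) : Set (X × Y → Ω)) ∪
        ((H₂.map (pull R (Prod.snd : X × Y → Y)) : Subalgebra R (X × Y → Ω)) :
          Set (X × Y → Ω))) := by
    rw [Algebra.adjoin_union, Algebra.adjoin_eq, Algebra.adjoin_eq]
    rfl
  rw [h] at hF
  induction hF using Algebra.adjoin_induction with
  | mem x hx =>
    rcases hx with ⟨f, hf, rfl⟩ | ⟨f, hf, rfl⟩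
    · exact h₁ f hf
    · exact h₂ f hf
  | algebraMap r => exact h₁ (algebraMap R (X → Ω) r) (H₁.algebraMap_mem r)
  | add x y _ _ hx hy => exact hadd x y hx hy
  | mul x y _ _ hx hy => exact hmul x y hx hy

/-- Elements of `tens₂` are finite sums of products. -/
theorem mem_tens₂_iff {H₁ : Subalgebra R (X → Ω)} {H₂ : Subalgebra R (Y → Ω)} {F : X × Y → Ω} :
    F ∈ tens₂ R H₁ H₂ ↔ ∃ (n : ℕ) (a : Fin n → X → Ω) (b : Fin n → Y → Ω),
      (∀ i, a i ∈ H₁) ∧ (∀ i, b i ∈ H₂) ∧ ∀ x y, F (x, y) = ∑ i, a i x * b i y := by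
  constructor
  · intro hF
    refine tens₂_induction (H₁ := H₁) (H₂ := H₂)
      (P := fun F => ∃ (n : ℕ) (a : Fin n → X → Ω) (b : Fin n → Y → Ω),
      (∀ i, a i ∈ H₁) ∧ (∀ i, b i ∈ H₂) ∧ ∀ x y, F (x, y) = ∑ i, a i x * b i y) ?_ ?_ ?_ ?_ hF
    · intro f hf
      refine ⟨1, fun _ => f, fun _ => 1, fun _ => hf, fun _ => one_mem _, fun x y => ?_⟩
      simp
    · intro f hf
      refine ⟨1, fun _ => 1, fun _ => f, fun _ => one_mem _, fun _ => hf, fun x y => ?_⟩
      simp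
    · intro f g hf hg
      obtain ⟨n, a, b, ha, hb, h⟩ := hf
      obtain ⟨m, a', b', ha', hb', h'⟩ := hg
      refine ⟨n + m, Fin.append a a', Fin.append b b', ?_, ?_, fun x y => ?_⟩
      · intro i
        refine Fin.addCases (fun j => ?_) (fun j => ?_) i
        · rw [Fin.append_left]; exact ha j
        · rw [Fin.append_right]; exact ha' j
      · intro i
        refine Fin.addCases (fun j => ?_) (fun j => ?_) i
        · rw [Fin.append_left]; exact hb j
        · rw [Fin.append_right]; exact hb' j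
      · rw [Pi.add_apply, h, h', Fin.sum_univ_add]
        simp
    · intro f g hf hg
      obtain ⟨n, a, b, ha, hb, h⟩ := hf
      obtain ⟨m, a', b', ha', hb', h'⟩ := hg
      refine ⟨n * m, fun i => a (finProdFinEquiv.symm i).1 * a' (finProdFinEquiv.symm i).2,
        fun i => b (finProdFinEquiv.symm i).1 * b' (finProdFinEquiv.symm i).2,
        fun i => mul_mem (ha _) (ha' _), fun i => mul_mem (hb _) (hb' _), fun x y => ?_⟩
      rw [Pi.mul_apply, h, h', Finset.sum_mul_sum,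
        ← Equiv.sum_comp finProdFinEquiv, Fintype.sum_prod_type]
      refine Finset.sum_congr rfl fun i _ => Finset.sum_congr rfl fun j _ => ?_
      simp only [Equiv.symm_apply_apply, Pi.mul_apply]
      ring
  · rintro ⟨n, a, b, ha, hb, h⟩
    have : F = ∑ i, fun p : X × Y => a i p.1 * b i p.2 := by
      funext p
      rw [Finset.sum_apply]
      exact h p.1 p.2
    rw [this]
    exact sum_mem fun i _ => mul_mem_tens₂ (ha i) (hb i)

end Pull

section Defs

variable (R G : Type*) {V Ω : Type*} [CommRing R] [Field Ω] [Algebra R Ω] [Group G]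
  [MulSemiringAction G Ω] [AddCommGroup V] [DistribMulAction G V]

/-- A Hopf order over `R` in the algebra of functions on the finite group `V`, all functions being
equivariant. -/
structure IsHopfOrder (H : Subalgebra R (V → Ω)) : Prop where
  fg : (Subalgebra.toSubmodule H).FG
  sep : ∀ v w : V, (∀ f ∈ H, f v = f w) → v = w
  equiv : ∀ (g : G), ∀ f ∈ H, ∀ v : V, f (g • v) = g • f v
  comul : ∀ f ∈ H, (fun p : V × V => f (p.1 + p.2)) ∈ tens₂ R H H

variable (V Ω)

/-- `V` is the group of points of a finite flat group scheme over `R`. -/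
def IsFlat : Prop := ∃ H : Subalgebra R (V → Ω), IsHopfOrder R G H

end Defs

end Fermat.Agent.Flat
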