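import Mathlib
import Fermat.Agent.Flat.Defs

/-!
Equivariant functions on a finite set are integral over the ring of invariants.
-/

set_option autoImplicit false
set_option linter.unusedSectionVars false

noncomputable section

namespace Fermat.Agent.Flat

open Polynomial

variable {Ω G Y : Type*} [Field Ω] [Group G] [MulSemiringAction G Ω]

variable (G) in
/-- The invariants of `G` in the valuation ring `A`. -/
def fixA (A : ValuationSubring Ω) : Subring Ω where
  carrier := {a | a ∈ A ∧ ∀ g : G, g • a = a}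
  mul_mem' := fun ha hb => ⟨A.mul_mem _ _ ha.1 hb.1, fun g => by rw [smul_mul', ha.2, hb.2]⟩
  one_mem' := ⟨A.one_mem, fun g => smul_one g⟩
  add_mem' := fun ha hb => ⟨A.add_mem _ _ ha.1 hb.1, fun g => by rw [smul_add, ha.2, hb.2]⟩
  zero_mem' := ⟨A.zero_mem, fun g => smul_zero g⟩
  neg_mem' := fun ha => ⟨A.neg_mem _ ha.1, fun g => by rw [smul_neg, ha.2]⟩

variable {A : ValuationSubring Ω}

theorem mem_fixA {a : Ω} : a ∈ fixA G A ↔ a ∈ A ∧ ∀ g : G, g • a = a := Iff.rfl

/-- A subring version. -/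
theorem coeff_prod_mem [Finite Y] (T : Subring Ω) (s : Y → Ω) (hs : ∀ x, s x ∈ T) (n : ℕ) :
    letI := Fintype.ofFinite Y
    (∏ x, (Polynomial.X - C (s x)) : Polynomial Ω).coeff n ∈ T := by
  letI := Fintype.ofFinite Y
  have : (∏ x, (Polynomial.X - C (s x)) : Polynomial Ω) =
      (∏ x, (Polynomial.X - C (⟨s x, hs x⟩ : T)) : T[X]).map T.subtype := by
    rw [Polynomial.map_prod]
    refine Finset.prod_congr rfl fun x _ => ?_
    rw [Polynomial.map_sub, map_X, map_C]
    rfl
  change (∏ x, (Polynomial.X - C (s x)) : Polynomial Ω).coeff n ∈ T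
  rw [this, coeff_map]
  exact Subtype.property _

/-- The characteristic polynomial of an equivariant function. -/
theorem exists_poly [Finite Y] (T : Subring Ω) (hA : ∀ a ∈ T, a ∈ A → a ∈ T) (s : Y → Ω)
    (hs : ∀ x, s x ∈ A) (hperm : ∀ g : G, ∃ π : Equiv.Perm Y, ∀ x, s (π x) = g • s x) :
    letI := Fintype.ofFinite Y
    ∃ P : (fixA G A)[X], P.Monic ∧ P.map (algebraMap (fixA G A) Ω) =
      ∏ x, (Polynomial.X - C (s x)) := by
  letI := Fintype.ofFinite Y
  change ∃ P : (fixA G A)[X], P.Monic ∧ P.map (algebraMap (fixA G A) Ω) =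
      ∏ x, (Polynomial.X - C (s x))
  set p : Polynomial Ω := ∏ x, (Polynomial.X - C (s x)) with hp
  have h1 : ∀ n, p.coeff n ∈ A := coeff_prod_mem A.toSubring s hs
  have h2 : ∀ (g : G) n, g • p.coeff n = p.coeff n := by
    intro g n
    obtain ⟨π, hπ⟩ := hperm g
    have h3 : p.map (MulSemiringAction.toRingHom G Ω g) = p := by
      rw [hp, Polynomial.map_prod]
      refine (Finset.prod_congr rfl fun x _ => ?_).trans
        (Equiv.prod_comp π fun x => (Polynomial.X - C (s x) : Polynomial Ω))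
      rw [Polynomial.map_sub, map_X, map_C, hπ]
      rfl
    have h4 := congrArg (fun q => q.coeff n) h3
    simp only [coeff_map] at h4
    exact h4
  have h5 : (↑p.coeffs : Set Ω) ⊆ fixA G A := by
    intro a ha
    rw [Finset.mem_coe, Polynomial.mem_coeffs_iff] at ha
    obtain ⟨n, _, rfl⟩ := ha
    exact ⟨h1 n, fun g => h2 g n⟩
  refine ⟨p.toSubring (fixA G A) h5, ?_, ?_⟩
  · rw [monic_toSubring]
    exact monic_prod_of_monic _ _ fun x _ => monic_X_sub_C _
  · exact map_toSubring _ _ h5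

theorem aeval_eq_zero [Finite Y] {s : Y → Ω} {P : (fixA G A)[X]}
    (h : letI := Fintype.ofFinite Y
      P.map (algebraMap (fixA G A) Ω) = ∏ x, (Polynomial.X - C (s x))) : aeval s P = 0 := by
  let _ := Fintype.ofFinite Y
  change P.map (algebraMap (fixA G A) Ω) = ∏ x, (Polynomial.X - C (s x)) at h
  funext x
  have h1 : (aeval s P) x = aeval (s x) P := by
    have := Polynomial.aeval_algHom_apply (Pi.evalAlgHom (fixA G A) (fun _ : Y => Ω) x) s P
    exact this.symm
  rw [h1, Pi.zero_apply, aeval_def, ← eval_map, h, eval_prod]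
  refine Finset.prod_eq_zero (Finset.mem_univ x) ?_
  rw [eval_sub, eval_X, eval_C, sub_self]

theorem isIntegral_fun [Finite Y] (s : Y → Ω)
    (hs : ∀ x, s x ∈ A) (hperm : ∀ g : G, ∃ π : Equiv.Perm Y, ∀ x, s (π x) = g • s x) :
    IsIntegral (fixA G A) s := by
  obtain ⟨P, hP, h⟩ := exists_poly (fixA G A) (fun a h _ => h) s hs hperm
  exact ⟨P, hP, aeval_eq_zero h⟩

/-- Functions with invertible values are invertible. -/
theorem exists_inverse [Finite Y] (s : Y → Ω)
    (hs : ∀ x, s x ∈ A) (hs' : ∀ x, (s x)⁻¹ ∈ A) (hs0 : ∀ x, s x ≠ 0)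
    (hperm : ∀ g : G, ∃ π : Equiv.Perm Y, ∀ x, s (π x) = g • s x) :
    ∃ t ∈ Algebra.adjoin (fixA G A) ({s} : Set (Y → Ω)), s * t = 1 := by
  let _ := Fintype.ofFinite Y
  obtain ⟨P, hP, h⟩ := exists_poly (fixA G A) (fun a h _ => h) s hs hperm
  have h0 := aeval_eq_zero h
  change P.map (algebraMap (fixA G A) Ω) = ∏ x, (Polynomial.X - C (s x)) at h
  have hc : algebraMap (fixA G A) Ω (P.coeff 0) = ∏ x, (-s x) := by
    rw [← coeff_map, h, coeff_zero_eq_eval_zero, eval_prod]
    refine Finset.prod_congr rfl fun x _ => ?_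
    rw [eval_sub, eval_X, eval_C, zero_sub]
  have hc0 : algebraMap (fixA G A) Ω (P.coeff 0) ≠ 0 := by
    rw [hc]
    exact Finset.prod_ne_zero_iff.mpr fun x _ => neg_ne_zero.mpr (hs0 x)
  have hcinv : (algebraMap (fixA G A) Ω (P.coeff 0))⁻¹ ∈ fixA G A := by
    refine ⟨?_, fun g => ?_⟩
    · rw [hc, ← Finset.prod_inv_distrib]
      refine prod_mem (S := A) fun x _ => ?_
      rw [inv_neg]
      exact A.neg_mem _ (hs' x)
    · rw [smul_inv'']
      congr 1
      exact (P.coeff 0).2.2 g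
  let c : fixA G A := ⟨_, hcinv⟩
  have hcc : c * P.coeff 0 = 1 := by
    apply Subtype.ext
    change (algebraMap (fixA G A) Ω (P.coeff 0))⁻¹ * (P.coeff 0 : Ω) = 1
    exact inv_mul_cancel₀ hc0
  refine ⟨aeval s (C (-c) * P.divX), ?_, ?_⟩
  · exact Polynomial.aeval_mem_adjoin_singleton _ _
  · have h1 := congrArg (aeval s) (divX_mul_X_add P)
    rw [map_add, map_mul, aeval_X, aeval_C, h0] at h1
    have h2 : aeval s P.divX * s = - algebraMap (fixA G A) (Y → Ω) (P.coeff 0) :=
      eq_neg_of_add_eq_zero_left h1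
    calc s * aeval s (C (-c) * P.divX) = algebraMap (fixA G A) (Y → Ω) (-c) *
          (aeval s P.divX * s) := by rw [map_mul, aeval_C]; ring
      _ = algebraMap (fixA G A) (Y → Ω) (c * P.coeff 0) := by
          rw [h2, map_neg, neg_mul_neg, ← map_mul]
      _ = 1 := by rw [hcc, map_one]

end Fermat.Agent.Flat
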