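import Mathlib

/-!
Families of subspaces of `Ω^ι` which are rational over a local ring `S` of functions.
-/

set_option autoImplicit false
set_option linter.unusedSectionVars false

noncomputable section

namespace Fermat.Agent.Flat

open Module

section Good

variable {K ι : Type*} [Field K] [Fintype ι] [DecidableEq ι]

/-- `J` is a set of indices such that `U → K^J` is bijective. -/
structure Good (U : Submodule K (ι → K)) (J : Finset ι) : Prop where
  inj : ∀ x ∈ U, (∀ j ∈ J, x j = 0) → x = 0
  ex : ∀ j ∈ J, ∃ x ∈ U, ∀ k ∈ J, x k = if k = j then 1 else 0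

/-- restriction to `J` -/
def restr (U : Submodule K (ι → K)) (J : Finset ι) : U →ₗ[K] (J → K) where
  toFun x j := (x : ι → K) j
  map_add' _ _ := rfl
  map_smul' _ _ := rfl

theorem restr_surjective {U : Submodule K (ι → K)} {J : Finset ι}
    (h : ∀ j ∈ J, ∃ x ∈ U, ∀ k ∈ J, x k = if k = j then 1 else 0) :
    Function.Surjective (restr U J) := by
  choose! e he hek using h
  intro y
  refine ⟨∑ j : J, y j • ⟨e j, he j j.2⟩, ?_⟩
  funext k
  change ((∑ j : J, y j • (⟨e j, he j j.2⟩ : U) : U) : ι → K) k = y k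
  rw [Submodule.coe_sum, Finset.sum_apply, Finset.sum_eq_single k]
  · simp [hek k k.2 k k.2]
  · intro j _ hj
    have : (k : ι) ≠ j := fun h => hj (Subtype.ext h).symm
    simp [hek j j.2 k k.2, this]
  · intro h
    exact absurd (Finset.mem_univ _) h

theorem Good.card_eq {U : Submodule K (ι → K)} {J : Finset ι} (h : Good U J) :
    J.card = finrank K U := by
  have hinj : Function.Injective (restr U J) := by
    rw [injective_iff_map_eq_zero]
    intro x hx
    apply Subtype.ext
    exact h.inj x x.2 fun j hj => congrFun hx ⟨j, hj⟩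
  have := LinearEquiv.finrank_eq (LinearEquiv.ofBijective (restr U J)
    ⟨hinj, restr_surjective h.ex⟩)
  rw [this, Module.finrank_fintype_fun_eq_card, Fintype.card_coe]

theorem Good.of_finrank_le {U : Submodule K (ι → K)} {J : Finset ι}
    (h : ∀ j ∈ J, ∃ x ∈ U, ∀ k ∈ J, x k = if k = j then 1 else 0)
    (hd : finrank K U ≤ J.card) : Good U J := by
  refine ⟨fun x hx hx0 => ?_, h⟩
  have hs := restr_surjective h
  have hle : finrank K (J → K) ≤ finrank K U := LinearMap.finrank_le_finrank_of_surjective hs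
  have heq : finrank K U = finrank K (J → K) := by
    refine le_antisymm ?_ hle
    rw [Module.finrank_fintype_fun_eq_card, Fintype.card_coe]
    exact hd
  have hinj : Function.Injective (restr U J) :=
    (LinearMap.injective_iff_surjective_of_finrank_eq_finrank heq).mpr hs
  have h0 : (⟨x, hx⟩ : U) = 0 := by
    apply hinj
    rw [map_zero]
    funext j
    exact hx0 j j.2
  exact congrArg Subtype.val h0

theorem exists_good (U : Submodule K (ι → K)) : ∃ J : Finset ι, Good U J := by
  classical
  let v : ι → (U →ₗ[K] K) := fun i => (LinearMap.proj i).comp U.subtype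
  obtain ⟨b, -, -, hspan, hind⟩ := exists_linearIndepOn_extension (K := K) (v := v)
    (s := ∅) (t := Set.univ) (linearIndepOn_empty K v) (Set.empty_subset _)
  let J : Finset ι := b.toFinite.toFinset
  have hJ : ∀ j, j ∈ J ↔ j ∈ b := fun j => Set.Finite.mem_toFinset _
  have hinj0 : ∀ x ∈ U, (∀ j ∈ J, x j = 0) → x = 0 := by
    intro x hx h0
    funext i
    have h1 : v i ∈ Submodule.span K (v '' b) := hspan ⟨i, Set.mem_univ _, rfl⟩
    have h2 : ∀ f ∈ Submodule.span K (v '' b), f ⟨x, hx⟩ = 0 := by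
      intro f hf
      induction hf using Submodule.span_induction with
      | mem f hf =>
        obtain ⟨j, hj, rfl⟩ := hf
        exact h0 j ((hJ j).mpr hj)
      | zero => rfl
      | add f g _ _ hf hg => rw [LinearMap.add_apply, hf, hg, add_zero]
      | smul c f _ hf => rw [LinearMap.smul_apply, hf, smul_zero]
    exact h2 _ h1
  have hinj : Function.Injective (restr U J) := by
    rw [injective_iff_map_eq_zero]
    intro x hx
    apply Subtype.ext
    exact hinj0 x x.2 fun j hj => congrFun hx ⟨j, hj⟩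
  have hcard : J.card ≤ finrank K U := by
    have h1 : LinearIndependent K (fun j : J => v j) := by
      have : LinearIndependent K (fun j : b => v j) := hind
      let e : J ≃ b := Equiv.subtypeEquivRight hJ
      exact (linearIndependent_equiv e (f := fun j : b => v j)).mpr this
    have h2 := h1.fintype_card_le_finrank
    rw [Fintype.card_coe] at h2
    have h3 : finrank K (U →ₗ[K] K) = finrank K U := Subspace.dual_finrank_eq
    rwa [h3] at h2
  have heq : finrank K U = finrank K (J → K) := by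
    refine le_antisymm (LinearMap.finrank_le_finrank_of_injective hinj) ?_
    rw [Module.finrank_fintype_fun_eq_card, Fintype.card_coe]
    exact hcard
  have hsurj : Function.Surjective (restr U J) :=
    (LinearMap.injective_iff_surjective_of_finrank_eq_finrank heq).mp hinj
  refine ⟨J, hinj0, fun j hj => ?_⟩
  obtain ⟨x, hx⟩ := hsurj fun k => if (k : ι) = j then 1 else 0
  exact ⟨x, x.2, fun k hk => congrFun hx ⟨k, hk⟩⟩

/-- A chosen good set of indices. -/
def goodSet (U : Submodule K (ι → K)) : Finset ι := (exists_good U).choose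

theorem good_goodSet (U : Submodule K (ι → K)) : Good U (goodSet U) := (exists_good U).choose_spec

/-- Elements of `U` are determined by their coordinates in `J`. -/
theorem Good.eq_sum {U : Submodule K (ι → K)} {J : Finset ι} (h : Good U J)
    {e : ι → ι → K} (he : ∀ j ∈ J, e j ∈ U) (hek : ∀ j ∈ J, ∀ k ∈ J, e j k = if k = j then 1 else 0)
    {x : ι → K} (hx : x ∈ U) : x = ∑ j ∈ J, x j • e j := by
  have h1 : x - ∑ j ∈ J, x j • e j = 0 := by
    refine h.inj _ (sub_mem hx (sum_mem fun j hj => Submodule.smul_mem _ _ (he j hj))) fun k hk => ?_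
    rw [Pi.sub_apply, Finset.sum_apply, Finset.sum_eq_single k]
    · simp [hek k hk k hk]
    · intro j hj hjk
      rw [Pi.smul_apply, hek j hj k hk, if_neg (Ne.symm hjk), smul_zero]
    · intro h
      exact absurd hk h
  exact sub_eq_zero.mp h1

end Good

section Perp

variable {K ι : Type*} [Field K] [Fintype ι] [DecidableEq ι]

variable (K ι) in
/-- the standard bilinear form -/
def stdB : LinearMap.BilinForm K (ι → K) := Matrix.toBilin' (1 : Matrix ι ι K)

theorem stdB_apply (x y : ι → K) : stdB K ι x y = ∑ i, x i * y i := by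
  rw [stdB, Matrix.toBilin'_apply', Matrix.one_mulVec]
  rfl

theorem stdB_nondegenerate : (stdB K ι).Nondegenerate :=
  LinearMap.BilinForm.nondegenerate_toBilin'_iff_det_ne_zero.mpr (by simp)

theorem stdB_isRefl : (stdB K ι).IsRefl := by
  intro x y h
  rw [stdB_apply] at h ⊢
  rw [← h]
  exact Finset.sum_congr rfl fun i _ => mul_comm _ _

/-- the orthogonal complement for the standard bilinear form -/
def perp (U : Submodule K (ι → K)) : Submodule K (ι → K) := (stdB K ι).orthogonal U

theorem mem_perp {U : Submodule K (ι → K)} {y : ι → K} :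
    y ∈ perp U ↔ ∀ x ∈ U, ∑ i, x i * y i = 0 := by
  rw [perp, LinearMap.BilinForm.mem_orthogonal_iff]
  refine forall₂_congr fun x _ => ?_
  change stdB K ι x y = 0 ↔ _
  rw [stdB_apply]

theorem perp_perp (U : Submodule K (ι → K)) : perp (perp U) = U :=
  LinearMap.BilinForm.orthogonal_orthogonal stdB_nondegenerate stdB_isRefl U

theorem finrank_perp (U : Submodule K (ι → K)) :
    finrank K (perp U) = Fintype.card ι - finrank K U := by
  rw [perp, LinearMap.BilinForm.finrank_orthogonal stdB_nondegenerate,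
    Module.finrank_fintype_fun_eq_card]

theorem finrank_le_card (U : Submodule K (ι → K)) : finrank K U ≤ Fintype.card ι := by
  have := Submodule.finrank_le U
  rwa [Module.finrank_fintype_fun_eq_card] at this

/-- `{x | x E ⊆ U}` -/
def colon (E U : Submodule K (ι → K)) : Submodule K (ι → K) where
  carrier := {x | ∀ e ∈ E, x * e ∈ U}
  add_mem' := fun ha hb e he => by rw [add_mul]; exact add_mem (ha e he) (hb e he)
  zero_mem' := fun e _ => by rw [zero_mul]; exact zero_mem _
  smul_mem' := fun c x hx e he => by rw [smul_mul_assoc]; exact Submodule.smul_mem _ _ (hx e he)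

theorem mem_colon {E U : Submodule K (ι → K)} {x : ι → K} :
    x ∈ colon E U ↔ ∀ e ∈ E, x * e ∈ U := Iff.rfl

theorem colon_eq (E U : Submodule K (ι → K)) : colon E U = perp (E * perp U) := by
  ext x
  rw [mem_perp]
  constructor
  · intro hx y hy
    induction hy using Submodule.mul_induction_on' with
    | mem_mul_mem e he u hu =>
      have h1 := mem_perp.mp hu _ (hx e he)
      rw [← h1]
      refine Finset.sum_congr rfl fun i _ => ?_
      simp only [Pi.mul_apply]
      ring
    | add y _ z _ hy hz =>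
      have : ∑ i, (y + z) i * x i = ∑ i, y i * x i + ∑ i, z i * x i := by
        rw [← Finset.sum_add_distrib]
        exact Finset.sum_congr rfl fun i _ => by rw [Pi.add_apply, add_mul]
      rw [this, hy, hz, add_zero]
  · intro hx e he
    rw [← perp_perp U, mem_perp]
    intro u hu
    rw [← hx _ (Submodule.mul_mem_mul he hu)]
    refine Finset.sum_congr rfl fun i _ => ?_
    simp only [Pi.mul_apply]
    ring

end Perp

section Rat

variable {S κ Ω X ι : Type*} [CommRing S] [Field κ] [Field Ω] [Fintype ι] [DecidableEq ι]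

variable (ρ : S →+* κ) (ev : X → S →+* Ω)

/-- The family `W` of subspaces is rational over `S` with reduction containing `Wb`. -/
def Rat (W : X → Submodule Ω (ι → Ω)) (Wb : Submodule κ (ι → κ)) : Prop :=
  ∀ xb ∈ Wb, ∃ x : ι → S, (∀ p, (fun i => ev p (x i)) ∈ W p) ∧ ∀ i, ρ (x i) = xb i

variable {ρ ev}

theorem Rat.mul {W W' : X → Submodule Ω (ι → Ω)}
    {Wb Wb' : Submodule κ (ι → κ)} (h : Rat ρ ev W Wb) (h' : Rat ρ ev W' Wb') :
    Rat ρ ev (fun p => W p * W' p) (Wb * Wb') := by
  intro xb hxb
  induction hxb using Submodule.mul_induction_on' with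
  | mem_mul_mem y hy z hz =>
    obtain ⟨x, hx, hxr⟩ := h y hy
    obtain ⟨x', hx', hxr'⟩ := h' z hz
    refine ⟨x * x', fun p => ?_, fun i => ?_⟩
    · have : (fun i => ev p ((x * x') i)) = (fun i => ev p (x i)) * (fun i => ev p (x' i)) := by
        funext i
        simp
      rw [this]
      exact Submodule.mul_mem_mul (hx p) (hx' p)
    · simp [hxr, hxr']
  | add y _ z _ hy hz =>
    obtain ⟨x, hx, hxr⟩ := hy
    obtain ⟨x', hx', hxr'⟩ := hz
    refine ⟨x + x', fun p => ?_, fun i => ?_⟩
    · have : (fun i => ev p ((x + x') i)) = (fun i => ev p (x i)) + (fun i => ev p (x' i)) := by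
        funext i
        simp
      rw [this]
      exact add_mem (hx p) (hx' p)
    · simp [hxr, hxr']

theorem Rat.mono {W W' : X → Submodule Ω (ι → Ω)} {Wb : Submodule κ (ι → κ)}
    (h : Rat ρ ev W Wb) (hle : ∀ p, W p ≤ W' p) : Rat ρ ev W' Wb := by
  intro xb hxb
  obtain ⟨x, hx, hxr⟩ := h xb hxb
  exact ⟨x, fun p => hle p (hx p), hxr⟩

/-- Echelon bases have entries in `S`. -/
theorem Rat.exists_ech (hu : ∀ s, ρ s ≠ 0 → IsUnit s) {W : X → Submodule Ω (ι → Ω)}
    {Wb : Submodule κ (ι → κ)} (h : Rat ρ ev W Wb) (hd : ∀ p, finrank Ω (W p) ≤ finrank κ Wb)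
    {J : Finset ι} (hJ : Good Wb J) :
    (∀ p, Good (W p) J) ∧ ∃ w : ι → ι → S,
      (∀ j ∈ J, ∀ p, (fun i => ev p (w j i)) ∈ W p) ∧
      (∀ j ∈ J, ∀ k ∈ J, w j k = if k = j then 1 else 0) ∧
      ∀ j ∈ J, (fun i => ρ (w j i)) ∈ Wb := by
  classical
  have hex := hJ.ex
  choose! eb heb hebk using hex
  have h2 : ∀ j, ∃ x : ι → S, j ∈ J → (∀ p, (fun i => ev p (x i)) ∈ W p) ∧ ∀ i, ρ (x i) = eb j i := by
    intro j
    by_cases hj : j ∈ J
    · obtain ⟨x, hx⟩ := h (eb j) (heb j hj)
      exact ⟨x, fun _ => hx⟩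
    · exact ⟨0, fun h => absurd h hj⟩
  choose x hx using h2
  let N : Matrix J J S := fun j k => x j k
  have hN : (N.map ρ) = 1 := by
    ext j k
    rw [Matrix.map_apply, Matrix.one_apply, (hx j j.2).2, hebk j j.2 k k.2]
    by_cases hjk : j = k
    · rw [if_pos (by rw [hjk]), if_pos hjk]
    · rw [if_neg (fun h => hjk (Subtype.ext h).symm), if_neg hjk]
  have hdet : IsUnit N.det := by
    apply hu
    have : ρ N.det = (N.map ρ).det := RingHom.map_det ρ N
    rw [this, hN, Matrix.det_one]
    exact one_ne_zero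
  have hinv : N⁻¹ * N = 1 := Matrix.nonsing_inv_mul N hdet
  have hinvρ : (N⁻¹).map ρ = 1 := by
    have h3 := congrArg (fun M : Matrix J J S => M.map ρ) hinv
    simp only [Matrix.map_mul, hN, Matrix.mul_one] at h3
    rw [h3]
    exact Matrix.map_one _ (map_zero ρ) (map_one ρ)
  let w : ι → ι → S := fun j i => if hj : j ∈ J then ∑ k : J, N⁻¹ ⟨j, hj⟩ k * x k i else 0
  have hw : ∀ j (hj : j ∈ J) i, w j i = ∑ k : J, N⁻¹ ⟨j, hj⟩ k * x k i := by
    intro j hj i
    simp only [w, dif_pos hj]
  have hw1 : ∀ j ∈ J, ∀ p, (fun i => ev p (w j i)) ∈ W p := by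
    intro j hj p
    have : (fun i => ev p (w j i)) = ∑ k : J, ev p (N⁻¹ ⟨j, hj⟩ k) • fun i => ev p (x k i) := by
      funext i
      rw [hw j hj, Finset.sum_apply, map_sum]
      refine Finset.sum_congr rfl fun k _ => ?_
      rw [Pi.smul_apply, map_mul, smul_eq_mul]
    rw [this]
    exact sum_mem fun k _ => Submodule.smul_mem _ _ ((hx k k.2).1 p)
  have hw2 : ∀ j ∈ J, ∀ k ∈ J, w j k = if k = j then 1 else 0 := by
    intro j hj k hk
    rw [hw j hj]
    have h4 := congrFun (congrFun hinv ⟨j, hj⟩) ⟨k, hk⟩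
    rw [Matrix.mul_apply, Matrix.one_apply] at h4
    rw [show (∑ l : J, N⁻¹ ⟨j, hj⟩ l * x l k) = ∑ l : J, N⁻¹ ⟨j, hj⟩ l * N l ⟨k, hk⟩ from rfl, h4]
    by_cases hjk : k = j
    · rw [if_pos hjk, if_pos (Subtype.ext hjk.symm)]
    · rw [if_neg hjk, if_neg (fun h => hjk (congrArg Subtype.val h).symm)]
  have hw3 : ∀ j ∈ J, (fun i => ρ (w j i)) ∈ Wb := by
    intro j hj
    have : (fun i => ρ (w j i)) = eb j := by
      funext i
      rw [hw j hj, map_sum, Finset.sum_eq_single (⟨j, hj⟩ : J)]
      · rw [map_mul, show ρ (N⁻¹ ⟨j, hj⟩ ⟨j, hj⟩) = (N⁻¹).map ρ ⟨j, hj⟩ ⟨j, hj⟩ from rfl, hinvρ,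
          Matrix.one_apply_eq, one_mul]
        exact (hx j hj).2 i
      · intro k _ hk
        rw [map_mul, show ρ (N⁻¹ ⟨j, hj⟩ k) = (N⁻¹).map ρ ⟨j, hj⟩ k from rfl, hinvρ,
          Matrix.one_apply_ne (Ne.symm hk), zero_mul]
      · intro h
        exact absurd (Finset.mem_univ _) h
    rw [this]
    exact heb j hj
  refine ⟨fun p => Good.of_finrank_le (fun j hj => ⟨_, hw1 j hj p, fun k hk => ?_⟩) ?_,
    w, hw1, hw2, hw3⟩
  · rw [hw2 j hj k hk]
    split_ifs <;> simp
  · rw [hJ.card_eq]
    exact hd p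

/-- Orthogonal complements of rational families. -/
theorem Rat.perp (hs : Function.Surjective ρ) (hu : ∀ s, ρ s ≠ 0 → IsUnit s)
    {W : X → Submodule Ω (ι → Ω)}
    {Wb : Submodule κ (ι → κ)} (h : Rat ρ ev W Wb) (hd : ∀ p, finrank Ω (W p) ≤ finrank κ Wb) :
    Rat ρ ev (fun p => perp (W p)) (Flat.perp Wb) := by
  classical
  obtain ⟨J, hJ⟩ := exists_good Wb
  obtain ⟨hgood, w, hw1, hw2, hw3⟩ := h.exists_ech hu hd hJ
  intro xb hxb
  choose s hs' using fun i => hs (xb i)
  let x : ι → S := fun i => if i ∈ J then -∑ k ∈ Jᶜ, s k * w i k else s i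
  have hxJ : ∀ i ∈ J, x i = -∑ k ∈ Jᶜ, s k * w i k := fun i hi => by simp only [x, if_pos hi]
  have hxn : ∀ i ∉ J, x i = s i := fun i hi => by simp only [x, if_neg hi]
  have key : ∀ j ∈ J, ∑ i, w j i * x i = 0 := by
    intro j hj
    rw [← Finset.sum_add_sum_compl J]
    have h1 : ∑ i ∈ J, w j i * x i = x j := by
      rw [Finset.sum_eq_single j]
      · rw [hw2 j hj j hj, if_pos rfl, one_mul]
      · intro k hk hkj
        rw [hw2 j hj k hk, if_neg hkj, zero_mul]
      · intro h
        exact absurd hj h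
    rw [h1, hxJ j hj, neg_add_eq_zero]
    refine Finset.sum_congr rfl fun k hk => ?_
    rw [hxn k (Finset.mem_compl.mp hk), mul_comm]
  refine ⟨x, fun p => ?_, fun i => ?_⟩
  · rw [mem_perp]
    intro y hy
    have hyy := (hgood p).eq_sum (e := fun j i => ev p (w j i)) (fun j hj => hw1 j hj p)
      (fun j hj k hk => by rw [hw2 j hj k hk]; split_ifs <;> simp) hy
    rw [hyy]
    have : ∀ i, (∑ j ∈ J, y j • fun i => ev p (w j i)) i * ev p (x i) =
        ∑ j ∈ J, y j * (ev p (w j i * x i)) := by
      intro i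
      rw [Finset.sum_apply, Finset.sum_mul]
      refine Finset.sum_congr rfl fun j _ => ?_
      rw [Pi.smul_apply, smul_eq_mul, map_mul, mul_assoc]
    rw [Finset.sum_congr rfl fun i _ => this i, Finset.sum_comm]
    refine Finset.sum_eq_zero fun j hj => ?_
    rw [← Finset.mul_sum, ← map_sum, key j hj, map_zero, mul_zero]
  · by_cases hi : i ∈ J
    · have h1 := mem_perp.mp hxb _ (hw3 i hi)
      rw [← Finset.sum_add_sum_compl J] at h1
      have h2 : ∑ k ∈ J, ρ (w i k) * xb k = xb i := by
        rw [Finset.sum_eq_single i]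
        · rw [hw2 i hi i hi, if_pos rfl, map_one, one_mul]
        · intro k hk hki
          rw [hw2 i hi k hk, if_neg hki, map_zero, zero_mul]
        · intro h
          exact absurd hi h
      rw [h2] at h1
      rw [hxJ i hi, map_neg, map_sum, neg_eq_iff_add_eq_zero, add_comm, ← h1]
      congr 1
      refine Finset.sum_congr rfl fun k _ => ?_
      rw [map_mul, hs', mul_comm]
    · rw [hxn i hi, hs']

/-- Colon spaces of rational families. -/
theorem Rat.colon (hs : Function.Surjective ρ) (hu : ∀ s, ρ s ≠ 0 → IsUnit s)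
    {E U : X → Submodule Ω (ι → Ω)} {Eb Ub : Submodule κ (ι → κ)} (hE : Rat ρ ev E Eb)
    (hU : Rat ρ ev U Ub) (hd : ∀ p, finrank Ω (U p) ≤ finrank κ Ub)
    (hd' : ∀ p, finrank κ (colon Eb Ub) ≤ finrank Ω (Flat.colon (E p) (U p))) :
    Rat ρ ev (fun p => Flat.colon (E p) (U p)) (Flat.colon Eb Ub) := by
  have h1 : Rat ρ ev (fun p => E p * Flat.perp (U p)) (Eb * Flat.perp Ub) :=
    Rat.mul hE (hU.perp hs hu hd)
  have h2 := h1.perp hs hu (fun p => ?_)
  · simp only [colon_eq]
    exact h2
  · have h3 := hd' p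
    rw [colon_eq, colon_eq, finrank_perp, finrank_perp] at h3
    have h4 := finrank_le_card (Eb * Flat.perp Ub)
    have h5 := finrank_le_card (E p * Flat.perp (U p))
    omega

end Rat

end Fermat.Agent.Flat
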