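import Mathlib
import Fermat.Agent.Flat.Rat
import Fermat.Agent.Flat.Inv

/-!
A criterion for the existence of a Hopf order: families of subspaces with compatible reductions.
-/

set_option autoImplicit false
set_option linter.unusedSectionVars false

noncomputable section

namespace Fermat.Agent.Flat

open Module

section Ech

variable {K ι : Type*} [Field K] [Fintype ι] [DecidableEq ι]

open Classical in
/-- echelon vectors -/
def ech (U : Submodule K (ι → K)) (J : Finset ι) (j : ι) : ι → K :=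
  if h : ∃ x ∈ U, ∀ k ∈ J, x k = if k = j then 1 else 0 then h.choose else 0

variable {U : Submodule K (ι → K)} {J : Finset ι} {j : ι}

theorem Good.ech_mem (h : Good U J) (hj : j ∈ J) : ech U J j ∈ U := by
  have := h.ex j hj
  rw [ech, dif_pos this]
  exact this.choose_spec.1

theorem Good.ech_apply (h : Good U J) (hj : j ∈ J) {k : ι} (hk : k ∈ J) :
    ech U J j k = if k = j then 1 else 0 := by
  have := h.ex j hj
  rw [ech, dif_pos this]
  exact this.choose_spec.2 k hk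

theorem Good.eq_ech (h : Good U J) (hj : j ∈ J) {x : ι → K} (hx : x ∈ U)
    (hxk : ∀ k ∈ J, x k = if k = j then 1 else 0) : x = ech U J j := by
  rw [← sub_eq_zero]
  refine h.inj _ (sub_mem hx (h.ech_mem hj)) fun k hk => ?_
  rw [Pi.sub_apply, hxk k hk, h.ech_apply hj hk, sub_self]

theorem Good.eq_sum_ech (h : Good U J) {x : ι → K} (hx : x ∈ U) :
    x = ∑ j ∈ J, x j • ech U J j :=
  h.eq_sum (fun _ hj => h.ech_mem hj) (fun _ hj _ hk => h.ech_apply hj hk) hx

end Ech

section Crit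

variable {Ω κ G V ι : Type*} [Field Ω] [Field κ] [Group G] [MulSemiringAction G Ω]
  [AddCommGroup V] [Finite V] [DistribMulAction G V] [Fintype ι] [DecidableEq ι]
  {A : ValuationSubring Ω} {r : A →+* κ}

variable (G r) in
/-- The group `G` acts on the valuation ring `A` as an inertia group. -/
structure Inert : Prop where
  surj : ∀ x : κ, ∃ a : A, (∀ g : G, g • (a : Ω) = a) ∧ r a = x
  unit : ∀ a : A, r a ≠ 0 → (a : Ω)⁻¹ ∈ A
  stab : ∀ (g : G), ∀ a ∈ A, g • a ∈ A
  triv : ∀ (g : G) (a : A) (h : g • (a : Ω) ∈ A), r ⟨g • (a : Ω), h⟩ = r a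

variable (G r) in
/-- The data of the criterion. -/
structure CritData (W : ℕ → V → Submodule Ω (ι → Ω)) (Wb : ℕ → V → Submodule κ (ι → κ)) :
    Prop where
  red : ∀ k v, ∀ xb ∈ Wb k v, ∃ x : ι → A, (fun i => (x i : Ω)) ∈ W k v ∧ ∀ i, r (x i) = xb i
  rank : ∀ k v, finrank Ω (W k v) = finrank κ (Wb k v)
  equiv : ∀ k v (g : G), ∀ x ∈ W k v, (fun i => g • x i) ∈ W k (g • v)
  mul : ∀ v w, W 1 v * W 0 w ≤ W 2 (v + w)
  mulb : ∀ v w, Wb 2 (v + w) = Wb 1 v * Wb 0 w
  colon : ∀ k < 2, ∀ v, Flat.colon (W 0 0) (W (k + 1) v) = W k v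
  colonb : ∀ k < 2, ∀ v, Flat.colon (Wb 0 0) (Wb (k + 1) v) = Wb k v
  inj : ∀ v w, W 1 v = W 1 w → v = w

theorem Inert.ne_zero (hI : Inert G r) {a : A} (h : r a ≠ 0) : (a : Ω) ≠ 0 := by
  intro h0
  have : a = 0 := Subtype.ext h0
  rw [this, map_zero] at h
  exact h rfl

theorem Inert.isUnit (hI : Inert G r) (a : A) (h : r a ≠ 0) : IsUnit a := by
  refine IsUnit.of_mul_eq_one ⟨_, hI.unit a h⟩ (Subtype.ext ?_)
  change (a : Ω) * (a : Ω)⁻¹ = 1
  exact mul_inv_cancel₀ (hI.ne_zero h)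

variable {W : ℕ → V → Submodule Ω (ι → Ω)} {Wb : ℕ → V → Submodule κ (ι → κ)}

theorem CritData.good (hI : Inert G r) (hD : CritData G r W Wb) (k : ℕ) (v : V) {J : Finset ι}
    (hJ : Good (Wb k v) J) : Good (W k v) J ∧ ∀ j ∈ J, ∀ i, ∃ h : ech (W k v) J j i ∈ A,
      r ⟨_, h⟩ = ech (Wb k v) J j i := by
  have h1 : Rat r (fun _ : Unit => A.subtype) (fun _ => W k v) (Wb k v) := by
    intro xb hxb
    obtain ⟨x, hx, hxr⟩ := hD.red k v xb hxb
    exact ⟨x, fun _ => hx, hxr⟩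
  obtain ⟨hg, w, hw1, hw2, hw3⟩ := h1.exists_ech hI.isUnit (fun _ => (hD.rank k v).le) hJ
  have hg' := hg ()
  refine ⟨hg', fun j hj i => ?_⟩
  have h2 : (fun i => (w j i : Ω)) = ech (W k v) J j := by
    apply hg'.eq_ech hj (hw1 j hj ())
    intro l hl
    rw [hw2 j hj l hl]
    split_ifs <;> rfl
  have h3 : (fun i => r (w j i)) = ech (Wb k v) J j := by
    apply hJ.eq_ech hj (hw3 j hj)
    intro l hl
    rw [hw2 j hj l hl]
    split_ifs <;> simp
  have h4 : ech (W k v) J j i = w j i := (congrFun h2 i).symm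
  have h6 : ech (W k v) J j i ∈ A := by rw [h4]; exact (w j i).2
  refine ⟨h6, ?_⟩
  have h5 : (⟨_, h6⟩ : A) = w j i := Subtype.ext h4
  rw [h5]
  exact congrFun h3 i

theorem CritData.red' (hI : Inert G r) (hD : CritData G r W Wb) (k : ℕ) (v : V) {x : ι → A}
    (hx : (fun i => (x i : Ω)) ∈ W k v) : (fun i => r (x i)) ∈ Wb k v := by
  have hJ := good_goodSet (Wb k v)
  obtain ⟨hg, he0⟩ := hD.good hI k v hJ
  have he := fun j hj i => (he0 j hj i).1
  have hr := fun j hj i => (he0 j hj i).2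
  have h1 := hg.eq_sum_ech hx
  have h2 : (fun i => r (x i)) = ∑ j ∈ goodSet (Wb k v), r (x j) • ech (Wb k v) (goodSet (Wb k v)) j := by
    funext i
    have h3 : x i = ∑ j ∈ (goodSet (Wb k v)).attach, x j * ⟨_, he j j.2 i⟩ := by
      apply Subtype.ext
      have h4 := congrFun h1 i
      rw [Finset.sum_apply, ← Finset.sum_attach] at h4
      refine h4.trans ?_
      push_cast
      rfl
    rw [h3, map_sum, Finset.sum_apply, ← Finset.sum_attach (goodSet (Wb k v))]
    refine Finset.sum_congr rfl fun j _ => ?_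
    rw [map_mul, hr j j.2 i]
    rfl
  rw [h2]
  exact sum_mem fun j hj => Submodule.smul_mem _ _ (hJ.ech_mem hj)

theorem CritData.Wb_smul (hI : Inert G r) (hD : CritData G r W Wb) (k : ℕ) (g : G) (v : V) :
    Wb k (g • v) = Wb k v := by
  have h : ∀ (g : G) (v : V), Wb k v ≤ Wb k (g • v) := by
    intro g v xb hxb
    obtain ⟨x, hx, hxr⟩ := hD.red k v xb hxb
    have h1 := hD.red' hI k (g • v) (x := fun i => ⟨g • (x i : Ω), hI.stab g _ (x i).2⟩)
      (hD.equiv k v g _ hx)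
    have h2 : (fun i => r ⟨g • (x i : Ω), hI.stab g _ (x i).2⟩) = xb := by
      funext i
      rw [hI.triv, hxr]
    rwa [h2] at h1
  refine le_antisymm ?_ (h g v)
  have := h g⁻¹ (g • v)
  rwa [inv_smul_smul] at this

theorem CritData.ech_smul (hI : Inert G r) (hD : CritData G r W Wb) (k : ℕ) (g : G) (v : V)
    {J : Finset ι} (hJ : Good (Wb k v) J) {j : ι} (hj : j ∈ J) (i : ι) :
    ech (W k (g • v)) J j i = g • ech (W k v) J j i := by
  obtain ⟨hg, _⟩ := hD.good hI k v hJ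
  have hJ' : Good (Wb k (g • v)) J := by rw [hD.Wb_smul hI]; exact hJ
  obtain ⟨hg', _⟩ := hD.good hI k (g • v) hJ'
  have h1 := hg'.eq_ech hj (hD.equiv k v g _ (hg.ech_mem hj)) (fun l hl => by
    rw [hg.ech_apply hj hl]
    split_ifs
    · exact smul_one g
    · exact smul_zero g)
  exact (congrFun h1 i).symm

variable (r) in
/-- Functions with values in `A`, equivariant, with constant reduction on the fibres of `c`. -/
structure Nice {Y γ : Type*} [SMul G Y] (c : Y → γ) (f : Y → Ω) : Prop where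
  mem : ∀ y, f y ∈ A
  equiv : ∀ (g : G) y, f (g • y) = g • f y
  const : ∀ y z, c y = c z → r ⟨f y, mem y⟩ = r ⟨f z, mem z⟩

section Nice

variable {Y γ : Type*} [SMul G Y] {c : Y → γ} {f f' : Y → Ω}

theorem Nice.add (h : Nice (G := G) r c f) (h' : Nice (G := G) r c f') :
    Nice (G := G) r c (f + f') where
  mem y := A.add_mem _ _ (h.mem y) (h'.mem y)
  equiv g y := by rw [Pi.add_apply, h.equiv, h'.equiv, Pi.add_apply, smul_add]
  const y z hyz := by
    have h1 : ∀ y, (⟨(f + f') y, A.add_mem _ _ (h.mem y) (h'.mem y)⟩ : A) =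
        ⟨f y, h.mem y⟩ + ⟨f' y, h'.mem y⟩ := fun y => rfl
    rw [h1, h1, map_add, map_add, h.const y z hyz, h'.const y z hyz]

theorem Nice.mul (h : Nice (G := G) r c f) (h' : Nice (G := G) r c f') :
    Nice (G := G) r c (f * f') where
  mem y := A.mul_mem _ _ (h.mem y) (h'.mem y)
  equiv g y := by rw [Pi.mul_apply, h.equiv, h'.equiv, Pi.mul_apply, smul_mul']
  const y z hyz := by
    have h1 : ∀ y, (⟨(f * f') y, A.mul_mem _ _ (h.mem y) (h'.mem y)⟩ : A) =
        ⟨f y, h.mem y⟩ * ⟨f' y, h'.mem y⟩ := fun y => rfl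
    rw [h1, h1, map_mul, map_mul, h.const y z hyz, h'.const y z hyz]

theorem Nice.of_fix (a : fixA G A) :
    Nice (G := G) r c (algebraMap (fixA G A) (Y → Ω) a) where
  mem _ := a.2.1
  equiv g _ := (a.2.2 g).symm
  const _ _ _ := rfl

end Nice

open Classical in
variable (Ω Wb) in
/-- Indicator functions of the classes. -/
def chi (c : Submodule κ (ι → κ)) : V → Ω := fun v => if Wb 1 v = c then 1 else 0

open Classical in
variable (W Wb) in
/-- Echelon coordinates on a class. -/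
def phi (c : Submodule κ (ι → κ)) (j i : ι) : V → Ω := fun v =>
  if Wb 1 v = c then ech (W 1 v) (goodSet c) j i else 0

variable (W Wb) in
/-- The generators of the Hopf order. -/
def gens : Set (V → Ω) :=
  Set.range (fun v : V => chi Ω Wb (Wb 1 v)) ∪
    Set.range (fun x : (Σ v : V, {j : ι // j ∈ goodSet (Wb 1 v)} × ι) =>
      phi W Wb (Wb 1 x.1) x.2.1 x.2.2)

variable (G A W Wb) in
/-- The Hopf order. -/
def critH : Subalgebra (fixA G A) (V → Ω) := Algebra.adjoin _ (gens W Wb)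

theorem chi_mem (v : V) : chi Ω Wb (Wb 1 v) ∈ critH G A W Wb :=
  Algebra.subset_adjoin (Or.inl ⟨v, rfl⟩)

theorem phi_mem (v : V) {j : ι} (hj : j ∈ goodSet (Wb 1 v)) (i : ι) :
    phi W Wb (Wb 1 v) j i ∈ critH G A W Wb :=
  Algebra.subset_adjoin (Or.inr ⟨⟨v, ⟨j, hj⟩, i⟩, rfl⟩)

theorem chi_of_eq {c : Submodule κ (ι → κ)} {v : V} (h : Wb 1 v = c) : chi Ω Wb c v = 1 :=
  if_pos h

theorem chi_of_ne {c : Submodule κ (ι → κ)} {v : V} (h : Wb 1 v ≠ c) : chi Ω Wb c v = 0 :=
  if_neg h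

theorem phi_of_eq {c : Submodule κ (ι → κ)} {v : V} (h : Wb 1 v = c) (j i : ι) :
    phi W Wb c j i v = ech (W 1 v) (goodSet c) j i := if_pos h

theorem phi_of_ne {c : Submodule κ (ι → κ)} {v : V} (h : Wb 1 v ≠ c) (j i : ι) :
    phi W Wb c j i v = 0 := if_neg h

theorem CritData.nice_chi (hI : Inert G r) (hD : CritData G r W Wb) (c : Submodule κ (ι → κ)) :
    Nice (G := G) r (Wb 1) (chi Ω Wb c) where
  mem v := by
    by_cases h : Wb 1 v = c
    · rw [chi_of_eq h]; exact A.one_mem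
    · rw [chi_of_ne h]; exact A.zero_mem
  equiv g v := by
    by_cases h : Wb 1 v = c
    · rw [chi_of_eq h, chi_of_eq (by rw [hD.Wb_smul hI]; exact h), smul_one]
    · rw [chi_of_ne h, chi_of_ne (by rw [hD.Wb_smul hI]; exact h), smul_zero]
  const v w hvw := by
    congr 1
    apply Subtype.ext
    change chi Ω Wb c v = chi Ω Wb c w
    by_cases h : Wb 1 v = c
    · rw [chi_of_eq h, chi_of_eq (hvw ▸ h)]
    · rw [chi_of_ne h, chi_of_ne (hvw ▸ h)]

theorem CritData.nice_phi (hI : Inert G r) (hD : CritData G r W Wb) (c : Submodule κ (ι → κ))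
    {j : ι} (hj : j ∈ goodSet c) (i : ι) :
    Nice (G := G) r (Wb 1) (phi W Wb c j i) := by
  have hmem : ∀ v, phi W Wb c j i v ∈ A := by
    intro v
    by_cases h : Wb 1 v = c
    · rw [phi_of_eq h]
      exact ((hD.good hI 1 v (by rw [h]; exact good_goodSet c)).2 j hj i).1
    · rw [phi_of_ne h]; exact A.zero_mem
  have hval : ∀ v, Wb 1 v = c → r ⟨_, hmem v⟩ = ech c (goodSet c) j i := by
    intro v h
    obtain ⟨h1, h2⟩ := (hD.good hI 1 v (by rw [h]; exact good_goodSet c)).2 j hj i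
    have h3 : (⟨_, hmem v⟩ : A) = ⟨_, h1⟩ := Subtype.ext (phi_of_eq h j i)
    rw [h3, h2, h]
  refine ⟨hmem, fun g v => ?_, fun v w hvw => ?_⟩
  · by_cases h : Wb 1 v = c
    · rw [phi_of_eq h, phi_of_eq (by rw [hD.Wb_smul hI]; exact h),
        hD.ech_smul hI 1 g v (by rw [h]; exact good_goodSet c) hj]
    · rw [phi_of_ne h, phi_of_ne (by rw [hD.Wb_smul hI]; exact h), smul_zero]
  · by_cases h : Wb 1 v = c
    · rw [hval v h, hval w (hvw ▸ h)]
    · congr 1
      apply Subtype.ext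
      change phi W Wb c j i v = phi W Wb c j i w
      rw [phi_of_ne h, phi_of_ne (hvw ▸ h)]

theorem CritData.nice (hI : Inert G r) (hD : CritData G r W Wb) {f : V → Ω}
    (hf : f ∈ critH G A W Wb) : Nice (G := G) r (Wb 1) f := by
  induction hf using Algebra.adjoin_induction with
  | mem f hf =>
    rcases hf with ⟨v, rfl⟩ | ⟨x, rfl⟩
    · exact hD.nice_chi hI _
    · exact hD.nice_phi hI _ x.2.1.2 _
  | algebraMap a => exact Nice.of_fix a
  | add f g _ _ hf hg => exact hf.add hg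
  | mul f g _ _ hf hg => exact hf.mul hg

/-- The key step: addition. -/
theorem CritData.core (hI : Inert G r) (hD : CritData G r W Wb) {Y : Type*} (p₀ : Y)
    (S : Subalgebra (fixA G A) (Y → Ω)) (hSA : ∀ s ∈ S, ∀ p, s p ∈ A)
    (hSu : ∀ s (hs : s ∈ S), r ⟨s p₀, hSA s hs p₀⟩ ≠ 0 → ∃ t ∈ S, s * t = 1)
    (q₁ q₂ : Y → V) (h₁ : ∀ f ∈ critH G A W Wb, (fun p => f (q₁ p)) ∈ S)
    (h₂ : ∀ f ∈ critH G A W Wb, (fun p => f (q₂ p)) ∈ S)
    (hc₁ : ∀ p, Wb 1 (q₁ p) = Wb 1 (q₁ p₀)) (hc₂ : ∀ p, Wb 1 (q₂ p) = Wb 1 (q₂ p₀)) :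
    (∀ p, Wb 1 (q₁ p + q₂ p) = Wb 1 (q₁ p₀ + q₂ p₀)) ∧
    ∀ j ∈ goodSet (Wb 1 (q₁ p₀ + q₂ p₀)), ∀ i,
      (fun p => ech (W 1 (q₁ p + q₂ p)) (goodSet (Wb 1 (q₁ p₀ + q₂ p₀))) j i) ∈ S := by
  classical
  let ev : Y → S →+* Ω := fun p => (Pi.evalRingHom (fun _ : Y => Ω) p).comp S.toSubring.subtype
  have hev : ∀ p (s : S), ev p s = (s : Y → Ω) p := fun _ _ => rfl
  let ρ : S →+* κ := r.comp ((ev p₀).codRestrict A.toSubring fun s => hSA s s.2 p₀)
  have hρ : ∀ s : S, ρ s = r ⟨(s : Y → Ω) p₀, hSA s s.2 p₀⟩ := fun _ => rfl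
  have hs : Function.Surjective ρ := by
    intro x
    obtain ⟨a, ha, hax⟩ := hI.surj x
    refine ⟨⟨algebraMap (fixA G A) (Y → Ω) ⟨a, a.2, ha⟩, S.algebraMap_mem _⟩, ?_⟩
    exact hax
  have hu : ∀ s : S, ρ s ≠ 0 → IsUnit s := by
    intro s hs
    obtain ⟨t, ht, hst⟩ := hSu s s.2 hs
    exact IsUnit.of_mul_eq_one ⟨t, ht⟩ (Subtype.ext hst)
  -- rationality of the given families
  have base : ∀ (q : Y → V), (∀ f ∈ critH G A W Wb, (fun p => f (q p)) ∈ S) →
      (∀ p, Wb 1 (q p) = Wb 1 (q p₀)) → Rat ρ ev (fun p => W 1 (q p)) (Wb 1 (q p₀)) := by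
    intro q hq hc xb hxb
    set c := Wb 1 (q p₀) with hcdef
    have hJ := good_goodSet c
    have hsum := hJ.eq_sum_ech hxb
    choose a ha hax using fun j => hI.surj (xb j)
    let e : {j // j ∈ goodSet c} → ι → S := fun j i =>
      ⟨fun p => phi W Wb c j i (q p), hq _ (phi_mem (q p₀) j.2 i)⟩
    let x : ι → S := fun i => ∑ j : {j // j ∈ goodSet c},
      algebraMap (fixA G A) S ⟨a j, (a j).2, ha j⟩ * e j i
    have hx : ∀ p i, ev p (x i) = ∑ j : {j // j ∈ goodSet c},
        (a j : Ω) * ech (W 1 (q p)) (goodSet c) j i := by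
      intro p i
      simp only [x, map_sum, map_mul]
      refine Finset.sum_congr rfl fun j _ => ?_
      congr 1
      exact phi_of_eq (hc p) j i
    refine ⟨x, fun p => ?_, fun i => ?_⟩
    · have : (fun i => ev p (x i)) = ∑ j : {j // j ∈ goodSet c},
          (a j : Ω) • ech (W 1 (q p)) (goodSet c) j := by
        funext i
        rw [hx, Finset.sum_apply]
        rfl
      rw [this]
      have hg := (hD.good hI 1 (q p) (J := goodSet c) (by rw [hc p]; exact hJ)).1
      exact sum_mem fun j _ => Submodule.smul_mem _ _ (hg.ech_mem j.2)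
    · have h3 := (hD.good hI 1 (q p₀) (J := goodSet c) hJ).2
      have he := fun j hj i => (h3 j hj i).1
      have hr := fun j hj i => (h3 j hj i).2
      have h4 : (⟨(x i : Y → Ω) p₀, hSA _ (x i).2 p₀⟩ : A) = ∑ j : {j // j ∈ goodSet c},
          a j * ⟨_, he j j.2 i⟩ := by
        apply Subtype.ext
        refine (hx p₀ i).trans ?_
        push_cast
        rfl
      rw [hρ, h4, map_sum, hsum, Finset.sum_apply, ← Finset.sum_coe_sort (goodSet c)]
      refine Finset.sum_congr rfl fun j _ => ?_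
      rw [map_mul, hax, hr j j.2 i]
      rfl
  -- the constant family
  have hE : Rat ρ ev (fun _ : Y => W 0 0) (Wb 0 0) := by
    intro xb hxb
    have hJ := good_goodSet (Wb 0 (0 : V))
    obtain ⟨hg, h3⟩ := hD.good hI 0 0 hJ
    have he := fun j hj i => (h3 j hj i).1
    have hr := fun j hj i => (h3 j hj i).2
    have hfix : ∀ j ∈ goodSet (Wb 0 (0 : V)), ∀ i, ∀ g : G,
        g • ech (W 0 0) (goodSet (Wb 0 (0 : V))) j i = ech (W 0 0) (goodSet (Wb 0 (0 : V))) j i := by
      intro j hj i g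
      rw [← hD.ech_smul hI 0 g 0 hJ hj, smul_zero]
    have hsum := hJ.eq_sum_ech hxb
    choose a ha hax using fun j => hI.surj (xb j)
    let x : ι → S := fun i => ∑ j : {j // j ∈ goodSet (Wb 0 (0 : V))},
      algebraMap (fixA G A) S ⟨a j * ech (W 0 0) (goodSet (Wb 0 (0 : V))) j i,
        mul_mem (⟨(a j).2, ha j⟩ : (a j : Ω) ∈ fixA G A) ⟨he j j.2 i, hfix j j.2 i⟩⟩
    have hx : ∀ p i, ev p (x i) = ∑ j : {j // j ∈ goodSet (Wb 0 (0 : V))},
        (a j : Ω) * ech (W 0 0) (goodSet (Wb 0 (0 : V))) j i := by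
      intro p i
      simp only [x, map_sum]
      rfl
    refine ⟨x, fun p => ?_, fun i => ?_⟩
    · have : (fun i => ev p (x i)) = ∑ j : {j // j ∈ goodSet (Wb 0 (0 : V))},
          (a j : Ω) • ech (W 0 0) (goodSet (Wb 0 (0 : V))) j := by
        funext i
        rw [hx, Finset.sum_apply]
        rfl
      rw [this]
      exact sum_mem fun j _ => Submodule.smul_mem _ _ (hg.ech_mem j.2)
    · have h4 : (⟨(x i : Y → Ω) p₀, hSA _ (x i).2 p₀⟩ : A) =
          ∑ j : {j // j ∈ goodSet (Wb 0 (0 : V))}, a j * ⟨_, he j j.2 i⟩ := by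
        apply Subtype.ext
        refine (hx p₀ i).trans ?_
        push_cast
        rfl
      rw [hρ, h4, map_sum, hsum, Finset.sum_apply, ← Finset.sum_coe_sort (goodSet (Wb 0 (0 : V)))]
      refine Finset.sum_congr rfl fun j _ => ?_
      rw [map_mul, hax, hr j j.2 i]
      rfl
  have R1 := base q₁ h₁ hc₁
  have R2 := base q₂ h₂ hc₂
  have hb0 : ∀ p, Wb 0 (q₂ p) = Wb 0 (q₂ p₀) := fun p => by
    rw [← hD.colonb 0 (by norm_num) (q₂ p), ← hD.colonb 0 (by norm_num) (q₂ p₀), hc₂ p]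
  have R3 : Rat ρ ev (fun p => W 0 (q₂ p)) (Wb 0 (q₂ p₀)) := by
    have := Rat.colon hs hu hE R2 (fun p => by rw [hD.rank, hc₂]) (fun p => by
      rw [hD.colon 0 (by norm_num), hD.colonb 0 (by norm_num), hD.rank, hb0 p])
    rw [hD.colonb 0 (by norm_num)] at this
    simpa only [hD.colon 0 (by norm_num)] using this
  have hb2 : ∀ p, Wb 2 (q₁ p + q₂ p) = Wb 2 (q₁ p₀ + q₂ p₀) := fun p => by
    rw [hD.mulb, hD.mulb, hc₁ p, hb0 p]
  have R4 : Rat ρ ev (fun p => W 2 (q₁ p + q₂ p)) (Wb 2 (q₁ p₀ + q₂ p₀)) := by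
    have := (R1.mul R3).mono (W' := fun p => W 2 (q₁ p + q₂ p)) (fun p => hD.mul _ _)
    rwa [← hD.mulb] at this
  have hb1 : ∀ p, Wb 1 (q₁ p + q₂ p) = Wb 1 (q₁ p₀ + q₂ p₀) := fun p => by
    rw [← hD.colonb 1 (by norm_num) (q₁ p + q₂ p), ← hD.colonb 1 (by norm_num) (q₁ p₀ + q₂ p₀),
      hb2 p]
  have R5 : Rat ρ ev (fun p => W 1 (q₁ p + q₂ p)) (Wb 1 (q₁ p₀ + q₂ p₀)) := by
    have := Rat.colon hs hu hE R4 (fun p => by rw [hD.rank, hb2]) (fun p => by
      rw [hD.colon 1 (by norm_num), hD.colonb 1 (by norm_num), hD.rank, hb1 p])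
    rw [hD.colonb 1 (by norm_num)] at this
    simpa only [hD.colon 1 (by norm_num)] using this
  refine ⟨hb1, fun j hj i => ?_⟩
  obtain ⟨hg, w, hw1, hw2, _⟩ := R5.exists_ech hu (fun p => by rw [hD.rank, hb1])
    (good_goodSet (Wb 1 (q₁ p₀ + q₂ p₀)))
  have : (fun p => ech (W 1 (q₁ p + q₂ p)) (goodSet (Wb 1 (q₁ p₀ + q₂ p₀))) j i) = w j i := by
    funext p
    have h1 := (hg p).eq_ech hj (hw1 j hj p) (fun l hl => by
      rw [hw2 j hj l hl]
      split_ifs <;> simp)
    exact (congrFun h1 i).symm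
  rw [this]
  exact (w j i).2

/-- **The criterion.** -/
theorem CritData.isHopfOrder (hI : Inert G r) (hD : CritData G r W Wb) :
    IsHopfOrder (fixA G A) G (critH G A W Wb) where
  fg := by
    refine fg_adjoin_of_finite ?_ ?_
    · refine (Set.finite_range _).union (Set.finite_range _)
    · intro f hf
      have hn := hD.nice hI (Algebra.subset_adjoin hf : f ∈ critH G A W Wb)
      exact isIntegral_fun f hn.mem fun g => ⟨MulAction.toPerm g, fun v => hn.equiv g v⟩
  sep v w h := by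
    have h1 : Wb 1 v = Wb 1 w := by
      have := h _ (chi_mem v)
      rw [chi_of_eq rfl] at this
      by_contra hne
      rw [chi_of_ne (Ne.symm hne)] at this
      exact one_ne_zero this
    apply hD.inj
    have hJ := good_goodSet (Wb 1 v)
    have hg := (hD.good hI 1 v hJ).1
    have hg' := (hD.good hI 1 w (J := goodSet (Wb 1 v)) (by rw [← h1]; exact hJ)).1
    have he : ∀ j ∈ goodSet (Wb 1 v), ech (W 1 v) (goodSet (Wb 1 v)) j =
        ech (W 1 w) (goodSet (Wb 1 v)) j := by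
      intro j hj
      funext i
      have := h _ (phi_mem v hj i)
      rwa [phi_of_eq rfl, phi_of_eq h1.symm] at this
    apply le_antisymm
    · intro x hx
      rw [hg.eq_sum_ech hx]
      exact sum_mem fun j hj => Submodule.smul_mem _ _ (by rw [he j hj]; exact hg'.ech_mem hj)
    · intro x hx
      rw [hg'.eq_sum_ech hx]
      exact sum_mem fun j hj => Submodule.smul_mem _ _ (by rw [← he j hj]; exact hg.ech_mem hj)
  equiv g f hf v := (hD.nice hI hf).equiv g v
  comul := by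
    classical
    let _ := Fintype.ofFinite V
    -- it is enough to treat the generators
    suffices hgen : gens W Wb ⊆ ((tens₂ (fixA G A) (critH G A W Wb) (critH G A W Wb)).comap
        (pull (fixA G A) (fun p : V × V => p.1 + p.2)) : Set (V → Ω)) by
      intro f hf
      exact Algebra.adjoin_le hgen hf
    set H := critH G A W Wb with hH
    set T := tens₂ (fixA G A) H H with hT
    -- gluing
    have glue : ∀ F : V × V → Ω, (∀ v₀ w₀ : V, ∃ F' ∈ T, ∀ v w, Wb 1 v = Wb 1 v₀ →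
        Wb 1 w = Wb 1 w₀ → F (v, w) = F' (v, w)) → F ∈ T := by
      intro F hF
      choose F' hF' hFF using hF
      let cl : Finset (Submodule κ (ι → κ)) := Finset.univ.image (Wb 1)
      have hrep : ∀ c : cl, ∃ v : V, Wb 1 v = c := by
        intro c
        obtain ⟨v, _, hv⟩ := Finset.mem_image.mp c.2
        exact ⟨v, hv⟩
      choose rep hrep using hrep
      have : F = ∑ c : cl, ∑ d : cl, (fun p : V × V =>
          chi Ω Wb (Wb 1 (rep c)) p.1 * chi Ω Wb (Wb 1 (rep d)) p.2) * F' (rep c) (rep d) := by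
        funext p
        have hp1 : Wb 1 p.1 ∈ cl := Finset.mem_image_of_mem _ (Finset.mem_univ _)
        have hp2 : Wb 1 p.2 ∈ cl := Finset.mem_image_of_mem _ (Finset.mem_univ _)
        rw [Finset.sum_apply, Finset.sum_eq_single (⟨_, hp1⟩ : cl)]
        · rw [Finset.sum_apply, Finset.sum_eq_single (⟨_, hp2⟩ : cl)]
          · rw [Pi.mul_apply, chi_of_eq (hrep ⟨_, hp1⟩).symm, chi_of_eq (hrep ⟨_, hp2⟩).symm,
              one_mul, one_mul]
            exact hFF _ _ _ _ (hrep ⟨_, hp1⟩).symm (hrep ⟨_, hp2⟩).symm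
          · intro d _ hd
            rw [Pi.mul_apply, chi_of_ne (c := Wb 1 (rep d)), mul_zero, zero_mul]
            rw [hrep]
            exact fun h => hd (Subtype.ext h.symm)
          · intro h
            exact absurd (Finset.mem_univ _) h
        · intro c _ hc
          rw [Finset.sum_apply]
          refine Finset.sum_eq_zero fun d _ => ?_
          rw [Pi.mul_apply, chi_of_ne (c := Wb 1 (rep c)), zero_mul, zero_mul]
          rw [hrep]
          exact fun h => hc (Subtype.ext h.symm)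
        · intro h
          exact absurd (Finset.mem_univ _) h
      rw [this]
      exact sum_mem fun c _ => sum_mem fun d _ => mul_mem
        (mul_mem_tens₂ (chi_mem _) (chi_mem _)) (hF' _ _)
    -- elements of `T` are nice
    have hTnice : ∀ F ∈ T, Nice (G := G) r (fun p : V × V => (Wb 1 p.1, Wb 1 p.2)) F := by
      intro F hF
      refine tens₂_induction (P := fun F => Nice (G := G) r
        (fun p : V × V => (Wb 1 p.1, Wb 1 p.2)) F) ?_ ?_ ?_ ?_ hF
      · intro f hf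
        have hn := hD.nice hI hf
        exact ⟨fun y => hn.mem y.1, fun g y => hn.equiv g y.1, fun y z h =>
          hn.const y.1 z.1 (Prod.ext_iff.mp h).1⟩
      · intro f hf
        have hn := hD.nice hI hf
        exact ⟨fun y => hn.mem y.2, fun g y => hn.equiv g y.2, fun y z h =>
          hn.const y.2 z.2 (Prod.ext_iff.mp h).2⟩
      · exact fun f g hf hg => hf.add hg
      · exact fun f g hf hg => hf.mul hg
    -- apply the key step on a pair of classes
    have key : ∀ v₀ w₀ : V, (∀ v w, Wb 1 v = Wb 1 v₀ → Wb 1 w = Wb 1 w₀ →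
          Wb 1 (v + w) = Wb 1 (v₀ + w₀)) ∧
        ∀ j ∈ goodSet (Wb 1 (v₀ + w₀)), ∀ i, ∃ F' ∈ T, ∀ v w, Wb 1 v = Wb 1 v₀ →
          Wb 1 w = Wb 1 w₀ → ech (W 1 (v + w)) (goodSet (Wb 1 (v₀ + w₀))) j i = F' (v, w) := by
      intro v₀ w₀
      let Y : Type _ := {p : V × V // Wb 1 p.1 = Wb 1 v₀ ∧ Wb 1 p.2 = Wb 1 w₀}
      let p₀ : Y := ⟨(v₀, w₀), rfl, rfl⟩
      let S : Subalgebra (fixA G A) (Y → Ω) := T.map (pull (fixA G A) (Subtype.val : Y → V × V))
      have hSA : ∀ s ∈ S, ∀ p, s p ∈ A := by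
        rintro s ⟨F, hF, rfl⟩ p
        exact (hTnice F hF).mem p.1
      have hSu : ∀ s (hs : s ∈ S), r ⟨s p₀, hSA s hs p₀⟩ ≠ 0 → ∃ t ∈ S, s * t = 1 := by
        rintro s ⟨F, hF, rfl⟩ h0
        have hn := hTnice F hF
        have hr : ∀ p : Y, r ⟨F p.1, hn.mem p.1⟩ ≠ 0 := by
          intro p
          rw [hn.const p.1 (v₀, w₀) (Prod.ext p.2.1 p.2.2)]
          exact h0
        obtain ⟨t, ht, hst⟩ := exists_inverse (G := G) (A := A)
          (pull (fixA G A) (Subtype.val : Y → V × V) F) (fun p => hn.mem p.1)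
          (fun p => hI.unit _ (hr p)) (fun p => hI.ne_zero (hr p)) (by
            intro g
            refine ⟨⟨fun p => ⟨g • p.1, ?_, ?_⟩, fun p => ⟨g⁻¹ • p.1, ?_, ?_⟩, ?_, ?_⟩, ?_⟩
            · exact (hD.Wb_smul hI 1 g p.1.1).trans p.2.1
            · exact (hD.Wb_smul hI 1 g p.1.2).trans p.2.2
            · exact (hD.Wb_smul hI 1 g⁻¹ p.1.1).trans p.2.1
            · exact (hD.Wb_smul hI 1 g⁻¹ p.1.2).trans p.2.2
            · intro p
              exact Subtype.ext (inv_smul_smul g p.1)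
            · intro p
              exact Subtype.ext (smul_inv_smul g p.1)
            · intro p
              exact hn.equiv g p.1)
        refine ⟨t, ?_, hst⟩
        refine Algebra.adjoin_le (S := S) ?_ ht
        rw [Set.singleton_subset_iff]
        exact ⟨F, hF, rfl⟩
      obtain ⟨k1, k2⟩ := hD.core hI p₀ S hSA hSu (fun p => p.1.1) (fun p => p.1.2)
        (fun f hf => ⟨_, fst_mem_tens₂ hf, rfl⟩) (fun f hf => ⟨_, snd_mem_tens₂ hf, rfl⟩)
        (fun p => p.2.1) (fun p => p.2.2)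
      refine ⟨fun v w hv hw => k1 ⟨(v, w), hv, hw⟩, fun j hj i => ?_⟩
      obtain ⟨F', hF', hFF⟩ := k2 j hj i
      exact ⟨F', hF', fun v w hv hw => (congrFun hFF ⟨(v, w), hv, hw⟩).symm⟩
    rintro f (⟨u, rfl⟩ | ⟨⟨u, ⟨j, hj⟩, i⟩, rfl⟩)
    · refine glue _ fun v₀ w₀ => ?_
      obtain ⟨k1, _⟩ := key v₀ w₀
      refine ⟨algebraMap (fixA G A) _ (if Wb 1 (v₀ + w₀) = Wb 1 u then 1 else 0),
        T.algebraMap_mem _, fun v w hv hw => ?_⟩
      change chi Ω Wb (Wb 1 u) (v + w) = _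
      have h1 := k1 v w hv hw
      by_cases h : Wb 1 (v₀ + w₀) = Wb 1 u
      · rw [if_pos h, chi_of_eq (h1.trans h), map_one]; rfl
      · rw [if_neg h, chi_of_ne (by rw [h1]; exact h), map_zero]; rfl
    · refine glue _ fun v₀ w₀ => ?_
      obtain ⟨k1, k2⟩ := key v₀ w₀
      by_cases h : Wb 1 (v₀ + w₀) = Wb 1 u
      · have hj' : j ∈ goodSet (Wb 1 (v₀ + w₀)) := by rw [h]; exact hj
        obtain ⟨F', hF', hFF⟩ := k2 j hj' i
        refine ⟨F', hF', fun v w hv hw => ?_⟩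
        change phi W Wb (Wb 1 u) j i (v + w) = _
        rw [phi_of_eq ((k1 v w hv hw).trans h), ← h]
        exact hFF v w hv hw
      · refine ⟨0, T.zero_mem, fun v w hv hw => ?_⟩
        change phi W Wb (Wb 1 u) j i (v + w) = _
        rw [phi_of_ne (by rw [k1 v w hv hw]; exact h)]
        rfl

end Crit

end Fermat.Agent.Flat
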