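import Mathlib
import Fermat.Agent.FunField.Divisors

/-!
Places of a function field of one variable over an algebraically closed field, any
characteristic: a separating element `t` is given.
-/

set_option autoImplicit false
set_option linter.unusedSectionVars false

noncomputable section

namespace Fermat.Agent.Flat

open AlgebraicCurve IsDedekindDomain IntermediateField WithZero Module Fermat.Agent.FunField

variable {K F : Type*} [Field K] [Field F] [Algebra K F]

section Basic

theorem transcendental_sub {x : F} (hx : Transcendental K x) (c : K) :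
    Transcendental K (x - algebraMap K F c) := by
  intro h
  apply hx
  have := h.add (isAlgebraic_algebraMap (R := K) (A := F) c)
  simpa using this

theorem adjoin_sub_eq (x : F) (c : K) : K⟮x - algebraMap K F c⟯ = K⟮x⟯ := by
  apply le_antisymm
  · rw [adjoin_simple_le_iff]
    exact sub_mem (mem_adjoin_simple_self K x) (IntermediateField.algebraMap_mem _ c)
  · rw [adjoin_simple_le_iff]
    have := add_mem (mem_adjoin_simple_self K (x - algebraMap K F c))
      (IntermediateField.algebraMap_mem K⟮x - algebraMap K F c⟯ c)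
    rwa [sub_add_cancel] at this

variable (K) in
/-- `t` is a separating element. -/
structure Sep (t : F) : Prop where
  trans : Transcendental K t
  fd : FiniteDimensional K⟮t⟯ F
  sep : Algebra.IsSeparable K⟮t⟯ F

theorem Sep.sub {t : F} (h : Sep K t) (c : K) : Sep K (t - algebraMap K F c) := by
  refine ⟨transcendental_sub h.trans c, ?_, ?_⟩
  · rw [adjoin_sub_eq]; exact h.fd
  · rw [adjoin_sub_eq]; exact h.sep

theorem Sep.inv {t : F} (h : Sep K t) : Sep K t⁻¹ := by
  refine ⟨?_, ?_, ?_⟩
  · intro h'
    apply h.trans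
    simpa using h'.inv
  · rw [adjoin_inv_eq]; exact h.fd
  · rw [adjoin_inv_eq]; exact h.sep

theorem Sep.ne_zero {t : F} (h : Sep K t) : t ≠ 0 := by
  rintro rfl
  exact h.trans isAlgebraic_zero

/-- Every function in the valuation ring has a value. -/
def Rational (v : Place K F) : Prop :=
  ∀ x ∈ v.toValuationSubring, ∃ a : K, v.adicValuation (x - algebraMap K F a) < 1

theorem ord_add_le (v : Place K F) {x y : F} (hxy : x + y ≠ 0) :
    min (v.ord x) (v.ord y) ≤ v.ord (x + y) ∨ x = 0 ∨ y = 0 := by
  by_cases hx : x = 0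
  · exact Or.inr (Or.inl hx)
  by_cases hy : y = 0
  · exact Or.inr (Or.inr hy)
  left
  set m := min (v.ord x) (v.ord y)
  have h1 : v.adicValuation x ≤ exp (-m) := by
    rw [v.adicValuation_le_exp_iff]; right; simp [m]
  have h2 : v.adicValuation y ≤ exp (-m) := by
    rw [v.adicValuation_le_exp_iff]; right; simp [m]
  have h3 : v.adicValuation (x + y) ≤ exp (-m) :=
    (Valuation.map_add _ _ _).trans (max_le h1 h2)
  rw [v.adicValuation_le_exp_iff] at h3
  rcases h3 with h3 | h3
  · exact absurd h3 hxy
  · rwa [neg_neg] at h3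

theorem ord_pow (v : Place K F) (x : F) (n : ℕ) : v.ord (x ^ n) = n * v.ord x := by
  rw [← zpow_natCast, v.ord_zpow]

theorem ord_neg (v : Place K F) (x : F) : v.ord (-x) = v.ord x := by
  rw [Place.ord, Place.ord, Valuation.map_neg]

/-- Subtracting a constant does not change poles. -/
theorem ord_sub_of_neg (v : Place K F) {x : F} (hx : v.ord x < 0) (c : K) :
    v.ord (x - algebraMap K F c) = v.ord x := by
  have h1 : v.adicValuation (algebraMap K F c) < v.adicValuation x := by
    refine lt_of_le_of_lt (v.adicValuation_algebraMap_le_one c) ?_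
    rw [← not_le, v.not_adicValuation_le_one_iff]
    exact hx
  rw [Place.ord, Place.ord, sub_eq_add_neg, Valuation.map_add_eq_of_lt_left]
  rwa [Valuation.map_neg]

end Basic

section Alg

variable [IsAlgClosed K] {t : F} (h : Sep K t)

include h in
/-- The places above `t = c`. -/
theorem Sep.above (c : K) : ∃ s : Finset (Place K F),
    (∀ v, v ∈ s ↔ 0 < v.ord (t - algebraMap K F c)) ∧
    (∑ v ∈ s, v.ord (t - algebraMap K F c) = finrank K⟮t⟯ F) ∧ ∀ v ∈ s, Rational v := by
  have hc := h.sub c
  have := hc.fd
  have := hc.sep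
  obtain ⟨s, hs, hsum, hr⟩ := exists_finset_sum_ord_eq_finrank (K := K) (F := F) hc.trans
  refine ⟨s, hs, ?_, hr⟩
  rw [hsum, adjoin_sub_eq]

include h in
/-- The places above `t = ∞`. -/
theorem Sep.aboveInf : ∃ s : Finset (Place K F),
    (∀ v, v ∈ s ↔ v.ord t < 0) ∧
    (∑ v ∈ s, - v.ord t = finrank K⟮t⟯ F) ∧ ∀ v ∈ s, Rational v := by
  have hc := h.inv
  have := hc.fd
  have := hc.sep
  obtain ⟨s, hs, hsum, hr⟩ := exists_finset_sum_ord_eq_finrank (K := K) (F := F) hc.trans
  refine ⟨s, fun v => ?_, ?_, hr⟩
  · rw [hs, v.ord_inv]; omega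
  · rw [adjoin_inv_eq] at hsum
    rw [← hsum]
    exact Finset.sum_congr rfl fun v _ => (v.ord_inv t).symm

/-- If `p(t)` has no zero then its order is zero. -/
theorem ord_aeval_eq_zero (v : Place K F)
    (hv0 : 0 ≤ v.ord t) (hv : ∀ c : K, ¬ 0 < v.ord (t - algebraMap K F c))
    (ht : Transcendental K t) (p : Polynomial K) :
    v.ord (Polynomial.aeval t p) = 0 := by
  have hmem : ∀ c : K, 0 ≤ v.ord (t - algebraMap K F c) := fun c =>
    ord_nonneg_of_mem v (sub_mem (mem_of_ord_nonneg v hv0) (v.algebraMap_mem' c))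
  by_cases hp : p = 0
  · rw [hp, map_zero, v.ord_zero]
  have hs := IsAlgClosed.splits p
  rw [hs.eq_prod_roots, map_mul, Polynomial.aeval_C, map_multiset_prod, Multiset.map_map]
  have hlc : algebraMap K F p.leadingCoeff ≠ 0 := by
    rw [Ne, map_eq_zero]
    exact Polynomial.leadingCoeff_ne_zero.mpr hp
  have key : ∀ m : Multiset K, (m.map ((Polynomial.aeval t) ∘ fun a =>
      (Polynomial.X - Polynomial.C a : Polynomial K))).prod ≠ 0 ∧
      v.ord (m.map ((Polynomial.aeval t) ∘ fun a =>
      (Polynomial.X - Polynomial.C a : Polynomial K))).prod = 0 := by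
    intro m
    induction m using Multiset.induction with
    | empty => simp
    | cons a m ih =>
      rw [Multiset.map_cons, Multiset.prod_cons]
      have h1 : ((Polynomial.aeval t) ∘ fun a =>
          (Polynomial.X - Polynomial.C a : Polynomial K)) a = t - algebraMap K F a := by
        simp
      rw [h1]
      have h2 : t - algebraMap K F a ≠ 0 := by
        intro h0
        exact transcendental_sub ht a (h0 ▸ isAlgebraic_zero)
      refine ⟨mul_ne_zero h2 ih.1, ?_⟩
      rw [v.ord_mul h2 ih.1, ih.2]
      have := hv a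
      have := hmem a
      omega
  rw [v.ord_mul hlc (key _).1, (key _).2, ord_algebraMap, add_zero]

include h in
/-- Every place lies above a point of the projective line. -/
theorem Sep.exists_point (v : Place K F) :
    v.ord t < 0 ∨ ∃ c : K, 0 < v.ord (t - algebraMap K F c) := by
  by_contra hcon
  push Not at hcon
  obtain ⟨hv0, hv⟩ := hcon
  apply v.ne_top'
  rw [eq_top_iff]
  intro x _
  have hz := ord_aeval_eq_zero v hv0 (fun c => not_lt.mpr (hv c)) h.trans
  have hmem : ∀ a : K⟮t⟯, algebraMap K⟮t⟯ F a ∈ v.toValuationSubring := by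
    intro a
    obtain ⟨p, q, hpq⟩ := (IntermediateField.mem_adjoin_simple_iff K _).mp a.2
    change (a : F) ∈ _
    rw [hpq]
    apply mem_of_ord_nonneg
    by_cases hp : Polynomial.aeval t p = 0
    · rw [hp, zero_div, v.ord_zero]
    by_cases hq : Polynomial.aeval t q = 0
    · rw [hq, div_zero, v.ord_zero]
    rw [div_eq_mul_inv, v.ord_mul hp (inv_ne_zero hq), v.ord_inv, hz, hz]
    norm_num
  have := h.fd
  exact mem_place_of_isIntegral v hmem (Algebra.IsIntegral.isIntegral (R := K⟮t⟯) x)

include h in
/-- All places are rational. -/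
theorem Sep.rational (v : Place K F) : Rational v := by
  rcases h.exists_point v with h1 | ⟨c, hc⟩
  · obtain ⟨s, hs, -, hr⟩ := h.aboveInf
    exact hr v ((hs v).mpr h1)
  · obtain ⟨s, hs, -, hr⟩ := h.above c
    exact hr v ((hs v).mpr hc)

/-- finiteness of the set of zeros and poles -/
def FinOrd (f : F) : Prop := {v : Place K F | v.ord f ≠ 0}.Finite

end Alg

section Fin

theorem FinOrd.mul {f g : F} (hf : FinOrd (K := K) f) (hg : FinOrd (K := K) g) (hf0 : f ≠ 0)
    (hg0 : g ≠ 0) : FinOrd (K := K) (f * g) := by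
  refine (hf.union hg).subset fun v hv => ?_
  rw [Set.mem_ofPred_eq, v.ord_mul hf0 hg0] at hv
  by_contra hcon
  rw [Set.mem_union, not_or] at hcon
  simp only [Set.mem_ofPred_eq, not_not] at hcon
  rw [hcon.1, hcon.2] at hv
  exact hv rfl

theorem FinOrd.inv {f : F} (hf : FinOrd (K := K) f) : FinOrd (K := K) f⁻¹ := by
  refine hf.subset fun v hv => ?_
  rw [Set.mem_ofPred_eq, v.ord_inv] at hv
  intro h
  rw [h] at hv
  exact hv rfl

variable [IsAlgClosed K] {t : F} (h : Sep K t)

theorem finOrd_algebraMap (c : K) : FinOrd (K := K) (algebraMap K F c) := by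
  have : {v : Place K F | v.ord (algebraMap K F c) ≠ 0} = ∅ := by
    ext v
    simp [ord_algebraMap]
  rw [FinOrd, this]
  exact Set.finite_empty

include h in
theorem Sep.finOrd_sub (c : K) : FinOrd (K := K) (t - algebraMap K F c) := by
  obtain ⟨s, hs, -, -⟩ := h.above c
  obtain ⟨s', hs', -, -⟩ := h.aboveInf
  refine ((s : Set (Place K F)).toFinite.union (s' : Set (Place K F)).toFinite).subset fun v hv => ?_
  rw [Set.mem_ofPred_eq] at hv
  rcases lt_or_gt_of_ne hv with h1 | h1
  · right
    rw [Finset.mem_coe, hs']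
    by_contra hcon
    have := ord_nonneg_of_mem v (sub_mem (mem_of_ord_nonneg v (not_lt.mp hcon))
      (v.algebraMap_mem' c))
    omega
  · left
    rw [Finset.mem_coe, hs]
    exact h1

include h in
theorem Sep.finOrd_aeval (p : Polynomial K) : FinOrd (K := K) (Polynomial.aeval t p) := by
  by_cases hp : p = 0
  · rw [hp, map_zero]
    have : (0 : F) = algebraMap K F 0 := (map_zero _).symm
    rw [this]
    exact finOrd_algebraMap 0
  have hs := IsAlgClosed.splits p
  rw [hs.eq_prod_roots, map_mul, Polynomial.aeval_C, map_multiset_prod, Multiset.map_map]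
  have hlc : algebraMap K F p.leadingCoeff ≠ 0 := by
    rw [Ne, map_eq_zero]
    exact Polynomial.leadingCoeff_ne_zero.mpr hp
  have key : ∀ m : Multiset K, (m.map ((Polynomial.aeval t) ∘ fun a =>
      (Polynomial.X - Polynomial.C a : Polynomial K))).prod ≠ 0 ∧
      FinOrd (K := K) (m.map ((Polynomial.aeval t) ∘ fun a =>
      (Polynomial.X - Polynomial.C a : Polynomial K))).prod := by
    intro m
    induction m using Multiset.induction with
    | empty =>
      rw [Multiset.map_zero, Multiset.prod_zero]
      refine ⟨one_ne_zero, ?_⟩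
      have : (1 : F) = algebraMap K F 1 := (map_one _).symm
      rw [this]
      exact finOrd_algebraMap 1
    | cons a m ih =>
      rw [Multiset.map_cons, Multiset.prod_cons]
      have h1 : ((Polynomial.aeval t) ∘ fun a =>
          (Polynomial.X - Polynomial.C a : Polynomial K)) a = t - algebraMap K F a := by
        simp
      rw [h1]
      have h2 : t - algebraMap K F a ≠ 0 := (h.sub a).ne_zero
      exact ⟨mul_ne_zero h2 ih.1, (h.finOrd_sub a).mul ih.2 h2 ih.1⟩
  exact (finOrd_algebraMap _).mul (key _).2 hlc (key _).1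

include h in
theorem Sep.finOrd_adjoin (a : K⟮t⟯) : FinOrd (K := K) (a : F) := by
  obtain ⟨p, q, hpq⟩ := (IntermediateField.mem_adjoin_simple_iff K _).mp a.2
  rw [hpq]
  by_cases hp : Polynomial.aeval t p = 0
  · rw [hp, zero_div, ← map_zero (algebraMap K F)]
    exact finOrd_algebraMap 0
  by_cases hq : Polynomial.aeval t q = 0
  · rw [hq, div_zero, ← map_zero (algebraMap K F)]
    exact finOrd_algebraMap 0
  rw [div_eq_mul_inv]
  exact (h.finOrd_aeval p).mul (h.finOrd_aeval q).inv hp (inv_ne_zero hq)

include h in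
/-- A nonzero function has finitely many zeros and poles. -/
theorem Sep.finOrd (f : F) : FinOrd (K := K) f := by
  have := h.fd
  by_cases hf0 : f = 0
  · rw [hf0, ← map_zero (algebraMap K F)]
    exact finOrd_algebraMap 0
  let P := minpoly K⟮t⟯ f
  have hint : IsIntegral K⟮t⟯ f := Algebra.IsIntegral.isIntegral f
  have hfin : (⋃ i ∈ P.support, {v : Place K F | v.ord (P.coeff i : F) ≠ 0}).Finite :=
    P.support.finite_toSet.biUnion fun i _ => h.finOrd_adjoin _
  refine hfin.subset fun v hv => ?_
  by_contra hcon
  rw [Set.mem_iUnion₂] at hcon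
  push Not at hcon
  have hz : ∀ i, v.ord (P.coeff i : F) = 0 := by
    intro i
    by_cases hi : i ∈ P.support
    · have := hcon i hi
      rw [Set.mem_ofPred_eq, not_not] at this
      exact this
    · rw [Polynomial.notMem_support_iff.mp hi]
      exact v.ord_zero
  have hmem : ∀ i, (P.coeff i : F) ∈ v.toValuationSubring := fun i =>
    mem_of_ord_nonneg v (hz i).ge
  have hmem' : ∀ i, (P.coeff i : F)⁻¹ ∈ v.toValuationSubring := fun i =>
    mem_of_ord_nonneg v (by rw [v.ord_inv, hz i]; norm_num)
  -- `f` is integral over the valuation ring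
  have hfmem : f ∈ v.toValuationSubring := by
    have : IsIntegrallyClosed v.toValuationSubring := inferInstance
    have h1 : IsIntegral v.toValuationSubring f := by
      have hlift : (P.map (algebraMap K⟮t⟯ F)) ∈ Polynomial.lifts (algebraMap v.toValuationSubring F) := by
        rw [Polynomial.lifts_iff_coeff_lifts]
        intro i
        rw [Polynomial.coeff_map]
        exact ⟨⟨_, hmem i⟩, rfl⟩
      obtain ⟨Q, hQ, -, hQm⟩ := Polynomial.lifts_and_natDegree_eq_and_monic hlift
        ((minpoly.monic hint).map _)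
      refine ⟨Q, hQm, ?_⟩
      rw [← Polynomial.eval_map, hQ, Polynomial.eval_map, ← Polynomial.aeval_def]
      exact minpoly.aeval _ _
    obtain ⟨y, hy⟩ := (IsIntegrallyClosed.isIntegral_iff (K := F)).1 h1
    rw [← hy]
    exact y.2
  have hfinv : f⁻¹ ∈ v.toValuationSubring := by
    have h1 := congrArg (Polynomial.aeval f) (Polynomial.divX_mul_X_add P)
    rw [map_add, map_mul, Polynomial.aeval_X, Polynomial.aeval_C, minpoly.aeval] at h1
    have hc0 : (P.coeff 0 : F) ≠ 0 := by
      intro h0
      have h2 : P.coeff 0 = 0 := Subtype.ext h0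
      exact minpoly.coeff_zero_ne_zero hint hf0 h2
    have h2 : f⁻¹ = - (P.coeff 0 : F)⁻¹ * Polynomial.aeval f P.divX := by
      have h3 : Polynomial.aeval f P.divX * f = -(P.coeff 0 : F) := eq_neg_of_add_eq_zero_left h1
      field_simp
      linear_combination h3
    rw [h2]
    refine mul_mem (neg_mem (hmem' 0)) ?_
    rw [Polynomial.aeval_eq_sum_range]
    refine sum_mem fun i _ => ?_
    rw [Polynomial.coeff_divX, Algebra.smul_def]
    exact mul_mem (hmem _) (pow_mem hfmem _)
  have h1 := ord_nonneg_of_mem v hfmem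
  have h2 := ord_nonneg_of_mem v hfinv
  rw [v.ord_inv] at h2
  exact hv (by omega)

end Fin

end Fermat.Agent.Flat
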