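import Mathlib
import Fermat.Agent.Flat.Curve

/-!
Values of functions and Riemann-Roch spaces.
-/

set_option autoImplicit false
set_option linter.unusedSectionVars false

noncomputable section

namespace Fermat.Agent.Flat

open AlgebraicCurve IsDedekindDomain IntermediateField WithZero Module Fermat.Agent.FunField

variable {K F : Type*} [Field K] [Field F] [Algebra K F]

section Ev

open Classical in
/-- The value of a function at a place (junk if there is none). -/
def evp (v : Place K F) (x : F) : K :=
  if h : ∃ a : K, v.adicValuation (x - algebraMap K F a) < 1 then h.choose else 0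

variable {v : Place K F}

theorem evp_unique {x : F} {a : K} (h : v.adicValuation (x - algebraMap K F a) < 1) :
    evp v x = a := by
  have h' : ∃ a : K, v.adicValuation (x - algebraMap K F a) < 1 := ⟨a, h⟩
  rw [evp, dif_pos h']
  by_contra hne
  have h1 : v.adicValuation (algebraMap K F (h'.choose - a)) < 1 := by
    have : algebraMap K F (h'.choose - a) =
        (x - algebraMap K F a) - (x - algebraMap K F h'.choose) := by
      rw [map_sub]; ring
    rw [this]
    exact (Valuation.map_sub _ _ _).trans_lt (max_lt h h'.choose_spec)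
  rw [adicValuation_lt_one_iff, ord_algebraMap, map_eq_zero, sub_eq_zero] at h1
  rcases h1 with h1 | h1
  · exact hne h1
  · exact absurd h1 (lt_irrefl _)

theorem evp_spec (hv : Rational v) {x : F} (hx : x ∈ v.toValuationSubring) :
    v.adicValuation (x - algebraMap K F (evp v x)) < 1 := by
  have h' := hv x hx
  rw [evp, dif_pos h']
  exact h'.choose_spec

theorem evp_algebraMap (a : K) : evp v (algebraMap K F a) = a :=
  evp_unique (by rw [sub_self, map_zero]; exact zero_lt_one)

theorem evp_zero : evp v (0 : F) = 0 := by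
  have := evp_algebraMap (v := v) (0 : K)
  rwa [map_zero] at this

theorem evp_one : evp v (1 : F) = 1 := by
  have := evp_algebraMap (v := v) (1 : K)
  rwa [map_one] at this

theorem evp_add (hv : Rational v) {x y : F} (hx : x ∈ v.toValuationSubring)
    (hy : y ∈ v.toValuationSubring) : evp v (x + y) = evp v x + evp v y := by
  apply evp_unique
  have : x + y - algebraMap K F (evp v x + evp v y) =
      (x - algebraMap K F (evp v x)) + (y - algebraMap K F (evp v y)) := by
    rw [map_add]; ring
  rw [this]
  exact (Valuation.map_add _ _ _).trans_lt (max_lt (evp_spec hv hx) (evp_spec hv hy))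

theorem evp_mul (hv : Rational v) {x y : F} (hx : x ∈ v.toValuationSubring)
    (hy : y ∈ v.toValuationSubring) : evp v (x * y) = evp v x * evp v y := by
  apply evp_unique
  have : x * y - algebraMap K F (evp v x * evp v y) =
      (x - algebraMap K F (evp v x)) * y + algebraMap K F (evp v x) *
        (y - algebraMap K F (evp v y)) := by
    rw [map_mul]; ring
  rw [this]
  refine (Valuation.map_add _ _ _).trans_lt (max_lt ?_ ?_)
  · rw [map_mul]
    refine (mul_le_mul' le_rfl (v.adicValuation_le_one_of_mem hy)).trans_lt ?_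
    rw [mul_one]
    exact evp_spec hv hx
  · rw [map_mul]
    refine (mul_le_mul' (v.adicValuation_algebraMap_le_one _) le_rfl).trans_lt ?_
    rw [one_mul]
    exact evp_spec hv hy

theorem evp_smul (hv : Rational v) (a : K) {x : F} (hx : x ∈ v.toValuationSubring) :
    evp v (a • x) = a * evp v x := by
  rw [Algebra.smul_def, evp_mul hv (v.algebraMap_mem' a) hx, evp_algebraMap]

theorem evp_eq_zero_iff (hv : Rational v) {x : F} (hx : x ∈ v.toValuationSubring) :
    evp v x = 0 ↔ x = 0 ∨ 0 < v.ord x := by
  rw [← adicValuation_lt_one_iff]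
  constructor
  · intro h
    have := evp_spec hv hx
    rwa [h, map_zero, sub_zero] at this
  · intro h
    exact evp_unique (by rwa [map_zero, sub_zero])

theorem evp_ne_zero_iff (hv : Rational v) {x : F} (hx : x ∈ v.toValuationSubring) :
    evp v x ≠ 0 ↔ x ≠ 0 ∧ v.ord x = 0 := by
  rw [Ne, evp_eq_zero_iff hv hx, not_or, not_lt]
  refine and_congr_right fun _ => ?_
  have := ord_nonneg_of_mem v hx
  omega

theorem evp_inv (hv : Rational v) {x : F} (hx0 : x ≠ 0) (hx : v.ord x = 0) :
    evp v x⁻¹ = (evp v x)⁻¹ := by
  have h1 : x ∈ v.toValuationSubring := mem_of_ord_nonneg v hx.ge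
  have h2 : x⁻¹ ∈ v.toValuationSubring := mem_of_ord_nonneg v (by rw [v.ord_inv, hx]; norm_num)
  have h3 := evp_mul hv h1 h2
  rw [mul_inv_cancel₀ hx0, evp_one] at h3
  exact eq_inv_of_mul_eq_one_right h3.symm

theorem evp_pow (hv : Rational v) {x : F} (hx : x ∈ v.toValuationSubring) (n : ℕ) :
    evp v (x ^ n) = evp v x ^ n := by
  induction n with
  | zero => rw [pow_zero, pow_zero, evp_one]
  | succ n ih => rw [pow_succ, pow_succ, evp_mul hv (pow_mem hx n) hx, ih]

theorem evp_sum (hv : Rational v) {α : Type*} (s : Finset α) (f : α → F)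
    (hf : ∀ i ∈ s, f i ∈ v.toValuationSubring) : evp v (∑ i ∈ s, f i) = ∑ i ∈ s, evp v (f i) := by
  classical
  induction s using Finset.induction_on with
  | empty => rw [Finset.sum_empty, Finset.sum_empty, evp_zero]
  | insert a s ha ih =>
    rw [Finset.sum_insert ha, Finset.sum_insert ha, evp_add hv (hf a (Finset.mem_insert_self _ _))
      (sum_mem fun i hi => hf i (Finset.mem_insert_of_mem hi)),
      ih fun i hi => hf i (Finset.mem_insert_of_mem hi)]

end Ev

section Deg

/-- The degree (all places having degree one). -/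
def dg : Divisor K F →+ ℤ := Finsupp.liftAddHom fun _ => AddMonoidHom.id ℤ

theorem dg_apply (D : Divisor K F) : dg D = ∑ v ∈ D.support, D v := rfl

@[simp] theorem dg_single (v : Place K F) (n : ℤ) : dg (Finsupp.single v n) = n := by
  simp [dg]

theorem dg_nonneg {D : Divisor K F} (h : 0 ≤ D) : 0 ≤ dg D := by
  rw [dg_apply]
  exact Finset.sum_nonneg fun v _ => h v

theorem dg_mono {D D' : Divisor K F} (h : D ≤ D') : dg D ≤ dg D' := by
  have := dg_nonneg (sub_nonneg.mpr h)
  rw [map_sub] at this
  omega

theorem dg_eq_sum {D : Divisor K F} {s : Finset (Place K F)} (h : ∀ v, D v ≠ 0 → v ∈ s) :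
    dg D = ∑ v ∈ s, D v := by
  rw [dg_apply]
  refine Finset.sum_subset (fun v hv => h v (Finsupp.mem_support_iff.mp hv)) fun v _ hv => ?_
  simpa using hv

open Classical in
/-- The divisor of a function. -/
def dv (f : F) : Divisor K F :=
  if h : {v : Place K F | v.ord f ≠ 0}.Finite then
    Finsupp.onFinset h.toFinset (fun v => v.ord f) fun v hv => by simpa using hv
  else 0

theorem dv_apply {f : F} (hf : FinOrd (K := K) f) (v : Place K F) : dv f v = v.ord f := by
  have hf' : {v : Place K F | v.ord f ≠ 0}.Finite := hf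
  rw [dv, dif_pos hf']
  rfl

end Deg

section Space

/-- Membership in Riemann-Roch spaces. -/
theorem mem_L {D : Divisor K F} {f : F} :
    f ∈ riemannRochSpace D ↔ ∀ v : Place K F, f = 0 ∨ -D v ≤ v.ord f := mem_riemannRochSpace_iff

theorem mem_L' {D : Divisor K F} {f : F} (hf : f ≠ 0) :
    f ∈ riemannRochSpace D ↔ ∀ v : Place K F, -D v ≤ v.ord f := by
  rw [mem_L]
  exact forall_congr' fun v => or_iff_right hf

theorem L_mono {D D' : Divisor K F} (h : D ≤ D') : riemannRochSpace D ≤ riemannRochSpace D' := by
  intro f hf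
  rw [mem_L] at hf ⊢
  intro v
  rcases hf v with h0 | h1
  · exact Or.inl h0
  · right
    have := h v
    omega

theorem mul_mem_L {D D' : Divisor K F} {f g : F} (hf : f ∈ riemannRochSpace D)
    (hg : g ∈ riemannRochSpace D') : f * g ∈ riemannRochSpace (D + D') := by
  by_cases hf0 : f = 0
  · rw [hf0, zero_mul]; exact zero_mem _
  by_cases hg0 : g = 0
  · rw [hg0, mul_zero]; exact zero_mem _
  rw [mem_L' (mul_ne_zero hf0 hg0)]
  rw [mem_L' hf0] at hf
  rw [mem_L' hg0] at hg
  intro v
  rw [v.ord_mul hf0 hg0, Finsupp.add_apply]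
  have := hf v
  have := hg v
  omega

theorem pow_mem_L {D : Divisor K F} {f : F} (hf : f ∈ riemannRochSpace D) (n : ℕ) :
    f ^ n ∈ riemannRochSpace (n • D) := by
  induction n with
  | zero =>
    rw [pow_zero, zero_smul, mem_L' one_ne_zero]
    intro v
    rw [v.ord_one]
    simp
  | succ n ih =>
    rw [pow_succ, succ_nsmul]
    exact mul_mem_L ih hf

/-- `f ↦ f g` on Riemann-Roch spaces. -/
def mulL {g : F} (hg0 : g ≠ 0) (hg : FinOrd (K := K) g) (D : Divisor K F) :
    riemannRochSpace (D + dv g) ≃ₗ[K] riemannRochSpace D where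
  toFun f := ⟨f * g, by
    by_cases hf0 : (f : F) = 0
    · rw [hf0, zero_mul]; exact zero_mem _
    rw [mem_L' (mul_ne_zero hf0 hg0)]
    have := (mem_L' hf0).mp f.2
    intro v
    have h1 := this v
    rw [Finsupp.add_apply, dv_apply hg] at h1
    rw [v.ord_mul hf0 hg0]
    omega⟩
  invFun f := ⟨f * g⁻¹, by
    by_cases hf0 : (f : F) = 0
    · rw [hf0, zero_mul]; exact zero_mem _
    rw [mem_L' (mul_ne_zero hf0 (inv_ne_zero hg0))]
    have := (mem_L' hf0).mp f.2
    intro v
    have h1 := this v
    rw [Finsupp.add_apply, dv_apply hg]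
    rw [v.ord_mul hf0 (inv_ne_zero hg0), v.ord_inv]
    omega⟩
  left_inv f := Subtype.ext (by
    change (f : F) * g * g⁻¹ = f
    rw [mul_assoc, mul_inv_cancel₀ hg0, mul_one])
  right_inv f := Subtype.ext (by
    change (f : F) * g⁻¹ * g = f
    rw [mul_assoc, inv_mul_cancel₀ hg0, mul_one])
  map_add' f f' := Subtype.ext (by
    change ((f : F) + f') * g = f * g + f' * g
    ring)
  map_smul' c f := Subtype.ext (by
    change (c • (f : F)) * g = c • (f * g)
    rw [smul_mul_assoc])

/-- linear algebra: a functional with small kernel. -/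
theorem finrank_le_add_one {V : Type*} [AddCommGroup V] [Module K V] {U W : Submodule K V}
    (φ : W →ₗ[K] K) (hφ : ∀ w, φ w = 0 → (w : V) ∈ U) [FiniteDimensional K U] :
    FiniteDimensional K W ∧ finrank K W ≤ finrank K U + 1 := by
  let i : LinearMap.ker φ →ₗ[K] U :=
    { toFun := fun w => ⟨w.1.1, hφ w.1 w.2⟩
      map_add' := fun _ _ => rfl
      map_smul' := fun _ _ => rfl }
  have hi : Function.Injective i := by
    intro a b hab
    have := congrArg Subtype.val hab
    exact Subtype.ext (Subtype.ext this)
  have h1 : FiniteDimensional K (LinearMap.ker φ) := FiniteDimensional.of_injective i hi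
  have h2 : FiniteDimensional K W := by
    have : FiniteDimensional K (W ⧸ LinearMap.ker φ) :=
      (φ.quotKerEquivRange.symm : _ ≃ₗ[K] _).finiteDimensional
    exact Module.Finite.of_submodule_quotient (LinearMap.ker φ)
  refine ⟨h2, ?_⟩
  have h3 := φ.finrank_range_add_finrank_ker
  have h4 : finrank K (LinearMap.range φ) ≤ 1 := by
    have := Submodule.finrank_le (LinearMap.range φ)
    rwa [finrank_self] at this
  have h5 := LinearMap.finrank_le_finrank_of_injective hi
  omega

/-- Adding a place increases the dimension by at most one. -/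
theorem finrank_add_single {v : Place K F} (hv : Rational v) (D : Divisor K F)
    [FiniteDimensional K (riemannRochSpace D)] :
    FiniteDimensional K (riemannRochSpace (D + Finsupp.single v 1)) ∧
    finrank K (riemannRochSpace (D + Finsupp.single v 1)) ≤ finrank K (riemannRochSpace D) + 1 := by
  classical
  obtain ⟨π, hπ⟩ := IsDiscreteValuationRing.exists_irreducible v.toValuationSubring
  have hord : v.ord (π : F) = 1 := v.ord_coe_irreducible hπ
  have hπ0 : (π : F) ≠ 0 := by
    intro h
    rw [h, v.ord_zero] at hord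
    exact absurd hord (by norm_num)
  have hmem : ∀ f ∈ riemannRochSpace (D + Finsupp.single v 1),
      f * (π : F) ^ (D v + 1) ∈ v.toValuationSubring := by
    intro f hf
    by_cases hf0 : f = 0
    · rw [hf0, zero_mul]; exact zero_mem _
    apply mem_of_ord_nonneg
    rw [v.ord_mul hf0 (zpow_ne_zero _ hπ0), v.ord_zpow, hord]
    have := (mem_L' hf0).mp hf v
    rw [Finsupp.add_apply, Finsupp.single_eq_same] at this
    omega
  let φ : riemannRochSpace (D + Finsupp.single v 1) →ₗ[K] K :=
    { toFun := fun f => evp v ((f : F) * (π : F) ^ (D v + 1))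
      map_add' := fun f g => by
        rw [← evp_add hv (hmem _ f.2) (hmem _ g.2), ← add_mul]
        rfl
      map_smul' := fun c f => by
        rw [RingHom.id_apply, smul_eq_mul, ← evp_smul hv c (hmem _ f.2), ← smul_mul_assoc]
        rfl }
  refine finrank_le_add_one φ fun f hf => ?_
  have h1 : evp v ((f : F) * (π : F) ^ (D v + 1)) = 0 := hf
  rw [evp_eq_zero_iff hv (hmem _ f.2)] at h1
  rw [mem_L]
  intro w
  by_cases hf0 : (f : F) = 0
  · exact Or.inl hf0
  right
  have h2 := (mem_L' hf0).mp f.2 w
  by_cases hw : w = v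
  · subst hw
    rcases h1 with h1 | h1
    · exact absurd h1 (mul_ne_zero hf0 (zpow_ne_zero _ hπ0))
    · rw [w.ord_mul hf0 (zpow_ne_zero _ hπ0), w.ord_zpow, hord] at h1
      omega
  · rw [Finsupp.add_apply, Finsupp.single_eq_of_ne hw] at h2
    omega

theorem finrank_add_le (hr : ∀ v : Place K F, Rational v) (n : ℕ) : ∀ (D E : Divisor K F),
    0 ≤ E → dg E = n → FiniteDimensional K (riemannRochSpace D) →
    FiniteDimensional K (riemannRochSpace (D + E)) ∧
    (finrank K (riemannRochSpace (D + E)) : ℤ) ≤ finrank K (riemannRochSpace D) + n := by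
  induction n with
  | zero =>
    intro D E hE h0 hD
    have : E = 0 := by
      ext v
      by_contra hne
      have hv : v ∈ E.support := Finsupp.mem_support_iff.mpr hne
      rw [dg_apply] at h0
      have := (Finset.sum_eq_zero_iff_of_nonneg (fun v _ => hE v)).mp (by simpa using h0) v hv
      exact hne (by simpa using this)
    rw [this, add_zero]
    exact ⟨hD, by simp⟩
  | succ n ih =>
    intro D E hE hn hD
    have hne : E ≠ 0 := by
      rintro rfl
      rw [map_zero] at hn
      push_cast at hn
      omega
    obtain ⟨v, hv⟩ := Finsupp.ne_iff.mp hne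
    have hv1 : 1 ≤ E v := by
      have := hE v
      rw [Finsupp.coe_zero, Pi.zero_apply] at hv this
      omega
    have hE' : 0 ≤ E - Finsupp.single v 1 := by
      intro w
      rw [Finsupp.sub_apply, Finsupp.coe_zero, Pi.zero_apply]
      by_cases hw : w = v
      · subst hw
        rw [Finsupp.single_eq_same]
        omega
      · rw [Finsupp.single_eq_of_ne hw]
        have := hE w
        rw [Finsupp.coe_zero, Pi.zero_apply] at this
        omega
    obtain ⟨h1, h2⟩ := ih D (E - Finsupp.single v 1) hE' (by
      rw [map_sub, hn, dg_single]; push_cast; ring) hD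
    have h3 : D + E = D + (E - Finsupp.single v 1) + Finsupp.single v 1 := by abel
    obtain ⟨h4, h5⟩ := finrank_add_single (hr v) (D + (E - Finsupp.single v 1))
    rw [h3]
    refine ⟨h4, ?_⟩
    push_cast
    omega

end Space

end Fermat.Agent.Flat
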