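import Mathlib
import Fermat.Agent.Flat.RSpace

/-!
Riemann's theorem for function fields over algebraically closed fields.
-/

set_option autoImplicit false
set_option linter.unusedSectionVars false

noncomputable section

namespace Fermat.Agent.Flat

open AlgebraicCurve IsDedekindDomain IntermediateField WithZero Module Fermat.Agent.FunField

variable {K F : Type*} [Field K] [Field F] [Algebra K F]

section Integral

/-- Functions without poles outside `t = ∞` are integral over `K[t]`. -/
theorem Sep.isIntegral {t : F} (h : Sep K t) {z : F}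
    (hz : ∀ v : Place K F, 0 ≤ v.ord t → 0 ≤ v.ord z) :
    IsIntegral (Algebra.adjoin K {t}) z := by
  have := h.fd
  have := h.sep
  have := isPrincipalIdealRing_adjoin h.trans
  have := isDedekindDomain_adjoin h.trans
  have := isFractionRing_intClosure (K := K) t
  have := isDedekindDomain_intClosure h.trans
  have h1 : z ∈ (algebraMap (intClosure K t) F).range := by
    apply HeightOneSpectrum.mem_integers_of_valuation_le_one
    intro w
    have htB : t ∈ (Place.ofHeightOneSpectrum (K := K) (F := F) w).toValuationSubring := by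
      rw [mem_place_ofHeightOne]
      exact w.valuation_le_one (K := F) (algebraMap (Algebra.adjoin K {t}) (intClosure K t) (tGen t))
    have h2 := hz _ (ord_nonneg_of_mem _ htB)
    exact mem_place_ofHeightOne.mp (mem_of_ord_nonneg _ h2)
  obtain ⟨b, rfl⟩ := h1
  exact b.2

/-- Integral elements have no poles outside `t = ∞`. -/
theorem ord_nonneg_of_isIntegral {t : F} {z : F} (hz : IsIntegral (Algebra.adjoin K {t}) z)
    (v : Place K F) (hv : 0 ≤ v.ord t) : 0 ≤ v.ord z := by
  apply ord_nonneg_of_mem
  refine mem_place_of_isIntegral v (fun a => ?_) hz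
  have h1 : Algebra.adjoin K {t} ≤ ({ v.toValuationSubring.toSubring with
      algebraMap_mem' := v.algebraMap_mem' } : Subalgebra K F) := by
    rw [Algebra.adjoin_le_iff, Set.singleton_subset_iff]
    exact mem_of_ord_nonneg v hv
  exact h1 a.2

theorem exists_const {t x : F} (ht : Transcendental K t) (h : x ∈ Algebra.adjoin K {t})
    (h' : x ∈ Algebra.adjoin K {t⁻¹}) : ∃ a : K, algebraMap K F a = x := by
  rw [Algebra.adjoin_singleton_eq_range_aeval] at h h'
  obtain ⟨p, hp⟩ := h
  obtain ⟨q, hq⟩ := h'
  have ht0 : t ≠ 0 := by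
    rintro rfl
    exact ht isAlgebraic_zero
  have hq' : Polynomial.aeval t q.reverse * (t⁻¹) ^ q.natDegree = x := by
    let _ : Invertible t⁻¹ := invertibleOfNonzero (inv_ne_zero ht0)
    have := Polynomial.eval₂_reverse_mul_pow (algebraMap K F) (t⁻¹) q
    rw [← hq]
    have h2 : ⅟(t⁻¹) = t := by rw [invOf_eq_inv, inv_inv]
    rw [h2] at this
    exact this
  have h3 : Polynomial.aeval t (p * Polynomial.X ^ q.natDegree) = Polynomial.aeval t q.reverse := by
    have hp' : Polynomial.aeval t p = x := hp
    rw [map_mul, hp', ← hq', map_pow, Polynomial.aeval_X, mul_assoc, ← mul_pow, inv_mul_cancel₀ ht0,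
      one_pow, mul_one]
  have h4 := (transcendental_iff_injective.mp ht) h3
  by_cases hp0 : p = 0
  · refine ⟨0, ?_⟩
    rw [map_zero, ← hp, hp0]
    exact (map_zero _).symm
  have h5 := congrArg Polynomial.natDegree h4
  rw [Polynomial.natDegree_mul_X_pow _ hp0] at h5
  have h6 := Polynomial.reverse_natDegree_le q
  have h7 : p.natDegree = 0 := by omega
  rw [Polynomial.eq_C_of_natDegree_eq_zero h7] at hp
  refine ⟨p.coeff 0, ?_⟩
  rw [← hp]
  exact (Polynomial.aeval_C _ _).symm

open scoped IntermediateField.algebraAdjoinAdjoin in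
theorem coeff_minpoly_mem {t : F} (h : Sep K t) {z : F}
    (hz : IsIntegral (Algebra.adjoin K {t}) z) (i : ℕ) :
    ((minpoly K⟮t⟯ z).coeff i : F) ∈ Algebra.adjoin K {t} := by
  have := h.fd
  have := isPrincipalIdealRing_adjoin h.trans
  have := isDedekindDomain_adjoin h.trans
  rw [minpoly.isIntegrallyClosed_eq_field_fractions' K⟮t⟯ hz, Polynomial.coeff_map]
  exact ((minpoly (Algebra.adjoin K {t}) z).coeff i).2

variable [IsAlgClosed K]

/-- Functions without poles are constant. -/
theorem Sep.const {t : F} (h : Sep K t) {z : F} (hz : ∀ v : Place K F, 0 ≤ v.ord z) :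
    ∃ a : K, algebraMap K F a = z := by
  have h1 := fun i => coeff_minpoly_mem h (h.isIntegral fun v _ => hz v) i
  have h2 := fun i => coeff_minpoly_mem h.inv (h.inv.isIntegral fun v _ => hz v) i
  rw [adjoin_inv_eq] at h2
  apply mem_range_of_isAlgebraic
  have := h.fd
  have hint : IsIntegral K⟮t⟯ z := Algebra.IsIntegral.isIntegral z
  have h3 : ((minpoly K⟮t⟯ z).map (algebraMap K⟮t⟯ F)) ∈ Polynomial.lifts (algebraMap K F) := by
    rw [Polynomial.lifts_iff_coeff_lifts]
    intro i
    rw [Polynomial.coeff_map]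
    exact exists_const h.trans (h1 i) (h2 i)
  obtain ⟨Q, hQ, -, hQm⟩ := Polynomial.lifts_and_natDegree_eq_and_monic h3
    ((minpoly.monic hint).map _)
  have h4 : IsIntegral K z := by
    refine ⟨Q, hQm, ?_⟩
    rw [← Polynomial.eval_map, hQ, Polynomial.eval_map, ← Polynomial.aeval_def]
    exact minpoly.aeval _ _
  exact h4.isAlgebraic

end Integral

section Polar

open Classical in
/-- The polar divisor. -/
def pol (f : F) : Divisor K F :=
  if h : {v : Place K F | v.ord f ≠ 0}.Finite then
    Finsupp.onFinset h.toFinset (fun v => max 0 (-v.ord f)) fun v hv => by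
      simp only [Set.Finite.mem_toFinset, Set.mem_ofPred_eq]
      intro h0
      rw [h0] at hv
      exact hv (by simp)
  else 0

theorem pol_apply {f : F} (hf : FinOrd (K := K) f) (v : Place K F) :
    pol f v = max 0 (-v.ord f) := by
  have hf' : {v : Place K F | v.ord f ≠ 0}.Finite := hf
  rw [pol, dif_pos hf']
  rfl

theorem mem_L_pol {f : F} (hf : FinOrd (K := K) f) : f ∈ riemannRochSpace (pol (K := K) f) := by
  rw [mem_L]
  intro v
  right
  rw [pol_apply hf]
  have := le_max_right 0 (-v.ord f)
  omega

variable [IsAlgClosed K] {t : F} (h : Sep K t)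

include h in
theorem Sep.dg_pol : dg (pol (K := K) t) = finrank K⟮t⟯ F := by
  obtain ⟨s, hs, hsum, -⟩ := h.aboveInf
  rw [dg_eq_sum (s := s), ← hsum]
  · refine Finset.sum_congr rfl fun v hv => ?_
    rw [pol_apply (h.finOrd t)]
    have := (hs v).mp hv
    exact max_eq_right (by omega)
  · intro v hv
    rw [hs]
    rw [pol_apply (h.finOrd t)] at hv
    by_contra hcon
    exact hv (max_eq_left (by omega))

include h in
theorem Sep.dg_dv_sub (c : K) : dg (dv (K := K) (t - algebraMap K F c)) = 0 := by
  classical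
  obtain ⟨s, hs, hsum, -⟩ := h.above c
  obtain ⟨s', hs', hsum', -⟩ := h.aboveInf
  have hdisj : Disjoint s s' := by
    rw [Finset.disjoint_left]
    intro v hv hv'
    rw [hs] at hv
    rw [hs'] at hv'
    rw [ord_sub_of_neg v hv'] at hv
    omega
  rw [dg_eq_sum (s := s ∪ s'), Finset.sum_union hdisj]
  · have h1 : ∑ v ∈ s, (dv (K := K) (t - algebraMap K F c)) v = finrank K⟮t⟯ F := by
      rw [← hsum]
      exact Finset.sum_congr rfl fun v _ => dv_apply (h.finOrd _) v
    have h2 : ∑ v ∈ s', (dv (K := K) (t - algebraMap K F c)) v = -finrank K⟮t⟯ F := by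
      rw [← hsum', ← Finset.sum_neg_distrib]
      refine Finset.sum_congr rfl fun v hv => ?_
      rw [dv_apply (h.finOrd _), ord_sub_of_neg v ((hs' v).mp hv), neg_neg]
    rw [h1, h2]
    ring
  · intro v hv
    rw [dv_apply (h.finOrd _)] at hv
    rw [Finset.mem_union, hs, hs']
    by_contra hcon
    push Not at hcon
    have := ord_nonneg_of_mem v (sub_mem (mem_of_ord_nonneg v hcon.2) (v.algebraMap_mem' c))
    omega

theorem dv_mul {f g : F} (hf : FinOrd (K := K) f) (hg : FinOrd (K := K) g) (hf0 : f ≠ 0)
    (hg0 : g ≠ 0) : dv (K := K) (f * g) = dv f + dv g := by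
  ext v
  rw [dv_apply (hf.mul hg hf0 hg0), Finsupp.add_apply, dv_apply hf, dv_apply hg, v.ord_mul hf0 hg0]

theorem finOrd_pow {f : F} (hf : FinOrd (K := K) f) (n : ℕ) :
    FinOrd (K := K) (f ^ n) := by
  refine hf.subset fun v hv => ?_
  rw [Set.mem_ofPred_eq, ord_pow] at hv
  intro h0
  rw [h0] at hv
  exact hv (by simp)

theorem dv_pow {f : F} (hf : FinOrd (K := K) f) (n : ℕ) :
    dv (K := K) (f ^ n) = n • dv f := by
  ext v
  rw [dv_apply (finOrd_pow hf n), ord_pow, Finsupp.smul_apply, dv_apply hf, nsmul_eq_mul]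

theorem dv_inv {f : F} (hf : FinOrd (K := K) f) : dv (K := K) f⁻¹ = - dv f := by
  ext v
  rw [dv_apply hf.inv, v.ord_inv, Finsupp.neg_apply, dv_apply hf]

theorem dv_one : dv (K := K) (1 : F) = 0 := by
  have : FinOrd (K := K) (1 : F) := by
    rw [← map_one (algebraMap K F)]
    exact finOrd_algebraMap 1
  ext v
  rw [dv_apply this, v.ord_one]
  rfl

include h in
/-- Every divisor is dominated by `n E + div h`, `h ∈ K(t)`. -/
theorem Sep.dominate (D : Divisor K F) : ∃ (n : ℕ) (a : K⟮t⟯), a ≠ 0 ∧ dg (dv (K := K) (a : F)) = 0 ∧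
    D ≤ n • pol (K := K) t + dv (a : F) := by
  have hpol : ∀ v, 0 ≤ pol (K := K) t v := fun v => by
    rw [pol_apply (h.finOrd t)]; exact le_max_left _ _
  induction D using Finsupp.induction_linear with
  | zero =>
    refine ⟨0, 1, one_ne_zero, ?_, ?_⟩
    · change dg (dv (1 : F)) = 0
      rw [dv_one, map_zero]
    · change (0 : Divisor K F) ≤ 0 • pol (K := K) t + dv (1 : F)
      rw [dv_one, zero_smul, add_zero]
  | add D D' hD hD' =>
    obtain ⟨n, a, ha, hda, hle⟩ := hD
    obtain ⟨n', a', ha', hda', hle'⟩ := hD'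
    have ha0 : (a : F) ≠ 0 := fun h0 => ha (Subtype.ext h0)
    have ha0' : (a' : F) ≠ 0 := fun h0 => ha' (Subtype.ext h0)
    refine ⟨n + n', a * a', mul_ne_zero ha ha', ?_, ?_⟩
    · change dg (dv ((a : F) * a')) = 0
      rw [dv_mul (h.finOrd _) (h.finOrd _) ha0 ha0', map_add, hda, hda', add_zero]
    · change D + D' ≤ (n + n') • pol (K := K) t + dv ((a : F) * a')
      rw [dv_mul (h.finOrd _) (h.finOrd _) ha0 ha0', add_smul]
      calc D + D' ≤ (n • pol t + dv (a : F)) + (n' • pol t + dv (a' : F)) := add_le_add hle hle'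
        _ = _ := by abel
  | single v m =>
    rcases h.exists_point v with hv | ⟨c, hc⟩
    · refine ⟨m.toNat, 1, one_ne_zero, ?_, ?_⟩
      · change dg (dv (1 : F)) = 0
        rw [dv_one, map_zero]
      · change Finsupp.single v m ≤ m.toNat • pol (K := K) t + dv (1 : F)
        rw [dv_one, add_zero]
        intro w
        rw [Finsupp.smul_apply, nsmul_eq_mul]
        by_cases hw : w = v
        · subst hw
          rw [Finsupp.single_eq_same, pol_apply (h.finOrd t)]
          have h1 : 1 ≤ max 0 (-w.ord t) := le_max_of_le_right (by omega)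
          have h2 : (0 : ℤ) ≤ m.toNat := Int.natCast_nonneg _
          have h3 : m ≤ m.toNat := Int.self_le_toNat m
          nlinarith
        · rw [Finsupp.single_eq_of_ne hw]
          have h2 : (0 : ℤ) ≤ m.toNat := Int.natCast_nonneg _
          exact mul_nonneg h2 (hpol w)
    · have hmem : t - algebraMap K F c ∈ K⟮t⟯ :=
        sub_mem (mem_adjoin_simple_self K t) (IntermediateField.algebraMap_mem _ c)
      have h0 : t - algebraMap K F c ≠ 0 := (h.sub c).ne_zero
      refine ⟨m.toNat, ⟨_, hmem⟩ ^ m.toNat, pow_ne_zero _ fun h1 => h0 (congrArg Subtype.val h1),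
        ?_, ?_⟩
      · change dg (dv ((t - algebraMap K F c) ^ m.toNat)) = 0
        rw [dv_pow (h.finOrd _), map_nsmul, h.dg_dv_sub, smul_zero]
      · change Finsupp.single v m ≤ m.toNat • pol (K := K) t + dv ((t - algebraMap K F c) ^ m.toNat)
        rw [dv_pow (h.finOrd _)]
        intro w
        rw [Finsupp.add_apply, Finsupp.smul_apply, Finsupp.smul_apply, nsmul_eq_mul, nsmul_eq_mul,
          dv_apply (h.finOrd _), ← mul_add]
        have h2 : (0 : ℤ) ≤ m.toNat := Int.natCast_nonneg _
        have h3 : m ≤ m.toNat := Int.self_le_toNat m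
        by_cases hw : w = v
        · subst hw
          rw [Finsupp.single_eq_same]
          have := hpol w
          nlinarith
        · rw [Finsupp.single_eq_of_ne hw]
          refine mul_nonneg h2 ?_
          rw [pol_apply (h.finOrd t)]
          by_cases hwt : w.ord t < 0
          · rw [ord_sub_of_neg w hwt]
            have := le_max_right 0 (-w.ord t)
            omega
          · have := ord_nonneg_of_mem w (sub_mem (mem_of_ord_nonneg w (not_lt.mp hwt))
              (w.algebraMap_mem' c))
            have h4 := le_max_left 0 (-w.ord t)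
            omega

end Polar

end Fermat.Agent.Flat
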