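import Mathlib
import Fermat.Agent.Flat.Riemann

/-!
Riemann's theorem, continued.
-/

set_option autoImplicit false
set_option linter.unusedSectionVars false

noncomputable section

namespace Fermat.Agent.Flat

open AlgebraicCurve IsDedekindDomain IntermediateField WithZero Module Fermat.Agent.FunField

variable {K F : Type*} [Field K] [Field F] [Algebra K F]

variable (K F) in
/-- The facts about the curve with function field `F` that we use; `g` is the genus. -/
structure Crv (g C : ℤ) : Prop where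
  rat : ∀ v : Place K F, Rational v
  fin : ∀ f : F, FinOrd (K := K) f
  const : ∀ z : F, (∀ v : Place K F, 0 ≤ v.ord z) → ∃ a : K, algebraMap K F a = z
  deg0 : ∀ f : F, f ≠ 0 → dg (dv (K := K) f) = 0
  fd : ∀ D : Divisor K F, FiniteDimensional K (riemannRochSpace D)
  lb : ∀ D : Divisor K F, dg D + 1 - g ≤ finrank K (riemannRochSpace D)
  rr : ∀ D : Divisor K F, C ≤ dg D → (finrank K (riemannRochSpace D) : ℤ) = dg D + 1 - g

variable [IsAlgClosed K] {t : F} (h : Sep K t)

include h in
theorem Sep.fd_L0 : FiniteDimensional K (riemannRochSpace (0 : Divisor K F)) ∧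
    finrank K (riemannRochSpace (0 : Divisor K F)) = 1 := by
  have hmem : ∀ a : K, algebraMap K F a ∈ riemannRochSpace (0 : Divisor K F) := by
    intro a
    rw [mem_L]
    intro v
    right
    rw [ord_algebraMap]
    simp
  let φ : K →ₗ[K] riemannRochSpace (0 : Divisor K F) :=
    (Algebra.linearMap K F).codRestrict _ hmem
  have hbij : Function.Bijective φ := by
    constructor
    · intro a b hab
      have := congrArg Subtype.val hab
      exact (algebraMap K F).injective this
    · rintro ⟨z, hz⟩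
      have : ∀ v : Place K F, 0 ≤ v.ord z := by
        intro v
        rcases mem_L.mp hz v with h0 | h1
        · rw [h0, v.ord_zero]
        · simpa using h1
      obtain ⟨a, ha⟩ := h.const this
      exact ⟨a, Subtype.ext ha⟩
  let e := LinearEquiv.ofBijective φ hbij
  exact ⟨e.finiteDimensional, by rw [← e.finrank_eq, finrank_self]⟩

include h in
theorem Sep.fd_L (D : Divisor K F) : FiniteDimensional K (riemannRochSpace D) := by
  have := h.fd_L0.1
  let D' : Divisor K F := Finsupp.mapRange (fun n => max 0 n) (by simp) D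
  have hD'0 : 0 ≤ D' := fun v => by
    rw [Finsupp.mapRange_apply]
    exact le_max_left _ _
  have hDD' : D ≤ D' := fun v => by
    rw [Finsupp.mapRange_apply]
    exact le_max_right _ _
  obtain ⟨h1, -⟩ := finrank_add_le h.rational (dg D').toNat 0 D' hD'0
    (by rw [Int.toNat_of_nonneg (dg_nonneg hD'0)]) this
  rw [zero_add] at h1
  exact Submodule.finiteDimensional_of_le (L_mono hDD')

/-- `s(D) = deg D - dim L(D)` is monotone. -/
theorem finrank_le_of_le (hr : ∀ v : Place K F, Rational v) {D D' : Divisor K F} (hle : D ≤ D')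
    (hfd : FiniteDimensional K (riemannRochSpace D)) :
    dg D - finrank K (riemannRochSpace D) ≤ dg D' - finrank K (riemannRochSpace D') := by
  have h0 : 0 ≤ D' - D := sub_nonneg.mpr hle
  obtain ⟨-, h2⟩ := finrank_add_le hr (dg (D' - D)).toNat D (D' - D) h0
    (by rw [Int.toNat_of_nonneg (dg_nonneg h0)]) hfd
  rw [add_sub_cancel, Int.toNat_of_nonneg (dg_nonneg h0), map_sub] at h2
  omega

include h in
theorem Sep.exists_bound_pol : ∃ C : ℤ, ∀ n : ℕ, n * dg (pol (K := K) t) -
    finrank K (riemannRochSpace (n • pol (K := K) t)) ≤ C := by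
  classical
  have := h.fd
  let N := finrank K⟮t⟯ F
  let b : Basis (Fin N) K⟮t⟯ F := finBasis K⟮t⟯ F
  -- scale the basis
  have hb : ∀ i, ∃ (n : ℕ) (a : K⟮t⟯), a ≠ 0 ∧ b i * a ∈ riemannRochSpace (n • pol (K := K) t) := by
    intro i
    obtain ⟨n, a, ha, -, hle⟩ := h.dominate (pol (b i))
    refine ⟨n, a, ha, ?_⟩
    have ha0 : (a : F) ≠ 0 := fun h0 => ha (Subtype.ext h0)
    have h1 := L_mono hle (mem_L_pol (h.finOrd (b i)))
    exact (mulL ha0 (h.finOrd _) (n • pol (K := K) t) ⟨_, h1⟩).2
  choose n a ha hba using hb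
  let M := ∑ i, n i
  have hM : ∀ i, n i ≤ M := fun i => Finset.single_le_sum (fun j _ => Nat.zero_le _)
    (Finset.mem_univ i)
  have hpol : ∀ v, 0 ≤ pol (K := K) t v := fun v => by
    rw [pol_apply (h.finOrd t)]; exact le_max_left _ _
  have hmono : ∀ {m m' : ℕ}, m ≤ m' → m • pol (K := K) t ≤ m' • pol (K := K) t := by
    intro m m' hmm v
    rw [Finsupp.smul_apply, Finsupp.smul_apply, nsmul_eq_mul, nsmul_eq_mul]
    exact mul_le_mul_of_nonneg_right (by exact_mod_cast hmm) (hpol v)
  -- independence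
  have hind1 : LinearIndependent K⟮t⟯ (fun i => b i * (a i : F)) := by
    have h1 := b.linearIndependent.units_smul (fun i => Units.mk0 (a i) (ha i))
    convert h1 using 1
    funext i
    change b i * (a i : F) = a i • b i
    rw [mul_comm]
    rfl
  have hind2 : ∀ m : ℕ, LinearIndependent K
      (fun j : Fin m => (⟨t, mem_adjoin_simple_self K t⟩ : K⟮t⟯) ^ (j : ℕ)) := by
    intro m
    have h1 : Function.Injective (Polynomial.aeval (⟨t, mem_adjoin_simple_self K t⟩ : K⟮t⟯) :
        Polynomial K →ₐ[K] K⟮t⟯) := by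
      have h2 := transcendental_iff_injective.mp h.trans
      intro p q hpq
      apply h2
      have h3 := congrArg (fun x : K⟮t⟯ => (x : F)) hpq
      have h4 : ∀ p : Polynomial K, ((Polynomial.aeval (⟨t, mem_adjoin_simple_self K t⟩ : K⟮t⟯) p :
          K⟮t⟯) : F) = Polynomial.aeval t p := fun p =>
        (Polynomial.aeval_algebraMap_apply F (⟨t, mem_adjoin_simple_self K t⟩ : K⟮t⟯) p).symm
      simpa only [h4] using h3
    have h5 : LinearIndependent K (fun j : ℕ => (Polynomial.X : Polynomial K) ^ j) := by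
      have := (Polynomial.basisMonomials K).linearIndependent
      convert this using 1
      funext j
      rw [Polynomial.coe_basisMonomials, Polynomial.X_pow_eq_monomial]
    have h6 := h5.map' (Polynomial.aeval (⟨t, mem_adjoin_simple_self K t⟩ : K⟮t⟯) :
        Polynomial K →ₐ[K] K⟮t⟯).toLinearMap (LinearMap.ker_eq_bot.mpr h1)
    have h7 := h6.comp (fun j : Fin m => (j : ℕ)) Fin.val_injective
    have h8 : (fun j : Fin m => (⟨t, mem_adjoin_simple_self K t⟩ : K⟮t⟯) ^ (j : ℕ)) =
        (((Polynomial.aeval (⟨t, mem_adjoin_simple_self K t⟩ : K⟮t⟯) :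
        Polynomial K →ₐ[K] K⟮t⟯).toLinearMap ∘ fun j : ℕ => (Polynomial.X : Polynomial K) ^ j) ∘
          fun j : Fin m => (j : ℕ)) := by
      funext j
      simp
    rw [h8]
    exact h7
  refine ⟨M * N, fun k => ?_⟩
  have hdg : dg (pol (K := K) t) = N := h.dg_pol
  have hfd := h.fd_L (k • pol (K := K) t)
  rcases lt_or_ge k M with hk | hk
  · have h1 : (k : ℤ) * dg (pol (K := K) t) ≤ M * N := by
      rw [hdg]
      exact_mod_cast Nat.mul_le_mul_right N hk.le
    have h2 : (0 : ℤ) ≤ finrank K (riemannRochSpace (k • pol (K := K) t)) := Int.natCast_nonneg _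
    omega
  · have hind := linearIndependent_smul (R := K) (hind2 (k - M)) hind1
    have hmem : ∀ p : Fin (k - M) × Fin N,
        (⟨t, mem_adjoin_simple_self K t⟩ : K⟮t⟯) ^ (p.1 : ℕ) • (b p.2 * (a p.2 : F)) ∈
          riemannRochSpace (k • pol (K := K) t) := by
      intro p
      have h1 : (⟨t, mem_adjoin_simple_self K t⟩ : K⟮t⟯) ^ (p.1 : ℕ) • (b p.2 * (a p.2 : F)) =
          t ^ (p.1 : ℕ) * (b p.2 * (a p.2 : F)) := rfl
      rw [h1]
      have h2 := mul_mem_L (pow_mem_L (mem_L_pol (h.finOrd t)) (p.1 : ℕ)) (hba p.2)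
      rw [← add_smul] at h2
      refine L_mono (hmono ?_) h2
      have := hM p.2
      have := p.1.2
      omega
    let w : Fin (k - M) × Fin N → riemannRochSpace (k • pol (K := K) t) := fun p => ⟨_, hmem p⟩
    have hw : LinearIndependent K w := by
      apply LinearIndependent.of_comp (riemannRochSpace (k • pol (K := K) t)).subtype
      exact hind
    have h3 := hw.fintype_card_le_finrank
    rw [Fintype.card_prod, Fintype.card_fin, Fintype.card_fin] at h3
    rw [hdg]
    have h4 : ((k - M : ℕ) : ℤ) = k - M := by push_cast [hk]; ring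
    have h5 : (((k - M : ℕ) * N : ℕ) : ℤ) ≤ finrank K (riemannRochSpace (k • pol (K := K) t)) := by
      exact_mod_cast h3
    rw [Nat.cast_mul, h4] at h5
    nlinarith

include h in
theorem Sep.exists_bound : ∃ C : ℤ, ∀ D : Divisor K F,
    dg D - finrank K (riemannRochSpace D) ≤ C := by
  obtain ⟨C, hC⟩ := h.exists_bound_pol
  refine ⟨C, fun D => ?_⟩
  obtain ⟨n, a, ha, hda, hle⟩ := h.dominate D
  have ha0 : (a : F) ≠ 0 := fun h0 => ha (Subtype.ext h0)
  have h1 := finrank_le_of_le h.rational hle (h.fd_L D)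
  refine h1.trans ?_
  rw [map_add, hda, add_zero, map_nsmul, nsmul_eq_mul,
    (mulL ha0 (h.finOrd _) (n • pol (K := K) t)).finrank_eq]
  exact hC n

include h in
theorem Sep.deg0 {f : F} (hf0 : f ≠ 0) : dg (dv (K := K) f) = 0 := by
  obtain ⟨C, hC⟩ := h.exists_bound
  have key : ∀ {f : F}, f ≠ 0 → dg (dv (K := K) f) ≤ 0 := by
    intro f hf0
    by_contra hcon
    push Not at hcon
    have h1 := hC ((C + 2).toNat • dv f)
    have h2 : (finrank K (riemannRochSpace ((C + 2).toNat • dv (K := K) f)) : ℤ) = 1 := by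
      rw [← dv_pow (h.finOrd f)]
      have := (mulL (pow_ne_zero (C + 2).toNat hf0) (h.finOrd _) (0 : Divisor K F)).finrank_eq
      rw [zero_add] at this
      rw [this, h.fd_L0.2]
      rfl
    rw [h2, map_nsmul, nsmul_eq_mul] at h1
    have h3 : C + 2 ≤ ((C + 2).toNat : ℤ) := Int.self_le_toNat _
    have h4 : (0 : ℤ) ≤ ((C + 2).toNat : ℤ) := Int.natCast_nonneg _
    nlinarith
  have h1 := key hf0
  have h2 := key (inv_ne_zero hf0)
  rw [dv_inv (h.finOrd f), map_neg] at h2
  omega

include h in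
/-- **Riemann's theorem.** -/
theorem Sep.exists_crv : ∃ g C : ℤ, Crv K F g C := by
  obtain ⟨B, hB⟩ := h.exists_bound
  obtain ⟨m, ⟨D₀, hD₀⟩, hmax⟩ := Int.exists_greatest_of_bdd
    (P := fun z => ∃ D : Divisor K F, dg D - finrank K (riemannRochSpace D) = z)
    ⟨B, fun z ⟨D, hD⟩ => hD ▸ hB D⟩ ⟨_, 0, rfl⟩
  have hlb : ∀ D : Divisor K F, dg D + 1 - (m + 1) ≤ finrank K (riemannRochSpace D) := by
    intro D
    have := hmax _ ⟨D, rfl⟩
    omega
  refine ⟨m + 1, dg D₀ + m + 1, h.rational, h.finOrd, fun z hz => h.const hz,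
    fun f hf => h.deg0 hf, h.fd_L, hlb, fun D hD => ?_⟩
  have h1 := hlb (D - D₀)
  rw [map_sub] at h1
  have h2 : 0 < finrank K (riemannRochSpace (D - D₀)) := by omega
  have := h.fd_L (D - D₀)
  obtain ⟨⟨f, hf⟩, hf0⟩ := (finrank_pos_iff_exists_ne_zero (R := K)).mp h2
  have hf0' : f ≠ 0 := fun h0 => hf0 (Subtype.ext h0)
  have hle : D₀ ≤ D + dv f := by
    intro v
    have := (mem_L' hf0').mp hf v
    rw [Finsupp.sub_apply] at this
    rw [Finsupp.add_apply, dv_apply (h.finOrd f)]
    omega
  have h3 := finrank_le_of_le h.rational hle (h.fd_L D₀)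
  rw [(mulL hf0' (h.finOrd f) D).finrank_eq, map_add, h.deg0 hf0', add_zero, hD₀] at h3
  have h4 := hmax _ ⟨D, rfl⟩
  omega

end Fermat.Agent.Flat
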