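import Mathlib
import Fermat.Agent.Flat.Riemann2

/-!
Sections without common zeros, multiplication of Riemann-Roch spaces.
-/

set_option autoImplicit false
set_option linter.unusedSectionVars false

noncomputable section

namespace Fermat.Agent.Flat

open AlgebraicCurve IsDedekindDomain IntermediateField WithZero Module Fermat.Agent.FunField

variable {K F : Type*} [Field K] [Field F] [Algebra K F] {g C : ℤ}

/-- upper bound for the dimension -/
theorem Crv.ub (hC : Crv K F g C) [Nonempty (Place K F)] {D : Divisor K F} {d : ℤ} (hd : C ≤ d)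
    (hD : dg D ≤ d) : (finrank K (riemannRochSpace D) : ℤ) ≤ d + 1 - g := by
  obtain ⟨v⟩ := ‹Nonempty (Place K F)›
  have h1 : D ≤ D + Finsupp.single v (d - dg D) := by
    intro w
    rw [Finsupp.add_apply]
    by_cases hw : w = v
    · subst hw; rw [Finsupp.single_eq_same]; omega
    · rw [Finsupp.single_eq_of_ne hw, add_zero]
  have := hC.fd (D + Finsupp.single v (d - dg D))
  have h2 := hC.rr (D + Finsupp.single v (d - dg D)) (by rw [map_add, dg_single]; omega)
  rw [map_add, dg_single] at h2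
  have h3 := Submodule.finrank_mono (L_mono h1)
  omega

/-- A function in a Riemann-Roch space of `D` forces `deg D ≥ 0`; more precisely. -/
theorem Crv.dg_le (hC : Crv K F g C) {D D' : Divisor K F} {f : F} (hf0 : f ≠ 0)
    (hf : ∀ v : Place K F, D' v ≤ v.ord f + D v) : dg D' ≤ dg D := by
  have h1 : D' ≤ dv f + D := by
    intro v
    rw [Finsupp.add_apply, dv_apply (hC.fin f)]
    exact hf v
  have h2 := dg_mono h1
  rwa [map_add, hC.deg0 f hf0, zero_add] at h2

theorem Crv.eq_zero_of_dg_neg (hC : Crv K F g C) {D : Divisor K F} (hD : dg D < 0) {f : F}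
    (hf : f ∈ riemannRochSpace D) : f = 0 := by
  by_contra hf0
  have := hC.dg_le (D := D) (D' := 0) hf0 fun v => by
    have := (mem_L' hf0).mp hf v
    rw [Finsupp.coe_zero, Pi.zero_apply]
    omega
  rw [map_zero] at this
  omega

/-- Functions vanishing at many places are zero. -/
theorem Crv.eq_zero_of_vanish (hC : Crv K F g C) {D : Divisor K F} {f : F}
    (hf : f ∈ riemannRochSpace D) {ι : Type*} [Fintype ι] {x : ι → Place K F}
    (hx : Function.Injective x) (h : ∀ i, f = 0 ∨ - D (x i) < (x i).ord f)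
    (hd : dg D < Fintype.card ι) : f = 0 := by
  classical
  by_contra hf0
  have h1 : dg (∑ i : ι, Finsupp.single (x i) (1 : ℤ)) ≤ dg D := by
    refine hC.dg_le hf0 fun v => ?_
    have h2 := (mem_L' hf0).mp hf v
    rw [Finsupp.finsetSum_apply]
    by_cases hv : ∃ i, x i = v
    · obtain ⟨i, rfl⟩ := hv
      rw [Finset.sum_eq_single i]
      · rw [Finsupp.single_eq_same]
        rcases h i with h0 | h3
        · exact absurd h0 hf0
        · omega
      · intro j _ hj
        exact Finsupp.single_eq_of_ne fun h => hj (hx h.symm)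
      · intro h
        exact absurd (Finset.mem_univ _) h
    · rw [Finset.sum_eq_zero]
      · omega
      · intro j _
        exact Finsupp.single_eq_of_ne fun h => hv ⟨j, h.symm⟩
  rw [map_sum] at h1
  simp only [dg_single, Finset.sum_const, Finset.card_univ, nsmul_eq_mul, mul_one] at h1
  omega

/-- Existence of sections not vanishing at given places. -/
theorem Crv.exists_section [Infinite K] (hC : Crv K F g C) {D : Divisor K F} (hD : C + 1 ≤ dg D)
    (T : Finset (Place K F)) (hne : T.Nonempty) : ∃ f ∈ riemannRochSpace D, f ≠ 0 ∧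
      ∀ v ∈ T, v.ord f = - D v := by
  classical
  have := hC.fd D
  let W := riemannRochSpace D
  let p : T → Submodule K W := fun v => (riemannRochSpace (D - Finsupp.single v.1 1)).comap W.subtype
  have hp : ∀ v, p v ≠ ⊤ := by
    intro v htop
    have hle : W ≤ riemannRochSpace (D - Finsupp.single v.1 1) := by
      intro f hf
      have : (⟨f, hf⟩ : W) ∈ p v := by rw [htop]; trivial
      exact this
    have := hC.fd (D - Finsupp.single v.1 1)
    have h1 : finrank K (riemannRochSpace D) ≤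
        finrank K (riemannRochSpace (D - Finsupp.single v.1 1)) := Submodule.finrank_mono hle
    have h2 := hC.rr D (by omega)
    have h3 := hC.rr (D - Finsupp.single v.1 1) (by rw [map_sub, dg_single]; omega)
    rw [map_sub, dg_single] at h3
    omega
  have hcov : (⋃ v, (p v : Set W)) ≠ Set.univ := by
    intro hun
    obtain ⟨v, hv⟩ := Subspace.exists_eq_top_of_iUnion_eq_univ hun
    exact hp v hv
  obtain ⟨f, hf⟩ := (Set.ne_univ_iff_exists_notMem _).mp hcov
  rw [Set.mem_iUnion, not_exists] at hf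
  have hf0 : (f : F) ≠ 0 := by
    obtain ⟨v, hv⟩ := hne
    intro h0
    apply hf ⟨v, hv⟩
    change (f : F) ∈ riemannRochSpace (D - Finsupp.single v 1)
    rw [h0]
    exact zero_mem _
  refine ⟨f, f.2, hf0, fun v hv => ?_⟩
  have h1 := (mem_L' hf0).mp f.2
  by_contra hne'
  apply hf ⟨v, hv⟩
  change (f : F) ∈ riemannRochSpace (D - Finsupp.single v 1)
  rw [mem_L' hf0]
  intro w
  have h2 := h1 w
  rw [Finsupp.sub_apply]
  by_cases hw : w = v
  · subst hw; rw [Finsupp.single_eq_same]; omega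
  · rw [Finsupp.single_eq_of_ne hw]; omega

/-- Two sections without common zeros, the first being prescribed. -/
theorem Crv.exists_pair [Infinite K] (hC : Crv K F g C) [Nonempty (Place K F)] {E : Divisor K F}
    (hE : C + 1 ≤ dg E) : ∃ h₁ ∈ riemannRochSpace E, ∃ h₂ ∈ riemannRochSpace E, h₁ ≠ 0 ∧ h₂ ≠ 0 ∧
      ∀ v : Place K F, v.ord h₁ = - E v ∨ v.ord h₂ = - E v := by
  classical
  obtain ⟨v₀⟩ := ‹Nonempty (Place K F)›
  obtain ⟨h₁, h1, h10, -⟩ := hC.exists_section hE {v₀} ⟨v₀, Finset.mem_singleton_self _⟩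
  have hfin : {v : Place K F | v.ord h₁ ≠ - E v}.Finite := by
    refine ((hC.fin h₁).union E.support.finite_toSet).subset fun v hv => ?_
    by_contra hcon
    rw [Set.mem_union, not_or] at hcon
    obtain ⟨ha, hb⟩ := hcon
    rw [Set.mem_ofPred_eq, not_not] at ha
    rw [Finset.mem_coe, Finsupp.notMem_support_iff] at hb
    exact hv (by rw [ha, hb]; rfl)
  obtain ⟨h₂, h2, h20, hz⟩ := hC.exists_section hE (insert v₀ hfin.toFinset)
    ⟨v₀, Finset.mem_insert_self _ _⟩
  refine ⟨h₁, h1, h₂, h2, h10, h20, fun v => ?_⟩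
  by_cases hv : v.ord h₁ = - E v
  · exact Or.inl hv
  · right
    exact hz v (Finset.mem_insert_of_mem (by rw [Set.Finite.mem_toFinset]; exact hv))

/-- **Multiplication**: `L(D) h₁ + L(D) h₂ = L(D + E)`. -/
theorem Crv.mul_surj (hC : Crv K F g C) {D E : Divisor K F} (hD : C ≤ dg D)
    (hDE : C ≤ dg (D - E)) (hDE' : C ≤ dg (D + E)) {h₁ h₂ : F} (h1 : h₁ ∈ riemannRochSpace E)
    (h2 : h₂ ∈ riemannRochSpace E) (h10 : h₁ ≠ 0) (h20 : h₂ ≠ 0)
    (h12 : ∀ v : Place K F, v.ord h₁ = - E v ∨ v.ord h₂ = - E v) {z : F}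
    (hz : z ∈ riemannRochSpace (D + E)) :
    ∃ a ∈ riemannRochSpace D, ∃ b ∈ riemannRochSpace D, z = a * h₁ + b * h₂ := by
  have := hC.fd D
  have := hC.fd (D + E)
  have := hC.fd (D - E)
  let φ : riemannRochSpace D × riemannRochSpace D →ₗ[K] riemannRochSpace (D + E) :=
    { toFun := fun p => ⟨p.1 * h₁ + p.2 * h₂, add_mem (mul_mem_L p.1.2 h1) (mul_mem_L p.2.2 h2)⟩
      map_add' := fun p q => Subtype.ext (by
        change ((p.1 : F) + q.1) * h₁ + ((p.2 : F) + q.2) * h₂ = p.1 * h₁ + p.2 * h₂ +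
          (q.1 * h₁ + q.2 * h₂)
        ring)
      map_smul' := fun c p => Subtype.ext (by
        change (c • (p.1 : F)) * h₁ + (c • (p.2 : F)) * h₂ = c • ((p.1 : F) * h₁ + p.2 * h₂)
        rw [smul_add, smul_mul_assoc, smul_mul_assoc]) }
  have hker : ∀ p : LinearMap.ker φ, (p.1.1 : F) * h₂⁻¹ ∈ riemannRochSpace (D - E) := by
    rintro ⟨⟨⟨a, ha⟩, ⟨b, hb⟩⟩, hp⟩
    have hp' : a * h₁ + b * h₂ = 0 := congrArg Subtype.val (LinearMap.mem_ker.mp hp)
    change a * h₂⁻¹ ∈ _
    by_cases ha0 : a = 0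
    · rw [ha0, zero_mul]; exact zero_mem _
    have hb0 : b ≠ 0 := by
      rintro rfl
      rw [zero_mul, add_zero] at hp'
      exact (mul_ne_zero ha0 h10) hp'
    have hab : a * h₂⁻¹ = - (b * h₁⁻¹) := by
      field_simp
      linear_combination hp'
    rw [mem_L' (mul_ne_zero ha0 (inv_ne_zero h20))]
    intro v
    rw [Finsupp.sub_apply]
    rcases h12 v with hv | hv
    · have := (mem_L' hb0).mp hb v
      rw [hab, ord_neg, v.ord_mul hb0 (inv_ne_zero h10), v.ord_inv, hv]
      omega
    · have := (mem_L' ha0).mp ha v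
      rw [v.ord_mul ha0 (inv_ne_zero h20), v.ord_inv, hv]
      omega
  let ψ : LinearMap.ker φ →ₗ[K] riemannRochSpace (D - E) :=
    { toFun := fun p => ⟨_, hker p⟩
      map_add' := fun p q => Subtype.ext (by
        change ((p.1.1 : F) + q.1.1) * h₂⁻¹ = p.1.1 * h₂⁻¹ + q.1.1 * h₂⁻¹
        ring)
      map_smul' := fun c p => Subtype.ext (by
        change (c • (p.1.1 : F)) * h₂⁻¹ = c • ((p.1.1 : F) * h₂⁻¹)
        rw [smul_mul_assoc]) }
  have hψ : Function.Injective ψ := by
    rw [injective_iff_map_eq_zero]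
    rintro ⟨⟨⟨a, ha⟩, ⟨b, hb⟩⟩, hp⟩ h0
    have hp' : a * h₁ + b * h₂ = 0 := congrArg Subtype.val (LinearMap.mem_ker.mp hp)
    have h1' : a * h₂⁻¹ = 0 := congrArg Subtype.val h0
    have ha0 : a = 0 := by
      rcases mul_eq_zero.mp h1' with h | h
      · exact h
      · exact absurd h (inv_ne_zero h20)
    subst ha0
    have hb0 : b = 0 := by
      rw [zero_mul, zero_add] at hp'
      rcases mul_eq_zero.mp hp' with h | h
      · exact h
      · exact absurd h h20
    subst hb0
    rfl
  have hdim := φ.finrank_range_add_finrank_ker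
  have hk := LinearMap.finrank_le_finrank_of_injective hψ
  rw [finrank_prod] at hdim
  have r1 := hC.rr D hD
  have r2 := hC.rr _ hDE
  have r3 := hC.rr _ hDE'
  rw [map_sub] at r2
  rw [map_add] at r3
  have htop : LinearMap.range φ = ⊤ := by
    apply Submodule.eq_top_of_finrank_eq
    have := Submodule.finrank_le (LinearMap.range φ)
    omega
  obtain ⟨⟨a, b⟩, hab⟩ := LinearMap.range_eq_top.mp htop ⟨z, hz⟩
  exact ⟨a, a.2, b, b.2, (congrArg Subtype.val hab).symm⟩

/-- **Colon**: `x L(E) ⊆ L(D + E)` implies `x ∈ L(D)`. -/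
theorem Crv.colon [Infinite K] (hC : Crv K F g C) {D E : Divisor K F} (hE : C + 1 ≤ dg E) {x : F}
    (hx : ∀ e ∈ riemannRochSpace E, x * e ∈ riemannRochSpace (D + E)) :
    x ∈ riemannRochSpace D := by
  by_cases hx0 : x = 0
  · rw [hx0]; exact zero_mem _
  rw [mem_L' hx0]
  intro v
  obtain ⟨e, he, he0, hev⟩ := hC.exists_section hE {v} ⟨v, Finset.mem_singleton_self _⟩
  have h1 := (mem_L' (mul_ne_zero hx0 he0)).mp (hx e he) v
  rw [v.ord_mul hx0 he0, hev v (Finset.mem_singleton_self _), Finsupp.add_apply] at h1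
  omega

end Fermat.Agent.Flat
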