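import Mathlib
import Fermat.Agent.Flat.Mult
import Fermat.Agent.Flat.Rat

/-!
Evaluation spaces: the twisted evaluations of the sections of `L(D + nE)`, `m D = div f`, at
given points.
-/

set_option autoImplicit false
set_option linter.unusedSectionVars false

noncomputable section

namespace Fermat.Agent.Flat

open AlgebraicCurve IsDedekindDomain IntermediateField WithZero Module Fermat.Agent.FunField

variable {K F : Type*} [Field K] [Field F] [Algebra K F] {g C : ℤ}
  {ι : Type*} [Fintype ι] [DecidableEq ι]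

/-- `(1/m) div f` -/
def dm (m : ℕ) (f : F) : Divisor K F := (dv f).mapRange (fun n => n / (m : ℤ)) (by simp)

/-- `f` has divisor divisible by `m`, is invertible at the points `x i` with value `η i ^ m`. -/
structure Adm (m : ℕ) (x : ι → Place K F) (f : F) (η : ι → K) : Prop where
  ne : f ≠ 0
  dvd : ∀ v : Place K F, (m : ℤ) ∣ v.ord f
  ord : ∀ i, (x i).ord f = 0
  pow : ∀ i, evp (x i) f = η i ^ m

variable {m : ℕ} {x : ι → Place K F} {E : Divisor K F} {f f' u : F} {η η' : ι → K}

theorem dm_apply (hC : Crv K F g C) (v : Place K F) : dm m f v = v.ord f / m := by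
  rw [dm, Finsupp.mapRange_apply, dv_apply (hC.fin f)]

theorem Adm.dm_mul (hC : Crv K F g C) (h : Adm m x f η) (h' : Adm m x f' η') :
    dm (K := K) m (f * f') = dm m f + dm m f' := by
  ext v
  rw [Finsupp.add_apply, dm_apply hC, dm_apply hC, dm_apply hC, v.ord_mul h.ne h'.ne,
    Int.add_ediv_of_dvd_left (h.dvd v)]

theorem dm_one (hC : Crv K F g C) : dm (K := K) m (1 : F) = 0 := by
  ext v
  rw [dm_apply hC, v.ord_one]
  simp

theorem Adm.mul_dm (hC : Crv K F g C) (h : Adm m x f η) (v : Place K F) :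
    (m : ℤ) * dm m f v = v.ord f := by
  rw [dm_apply hC]
  exact Int.mul_ediv_cancel' (h.dvd v)

theorem Adm.smul_dm (hC : Crv K F g C) (h : Adm m x f η) : m • dm (K := K) m f = dv f := by
  ext v
  rw [Finsupp.smul_apply, nsmul_eq_mul, h.mul_dm hC, dv_apply (hC.fin f)]

theorem Adm.dg_dm (hC : Crv K F g C) (hm : m ≠ 0) (h : Adm m x f η) : dg (dm (K := K) m f) = 0 := by
  have h1 := congrArg dg (h.smul_dm hC)
  rw [map_nsmul, hC.deg0 f h.ne, nsmul_eq_mul] at h1
  rcases mul_eq_zero.mp h1 with h2 | h2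
  · exact absurd (by exact_mod_cast h2) hm
  · exact h2

theorem Adm.dm_x (hC : Crv K F g C) (h : Adm m x f η) (i : ι) : dm m f (x i) = 0 := by
  rw [dm_apply hC, h.ord]
  simp

theorem Adm.eta_ne (hC : Crv K F g C) (hm : m ≠ 0) (h : Adm m x f η) (i : ι) : η i ≠ 0 := by
  intro h0
  have h1 := h.pow i
  rw [h0, zero_pow hm, evp_eq_zero_iff (hC.rat _) (mem_of_ord_nonneg _ (h.ord i).ge)] at h1
  rcases h1 with h1 | h1
  · exact h.ne h1
  · have := h.ord i
    omega

theorem Adm.mul (hC : Crv K F g C) (h : Adm m x f η) (h' : Adm m x f' η') :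
    Adm m x (f * f') (η * η') where
  ne := mul_ne_zero h.ne h'.ne
  dvd v := by rw [v.ord_mul h.ne h'.ne]; exact dvd_add (h.dvd v) (h'.dvd v)
  ord i := by rw [(x i).ord_mul h.ne h'.ne, h.ord, h'.ord, add_zero]
  pow i := by
    rw [evp_mul (hC.rat _) (mem_of_ord_nonneg _ (h.ord i).ge) (mem_of_ord_nonneg _ (h'.ord i).ge),
      h.pow, h'.pow, Pi.mul_apply, mul_pow]

theorem Adm.one : Adm m x (1 : F) (1 : ι → K) where
  ne := one_ne_zero
  dvd v := by rw [v.ord_one]; exact dvd_zero _
  ord i := (x i).ord_one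
  pow i := by rw [evp_one, Pi.one_apply, one_pow]

theorem Adm.of_pow (hC : Crv K F g C) (hu : u ≠ 0) (hux : ∀ i, (x i).ord u = 0) :
    Adm m x (u ^ m) (fun i => evp (x i) u) where
  ne := pow_ne_zero _ hu
  dvd v := by rw [ord_pow]; exact dvd_mul_right _ _
  ord i := by rw [ord_pow, hux, mul_zero]
  pow i := evp_pow (hC.rat _) (mem_of_ord_nonneg _ (hux i).ge) m

variable (m x E f η) in
/-- The evaluation space. -/
def Wz (n : ℕ) : Submodule K (ι → K) :=
  Submodule.span K {y | ∃ g ∈ riemannRochSpace (dm m f + n • E), ∀ i, y i = evp (x i) g * η i}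

/-- the elements of the spaces are regular at the points -/
theorem Adm.reg (hC : Crv K F g C) (hE : ∀ i, E (x i) = 0) (h : Adm m x f η) {n : ℕ} {z : F}
    (hz : z ∈ riemannRochSpace (dm m f + n • E)) (i : ι) : z ∈ (x i).toValuationSubring := by
  apply mem_of_ord_nonneg
  rcases mem_L.mp hz (x i) with h0 | h1
  · rw [h0, (x i).ord_zero]
  · rw [Finsupp.add_apply, Finsupp.smul_apply, h.dm_x hC, hE] at h1
    simpa using h1

theorem Adm.mem_Wz (hC : Crv K F g C) (hE : ∀ i, E (x i) = 0) (h : Adm m x f η) {n : ℕ}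
    {y : ι → K} : y ∈ Wz m x E f η n ↔
      ∃ g ∈ riemannRochSpace (dm m f + n • E), ∀ i, y i = evp (x i) g * η i := by
  constructor
  · intro hy
    induction hy using Submodule.span_induction with
    | mem y hy => exact hy
    | zero => exact ⟨0, zero_mem _, fun i => by rw [evp_zero, zero_mul]; rfl⟩
    | add y z _ _ hy hz =>
      obtain ⟨a, ha, hay⟩ := hy
      obtain ⟨b, hb, hbz⟩ := hz
      refine ⟨a + b, add_mem ha hb, fun i => ?_⟩
      rw [evp_add (hC.rat _) (h.reg hC hE ha i) (h.reg hC hE hb i), Pi.add_apply, hay, hbz]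
      ring
    | smul c y _ hy =>
      obtain ⟨a, ha, hay⟩ := hy
      refine ⟨c • a, Submodule.smul_mem _ _ ha, fun i => ?_⟩
      rw [evp_smul (hC.rat _) c (h.reg hC hE ha i), Pi.smul_apply, hay, smul_eq_mul]
      ring
  · exact fun hy => Submodule.subset_span hy

/-- The evaluation map. -/
def Adm.evL (hC : Crv K F g C) (hE : ∀ i, E (x i) = 0) (h : Adm m x f η) (n : ℕ) :
    riemannRochSpace (dm m f + n • E) →ₗ[K] Wz m x E f η n where
  toFun z := ⟨fun i => evp (x i) (z : F) * η i, Submodule.subset_span ⟨z, z.2, fun _ => rfl⟩⟩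
  map_add' a b := Subtype.ext (by
    funext i
    change evp (x i) ((a : F) + b) * η i = evp (x i) (a : F) * η i + evp (x i) (b : F) * η i
    rw [evp_add (hC.rat _) (h.reg hC hE a.2 i) (h.reg hC hE b.2 i), add_mul])
  map_smul' c a := Subtype.ext (by
    funext i
    change evp (x i) (c • (a : F)) * η i = c * (evp (x i) (a : F) * η i)
    rw [evp_smul (hC.rat _) c (h.reg hC hE a.2 i), mul_assoc])

theorem Adm.evL_surjective (hC : Crv K F g C) (hE : ∀ i, E (x i) = 0) (h : Adm m x f η) (n : ℕ) :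
    Function.Surjective (h.evL hC hE n) := by
  rintro ⟨y, hy⟩
  obtain ⟨a, ha, hay⟩ := (h.mem_Wz hC hE).mp hy
  exact ⟨⟨a, ha⟩, Subtype.ext (funext fun i => (hay i).symm)⟩

theorem Adm.dg_add (hC : Crv K F g C) (hm : m ≠ 0) (h : Adm m x f η) (n : ℕ) :
    dg (dm m f + n • E) = n * dg E := by
  rw [map_add, h.dg_dm hC hm, zero_add, map_nsmul, nsmul_eq_mul]

/-- Evaluation at enough points is injective. -/
theorem Adm.eq_zero_of_evp (hC : Crv K F g C) (hm : m ≠ 0) (hE : ∀ i, E (x i) = 0)
    (hx : Function.Injective x) (h : Adm m x f η) {n : ℕ} (hn : n * dg E < Fintype.card ι) {z : F}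
    (hz : z ∈ riemannRochSpace (dm m f + n • E)) (h0 : ∀ i, evp (x i) z = 0) : z = 0 := by
  refine hC.eq_zero_of_vanish hz hx (fun i => ?_) (by rw [h.dg_add hC hm]; exact hn)
  have h1 := h0 i
  rw [evp_eq_zero_iff (hC.rat _) (h.reg hC hE hz i)] at h1
  rw [Finsupp.add_apply, Finsupp.smul_apply, h.dm_x hC, hE]
  simpa using h1

theorem Adm.finrank_Wz (hC : Crv K F g C) (hm : m ≠ 0) (hE : ∀ i, E (x i) = 0)
    (hx : Function.Injective x) (h : Adm m x f η) {n : ℕ} (hn : n * dg E < Fintype.card ι)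
    (hn' : C ≤ n * dg E) : (finrank K (Wz m x E f η n) : ℤ) = n * dg E + 1 - g := by
  have hinj : Function.Injective (h.evL hC hE n) := by
    rw [injective_iff_map_eq_zero]
    intro z hz
    apply Subtype.ext
    refine h.eq_zero_of_evp hC hm hE hx hn z.2 fun i => ?_
    have h1 := congrFun (congrArg Subtype.val hz) i
    change evp (x i) (z : F) * η i = 0 at h1
    exact (mul_eq_zero.mp h1).resolve_right (h.eta_ne hC hm i)
  have e := LinearEquiv.ofBijective (h.evL hC hE n) ⟨hinj, h.evL_surjective hC hE n⟩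
  rw [← e.finrank_eq, hC.rr _ (by rw [h.dg_add hC hm]; exact hn'), h.dg_add hC hm]

/-- The spaces only depend on the class. -/
theorem Adm.Wz_congr (hC : Crv K F g C) (hm : m ≠ 0) (hE : ∀ i, E (x i) = 0) (h : Adm m x f η)
    (hu : u ≠ 0) (hux : ∀ i, (x i).ord u = 0) (n : ℕ) :
    Wz m x E (f * u ^ m) (η * fun i => evp (x i) u) n = Wz m x E f η n := by
  have key : ∀ {f u : F} {η : ι → K} (_ : Adm m x f η) (_ : u ≠ 0) (_ : ∀ i, (x i).ord u = 0),
      Wz m x E (f * u ^ m) (η * fun i => evp (x i) u) n ≤ Wz m x E f η n := by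
    intro f u η h hu hux y hy
    have h2 := h.mul hC (Adm.of_pow (m := m) hC hu hux)
    obtain ⟨a, ha, hay⟩ := (h2.mem_Wz hC hE).mp hy
    rw [h.mem_Wz hC hE]
    refine ⟨a * u, ?_, fun i => ?_⟩
    · by_cases ha0 : a = 0
      · rw [ha0, zero_mul]; exact zero_mem _
      rw [mem_L' (mul_ne_zero ha0 hu)]
      intro v
      have h3 := (mem_L' ha0).mp ha v
      rw [h.dm_mul hC (Adm.of_pow (m := m) hC hu hux), Finsupp.add_apply, Finsupp.add_apply,
        dm_apply hC (f := u ^ m), ord_pow, Int.mul_ediv_cancel_left _ (by exact_mod_cast hm)] at h3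
      rw [v.ord_mul ha0 hu, Finsupp.add_apply]
      omega
    · rw [hay, evp_mul (hC.rat _) (h2.reg hC hE ha i) (mem_of_ord_nonneg _ (hux i).ge), Pi.mul_apply]
      ring
  refine le_antisymm (key h hu hux) ?_
  have h2 := h.mul hC (Adm.of_pow (m := m) hC hu hux)
  have h3 := key h2 (inv_ne_zero hu) (fun i => by rw [(x i).ord_inv, hux, neg_zero])
  have h4 : f * u ^ m * u⁻¹ ^ m = f := by
    rw [mul_assoc, ← mul_pow, mul_inv_cancel₀ hu, one_pow, mul_one]
  have h5 : (η * (fun i => evp (x i) u) * fun i => evp (x i) u⁻¹) = η := by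
    funext i
    rw [Pi.mul_apply, Pi.mul_apply, evp_inv (hC.rat _) hu (hux i), mul_assoc, mul_inv_cancel₀,
      mul_one]
    exact (evp_ne_zero_iff (hC.rat _) (mem_of_ord_nonneg _ (hux i).ge)).mpr ⟨hu, hux i⟩
  rwa [h4, h5] at h3

theorem Adm.Wz_mul_le (hC : Crv K F g C) (hE : ∀ i, E (x i) = 0) (h : Adm m x f η)
    (h' : Adm m x f' η') (n n' : ℕ) :
    Wz m x E f η n * Wz m x E f' η' n' ≤ Wz m x E (f * f') (η * η') (n + n') := by
  rw [Submodule.mul_le]
  intro y hy z hz
  obtain ⟨a, ha, hay⟩ := (h.mem_Wz hC hE).mp hy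
  obtain ⟨b, hb, hbz⟩ := (h'.mem_Wz hC hE).mp hz
  rw [(h.mul hC h').mem_Wz hC hE]
  refine ⟨a * b, ?_, fun i => ?_⟩
  · have h1 := mul_mem_L ha hb
    have h2 : dm (K := K) m f + n • E + (dm m f' + n' • E) = dm m (f * f') + (n + n') • E := by
      rw [h.dm_mul hC h', add_smul]; abel
    rwa [h2] at h1
  · rw [Pi.mul_apply, hay, hbz, evp_mul (hC.rat _) (h.reg hC hE ha i) (h'.reg hC hE hb i),
      Pi.mul_apply]
    ring

theorem Adm.Wz_mul [Infinite K] [Nonempty (Place K F)] (hC : Crv K F g C) (hm : m ≠ 0)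
    (hE : ∀ i, E (x i) = 0) (h : Adm m x f η)
    (h' : Adm m x f' η') {n n' : ℕ} (hn : C ≤ n * dg E) (hn' : C + 1 ≤ n' * dg E)
    (hnn : C ≤ (n - n' : ℤ) * dg E) (hE0 : 0 ≤ dg E) :
    Wz m x E f η n * Wz m x E f' η' n' = Wz m x E (f * f') (η * η') (n + n') := by
  refine le_antisymm (h.Wz_mul_le hC hE h' n n') fun y hy => ?_
  obtain ⟨z, hz, hzy⟩ := ((h.mul hC h').mem_Wz hC hE).mp hy
  have e2 : dm (K := K) m (f * f') + (n + n') • E = dm m f + n • E + (dm m f' + n' • E) := by
    rw [h.dm_mul hC h', add_smul]; abel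
  rw [e2] at hz
  obtain ⟨h₁, h1, h₂, h2, h10, h20, h12⟩ := hC.exists_pair (E := dm m f' + n' • E)
    (by rw [h'.dg_add hC hm]; exact hn')
  have hn0 : (0 : ℤ) ≤ n' := Int.natCast_nonneg _
  obtain ⟨a, ha, b, hb, hab⟩ := hC.mul_surj (D := dm m f + n • E) (E := dm m f' + n' • E)
    (by rw [h.dg_add hC hm]; exact hn)
    (by rw [map_sub, h.dg_add hC hm, h'.dg_add hC hm]; linarith)
    (by rw [map_add, h.dg_add hC hm, h'.dg_add hC hm]; nlinarith) h1 h2 h10 h20 h12 hz
  have key : ∀ {a e : F}, a ∈ riemannRochSpace (dm m f + n • E) →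
      e ∈ riemannRochSpace (dm m f' + n' • E) →
      (fun i => evp (x i) (a * e) * (η i * η' i)) ∈ Wz m x E f η n * Wz m x E f' η' n' := by
    intro a e ha he
    have : (fun i => evp (x i) (a * e) * (η i * η' i)) =
        (fun i => evp (x i) a * η i) * (fun i => evp (x i) e * η' i) := by
      funext i
      rw [Pi.mul_apply, evp_mul (hC.rat _) (h.reg hC hE ha i) (h'.reg hC hE he i)]
      ring
    rw [this]
    exact Submodule.mul_mem_mul (Submodule.subset_span ⟨a, ha, fun _ => rfl⟩)
      (Submodule.subset_span ⟨e, he, fun _ => rfl⟩)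
  have : y = (fun i => evp (x i) (a * h₁) * (η i * η' i)) +
      fun i => evp (x i) (b * h₂) * (η i * η' i) := by
    funext i
    rw [hzy, hab, Pi.add_apply, evp_add (hC.rat _)
      (mul_mem (h.reg hC hE ha i) (h'.reg hC hE h1 i))
      (mul_mem (h.reg hC hE hb i) (h'.reg hC hE h2 i)), Pi.mul_apply]
    ring
  rw [this]
  exact add_mem (key ha h1) (key hb h2)

/-- Colon property of the evaluation spaces. -/
theorem Adm.Wz_colon [Infinite K] [Nonempty (Place K F)] (hC : Crv K F g C) (hm : m ≠ 0)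
    (hE : ∀ i, E (x i) = 0) (hx : Function.Injective x) (h : Adm m x f η) {n s : ℕ}
    (hs : C + 1 ≤ s * dg E) (hr : (n + 2 * s) * dg E < Fintype.card ι) :
    colon (Wz m x E 1 1 s) (Wz m x E f η (n + s)) = Wz m x E f η n := by
  have hone : Adm m x (1 : F) (1 : ι → K) := Adm.one
  apply le_antisymm
  · intro y hy
    obtain ⟨h₁, h1, h₂, h2, h10, h20, h12⟩ := hC.exists_pair (E := dm m 1 + s • E)
      (by rw [hone.dg_add hC hm]; exact hs)
    have key : ∀ e ∈ riemannRochSpace (dm (K := K) m (1 : F) + s • E),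
        ∃ a ∈ riemannRochSpace (dm (K := K) m f + (n + s) • E),
          ∀ i, y i * evp (x i) e = evp (x i) a * η i := by
      intro e he
      have h3 := hy (fun i => evp (x i) e * (1 : ι → K) i)
        (Submodule.subset_span ⟨e, he, fun _ => rfl⟩)
      obtain ⟨a, ha, hay⟩ := (h.mem_Wz hC hE).mp h3
      refine ⟨a, ha, fun i => ?_⟩
      rw [← hay, Pi.mul_apply, Pi.one_apply, mul_one]
    obtain ⟨a, ha, hay⟩ := key h₁ h1
    obtain ⟨b, hb, hby⟩ := key h₂ h2
    have hdm1 : dm (K := K) m (1 : F) = 0 := dm_one hC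
    have hz : a * h₂ - b * h₁ = 0 := by
      refine h.eq_zero_of_evp (n := n + 2 * s) hC hm hE hx (by push_cast; exact hr) (sub_mem ?_ ?_)
        fun i => ?_
      · have := mul_mem_L ha h2
        rw [hdm1, zero_add, add_assoc, ← add_smul] at this
        convert this using 3
        ring
      · have := mul_mem_L hb h1
        rw [hdm1, zero_add, add_assoc, ← add_smul] at this
        convert this using 3
        ring
      · have r1 := h.reg hC hE ha i
        have r2 := h.reg hC hE hb i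
        have r3 := hone.reg hC hE h1 i
        have r4 := hone.reg hC hE h2 i
        rw [sub_eq_add_neg, ← neg_mul, evp_add (hC.rat _) (mul_mem r1 r4) (mul_mem (neg_mem r2) r3),
          evp_mul (hC.rat _) r1 r4, evp_mul (hC.rat _) (neg_mem r2) r3]
        have h5 : evp (x i) (-b) = - evp (x i) b := by
          have := evp_smul (hC.rat (x i)) (-1) r2
          rwa [neg_one_smul, neg_one_mul] at this
        rw [h5]
        have h6 := hay i
        have h7 := hby i
        have hη := h.eta_ne hC hm i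
        apply mul_right_cancel₀ hη
        linear_combination (-evp (x i) h₂) * h6 + evp (x i) h₁ * h7
    have hab : a * h₁⁻¹ = b * h₂⁻¹ := by
      field_simp
      linear_combination hz
    rw [h.mem_Wz hC hE]
    have hreg : a * h₁⁻¹ ∈ riemannRochSpace (dm (K := K) m f + n • E) := by
      by_cases ha0 : a = 0
      · rw [ha0, zero_mul]; exact zero_mem _
      have hb0 : b ≠ 0 := by
        rintro rfl
        rw [zero_mul] at hab
        exact (mul_ne_zero ha0 (inv_ne_zero h10)) hab
      rw [mem_L' (mul_ne_zero ha0 (inv_ne_zero h10))]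
      intro v
      rw [Finsupp.add_apply, Finsupp.smul_apply]
      rcases h12 v with hv | hv
      · have h3 := (mem_L' ha0).mp ha v
        rw [Finsupp.add_apply, Finsupp.smul_apply, add_smul] at h3
        rw [Finsupp.add_apply, Finsupp.smul_apply, hdm1, Finsupp.coe_zero, Pi.zero_apply,
          zero_add] at hv
        rw [v.ord_mul ha0 (inv_ne_zero h10), v.ord_inv, hv]
        omega
      · have h3 := (mem_L' hb0).mp hb v
        rw [Finsupp.add_apply, Finsupp.smul_apply, add_smul] at h3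
        rw [Finsupp.add_apply, Finsupp.smul_apply, hdm1, Finsupp.coe_zero, Pi.zero_apply,
          zero_add] at hv
        rw [hab, v.ord_mul hb0 (inv_ne_zero h20), v.ord_inv, hv]
        omega
    refine ⟨_, hreg, fun i => ?_⟩
    have hzr := h.reg hC hE hreg i
    have fin : ∀ {a e : F}, e ∈ (x i).toValuationSubring → e ≠ 0 → (x i).ord e = 0 →
        (∀ i, y i * evp (x i) e = evp (x i) a * η i) → a * e⁻¹ ∈ (x i).toValuationSubring →
        y i = evp (x i) (a * e⁻¹) * η i := by
      intro a e her he0 heo hay hreg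
      have h8 : evp (x i) e ≠ 0 := (evp_ne_zero_iff (hC.rat _) her).mpr ⟨he0, heo⟩
      apply mul_right_cancel₀ h8
      rw [hay i]
      have h9 : a = (a * e⁻¹) * e := by rw [mul_assoc, inv_mul_cancel₀ he0, mul_one]
      conv_lhs => rw [h9, evp_mul (hC.rat _) hreg her]
      ring
    rcases h12 (x i) with hv | hv
    · rw [Finsupp.add_apply, Finsupp.smul_apply, hE, hone.dm_x hC] at hv
      exact fin (hone.reg hC hE h1 i) h10 (by simpa using hv) hay hzr
    · rw [Finsupp.add_apply, Finsupp.smul_apply, hE, hone.dm_x hC] at hv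
      rw [hab]
      exact fin (hone.reg hC hE h2 i) h20 (by simpa using hv) hby (hab ▸ hzr)
  · intro y hy
    rw [mem_colon]
    intro e he
    have := h.Wz_mul_le hC hE hone n s (Submodule.mul_mem_mul hy he)
    rwa [mul_one, mul_one] at this

/-- The evaluation spaces determine the class. -/
theorem Adm.Wz_inj [Infinite K] [Nonempty (Place K F)] (hC : Crv K F g C) (hm : m ≠ 0)
    (hE : ∀ i, E (x i) = 0) (hx : Function.Injective x) (h : Adm m x f η) (h' : Adm m x f' η')
    {n : ℕ} (hn : C + 1 ≤ n * dg E) (hr : (2 * n) * dg E < Fintype.card ι)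
    (heq : Wz m x E f η n = Wz m x E f' η' n) :
    ∃ u : F, u ≠ 0 ∧ (∀ i, (x i).ord u = 0) ∧ f = f' * u ^ m ∧ η = η' * fun i => evp (x i) u := by
  -- the transformation
  have key : ∀ {f f' : F} {η η' : ι → K} (_ : Adm m x f η) (_ : Adm m x f' η')
      (_ : Wz m x E f η n = Wz m x E f' η' n), ∀ a ∈ riemannRochSpace (dm (K := K) m f + n • E),
      ∃ b ∈ riemannRochSpace (dm (K := K) m f' + n • E), ∀ i, evp (x i) a * η i =
        evp (x i) b * η' i := by
    intro f f' η η' h h' heq a ha
    have h1 : (fun i => evp (x i) a * η i) ∈ Wz m x E f' η' n := by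
      rw [← heq]
      exact Submodule.subset_span ⟨a, ha, fun _ => rfl⟩
    obtain ⟨b, hb, hab⟩ := (h'.mem_Wz hC hE).mp h1
    exact ⟨b, hb, hab⟩
  obtain ⟨v₀⟩ := ‹Nonempty (Place K F)›
  obtain ⟨a₀, ha₀, ha0, -⟩ := hC.exists_section (D := dm m f + n • E)
    (by rw [h.dg_add hC hm]; exact hn) {v₀} ⟨v₀, Finset.mem_singleton_self _⟩
  obtain ⟨b₀, hb₀, hab₀⟩ := key h h' heq a₀ ha₀
  -- proportionality
  have prop : ∀ a ∈ riemannRochSpace (dm (K := K) m f + n • E),
      ∀ b ∈ riemannRochSpace (dm (K := K) m f' + n • E),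
      (∀ i, evp (x i) a * η i = evp (x i) b * η' i) → a * b₀ = a₀ * b := by
    intro a ha b hb hab
    have hff := h.mul hC h'
    have : a * b₀ - a₀ * b = 0 := by
      refine hff.eq_zero_of_evp (n := 2 * n) hC hm hE hx (by push_cast; exact hr) (sub_mem ?_ ?_)
        fun i => ?_
      · have := mul_mem_L ha hb₀
        have e2 : dm (K := K) m f + n • E + (dm m f' + n • E) = dm m (f * f') + (2 * n) • E := by
          rw [h.dm_mul hC h', two_mul, add_smul]; abel
        rwa [e2] at this
      · have := mul_mem_L ha₀ hb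
        have e2 : dm (K := K) m f + n • E + (dm m f' + n • E) = dm m (f * f') + (2 * n) • E := by
          rw [h.dm_mul hC h', two_mul, add_smul]; abel
        rwa [e2] at this
      · have r1 := h.reg hC hE ha i
        have r2 := h'.reg hC hE hb i
        have r3 := h.reg hC hE ha₀ i
        have r4 := h'.reg hC hE hb₀ i
        rw [sub_eq_add_neg, ← neg_mul, evp_add (hC.rat _) (mul_mem r1 r4) (mul_mem (neg_mem r3) r2),
          evp_mul (hC.rat _) r1 r4, evp_mul (hC.rat _) (neg_mem r3) r2]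
        have h5 : evp (x i) (-a₀) = - evp (x i) a₀ := by
          have := evp_smul (hC.rat (x i)) (-1) r3
          rwa [neg_one_smul, neg_one_mul] at this
        rw [h5]
        have h6 := hab i
        have h7 := hab₀ i
        have hη := h.eta_ne hC hm i
        have hη' := h'.eta_ne hC hm i
        apply mul_right_cancel₀ (mul_ne_zero hη hη')
        linear_combination (evp (x i) b₀ * η' i) * h6 - (evp (x i) b * η' i) * h7
    linear_combination this
  have hb0 : b₀ ≠ 0 := by
    rintro rfl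
    apply ha0
    refine h.eq_zero_of_evp (n := n) hC hm hE hx ?_ ha₀ fun i => ?_
    · have h1 : (0 : ℤ) ≤ (n : ℤ) * dg E ∨ (n : ℤ) * dg E < 0 := le_or_gt _ _
      rcases h1 with h1 | h1
      · linarith
      · exact h1.trans_le (Int.natCast_nonneg _)
    · have := hab₀ i
      rw [evp_zero, zero_mul] at this
      exact (mul_eq_zero.mp this).resolve_right (h.eta_ne hC hm i)
  let u : F := b₀ / a₀
  have hu0 : u ≠ 0 := div_ne_zero hb0 ha0
  have hua : ∀ a ∈ riemannRochSpace (dm (K := K) m f + n • E),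
      ∀ b ∈ riemannRochSpace (dm (K := K) m f' + n • E),
      (∀ i, evp (x i) a * η i = evp (x i) b * η' i) → b = a * u := by
    intro a ha b hb hab
    have h1 := prop a ha b hb hab
    simp only [u]
    field_simp
    linear_combination -h1
  -- the order of u
  have hord : ∀ v : Place K F, dm m f v - dm m f' v ≤ v.ord u := by
    intro v
    obtain ⟨a, ha, ha1, hav⟩ := hC.exists_section (D := dm m f + n • E)
      (by rw [h.dg_add hC hm]; exact hn) {v} ⟨v, Finset.mem_singleton_self _⟩
    obtain ⟨b, hb, hab⟩ := key h h' heq a ha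
    have h1 := hua a ha b hb hab
    have h2 := (mem_L' (f := b) (by rw [h1]; exact mul_ne_zero ha1 hu0)).mp hb v
    rw [h1, v.ord_mul ha1 hu0, hav v (Finset.mem_singleton_self _)] at h2
    rw [Finsupp.add_apply, Finsupp.add_apply] at h2
    omega
  have hord' : ∀ v : Place K F, dm m f' v - dm m f v ≤ - v.ord u := by
    intro v
    obtain ⟨b, hb, hb1, hbv⟩ := hC.exists_section (D := dm m f' + n • E)
      (by rw [h'.dg_add hC hm]; exact hn) {v} ⟨v, Finset.mem_singleton_self _⟩
    obtain ⟨a, ha, hab⟩ := key h' h heq.symm b hb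
    have h1 := hua a ha b hb fun i => (hab i).symm
    have ha1 : a ≠ 0 := by
      rintro rfl
      rw [zero_mul] at h1
      exact hb1 h1
    have h2 := (mem_L' ha1).mp ha v
    have h3 := congrArg v.ord h1
    rw [v.ord_mul ha1 hu0, hbv v (Finset.mem_singleton_self _)] at h3
    rw [Finsupp.add_apply] at h2 h3
    omega
  have hou : ∀ v : Place K F, v.ord u = dm m f v - dm m f' v := fun v => by
    have := hord v
    have := hord' v
    omega
  have hux : ∀ i, (x i).ord u = 0 := fun i => by rw [hou, h.dm_x hC, h'.dm_x hC, sub_zero]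
  have hval : ∀ i, η i = evp (x i) u * η' i := by
    intro i
    obtain ⟨a, ha, ha1, hav⟩ := hC.exists_section (D := dm m f + n • E)
      (by rw [h.dg_add hC hm]; exact hn) {x i} ⟨x i, Finset.mem_singleton_self _⟩
    obtain ⟨b, hb, hab⟩ := key h h' heq a ha
    have h1 := hua a ha b hb hab
    have h2 := hab i
    have h3 := hav (x i) (Finset.mem_singleton_self _)
    rw [Finsupp.add_apply, Finsupp.smul_apply, h.dm_x hC, hE] at h3
    have hr := h.reg hC hE ha i
    rw [h1, evp_mul (hC.rat _) hr (mem_of_ord_nonneg _ (hux i).ge)] at h2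
    have h4 : evp (x i) a ≠ 0 := (evp_ne_zero_iff (hC.rat _) hr).mpr ⟨ha1, by simpa using h3⟩
    apply mul_left_cancel₀ h4
    linear_combination h2
  -- f = c f' u^m
  have hcst : ∀ v : Place K F, 0 ≤ v.ord (f / (f' * u ^ m)) := by
    intro v
    have hne : f' * u ^ m ≠ 0 := mul_ne_zero h'.ne (pow_ne_zero _ hu0)
    rw [div_eq_mul_inv, v.ord_mul h.ne (inv_ne_zero hne), v.ord_inv, v.ord_mul h'.ne
      (pow_ne_zero _ hu0), ord_pow, hou, mul_sub, h.mul_dm hC, h'.mul_dm hC]
    omega
  obtain ⟨c, hc⟩ := hC.const _ hcst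
  have hne : f' * u ^ m ≠ 0 := mul_ne_zero h'.ne (pow_ne_zero _ hu0)
  have hfc : f = algebraMap K F c * (f' * u ^ m) := by
    rw [hc, div_mul_cancel₀ _ hne]
  -- there is at least one point
  have hcard : 0 < Fintype.card ι := by
    have h1 : (0 : ℤ) ≤ (n : ℤ) * dg E ∨ (n : ℤ) * dg E < 0 := le_or_gt _ _
    have h2 : Nonempty ι := by
      by_contra hno
      rw [not_nonempty_iff] at hno
      apply hb0
      refine h'.eq_zero_of_evp (n := n) hC hm hE hx ?_ hb₀ fun i => (hno.false i).elim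
      rcases h1 with h1 | h1
      · linarith
      · exact h1.trans_le (Int.natCast_nonneg _)
    exact Fintype.card_pos
  obtain ⟨i⟩ := Fintype.card_pos_iff.mp hcard
  have hc1 : c = 1 := by
    have h1 := h.pow i
    have hr' : f' ∈ (x i).toValuationSubring := mem_of_ord_nonneg _ (h'.ord i).ge
    have hru : u ∈ (x i).toValuationSubring := mem_of_ord_nonneg _ (hux i).ge
    rw [hfc, evp_mul (hC.rat _) ((x i).algebraMap_mem' c) (mul_mem hr' (pow_mem hru m)),
      evp_algebraMap, evp_mul (hC.rat _) hr' (pow_mem hru m), evp_pow (hC.rat _) hru, h'.pow,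
      hval i, mul_pow] at h1
    have h2 : η' i ^ m ≠ 0 := pow_ne_zero _ (h'.eta_ne hC hm i)
    have h3 : evp (x i) u ^ m ≠ 0 :=
      pow_ne_zero _ ((evp_ne_zero_iff (hC.rat _) hru).mpr ⟨hu0, hux i⟩)
    apply mul_right_cancel₀ (mul_ne_zero h2 h3)
    linear_combination h1
  refine ⟨u, hu0, hux, ?_, ?_⟩
  · rw [hfc, hc1, map_one, one_mul]
  · funext i
    rw [hval i, Pi.mul_apply, mul_comm]

end Fermat.Agent.Flat
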