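import Mathlib
import Fermat.Agent.Flat.Eval
import Fermat.Agent.Flat.Crit
import Fermat.Prelude.Def_AlgebraicCurve_BaseChangeGalois

/-!
Good reduction of a curve with respect to a valuation ring of the base field.
-/

set_option autoImplicit false
set_option linter.unusedSectionVars false

noncomputable section

namespace Fermat.Agent.Flat

open AlgebraicCurve IsDedekindDomain IntermediateField WithZero Module Fermat.Agent.FunField

variable {Ω κ F Fb : Type*} [Field Ω] [Field κ] [Field F] [Field Fb] [Algebra Ω F] [Algebra κ Fb]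
  {A : ValuationSubring Ω} {G : Type*} [Group G] [MulSemiringAction G Ω]

/-- Regular outside `t = ∞`. -/
def Reg (K : Type*) {F : Type*} [Field K] [Field F] [Algebra K F] (t z : F) : Prop :=
  ∀ v : Place K F, 0 ≤ v.ord t → 0 ≤ v.ord z

/-- **Good reduction** of a curve, in terms of its function field `F`, with parameter `t`; `ρ` is
the reduction map with values in the function field `Fb` of the reduction. -/
structure GoodCrv (r : A →+* κ) (γ : G →* SemilinearAut Ω F) (W : ValuationSubring F) (ρ : W →+* Fb)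
    (t : F) (tb : Fb) : Prop where
  sep : Sep Ω t
  sepb : Sep κ tb
  surj : Function.Surjective r
  unit : ∀ a : A, r a ≠ 0 → (a : Ω)⁻¹ ∈ A
  alg : ∀ a ∈ A, algebraMap Ω F a ∈ W
  ralg : ∀ (a : A) (h : algebraMap Ω F a ∈ W), ρ ⟨algebraMap Ω F a, h⟩ = algebraMap κ Fb (r a)
  runit : ∀ z : W, ρ z ≠ 0 → (z : F)⁻¹ ∈ W
  scale : ∀ z : F, z ≠ 0 → ∃ c : Ω, c ≠ 0 ∧ ∃ h : algebraMap Ω F c * z ∈ W, ρ ⟨_, h⟩ ≠ 0
  sat : ∀ U : Submodule Ω F, FiniteDimensional Ω U → ∃ u : Fin (finrank Ω U) → W,
    (∀ i, (u i : F) ∈ U) ∧ LinearIndependent κ fun i => ρ (u i)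
  int : ∀ n : ℕ, ∀ z : W, (z : F) ∈ riemannRochSpace (n • pol (K := Ω) t) →
    ρ z ∈ riemannRochSpace (n • pol (K := κ) tb)
  lift : ∃ M : ℕ, ∀ n ≥ M, ∀ zb ∈ riemannRochSpace (n • pol (K := κ) tb), ∃ z : W,
    (z : F) ∈ riemannRochSpace (n • pol (K := Ω) t) ∧ ρ z = zb ∧ ∀ g : G, γ g • (z : F) = z
  val : ∀ (v : Place Ω F) (c : A), 0 < v.ord (t - algebraMap Ω F c) → ∀ z : W,
    Reg Ω t (z : F) → evp v (z : F) ∈ A
  base : ∀ (g : G) (a : Ω), SemilinearAut.baseAut (γ g) a = g • a
  stab : ∀ (g : G), ∀ z ∈ W, γ g • z ∈ W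
  triv : ∀ (g : G) (z : W) (h : γ g • (z : F) ∈ W), ρ ⟨γ g • (z : F), h⟩ = ρ z
  fixt : ∀ g : G, γ g • t = t

variable [IsAlgClosed Ω] [IsAlgClosed κ] {r : A →+* κ} {γ : G →* SemilinearAut Ω F}
  {W : ValuationSubring F} {ρ : W →+* Fb} {t : F} {tb : Fb} {g C : ℤ}

theorem pol_nonneg {K F : Type*} [Field K] [Field F] [Algebra K F] [IsAlgClosed K] {t : F}
    (h : Sep K t) (v : Place K F) : 0 ≤ pol (K := K) t v := by
  rw [pol_apply (h.finOrd t)]; exact le_max_left _ _

theorem pol_eq_zero {K F : Type*} [Field K] [Field F] [Algebra K F] [IsAlgClosed K] {t : F}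
    (h : Sep K t) {v : Place K F} (hv : 0 ≤ v.ord t) : pol (K := K) t v = 0 := by
  rw [pol_apply (h.finOrd t)]; exact max_eq_left (by omega)

theorem mem_nL_reg {K F : Type*} [Field K] [Field F] [Algebra K F] [IsAlgClosed K] {t : F}
    (h : Sep K t) {n : ℕ} {z : F} (hz : z ∈ riemannRochSpace (n • pol (K := K) t)) : Reg K t z := by
  intro v hv
  rcases mem_L.mp hz v with h0 | h1
  · rw [h0, v.ord_zero]
  · rw [Finsupp.smul_apply, pol_eq_zero h hv] at h1
    simpa using h1

/-- Regular functions lie in some `L(nE)`. -/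
theorem Reg.exists_mem {K F : Type*} [Field K] [Field F] [Algebra K F] [IsAlgClosed K] {t : F}
    (h : Sep K t) {z : F} (hz : Reg K t z) : ∃ n₀ : ℕ, ∀ n ≥ n₀,
      z ∈ riemannRochSpace (n • pol (K := K) t) := by
  classical
  obtain ⟨s, hs, -, -⟩ := h.aboveInf
  refine ⟨∑ v ∈ s, (- v.ord z).toNat, fun n hn => ?_⟩
  rw [mem_L]
  intro v
  right
  rw [Finsupp.smul_apply, nsmul_eq_mul]
  by_cases hv : v.ord t < 0
  · have h1 : (- v.ord z).toNat ≤ ∑ v ∈ s, (- v.ord z).toNat :=
      Finset.single_le_sum (f := fun v : Place K F => (- v.ord z).toNat)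
        (fun _ _ => Nat.zero_le _) ((hs v).mpr hv)
    have h2 : (- v.ord z) ≤ ((- v.ord z).toNat : ℤ) := Int.self_le_toNat _
    have h3 : 1 ≤ pol (K := K) t v := by
      rw [pol_apply (h.finOrd t)]
      exact le_max_of_le_right (by omega)
    have h4 : ((- v.ord z).toNat : ℤ) ≤ n := by exact_mod_cast h1.trans hn
    have h5 : (0 : ℤ) ≤ n := Int.natCast_nonneg _
    nlinarith
  · have h1 := hz v (not_lt.mp hv)
    have h2 := pol_nonneg h v
    have h5 : (0 : ℤ) ≤ n := Int.natCast_nonneg _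
    nlinarith

theorem GoodCrv.ralg' (hG : GoodCrv r γ W ρ t tb) (a : A) :
    ρ ⟨algebraMap Ω F a, hG.alg a a.2⟩ = algebraMap κ Fb (r a) := hG.ralg a _

/-- Lifts of independent elements are independent. -/
theorem GoodCrv.indep (hG : GoodCrv r γ W ρ t tb) {n : ℕ} {u : Fin n → W}
    (h : LinearIndependent κ fun i => ρ (u i)) : LinearIndependent Ω fun i => (u i : F) := by
  classical
  rw [Fintype.linearIndependent_iff]
  intro c hc
  by_contra hcon
  push Not at hcon
  -- a coefficient of largest absolute value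
  obtain ⟨j, -, hj⟩ := Finset.exists_max_image Finset.univ (fun i => A.valuation (c i))
    (Finset.univ_nonempty_iff.mpr ⟨hcon.choose⟩)
  have hcj : c j ≠ 0 := by
    intro h0
    obtain ⟨i, hi⟩ := hcon
    have := hj i (Finset.mem_univ i)
    rw [h0, map_zero] at this
    exact hi ((Valuation.zero_iff _).mp (le_antisymm this zero_le'))
  have hmem : ∀ i, c i / c j ∈ A := by
    intro i
    rw [← A.valuation_le_one_iff, map_div₀]
    exact div_le_one_of_le₀ (hj i (Finset.mem_univ i)) zero_le'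
  let d : Fin n → A := fun i => ⟨c i / c j, hmem i⟩
  have h1 : ∑ i, (⟨algebraMap Ω F (d i), hG.alg _ (d i).2⟩ : W) * u i = 0 := by
    apply Subtype.ext
    push_cast
    have h2 : ∀ i, algebraMap Ω F (c i / c j) * (u i : F) =
        algebraMap Ω F (c j)⁻¹ * (c i • (u i : F)) := by
      intro i
      rw [Algebra.smul_def, div_eq_mul_inv, map_mul]
      ring
    change ∑ i, algebraMap Ω F (c i / c j) * (u i : F) = 0
    rw [Finset.sum_congr rfl fun i _ => h2 i, ← Finset.mul_sum, hc, mul_zero]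
  have h3 := congrArg ρ h1
  rw [map_sum, map_zero] at h3
  have h4 : ∑ i, r (d i) • ρ (u i) = 0 := by
    rw [← h3]
    refine Finset.sum_congr rfl fun i _ => ?_
    rw [map_mul, hG.ralg', Algebra.smul_def]
  have h5 := Fintype.linearIndependent_iff.mp h (fun i => r (d i)) h4 j
  have h6 : d j = 1 := Subtype.ext (div_self hcj)
  simp only [h6, map_one] at h5
  exact one_ne_zero h5

theorem GoodCrv.smul_mem (hG : GoodCrv r γ W ρ t tb) {n : ℕ} (c : Fin n → A) (u : Fin n → W) :
    ∃ h : ∑ i, (c i : Ω) • (u i : F) ∈ W, ρ ⟨_, h⟩ = ∑ i, r (c i) • ρ (u i) := by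
  have h1 : (∑ i, (⟨algebraMap Ω F (c i), hG.alg _ (c i).2⟩ : W) * u i : W).1 =
      ∑ i, (c i : Ω) • (u i : F) := by
    push_cast
    exact Finset.sum_congr rfl fun i _ => (Algebra.smul_def _ _).symm
  refine ⟨h1 ▸ Subtype.property _, ?_⟩
  have h2 : (⟨∑ i, (c i : Ω) • (u i : F), h1 ▸ Subtype.property _⟩ : W) =
      ∑ i, (⟨algebraMap Ω F (c i), hG.alg _ (c i).2⟩ : W) * u i := Subtype.ext h1.symm
  rw [h2, map_sum]
  refine Finset.sum_congr rfl fun i _ => ?_
  rw [map_mul, hG.ralg', Algebra.smul_def]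

/-- The reduction has the same degree and genus. -/
theorem GoodCrv.numerics (hG : GoodCrv r γ W ρ t tb) {gb Cb : ℤ} (hC : Crv Ω F g C)
    (hCb : Crv κ Fb gb Cb) : dg (pol (K := κ) tb) = dg (pol (K := Ω) t) ∧ gb = g ∧
      0 < dg (pol (K := Ω) t) := by
  obtain ⟨M, hM⟩ := hG.lift
  have hfdF := hG.sep.fd
  have hfdb := hG.sepb.fd
  have hpos : 0 < dg (pol (K := Ω) t) := by
    rw [hG.sep.dg_pol]; exact_mod_cast finrank_pos
  have hposb : 0 < dg (pol (K := κ) tb) := by
    rw [hG.sepb.dg_pol]; exact_mod_cast finrank_pos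
  have key : ∀ n ≥ M, finrank Ω (riemannRochSpace (n • pol (K := Ω) t)) =
      finrank κ (riemannRochSpace (n • pol (K := κ) tb)) := by
    intro n hn
    have hfd1 := hC.fd (n • pol t)
    have hfd2 := hCb.fd (n • pol tb)
    apply le_antisymm
    · obtain ⟨u, hu, hind⟩ := hG.sat (riemannRochSpace (n • pol (K := Ω) t)) hfd1
      let w : Fin (finrank Ω (riemannRochSpace (n • pol (K := Ω) t))) →
          riemannRochSpace (n • pol (K := κ) tb) := fun i => ⟨ρ (u i), hG.int n (u i) (hu i)⟩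
      have hw : LinearIndependent κ w :=
        LinearIndependent.of_comp (riemannRochSpace (n • pol (K := κ) tb)).subtype hind
      have := hw.fintype_card_le_finrank
      rwa [Fintype.card_fin] at this
    · let b := finBasis κ (riemannRochSpace (n • pol (K := κ) tb))
      choose z hz hzb _ using fun i => hM n hn (b i) (b i).2
      have hind : LinearIndependent κ fun i => ρ (z i) := by
        have h1 := b.linearIndependent.map' (riemannRochSpace (n • pol (K := κ) tb)).subtype
          (Submodule.ker_subtype _)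
        have h2 : (fun i => ρ (z i)) =
            (riemannRochSpace (n • pol (K := κ) tb)).subtype ∘ b := by
          funext i
          exact hzb i
        rw [h2]
        exact h1
      have hind2 := hG.indep hind
      let w : Fin (finrank κ (riemannRochSpace (n • pol (K := κ) tb))) →
          riemannRochSpace (n • pol (K := Ω) t) := fun i => ⟨z i, hz i⟩
      have hw : LinearIndependent Ω w :=
        LinearIndependent.of_comp (riemannRochSpace (n • pol (K := Ω) t)).subtype hind2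
      have := hw.fintype_card_le_finrank
      rwa [Fintype.card_fin] at this
  -- compare for two large values
  have num : ∀ n : ℕ, M ≤ n → C.toNat ≤ n → Cb.toNat ≤ n →
      (n : ℤ) * dg (pol (K := Ω) t) + 1 - g = n * dg (pol (K := κ) tb) + 1 - gb := by
    intro n h1 h2 h3
    have h4 : (C : ℤ) ≤ n := (Int.self_le_toNat C).trans (by exact_mod_cast h2)
    have h5 : (Cb : ℤ) ≤ n := (Int.self_le_toNat Cb).trans (by exact_mod_cast h3)
    have h0 : (0 : ℤ) ≤ n := Int.natCast_nonneg _
    have r1 := hC.rr (n • pol (K := Ω) t) (by rw [map_nsmul, nsmul_eq_mul]; nlinarith)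
    have r2 := hCb.rr (n • pol (K := κ) tb) (by rw [map_nsmul, nsmul_eq_mul]; nlinarith)
    rw [map_nsmul, nsmul_eq_mul] at r1 r2
    rw [← r1, ← r2, key n h1]
  have n1 := num (M + C.toNat + Cb.toNat) (by omega) (by omega) (by omega)
  have n2 := num (M + C.toNat + Cb.toNat + 1) (by omega) (by omega) (by omega)
  push_cast at n1 n2
  have h1 : dg (pol (K := κ) tb) = dg (pol (K := Ω) t) := by linarith
  refine ⟨h1, ?_, hpos⟩
  rw [h1] at n1
  linarith

theorem floor_le_of_mul_le {m : ℕ} (hm : m ≠ 0) {a b e : ℤ} (h : -(m * e) ≤ m * a + b) :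
    -(b / m + e) ≤ a := by
  have hm' : (0 : ℤ) < m := by exact_mod_cast Nat.pos_of_ne_zero hm
  have h1 : -(a + e) ≤ b / m := by
    rw [Int.le_ediv_iff_mul_le hm']
    linarith [mul_comm (m : ℤ) (a + e), mul_add (m : ℤ) a e]
  linarith

/-- **Reduction of divisible divisors.** -/
theorem GoodCrv.reduction (hG : GoodCrv r γ W ρ t tb) (hC : Crv Ω F g C) (hCb : Crv κ Fb g C)
    (hdeg : dg (pol (K := κ) tb) = dg (pol (K := Ω) t)) {m : ℕ} (hm : m ≠ 0) {f : W}
    (hf0 : ρ f ≠ 0) (hdvd : ∀ v : Place Ω F, (m : ℤ) ∣ v.ord (f : F)) {n₀ : ℕ}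
    (hn₀ : C + 1 ≤ n₀ * dg (pol (K := Ω) t)) :
    (∀ v : Place κ Fb, (m : ℤ) ∣ v.ord (ρ f)) ∧ ∀ n : ℕ, C + 1 ≤ n * dg (pol (K := Ω) t) →
      (∀ z : W, (z : F) ∈ riemannRochSpace (dm (K := Ω) m (f : F) + n • pol t) →
        ρ z ∈ riemannRochSpace (dm (K := κ) m (ρ f) + n • pol tb)) ∧
      ∀ zb ∈ riemannRochSpace (dm (K := κ) m (ρ f) + n • pol tb), ∃ z : W,
        (z : F) ∈ riemannRochSpace (dm (K := Ω) m (f : F) + n • pol t) ∧ ρ z = zb := by
  have hmZ : (0 : ℤ) < m := by exact_mod_cast Nat.pos_of_ne_zero hm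
  have hf0' : (f : F) ≠ 0 := by
    intro h0
    have : f = 0 := Subtype.ext h0
    rw [this, map_zero] at hf0
    exact hf0 rfl
  -- reduction of sections
  have red : ∀ n : ℕ, ∀ z : W, (z : F) ∈ riemannRochSpace (dm (K := Ω) m (f : F) + n • pol t) →
      ρ z ∈ riemannRochSpace (dm (K := κ) m (ρ f) + n • pol tb) := by
    intro n z hz
    by_cases hz0 : ρ z = 0
    · rw [hz0]; exact zero_mem _
    have hz0' : (z : F) ≠ 0 := by
      intro h0
      have : z = 0 := Subtype.ext h0
      rw [this, map_zero] at hz0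
      exact hz0 rfl
    have h1 : ((z ^ m * f : W) : F) ∈ riemannRochSpace ((m * n) • pol (K := Ω) t) := by
      push_cast
      rw [mem_L' (mul_ne_zero (pow_ne_zero _ hz0') hf0')]
      intro v
      have h2 := (mem_L' hz0').mp hz v
      rw [Finsupp.add_apply, Finsupp.smul_apply, dm_apply hC, nsmul_eq_mul] at h2
      rw [v.ord_mul (pow_ne_zero _ hz0') hf0', ord_pow, Finsupp.smul_apply, nsmul_eq_mul]
      obtain ⟨k, hk⟩ := hdvd v
      rw [hk, Int.mul_ediv_cancel_left _ hmZ.ne'] at h2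
      rw [hk]
      push_cast
      nlinarith
    have h2 := hG.int (m * n) _ h1
    rw [map_mul, map_pow] at h2
    rw [mem_L' hz0]
    intro v
    have h3 := (mem_L' (mul_ne_zero (pow_ne_zero _ hz0) hf0)).mp h2 v
    rw [v.ord_mul (pow_ne_zero _ hz0) hf0, ord_pow, Finsupp.smul_apply, nsmul_eq_mul] at h3
    rw [Finsupp.add_apply, Finsupp.smul_apply, dm_apply hCb, nsmul_eq_mul]
    apply floor_le_of_mul_le hm
    push_cast at h3
    rw [mul_assoc] at h3
    exact h3
  -- the degree
  have hdm : dg (dm (K := Ω) m (f : F)) = 0 := by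
    have h1 : m • dm (K := Ω) m (f : F) = dv (f : F) := by
      ext v
      rw [Finsupp.smul_apply, nsmul_eq_mul, dm_apply hC, dv_apply (hC.fin _)]
      exact Int.mul_ediv_cancel' (hdvd v)
    have h2 := congrArg dg h1
    rw [map_nsmul, hC.deg0 _ hf0', nsmul_eq_mul] at h2
    rcases mul_eq_zero.mp h2 with h3 | h3
    · exact absurd (by exact_mod_cast h3) hm
    · exact h3
  have hle : m • dm (K := κ) m (ρ f) ≤ dv (ρ f) := by
    intro v
    rw [Finsupp.smul_apply, nsmul_eq_mul, dm_apply hCb, dv_apply (hCb.fin _)]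
    exact Int.mul_ediv_self_le hmZ.ne'
  have hdgle : dg (dm (K := κ) m (ρ f)) ≤ 0 := by
    have h1 := dg_mono hle
    rw [map_nsmul, hCb.deg0 _ hf0, nsmul_eq_mul] at h1
    nlinarith
  -- dimensions
  have main : ∀ n : ℕ, C + 1 ≤ n * dg (pol (K := Ω) t) →
      (n * dg (pol (K := Ω) t) + 1 - g ≤
        finrank κ (riemannRochSpace (dm (K := κ) m (ρ f) + n • pol tb))) ∧
      ∃ u : Fin (n * dg (pol (K := Ω) t) + 1 - g).toNat → W,
        (∀ i, (u i : F) ∈ riemannRochSpace (dm (K := Ω) m (f : F) + n • pol t)) ∧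
        LinearIndependent κ fun i => ρ (u i) := by
    intro n hn
    have hr := hC.rr (dm (K := Ω) m (f : F) + n • pol t) (by
      rw [map_add, hdm, map_nsmul, nsmul_eq_mul]; linarith)
    rw [map_add, hdm, map_nsmul, nsmul_eq_mul, zero_add] at hr
    obtain ⟨u, hu, hind⟩ := hG.sat _ (hC.fd (dm (K := Ω) m (f : F) + n • pol t))
    have := hCb.fd (dm (K := κ) m (ρ f) + n • pol tb)
    have hw : LinearIndependent κ (fun i => (⟨ρ (u i), red n (u i) (hu i)⟩ :
        riemannRochSpace (dm (K := κ) m (ρ f) + n • pol tb))) :=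
      LinearIndependent.of_comp (riemannRochSpace _).subtype hind
    have h1 := hw.fintype_card_le_finrank
    rw [Fintype.card_fin] at h1
    refine ⟨by rw [← hr]; exact_mod_cast h1, ?_⟩
    have h2 : (n * dg (pol (K := Ω) t) + 1 - g).toNat =
        finrank Ω (riemannRochSpace (dm (K := Ω) m (f : F) + n • pol t)) := by
      rw [← hr]; exact Int.toNat_natCast _
    rw [h2]
    exact ⟨u, hu, hind⟩
  have hne : Nonempty (Place κ Fb) := by
    obtain ⟨s, -, hsum, -⟩ := hG.sepb.aboveInf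
    by_contra hno
    rw [not_nonempty_iff] at hno
    rw [Finset.eq_empty_of_isEmpty s, Finset.sum_empty] at hsum
    have := hG.sepb.fd
    have h1 : 0 < finrank κ⟮tb⟯ Fb := finrank_pos
    omega
  have hdg0 : dg (dm (K := κ) m (ρ f)) = 0 := by
    by_contra hne0
    have h1 : dg (dm (K := κ) m (ρ f)) ≤ -1 := by omega
    have h2 := hCb.ub (D := dm (K := κ) m (ρ f) + n₀ • pol tb)
      (d := n₀ * dg (pol (K := Ω) t) - 1) (by omega)
      (by rw [map_add, map_nsmul, nsmul_eq_mul, hdeg]; omega)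
    have h3 := (main n₀ hn₀).1
    omega
  have heq : m • dm (K := κ) m (ρ f) = dv (ρ f) := by
    by_contra hne'
    have h1 : m • dm (K := κ) m (ρ f) < dv (ρ f) := lt_of_le_of_ne hle hne'
    have h2 : dg (m • dm (K := κ) m (ρ f)) < dg (dv (K := κ) (ρ f)) := by
      have h3 : 0 ≤ dv (ρ f) - m • dm (K := κ) m (ρ f) := sub_nonneg.mpr hle
      have h4 := dg_nonneg h3
      rcases h4.lt_or_eq with h5 | h5
      · rw [map_sub] at h5; omega
      · exfalso
        apply hne'
        have h6 : dv (ρ f) - m • dm (K := κ) m (ρ f) = 0 := by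
          ext v
          by_contra hv
          have hv' : v ∈ (dv (ρ f) - m • dm (K := κ) m (ρ f)).support :=
            Finsupp.mem_support_iff.mpr hv
          rw [dg_apply] at h5
          have := (Finset.sum_eq_zero_iff_of_nonneg (fun v _ => h3 v)).mp h5.symm v hv'
          exact hv (by simpa using this)
        exact (sub_eq_zero.mp h6).symm
    rw [map_nsmul, hdg0, smul_zero, hCb.deg0 _ hf0] at h2
    exact absurd h2 (lt_irrefl _)
  refine ⟨fun v => ?_, fun n hn => ⟨red n, fun zb hzb => ?_⟩⟩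
  · have := DFunLike.congr_fun heq v
    rw [Finsupp.smul_apply, nsmul_eq_mul, dv_apply (hCb.fin _)] at this
    exact ⟨_, this.symm⟩
  · obtain ⟨-, u, hu, hind⟩ := main n hn
    have hfd := hCb.fd (dm (K := κ) m (ρ f) + n • pol tb)
    have hr := hCb.rr (dm (K := κ) m (ρ f) + n • pol tb) (by
      rw [map_add, hdg0, map_nsmul, nsmul_eq_mul, hdeg]; linarith)
    rw [map_add, hdg0, map_nsmul, nsmul_eq_mul, zero_add, hdeg] at hr
    let w : Fin (n * dg (pol (K := Ω) t) + 1 - g).toNat →
        riemannRochSpace (dm (K := κ) m (ρ f) + n • pol tb) :=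
      fun i => ⟨ρ (u i), red n (u i) (hu i)⟩
    have hw : LinearIndependent κ w := LinearIndependent.of_comp (riemannRochSpace _).subtype hind
    have hcard : Fintype.card (Fin (n * dg (pol (K := Ω) t) + 1 - g).toNat) =
        finrank κ (riemannRochSpace (dm (K := κ) m (ρ f) + n • pol tb)) := by
      rw [Fintype.card_fin]
      omega
    have hspan := hw.span_eq_top_of_card_eq_finrank' hcard
    have hmem : (⟨zb, hzb⟩ : riemannRochSpace (dm (K := κ) m (ρ f) + n • pol tb)) ∈
        Submodule.span κ (Set.range w) := by rw [hspan]; trivial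
    obtain ⟨c, hc⟩ := (Submodule.mem_span_range_iff_exists_fun κ).mp hmem
    choose d hd using fun i => hG.surj (c i)
    obtain ⟨h1, h2⟩ := hG.smul_mem d u
    refine ⟨⟨_, h1⟩, ?_, ?_⟩
    · change ∑ i, (d i : Ω) • (u i : F) ∈ _
      exact sum_mem fun i _ => Submodule.smul_mem _ _ (hu i)
    · rw [h2]
      have h3 := congrArg Subtype.val hc
      rw [Submodule.coe_sum] at h3
      rw [← show ((⟨zb, hzb⟩ : riemannRochSpace (dm (K := κ) m (ρ f) + n • pol tb)) : Fb) = zb
        from rfl, ← h3]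
      refine Finset.sum_congr rfl fun i _ => ?_
      rw [hd]
      rfl

end Fermat.Agent.Flat
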