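import Mathlib
import Fermat.Agent.Flat.Mult
import Fermat.Agent.FunField.Differentials

/-!
Only finitely many places are ramified over `K(t)` for a separating element `t`.
-/

set_option autoImplicit false
set_option linter.unusedSectionVars false

noncomputable section

namespace Fermat.Agent.Flat

open AlgebraicCurve IsDedekindDomain IntermediateField WithZero Module Fermat.Agent.FunField

variable {K F : Type*} [Field K] [Field F] [Algebra K F] [IsAlgClosed K] {t : F}

theorem Sep.finite_ram (h : Sep K t) : ∃ T : Finset (Place K F), ∀ v ∉ T, ∀ c : K,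
    0 < v.ord (t - algebraMap K F c) → v.ord (t - algebraMap K F c) = 1 := by
  classical
  have := h.fd
  have := h.sep
  obtain ⟨δ, hδ, -⟩ := exists_derivation h.trans
  have := isPrincipalIdealRing_adjoin h.trans
  have := isDedekindDomain_adjoin h.trans
  have := isFractionRing_intClosure (K := K) t
  have := isDedekindDomain_intClosure h.trans
  have hfin := finite_intClosure h.trans
  set A := Algebra.adjoin K {t} with hA
  set B := intClosure K t with hB
  obtain ⟨S, hS⟩ := hfin.fg_top
  have hfinT : (⋃ b ∈ S, {v : Place K F | v.ord (δ (b : F)) ≠ 0}).Finite :=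
    S.finite_toSet.biUnion fun b _ => h.finOrd _
  refine ⟨hfinT.toFinset, fun v hv c hc => ?_⟩
  rw [Set.Finite.mem_toFinset, Set.mem_iUnion₂] at hv
  push Not at hv
  have htv : t ∈ v.toValuationSubring := by
    by_contra hcon
    have h1 : v.ord t < 0 := by
      by_contra h2
      exact hcon (mem_of_ord_nonneg v (not_lt.mp h2))
    rw [ord_sub_of_neg v h1] at hc
    omega
  have hAv : ∀ a : A, (a : F) ∈ v.toValuationSubring := by
    intro a
    have h1 : A ≤ ({ v.toValuationSubring.toSubring with
        algebraMap_mem' := v.algebraMap_mem' } : Subalgebra K F) := by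
      rw [hA, Algebra.adjoin_le_iff, Set.singleton_subset_iff]
      exact htv
    exact h1 a.2
  have hδA : ∀ a : A, δ (a : F) ∈ v.toValuationSubring := by
    intro a
    obtain ⟨p, rfl⟩ := (polyEquivAdjoin h.trans).surjective a
    rw [coe_polyEquivAdjoin, Derivation.map_aeval, hδ, smul_eq_mul, mul_one]
    have := hAv (polyEquivAdjoin h.trans (Polynomial.derivative p))
    rwa [coe_polyEquivAdjoin] at this
  have hBv : ∀ b : B, (b : F) ∈ v.toValuationSubring := fun b =>
    mem_place_of_isIntegral v hAv b.2
  have hδB : ∀ b : B, δ (b : F) ∈ v.toValuationSubring := by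
    intro b
    have hb : b ∈ Submodule.span A (S : Set B) := by rw [hS]; trivial
    induction hb using Submodule.span_induction with
    | mem b hb =>
      apply mem_of_ord_nonneg
      have := hv b hb
      rw [Set.mem_ofPred_eq, not_not] at this
      exact this.ge
    | zero =>
      change δ (0 : F) ∈ _
      rw [map_zero]; exact zero_mem _
    | add b b' _ _ h1 h2 =>
      change δ ((b : F) + b') ∈ _
      rw [map_add]; exact add_mem h1 h2
    | smul a b _ h1 =>
      change δ ((a : F) * b) ∈ _
      rw [Derivation.leibniz, smul_eq_mul, smul_eq_mul]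
      exact add_mem (mul_mem (hAv a) h1) (mul_mem (hBv b) (hδA a))
  have hδv : ∀ f ∈ v.toValuationSubring, δ f ∈ v.toValuationSubring := by
    intro f hf
    obtain ⟨w, hw, hw'⟩ := exists_heightOneSpectrum v (R := B) hBv
    have hf' : w.valuation F f ≤ 1 := by
      rw [hw] at hf
      exact mem_place_ofHeightOne.mp hf
    obtain ⟨n, d, hnd⟩ := w.exists_primeCompl_mul_eq_of_integer f hf'
    have hnd' : f * (d : B).1 = n.1 := hnd
    have hdu : v.ord ((d : B) : F) = 0 := by
      have h1 := ord_nonneg_of_mem v (hBv (d : B))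
      have h2 : ¬ v.adicValuation (algebraMap B F (d : B)) < 1 := fun h3 => d.2 ((hw' _).mpr h3)
      rw [adicValuation_lt_one_iff, not_or] at h2
      have h3 : ¬ 0 < v.ord ((d : B) : F) := h2.2
      omega
    have hd0 : ((d : B) : F) ≠ 0 := by
      intro h0
      have h2 : ¬ v.adicValuation (algebraMap B F (d : B)) < 1 := fun h3 => d.2 ((hw' _).mpr h3)
      apply h2
      change v.adicValuation ((d : B) : F) < 1
      rw [h0, map_zero]
      exact zero_lt_one
    have hdinv : ((d : B) : F)⁻¹ ∈ v.toValuationSubring :=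
      mem_of_ord_nonneg v (by rw [v.ord_inv, hdu]; norm_num)
    have h1 := congrArg δ hnd'
    rw [Derivation.leibniz, smul_eq_mul, smul_eq_mul] at h1
    have h2 : δ f = ((d : B) : F)⁻¹ * (δ n.1 - f * δ (d : B).1) := by
      field_simp
      linear_combination h1
    rw [h2]
    exact mul_mem hdinv (sub_mem (hδB n) (mul_mem hf (hδB d)))
  -- the uniformizer
  by_contra hne
  have hge : 2 ≤ v.ord (t - algebraMap K F c) := by omega
  obtain ⟨π, hπ⟩ := IsDiscreteValuationRing.exists_irreducible v.toValuationSubring
  have hord : v.ord (π : F) = 1 := v.ord_coe_irreducible hπ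
  have hπ0 : (π : F) ≠ 0 := by
    intro h0
    rw [h0, v.ord_zero] at hord
    exact absurd hord (by norm_num)
  have htc0 : t - algebraMap K F c ≠ 0 := (h.sub c).ne_zero
  let q : F := (t - algebraMap K F c) * ((π : F) ^ 2)⁻¹
  have hq : q ∈ v.toValuationSubring := by
    apply mem_of_ord_nonneg
    rw [v.ord_mul htc0 (inv_ne_zero (pow_ne_zero _ hπ0)), v.ord_inv, ord_pow, hord]
    push_cast
    omega
  have hq' : t - algebraMap K F c = (π : F) ^ 2 * q := by
    simp only [q]
    field_simp
  have h1 := congrArg δ hq'
  rw [map_sub, hδ, Derivation.map_algebraMap, sub_zero, Derivation.leibniz, smul_eq_mul,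
    smul_eq_mul, Derivation.leibniz_pow, smul_eq_mul, pow_one] at h1
  have h2 : (1 : F) = (π : F) * ((π : F) * δ q + q * (2 * δ (π : F))) := by
    rw [h1]
    simp only [nsmul_eq_mul, Nat.cast_ofNat]
    ring
  have h3 : (π : F) * δ q + q * (2 * δ (π : F)) ∈ v.toValuationSubring :=
    add_mem (mul_mem π.2 (hδv q hq)) (mul_mem hq (mul_mem (ofNat_mem _ 2) (hδv _ π.2)))
  have h4 : (π : F) * δ q + q * (2 * δ (π : F)) ≠ 0 := by
    intro h0
    rw [h0, mul_zero] at h2
    exact one_ne_zero h2
  have h5 := congrArg v.ord h2
  rw [v.ord_one, v.ord_mul hπ0 h4, hord] at h5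
  have := ord_nonneg_of_mem v h3
  omega

end Fermat.Agent.Flat
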