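import Mathlib
import Fermat.Agent.Flat.Good
import Fermat.Agent.Flat.Ram

/-!
Points of the curve which are fixed by inertia and have distinct reductions.
-/

set_option autoImplicit false
set_option linter.unusedSectionVars false

noncomputable section

namespace Fermat.Agent.Flat

open AlgebraicCurve IsDedekindDomain IntermediateField WithZero Module Fermat.Agent.FunField

variable {Ω κ F Fb : Type*} [Field Ω] [Field κ] [Field F] [Field Fb] [Algebra Ω F] [Algebra κ Fb]
  {A : ValuationSubring Ω} {G : Type*} [Group G] [MulSemiringAction G Ω]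
  [IsAlgClosed Ω] [IsAlgClosed κ] {r : A →+* κ} {γ : G →* SemilinearAut Ω F}
  {W : ValuationSubring F} {ρ : W →+* Fb} {t : F} {tb : Fb} {g C : ℤ}

theorem Reg.mem {K F : Type*} [Field K] [Field F] [Algebra K F] {t z : F} (h : Reg K t z)
    {v : Place K F} (hv : 0 ≤ v.ord t) : z ∈ v.toValuationSubring := mem_of_ord_nonneg v (h v hv)

theorem ord_t_nonneg {K F : Type*} [Field K] [Field F] [Algebra K F] {t : F} {v : Place K F}
    {c : K} (hv : 0 < v.ord (t - algebraMap K F c)) : 0 ≤ v.ord t := by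
  by_contra hcon
  rw [ord_sub_of_neg v (not_le.mp hcon)] at hv
  omega

theorem Reg.add {K F : Type*} [Field K] [Field F] [Algebra K F] {t z z' : F} (h : Reg K t z)
    (h' : Reg K t z') : Reg K t (z + z') := fun _ hv =>
  ord_nonneg_of_mem _ (add_mem (h.mem hv) (h'.mem hv))

theorem Reg.mul {K F : Type*} [Field K] [Field F] [Algebra K F] {t z z' : F} (h : Reg K t z)
    (h' : Reg K t z') : Reg K t (z * z') := fun _ hv =>
  ord_nonneg_of_mem _ (mul_mem (h.mem hv) (h'.mem hv))

theorem Reg.neg {K F : Type*} [Field K] [Field F] [Algebra K F] {t z : F} (h : Reg K t z) :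
    Reg K t (-z) := fun _ hv => ord_nonneg_of_mem _ (neg_mem (h.mem hv))

theorem Reg.algebraMap {K F : Type*} [Field K] [Field F] [Algebra K F] {t : F} (a : K) :
    Reg K t (algebraMap K F a) := fun v _ => (ord_algebraMap v a).ge

theorem evp_sub {K F : Type*} [Field K] [Field F] [Algebra K F] {v : Place K F} (hv : Rational v)
    {x y : F} (hx : x ∈ v.toValuationSubring) (hy : y ∈ v.toValuationSubring) :
    evp v (x - y) = evp v x - evp v y := by
  have := evp_add hv (sub_mem hx hy) hy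
  rw [sub_add_cancel] at this
  rw [this]; ring

/-- `W` reduces to zero: small. -/
theorem GoodCrv.exists_small (hG : GoodCrv r γ W ρ t tb) {z : W} (hz : ρ z = 0) :
    ∃ (a : A) (z' : W), r a = 0 ∧ (z : F) = algebraMap Ω F a * z' := by
  by_cases hz0 : (z : F) = 0
  · exact ⟨0, 0, map_zero r, by rw [hz0]; simp⟩
  obtain ⟨c, hc, hcz, hne⟩ := hG.scale z hz0
  have hcA : c ∉ A := by
    intro hcA
    apply hne
    have : (⟨algebraMap Ω F c * z, hcz⟩ : W) = ⟨algebraMap Ω F c, hG.alg c hcA⟩ * z := rfl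
    rw [this, map_mul, hz, mul_zero]
  have hcA' : c⁻¹ ∈ A := (A.mem_or_inv_mem c).resolve_left hcA
  refine ⟨⟨c⁻¹, hcA'⟩, ⟨_, hcz⟩, ?_, ?_⟩
  · by_contra h
    have := hG.unit _ h
    rw [inv_inv] at this
    exact hcA this
  · change (z : F) = algebraMap Ω F c⁻¹ * (algebraMap Ω F c * z)
    rw [← mul_assoc, ← map_mul, inv_mul_cancel₀ hc, map_one, one_mul]

/-- Values of regular integral functions: reduction. -/
theorem GoodCrv.val_zero (hG : GoodCrv r γ W ρ t tb) {v : Place Ω F} {c : A}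
    (hv : 0 < v.ord (t - algebraMap Ω F c)) {z : W} (hz : Reg Ω t (z : F)) (hz0 : ρ z = 0) :
    r ⟨evp v (z : F), hG.val v c hv z hz⟩ = 0 := by
  obtain ⟨a, z', ha, hzz⟩ := hG.exists_small hz0
  by_cases ha0 : (a : Ω) = 0
  · have h1 : (⟨evp v (z : F), hG.val v c hv z hz⟩ : A) = 0 := by
      apply Subtype.ext
      change evp v (z : F) = 0
      rw [hzz, ha0, map_zero, zero_mul, evp_zero]
    rw [h1, map_zero]
  have hz' : Reg Ω t (z' : F) := by
    have : (z' : F) = algebraMap Ω F (a : Ω)⁻¹ * z := by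
      rw [hzz, ← mul_assoc, ← map_mul, inv_mul_cancel₀ ha0, map_one, one_mul]
    rw [this]
    exact (Reg.algebraMap _).mul hz
  have hr := hG.sep.rational v
  have h1 : (⟨evp v (z : F), hG.val v c hv z hz⟩ : A) = a * ⟨evp v (z' : F), hG.val v c hv z' hz'⟩ := by
    apply Subtype.ext
    change evp v (z : F) = a * evp v (z' : F)
    rw [hzz, evp_mul hr (v.algebraMap_mem' _) (hz'.mem (ord_t_nonneg hv)), evp_algebraMap]
  rw [h1, map_mul, ha, zero_mul]

/-- The values of `z` at `v` only depend on the reduction of `z`, modulo the maximal ideal. -/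
theorem GoodCrv.val_congr (hG : GoodCrv r γ W ρ t tb) {v : Place Ω F} {c : A}
    (hv : 0 < v.ord (t - algebraMap Ω F c)) {z z' : W} (hz : Reg Ω t (z : F))
    (hz' : Reg Ω t (z' : F)) (h : ρ z = ρ z') :
    r ⟨evp v (z : F), hG.val v c hv z hz⟩ = r ⟨evp v (z' : F), hG.val v c hv z' hz'⟩ := by
  have hsub : Reg Ω t ((z - z' : W) : F) := by
    push_cast
    rw [sub_eq_add_neg]
    exact hz.add hz'.neg
  have h1 := hG.val_zero hv hsub (by rw [map_sub, h, sub_self])
  have h2 : (⟨evp v ((z - z' : W) : F), hG.val v c hv _ hsub⟩ : A) =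
      ⟨evp v (z : F), hG.val v c hv z hz⟩ - ⟨evp v (z' : F), hG.val v c hv z' hz'⟩ := by
    apply Subtype.ext
    change evp v ((z : F) - z') = evp v (z : F) - evp v (z' : F)
    exact evp_sub (hG.sep.rational v) (hz.mem (ord_t_nonneg hv)) (hz'.mem (ord_t_nonneg hv))
  rw [h2, map_sub] at h1
  exact sub_eq_zero.mp h1

/-- Lifting of regular functions, fixed by `G`. -/
theorem GoodCrv.exists_lift (hG : GoodCrv r γ W ρ t tb) {zb : Fb} (hz : Reg κ tb zb) :
    ∃ z : W, Reg Ω t (z : F) ∧ ρ z = zb ∧ ∀ g : G, γ g • (z : F) = z := by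
  obtain ⟨M, hM⟩ := hG.lift
  obtain ⟨n₀, hn₀⟩ := Reg.exists_mem hG.sepb hz
  obtain ⟨z, hz1, hz2, hz3⟩ := hM (max M n₀) (le_max_left _ _) zb (hn₀ _ (le_max_right _ _))
  exact ⟨z, mem_nL_reg hG.sep hz1, hz2, hz3⟩

theorem GoodCrv.reg_red (hG : GoodCrv r γ W ρ t tb) {z : W} (hz : Reg Ω t (z : F)) :
    Reg κ tb (ρ z) := by
  obtain ⟨n₀, hn₀⟩ := Reg.exists_mem hG.sep hz
  exact mem_nL_reg hG.sepb (hG.int n₀ z (hn₀ n₀ le_rfl))

/-- `v` reduces to `vb`. -/
def RedTo (r : A →+* κ) (ρ : W →+* Fb) (t : F) (v : Place Ω F) (vb : Place κ Fb) : Prop :=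
  ∀ z : W, Reg Ω t (z : F) → ∃ h : evp v (z : F) ∈ A, r ⟨_, h⟩ = evp vb (ρ z)

theorem GoodCrv.t_mem (hG : GoodCrv r γ W ρ t tb) (htW : t ∈ W) : Reg Ω t t := fun _ h => h

/-- Every place above `c ∈ A` has a reduction. -/
theorem GoodCrv.exists_red (hG : GoodCrv r γ W ρ t tb) (htW : t ∈ W) (htb : ρ ⟨t, htW⟩ = tb)
    {v : Place Ω F} {c : A} (hv : 0 < v.ord (t - algebraMap Ω F c)) :
    ∃ vb : Place κ Fb, 0 < vb.ord (tb - algebraMap κ Fb (r c)) ∧ RedTo r ρ t v vb := by
  classical
  have := hG.sepb.fd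
  have := hG.sepb.sep
  have := isPrincipalIdealRing_adjoin hG.sepb.trans
  have := isDedekindDomain_adjoin hG.sepb.trans
  have := isFractionRing_intClosure (K := κ) tb
  have := isDedekindDomain_intClosure hG.sepb.trans
  have hr := hG.sep.rational v
  have hv0 := ord_t_nonneg hv
  set B := intClosure κ tb with hB
  have hBreg : ∀ b : B, Reg κ tb (b : Fb) := fun b v hv => ord_nonneg_of_isIntegral b.2 v hv
  choose z hz1 hz2 _ using fun b : B => hG.exists_lift (hBreg b)
  have hval : ∀ (b : B) (z' : W) (hz' : Reg Ω t (z' : F)), ρ z' = b →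
      r ⟨evp v (z b : F), hG.val v c hv _ (hz1 b)⟩ = r ⟨evp v (z' : F), hG.val v c hv _ hz'⟩ :=
    fun b z' hz' h => hG.val_congr hv (hz1 b) hz' ((hz2 b).trans h.symm)
  let χ : B →+* κ :=
    { toFun := fun b => r ⟨evp v (z b : F), hG.val v c hv _ (hz1 b)⟩
      map_one' := by
        have h1 : Reg Ω t ((1 : W) : F) := by
          have := Reg.algebraMap (K := Ω) (F := F) (t := t) 1
          rwa [map_one] at this
        rw [hval 1 1 h1 (map_one ρ)]
        have h2 : (⟨evp v ((1 : W) : F), hG.val v c hv _ h1⟩ : A) = 1 := Subtype.ext evp_one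
        rw [h2, map_one]
      map_zero' := by
        have h1 : Reg Ω t ((0 : W) : F) := by
          have := Reg.algebraMap (K := Ω) (F := F) (t := t) 0
          rwa [map_zero] at this
        rw [hval 0 0 h1 (map_zero ρ)]
        have h2 : (⟨evp v ((0 : W) : F), hG.val v c hv _ h1⟩ : A) = 0 := Subtype.ext evp_zero
        rw [h2, map_zero]
      map_mul' := fun a b => by
        have h1 : Reg Ω t ((z a * z b : W) : F) := (hz1 a).mul (hz1 b)
        rw [hval (a * b) (z a * z b) h1 (by rw [map_mul, hz2, hz2]; rfl)]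
        have h2 : (⟨evp v ((z a * z b : W) : F), hG.val v c hv _ h1⟩ : A) =
            ⟨evp v (z a : F), hG.val v c hv _ (hz1 a)⟩ * ⟨evp v (z b : F), hG.val v c hv _ (hz1 b)⟩ :=
          Subtype.ext (evp_mul hr ((hz1 a).mem hv0) ((hz1 b).mem hv0))
        rw [h2, map_mul]
      map_add' := fun a b => by
        have h1 : Reg Ω t ((z a + z b : W) : F) := (hz1 a).add (hz1 b)
        rw [hval (a + b) (z a + z b) h1 (by rw [map_add, hz2, hz2]; rfl)]
        have h2 : (⟨evp v ((z a + z b : W) : F), hG.val v c hv _ h1⟩ : A) =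
            ⟨evp v (z a : F), hG.val v c hv _ (hz1 a)⟩ + ⟨evp v (z b : F), hG.val v c hv _ (hz1 b)⟩ :=
          Subtype.ext (evp_add hr ((hz1 a).mem hv0) ((hz1 b).mem hv0))
        rw [h2, map_add] }
  -- values on constants
  have hχalg : ∀ a : κ, χ (algebraMap κ B a) = a := by
    intro a
    obtain ⟨d, rfl⟩ := hG.surj a
    have h1 : Reg Ω t ((⟨algebraMap Ω F d, hG.alg d d.2⟩ : W) : F) := Reg.algebraMap _
    have h2 : χ (algebraMap κ B (r d)) = _ := hval (algebraMap κ B (r d)) _ h1 (hG.ralg' d)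
    rw [h2]
    have h3 : (⟨evp v (algebraMap Ω F d), hG.val v c hv _ h1⟩ : A) = d :=
      Subtype.ext (evp_algebraMap _)
    change r ⟨evp v (algebraMap Ω F d), hG.val v c hv _ h1⟩ = r d
    rw [h3]
  let tB : B := algebraMap (Algebra.adjoin κ {tb}) B (tGen tb)
  have htB : (tB : Fb) = tb := rfl
  have hχt : χ tB = r c := by
    have h1 : Reg Ω t ((⟨t, htW⟩ : W) : F) := fun _ h => h
    have h2 : χ tB = _ := hval tB _ h1 htb
    rw [h2]
    have h3 : (⟨evp v t, hG.val v c hv _ h1⟩ : A) = c := by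
      apply Subtype.ext
      apply evp_unique
      rw [adicValuation_lt_one_iff]
      exact Or.inr hv
    change r ⟨evp v t, hG.val v c hv _ h1⟩ = r c
    rw [h3]
  let P : Ideal B := RingHom.ker χ
  have hPprime : P.IsPrime := RingHom.ker_isPrime χ
  have htP : tB - algebraMap κ B (r c) ∈ P := by
    rw [RingHom.mem_ker, map_sub, hχt, hχalg, sub_self]
  have hPne : P ≠ ⊥ := by
    intro h
    rw [h, Ideal.mem_bot] at htP
    have h1 := congrArg Subtype.val htP
    exact (hG.sepb.sub (r c)).ne_zero h1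
  let w : HeightOneSpectrum B := ⟨P, hPprime, hPne⟩
  let vb : Place κ Fb := Place.ofHeightOneSpectrum w
  have hvb : ∀ b ∈ P, vb.adicValuation (b : Fb) < 1 := by
    intro b hb
    rw [adicValuation_ofHeightOneSpectrum]
    exact (w.valuation_lt_one_iff_mem b).mpr hb
  refine ⟨vb, ?_, ?_⟩
  · have h1 := hvb _ htP
    rw [adicValuation_lt_one_iff] at h1
    rcases h1 with h1 | h1
    · exact absurd h1 (hG.sepb.sub (r c)).ne_zero
    · exact h1
  · intro z' hz'
    refine ⟨hG.val v c hv z' hz', ?_⟩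
    have hint : IsIntegral (Algebra.adjoin κ {tb}) (ρ z') :=
      hG.sepb.isIntegral (hG.reg_red hz')
    let b : B := ⟨ρ z', hint⟩
    have h1 : χ b = r ⟨evp v (z' : F), hG.val v c hv z' hz'⟩ := hval b z' hz' rfl
    rw [← h1]
    symm
    apply evp_unique
    have h2 : b - algebraMap κ B (χ b) ∈ P := by
      rw [RingHom.mem_ker, map_sub, hχalg, sub_self]
    exact hvb _ h2

/-- Reductions are unique. -/
theorem GoodCrv.red_unique (hG : GoodCrv r γ W ρ t tb) {v : Place Ω F} {vb vb' : Place κ Fb}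
    (h : RedTo r ρ t v vb) (h' : RedTo r ρ t v vb') (hvb : 0 ≤ vb.ord tb) (hvb' : 0 ≤ vb'.ord tb) :
    vb = vb' := by
  -- regular functions have the same values
  have h1 : ∀ zb : Fb, Reg κ tb zb → evp vb zb = evp vb' zb := by
    intro zb hzb
    obtain ⟨z, hz, rfl, -⟩ := hG.exists_lift hzb
    obtain ⟨a, ha⟩ := h z hz
    obtain ⟨a', ha'⟩ := h' z hz
    rw [← ha, ← ha']
  have := hG.sepb.fd
  have := hG.sepb.sep
  have := isPrincipalIdealRing_adjoin hG.sepb.trans
  have := isDedekindDomain_adjoin hG.sepb.trans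
  have := isFractionRing_intClosure (K := κ) tb
  have := isDedekindDomain_intClosure hG.sepb.trans
  set B := intClosure κ tb with hB
  have hBreg : ∀ b : B, Reg κ tb (b : Fb) := fun b v hv => ord_nonneg_of_isIntegral b.2 v hv
  obtain ⟨w, hw, hwm⟩ := exists_heightOneSpectrum vb (R := B) fun b => (hBreg b).mem hvb
  obtain ⟨w', hw', hwm'⟩ := exists_heightOneSpectrum vb' (R := B) fun b => (hBreg b).mem hvb'
  have h2 : w = w' := by
    apply HeightOneSpectrum.ext
    ext b
    have e1 : (b ∈ w.asIdeal ↔ evp vb (b : Fb) = 0) := by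
      rw [hwm, evp_eq_zero_iff (hG.sepb.rational vb) ((hBreg b).mem hvb)]
      exact adicValuation_lt_one_iff vb
    have e2 : (b ∈ w'.asIdeal ↔ evp vb' (b : Fb) = 0) := by
      rw [hwm', evp_eq_zero_iff (hG.sepb.rational vb') ((hBreg b).mem hvb')]
      exact adicValuation_lt_one_iff vb'
    rw [e1, e2, h1 _ (hBreg b)]
  rw [hw, hw', h2]

end Fermat.Agent.Flat
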