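import Mathlib
import Fermat.Agent.Flat.Points

/-!
Function fields with a basis having independent reductions: verification of the axioms of good
reduction.
-/

set_option autoImplicit false
set_option linter.unusedSectionVars false

noncomputable section

namespace Fermat.Agent.Flat

open AlgebraicCurve IsDedekindDomain IntermediateField WithZero Module Fermat.Agent.FunField
open Polynomial (aeval)

section Ech

variable {Ω κ : Type*} [Field Ω] [Field κ] {A : ValuationSubring Ω} {r : A →+* κ}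

/-- Scale a family such that it becomes integral and one element is `1`. -/
theorem exists_scale {α : Type*} [Finite α] (a : α → Ω) (ha : ∃ i, a i ≠ 0) :
    ∃ c : Ω, c ≠ 0 ∧ (∀ i, c * a i ∈ A) ∧ ∃ i, c * a i = 1 := by
  classical
  have := Fintype.ofFinite α
  obtain ⟨j, -, hj⟩ := Finset.exists_max_image Finset.univ (fun i => A.valuation (a i))
    (Finset.univ_nonempty_iff.mpr ⟨ha.choose⟩)
  have haj : a j ≠ 0 := by
    intro h0
    obtain ⟨i, hi⟩ := ha
    have := hj i (Finset.mem_univ i)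
    rw [h0, map_zero] at this
    exact hi ((Valuation.zero_iff _).mp (le_antisymm this zero_le'))
  refine ⟨(a j)⁻¹, inv_ne_zero haj, fun i => ?_, j, inv_mul_cancel₀ haj⟩
  rw [← A.valuation_le_one_iff, mul_comm, ← div_eq_mul_inv, map_div₀]
  exact div_le_one_of_le₀ (hj i (Finset.mem_univ i)) zero_le'

/-- Subspaces have bases with independent reductions. -/
theorem exists_indep_red {α : Type*} [Finite α] : ∀ (n : ℕ) (U : Submodule Ω (α → Ω)),
    finrank Ω U = n → ∃ w : Fin n → α → A, (∀ k, (fun i => (w k i : Ω)) ∈ U) ∧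
      LinearIndependent κ fun k => fun i => r (w k i) := by
  classical
  intro n
  induction n with
  | zero => exact fun U _ => ⟨fun k => k.elim0, fun k => k.elim0, linearIndependent_empty_type⟩
  | succ n ih =>
    intro U hU
    have hne : U ≠ ⊥ := by
      rintro rfl
      rw [finrank_bot] at hU
      omega
    obtain ⟨x, hxU, hx0⟩ := Submodule.exists_mem_ne_zero_of_ne_bot hne
    obtain ⟨c, hc0, hcA, j, hcj⟩ := exists_scale (A := A) x (by
      by_contra h
      push Not at h
      exact hx0 (funext h))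
    let φ : U →ₗ[Ω] Ω := (LinearMap.proj j).comp U.subtype
    have hφ : Function.Surjective φ := by
      intro y
      refine ⟨⟨(y * c) • x, Submodule.smul_mem _ _ hxU⟩, ?_⟩
      change (y * c) * x j = y
      rw [mul_assoc, hcj, mul_one]
    have hker : finrank Ω (LinearMap.ker φ) = n := by
      have h1 := LinearMap.finrank_range_add_finrank_ker φ
      rw [LinearMap.range_eq_top.mpr hφ, finrank_top, finrank_self, hU] at h1
      omega
    let U' : Submodule Ω (α → Ω) := (LinearMap.ker φ).map U.subtype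
    have hU' : finrank Ω U' = n := by
      rw [← hker]
      exact (LinearEquiv.finrank_eq (Submodule.equivSubtypeMap U (LinearMap.ker φ))).symm
    obtain ⟨w, hw, hind⟩ := ih U' hU'
    have hwj : ∀ k, (w k j : Ω) = 0 := by
      intro k
      obtain ⟨y, hy, hyw⟩ := hw k
      have h1 : φ y = 0 := hy
      have h2 := congrFun hyw j
      rw [← h2]
      exact h1
    refine ⟨Fin.cons (fun i => ⟨c * x i, hcA i⟩) w, fun k => ?_, ?_⟩
    · refine Fin.cases ?_ (fun k => ?_) k
      · rw [Fin.cons_zero]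
        exact Submodule.smul_mem U c hxU
      · rw [Fin.cons_succ]
        obtain ⟨y, -, hyw⟩ := hw k
        rw [← hyw]
        exact y.2
    · have e : (fun k : Fin (n + 1) => fun i => r ((Fin.cons (fun i => ⟨c * x i, hcA i⟩) w :
          Fin (n + 1) → α → A) k i)) =
          Fin.cons (fun i => r ⟨c * x i, hcA i⟩) fun k => fun i => r (w k i) := by
        funext k
        refine Fin.cases ?_ (fun k => ?_) k
        · rw [Fin.cons_zero, Fin.cons_zero]
        · rw [Fin.cons_succ, Fin.cons_succ]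
      rw [e, linearIndependent_finCons]
      refine ⟨hind, fun hmem => ?_⟩
      have h0 : ∀ y ∈ Submodule.span κ (Set.range fun k => fun i => r (w k i)), y j = 0 := by
        intro y hy
        induction hy using Submodule.span_induction with
        | mem y hy =>
          obtain ⟨k, rfl⟩ := hy
          have : w k j = 0 := Subtype.ext (hwj k)
          change r (w k j) = 0
          rw [this, map_zero]
        | zero => rfl
        | add y z _ _ hy hz => rw [Pi.add_apply, hy, hz, add_zero]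
        | smul a y _ hy => rw [Pi.smul_apply, hy, smul_zero]
      have h1 := h0 _ hmem
      have h2 : (⟨c * x j, hcA j⟩ : A) = 1 := Subtype.ext hcj
      change r ⟨c * x j, hcA j⟩ = 0 at h1
      rw [h2, map_one] at h1
      exact one_ne_zero h1

end Ech

variable {Ω κ F E : Type*} [Field Ω] [Field κ] [Field F] [Field E] [Algebra Ω F] [Algebra κ E]
  {A : ValuationSubring Ω}

/-- Data of a reduction map, with a basis having independent reductions. -/
structure Pre (r : A →+* κ) (W : Subring F) (ρ : W →+* E) (t : F) (tb : E) {d : ℕ}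
    (e : Fin d → F) : Prop where
  surj : Function.Surjective r
  unit : ∀ a : A, r a ≠ 0 → (a : Ω)⁻¹ ∈ A
  alg : ∀ a ∈ A, algebraMap Ω F a ∈ W
  ralg : ∀ (a : A) (h : algebraMap Ω F a ∈ W), ρ ⟨algebraMap Ω F a, h⟩ = algebraMap κ E (r a)
  runit : ∀ z : W, ρ z ≠ 0 → (z : F)⁻¹ ∈ W
  tW : t ∈ W
  tρ : ρ ⟨t, tW⟩ = tb
  tr : Transcendental Ω t
  trb : Transcendental κ tb
  eW : ∀ i, e i ∈ W
  span : ∀ x : F, ∃ (Q : Polynomial Ω) (P : Fin d → Polynomial Ω), Q ≠ 0 ∧
    aeval t Q * x = ∑ i, aeval t (P i) * e i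
  ind : ∀ P : Fin d → Polynomial κ, ∑ i, aeval tb (P i) * ρ ⟨e i, eW i⟩ = 0 → ∀ i, P i = 0

variable {r : A →+* κ} {W : Subring F} {ρ : W →+* E} {t : F} {tb : E} {d : ℕ} {e : Fin d → F}

/-- constants -/
def Pre.jA (h : Pre r W ρ t tb e) : A →+* W :=
  ((algebraMap Ω F).comp A.subtype).codRestrict W fun a => h.alg a a.2

/-- evaluation of polynomials with coefficients in `A` -/
def Pre.evW (h : Pre r W ρ t tb e) : Polynomial A →+* W :=
  Polynomial.eval₂RingHom h.jA ⟨t, h.tW⟩

theorem Pre.coe_evW (h : Pre r W ρ t tb e) (P : Polynomial A) :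
    (h.evW P : F) = aeval t (P.map A.subtype) := by
  change W.subtype (Polynomial.eval₂ h.jA ⟨t, h.tW⟩ P) = _
  rw [Polynomial.hom_eval₂, Polynomial.aeval_def, Polynomial.eval₂_map]
  rfl

theorem Pre.ρ_evW (h : Pre r W ρ t tb e) (P : Polynomial A) :
    ρ (h.evW P) = aeval tb (P.map r) := by
  change ρ (Polynomial.eval₂ h.jA ⟨t, h.tW⟩ P) = _
  rw [Polynomial.hom_eval₂, Polynomial.aeval_def, Polynomial.eval₂_map, h.tρ]
  congr 1
  ext a
  exact h.ralg a _

theorem aeval_eq_zero_iff {K F : Type*} [Field K] [Field F] [Algebra K F] {t : F}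
    (ht : Transcendental K t) {P : Polynomial K} : aeval t P = 0 ↔ P = 0 :=
  ⟨fun h => (transcendental_iff.mp ht) P h, fun h => by rw [h, map_zero]⟩

theorem Pre.evW_inv (h : Pre r W ρ t tb e) {P : Polynomial A} (hP : P.map r ≠ 0) :
    (h.evW P : F)⁻¹ ∈ W := by
  apply h.runit
  rw [h.ρ_evW, Ne, aeval_eq_zero_iff h.trb]
  exact hP

/-- Scale a family of polynomials. -/
theorem exists_scale_poly {ι : Type*} [Finite ι] (P : ι → Polynomial Ω) (hP : ∃ i, P i ≠ 0) :
    ∃ (c : Ω) (P' : ι → Polynomial A), c ≠ 0 ∧ (∀ i, (P' i).map A.subtype = Polynomial.C c * P i) ∧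
      ∃ i, (P' i).map r ≠ 0 := by
  classical
  have := Fintype.ofFinite ι
  let N : ℕ := ∑ i, (P i).natDegree + 1
  have hN : ∀ i, (P i).natDegree < N := fun i => by
    have : (P i).natDegree ≤ ∑ i, (P i).natDegree :=
      Finset.single_le_sum (f := fun i => (P i).natDegree) (fun _ _ => Nat.zero_le _)
        (Finset.mem_univ i)
    omega
  obtain ⟨c, hc, hcA, ⟨i, k⟩, hik⟩ := exists_scale (A := A)
    (fun p : ι × Fin N => (P p.1).coeff p.2) (by
      obtain ⟨i, hi⟩ := hP
      exact ⟨(i, ⟨(P i).natDegree, hN i⟩), by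
        simpa using Polynomial.leadingCoeff_ne_zero.mpr hi⟩)
  have hmem : ∀ i, Polynomial.C c * P i ∈ Polynomial.lifts A.subtype := by
    intro i
    rw [Polynomial.lifts_iff_coeff_lifts]
    intro n
    rw [Polynomial.coeff_C_mul]
    by_cases hn : n < N
    · exact ⟨⟨_, hcA (i, ⟨n, hn⟩)⟩, rfl⟩
    · rw [Polynomial.coeff_eq_zero_of_natDegree_lt ((hN i).trans_le (not_lt.mp hn)), mul_zero]
      exact ⟨0, map_zero _⟩
  choose P' hP' using fun i => (Polynomial.mem_lifts _).mp (hmem i)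
  refine ⟨c, P', hc, hP', i, fun h0 => ?_⟩
  have h1 := congrArg (fun p => p.coeff (k : ℕ)) h0
  simp only [Polynomial.coeff_map, Polynomial.coeff_zero] at h1
  have h2 : (P' i).coeff (k : ℕ) = 1 := by
    apply Subtype.ext
    have h3 := congrArg (fun p => p.coeff (k : ℕ)) (hP' i)
    simp only [Polynomial.coeff_map, Polynomial.coeff_C_mul] at h3
    exact h3.trans hik
  rw [h2, map_one] at h1
  exact one_ne_zero h1

theorem exists_scale_poly_one (P : Polynomial Ω) (hP : P ≠ 0) :
    ∃ (c : Ω) (P' : Polynomial A), c ≠ 0 ∧ P'.map A.subtype = Polynomial.C c * P ∧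
      P'.map r ≠ 0 := by
  obtain ⟨c, P', hc, h1, i, h2⟩ := exists_scale_poly (r := r) (fun _ : Unit => P) ⟨(), hP⟩
  exact ⟨c, P' i, hc, h1 i, h2⟩

/-- A normalised equation. -/
theorem Pre.span' (h : Pre r W ρ t tb e) (x : F) : ∃ (Q : Polynomial A)
    (P : Fin d → Polynomial Ω), Q.map r ≠ 0 ∧
      (h.evW Q : F) * x = ∑ i, aeval t (P i) * e i := by
  obtain ⟨Q, P, hQ, hx⟩ := h.span x
  obtain ⟨c, Q', hc, h1, h2⟩ := exists_scale_poly_one (r := r) Q hQ
  refine ⟨Q', fun i => Polynomial.C c * P i, h2, ?_⟩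
  rw [h.coe_evW, h1, map_mul, mul_assoc, hx, Finset.mul_sum]
  refine Finset.sum_congr rfl fun i _ => ?_
  rw [map_mul, mul_assoc]

theorem Pre.mem_of_eq (h : Pre r W ρ t tb e) {Q : Polynomial A} (hQ : Q.map r ≠ 0) {x : F}
    {P : Fin d → Polynomial A} (hx : (h.evW Q : F) * x = ∑ i, (h.evW (P i) : F) * e i) :
    ∃ hxW : x ∈ W, aeval tb (Q.map r) * ρ ⟨x, hxW⟩ =
      ∑ i, aeval tb ((P i).map r) * ρ ⟨e i, h.eW i⟩ := by
  have hQ0 : (h.evW Q : F) ≠ 0 := by
    intro h0
    have h1 : h.evW Q = 0 := Subtype.ext h0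
    have h2 := h.ρ_evW Q
    rw [h1, map_zero] at h2
    exact hQ ((aeval_eq_zero_iff h.trb).mp h2.symm)
  have hx1 : x = (h.evW Q : F)⁻¹ * ∑ i, (h.evW (P i) : F) * e i := by
    rw [← hx, ← mul_assoc, inv_mul_cancel₀ hQ0, one_mul]
  have hxW : x ∈ W := by
    rw [hx1]
    exact mul_mem (h.evW_inv hQ) (sum_mem fun i _ => mul_mem (h.evW (P i)).2 (h.eW i))
  refine ⟨hxW, ?_⟩
  have h1 : h.evW Q * ⟨x, hxW⟩ = ∑ i, h.evW (P i) * ⟨e i, h.eW i⟩ := by
    apply Subtype.ext
    push_cast
    exact hx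
  have h2 := congrArg ρ h1
  rw [map_mul, map_sum, h.ρ_evW] at h2
  rw [h2]
  refine Finset.sum_congr rfl fun i _ => ?_
  rw [map_mul, h.ρ_evW]

theorem Pre.scale (h : Pre r W ρ t tb e) (x : F) (hx0 : x ≠ 0) :
    ∃ c : Ω, c ≠ 0 ∧ ∃ h : algebraMap Ω F c * x ∈ W, ρ ⟨_, h⟩ ≠ 0 := by
  obtain ⟨Q, P, hQ, hx⟩ := h.span' x
  have hQ0 : (h.evW Q : F) ≠ 0 := by
    intro h0
    have h1 : h.evW Q = 0 := Subtype.ext h0
    have h2 := h.ρ_evW Q
    rw [h1, map_zero] at h2
    exact hQ ((aeval_eq_zero_iff h.trb).mp h2.symm)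
  have hP : ∃ i, P i ≠ 0 := by
    by_contra hcon
    push Not at hcon
    rw [Finset.sum_eq_zero fun i _ => by rw [hcon i, map_zero, zero_mul]] at hx
    exact (mul_ne_zero hQ0 hx0) hx
  obtain ⟨c, P', hc, h1, i, h2⟩ := exists_scale_poly (A := A) (r := r) P hP
  have h3 : (h.evW Q : F) * (algebraMap Ω F c * x) = ∑ i, (h.evW (P' i) : F) * e i := by
    rw [mul_left_comm, hx, Finset.mul_sum]
    refine Finset.sum_congr rfl fun i _ => ?_
    rw [h.coe_evW, h1, map_mul, Polynomial.aeval_C, mul_assoc]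
  obtain ⟨hW, hρ⟩ := h.mem_of_eq hQ h3
  refine ⟨c, hc, hW, fun h0 => ?_⟩
  rw [h0, mul_zero] at hρ
  exact h2 (h.ind _ hρ.symm i)

/-- The coefficients of an element of `W` are integral. -/
theorem Pre.exists_coeff (h : Pre r W ρ t tb e) {Q : Polynomial A} {x : F}
    (hxW : x ∈ W) {P : Fin d → Polynomial Ω}
    (hx : (h.evW Q : F) * x = ∑ i, aeval t (P i) * e i) :
    ∃ P' : Fin d → Polynomial A, ∀ i, (P' i).map A.subtype = P i := by
  by_cases hP : ∃ i, P i ≠ 0
  · obtain ⟨c, P', hc, h1, j, h2⟩ := exists_scale_poly (A := A) (r := r) P hP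
    by_cases hcA : c⁻¹ ∈ A
    · refine ⟨fun i => Polynomial.C ⟨c⁻¹, hcA⟩ * P' i, fun i => ?_⟩
      rw [Polynomial.map_mul, h1, Polynomial.map_C, ← mul_assoc, ← Polynomial.C_mul]
      change Polynomial.C (c⁻¹ * c) * P i = P i
      rw [inv_mul_cancel₀ hc, Polynomial.C_1, one_mul]
    · exfalso
      have hcA' : c ∈ A := (A.mem_or_inv_mem c).resolve_right hcA
      have hrc : r ⟨c, hcA'⟩ = 0 := by
        by_contra h0
        exact hcA (h.unit _ h0)
      have h3 : h.evW Q * (⟨algebraMap Ω F c, h.alg c hcA'⟩ * ⟨x, hxW⟩) =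
          ∑ i, h.evW (P' i) * ⟨e i, h.eW i⟩ := by
        apply Subtype.ext
        push_cast
        rw [mul_left_comm, hx, Finset.mul_sum]
        refine Finset.sum_congr rfl fun i _ => ?_
        rw [h.coe_evW, h1, map_mul, Polynomial.aeval_C, mul_assoc]
      have h4 := congrArg ρ h3
      rw [map_mul, map_mul, h.ralg ⟨c, hcA'⟩, hrc, map_zero, zero_mul, mul_zero, map_sum] at h4
      refine h2 (h.ind (fun i => (P' i).map r) ?_ j)
      rw [h4]
      refine Finset.sum_congr rfl fun i _ => ?_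
      rw [map_mul, h.ρ_evW]
  · push Not at hP
    exact ⟨fun _ => 0, fun i => by rw [hP i, Polynomial.map_zero]⟩

/-- Polynomials in `t` belonging to `W` have integral coefficients. -/
theorem Pre.exists_poly_A (h : Pre r W ρ t tb e) {P : Polynomial Ω} (hP : aeval t P ∈ W) :
    ∃ P' : Polynomial A, P'.map A.subtype = P := by
  by_cases hP0 : P = 0
  · exact ⟨0, by rw [hP0, Polynomial.map_zero]⟩
  obtain ⟨c, P', hc, h1, h2⟩ := exists_scale_poly_one (A := A) (r := r) P hP0
  by_cases hcA : c⁻¹ ∈ A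
  · refine ⟨Polynomial.C ⟨c⁻¹, hcA⟩ * P', ?_⟩
    rw [Polynomial.map_mul, h1, Polynomial.map_C, ← mul_assoc, ← Polynomial.C_mul]
    change Polynomial.C (c⁻¹ * c) * P = P
    rw [inv_mul_cancel₀ hc, Polynomial.C_1, one_mul]
  · exfalso
    have hcA' : c ∈ A := (A.mem_or_inv_mem c).resolve_right hcA
    have hrc : r ⟨c, hcA'⟩ = 0 := by
      by_contra h0
      exact hcA (h.unit _ h0)
    have h3 : ⟨algebraMap Ω F c, h.alg c hcA'⟩ * ⟨aeval t P, hP⟩ = h.evW P' := by
      apply Subtype.ext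
      push_cast
      rw [h.coe_evW, h1, map_mul, Polynomial.aeval_C]
    have h4 := congrArg ρ h3
    rw [map_mul, h.ralg ⟨c, hcA'⟩, hrc, map_zero, zero_mul, h.ρ_evW] at h4
    exact h2 ((aeval_eq_zero_iff h.trb).mp h4.symm)

/-- `W` as a valuation ring. -/
def Pre.val (h : Pre r W ρ t tb e) : ValuationSubring F where
  toSubring := W
  mem_or_inv_mem' x := by
    by_cases hx0 : x = 0
    · left; rw [hx0]; exact zero_mem W
    obtain ⟨c, hc, hW, hρ⟩ := h.scale x hx0
    have hcF : algebraMap Ω F c ≠ 0 := by rwa [Ne, map_eq_zero]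
    rcases A.mem_or_inv_mem c with hcA | hcA
    · right
      have h1 : x⁻¹ = algebraMap Ω F c * (algebraMap Ω F c * x)⁻¹ := by
        rw [mul_inv, ← mul_assoc, mul_inv_cancel₀ hcF, one_mul]
      change x⁻¹ ∈ W
      rw [h1]
      exact mul_mem (h.alg c hcA) (h.runit ⟨_, hW⟩ hρ)
    · left
      have h1 : x = algebraMap Ω F c⁻¹ * (algebraMap Ω F c * x) := by
        rw [map_inv₀, ← mul_assoc, inv_mul_cancel₀ hcF, one_mul]
      change x ∈ W
      rw [h1]
      exact mul_mem (h.alg _ hcA) hW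

theorem Pre.mem_val (h : Pre r W ρ t tb e) {x : F} : x ∈ h.val ↔ x ∈ W := Iff.rfl

theorem Pre.ind' (h : Pre r W ρ t tb e) (P : Fin d → Polynomial Ω)
    (hP : ∑ i, aeval t (P i) * e i = 0) : ∀ i, P i = 0 := by
  by_contra hcon
  push Not at hcon
  obtain ⟨c, P', hc, h1, j, h2⟩ := exists_scale_poly (A := A) (r := r) P hcon
  have h3 : ∑ i, h.evW (P' i) * ⟨e i, h.eW i⟩ = 0 := by
    apply Subtype.ext
    push_cast
    have h4 := congrArg (fun y => algebraMap Ω F c * y) hP
    simp only [mul_zero, Finset.mul_sum] at h4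
    rw [← h4]
    refine Finset.sum_congr rfl fun i _ => ?_
    rw [h.coe_evW, h1, map_mul, Polynomial.aeval_C, mul_assoc]
  have h4 := congrArg ρ h3
  rw [map_sum, map_zero] at h4
  refine h2 (h.ind (fun i => (P' i).map r) ?_ j)
  rw [← h4]
  refine Finset.sum_congr rfl fun i _ => ?_
  rw [map_mul, h.ρ_evW]

/-- polynomials from vectors -/
def pv {R : Type*} [CommRing R] {d N : ℕ} (v : Fin d × Fin N → R) (i : Fin d) : Polynomial R :=
  ∑ j : Fin N, Polynomial.monomial (j : ℕ) (v (i, j))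

section PV

variable {R S : Type*} [CommRing R] [CommRing S] {d N : ℕ}

theorem pv_map (f : R →+* S) (v : Fin d × Fin N → R) (i : Fin d) :
    (pv v i).map f = pv (fun p => f (v p)) i := by
  rw [pv, Polynomial.map_sum, pv]
  exact Finset.sum_congr rfl fun j _ => Polynomial.map_monomial _

theorem coeff_pv (v : Fin d × Fin N → R) (i : Fin d) (j : Fin N) :
    (pv v i).coeff (j : ℕ) = v (i, j) := by
  rw [pv, Polynomial.finsetSum_coeff, Finset.sum_eq_single j]
  · rw [Polynomial.coeff_monomial, if_pos rfl]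
  · intro k _ hk
    rw [Polynomial.coeff_monomial, if_neg fun h => hk (Fin.ext h)]
  · intro h
    exact absurd (Finset.mem_univ _) h

theorem coeff_pv_of_le (v : Fin d × Fin N → R) (i : Fin d) {n : ℕ} (hn : N ≤ n) :
    (pv v i).coeff n = 0 := by
  rw [pv, Polynomial.finsetSum_coeff]
  refine Finset.sum_eq_zero fun k _ => ?_
  rw [Polynomial.coeff_monomial, if_neg]
  have := k.2
  omega

theorem pv_coeff {P : Fin d → Polynomial R} (hP : ∀ i, (P i).natDegree < N) (i : Fin d) :
    pv (fun p : Fin d × Fin N => (P p.1).coeff p.2) i = P i := by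
  ext n
  by_cases hn : n < N
  · exact coeff_pv _ i ⟨n, hn⟩
  · rw [coeff_pv_of_le _ _ (not_lt.mp hn),
      Polynomial.coeff_eq_zero_of_natDegree_lt ((hP i).trans_le (not_lt.mp hn))]

theorem pv_add (v w : Fin d × Fin N → R) (i : Fin d) : pv (v + w) i = pv v i + pv w i := by
  rw [pv, pv, pv, ← Finset.sum_add_distrib]
  refine Finset.sum_congr rfl fun j _ => ?_
  rw [Pi.add_apply, map_add]

theorem pv_smul (c : R) (v : Fin d × Fin N → R) (i : Fin d) :
    pv (c • v) i = Polynomial.C c * pv v i := by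
  rw [pv, pv, Finset.mul_sum]
  refine Finset.sum_congr rfl fun j _ => ?_
  rw [Pi.smul_apply, smul_eq_mul, Polynomial.C_mul_monomial]

end PV

/-- `sat` -/
theorem Pre.sat (h : Pre r W ρ t tb e) (U : Submodule Ω F) (hU : FiniteDimensional Ω U) :
    ∃ u : Fin (finrank Ω U) → W, (∀ i, (u i : F) ∈ U) ∧
      LinearIndependent κ fun i => ρ (u i) := by
  classical
  let b := finBasis Ω U
  choose Q P hQ hb using fun k => h.span' (b k : F)
  let Q' : Polynomial A := ∏ k, Q k
  have hQ' : Q'.map r ≠ 0 := by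
    simp only [Q']
    rw [Polynomial.map_prod, Finset.prod_ne_zero_iff]
    exact fun k _ => hQ k
  let P' : Fin (finrank Ω U) → Fin d → Polynomial Ω := fun k i =>
    (∏ l ∈ Finset.univ.erase k, Q l).map A.subtype * P k i
  have hb' : ∀ k, (h.evW Q' : F) * b k = ∑ i, aeval t (P' k i) * e i := by
    intro k
    simp only [Q', P']
    rw [← Finset.mul_prod_erase Finset.univ Q (Finset.mem_univ k), map_mul, Subring.coe_mul,
      mul_comm (h.evW (Q k) : F), mul_assoc, hb, Finset.mul_sum]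
    refine Finset.sum_congr rfl fun i _ => ?_
    rw [h.coe_evW, map_mul, mul_assoc]
  have hQ0 : (h.evW Q' : F) ≠ 0 := by
    intro h0
    have h1 : h.evW Q' = 0 := Subtype.ext h0
    have h2 := h.ρ_evW Q'
    rw [h1, map_zero] at h2
    exact hQ' ((aeval_eq_zero_iff h.trb).mp h2.symm)
  let N : ℕ := ∑ k, ∑ i, (P' k i).natDegree + 1
  have hN : ∀ k i, (P' k i).natDegree < N := fun k i => by
    have h1 : (P' k i).natDegree ≤ ∑ i, (P' k i).natDegree :=
      Finset.single_le_sum (f := fun i => (P' k i).natDegree) (fun _ _ => Nat.zero_le _)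
        (Finset.mem_univ i)
    have h2 : ∑ i, (P' k i).natDegree ≤ ∑ k, ∑ i, (P' k i).natDegree :=
      Finset.single_le_sum (f := fun k => ∑ i, (P' k i).natDegree) (fun _ _ => Nat.zero_le _)
        (Finset.mem_univ k)
    omega
  let Ψ : (Fin d × Fin N → Ω) →ₗ[Ω] F :=
    { toFun := fun v => (h.evW Q' : F)⁻¹ * ∑ i, aeval t (pv v i) * e i
      map_add' := fun v w => by
        rw [← mul_add, ← Finset.sum_add_distrib]
        congr 1
        refine Finset.sum_congr rfl fun i _ => ?_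
        rw [pv_add, map_add, add_mul]
      map_smul' := fun c v => by
        have e1 : ∀ i, aeval t (pv (c • v) i) * e i =
            algebraMap Ω F c * (aeval t (pv v i) * e i) := by
          intro i
          rw [pv_smul, map_mul, Polynomial.aeval_C, mul_assoc]
        rw [Finset.sum_congr rfl fun i _ => e1 i, ← Finset.mul_sum, RingHom.id_apply, mul_left_comm]
        exact (Algebra.smul_def c _).symm }
  have hΨ : ∀ v, (h.evW Q' : F) * Ψ v = ∑ i, aeval t (pv v i) * e i := by
    intro v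
    change (h.evW Q' : F) * ((h.evW Q' : F)⁻¹ * _) = _
    rw [← mul_assoc, mul_inv_cancel₀ hQ0, one_mul]
  have hΨinj : Function.Injective Ψ := by
    rw [injective_iff_map_eq_zero]
    intro v hv
    have h1 := hΨ v
    rw [hv, mul_zero] at h1
    have h2 := h.ind' _ h1.symm
    funext ⟨i, j⟩
    rw [← coeff_pv v i j, h2 i, Polynomial.coeff_zero]
    rfl
  have hrange : U ≤ LinearMap.range Ψ := by
    have h1 : U = Submodule.span Ω (Set.range fun k => (b k : F)) := by
      have h2 := b.span_eq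
      have h3 := congrArg (Submodule.map U.subtype) h2
      rw [Submodule.map_span, Submodule.map_top, Submodule.range_subtype, ← Set.range_comp] at h3
      exact h3.symm
    rw [h1, Submodule.span_le]
    rintro _ ⟨k, rfl⟩
    refine ⟨fun p => (P' k p.1).coeff p.2, ?_⟩
    apply mul_left_cancel₀ hQ0
    rw [hΨ, hb']
    refine Finset.sum_congr rfl fun i _ => ?_
    rw [pv_coeff (hN k)]
  let U' : Submodule Ω (Fin d × Fin N → Ω) := U.comap Ψ
  let Φ : U' →ₗ[Ω] U := (Ψ.comp U'.subtype).codRestrict U fun v => v.2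
  have hΦ : Function.Bijective Φ := by
    refine ⟨fun v w hvw => Subtype.ext (hΨinj (congrArg Subtype.val hvw)), fun u => ?_⟩
    obtain ⟨v, hv⟩ := hrange u.2
    exact ⟨⟨v, by change Ψ v ∈ U; rw [hv]; exact u.2⟩, Subtype.ext hv⟩
  have hfin : finrank Ω U' = finrank Ω U := (LinearEquiv.ofBijective Φ hΦ).finrank_eq
  obtain ⟨w, hw, hind⟩ := exists_indep_red (κ := κ) (r := r) _ U' hfin
  have hu : ∀ k, ∃ hxW : Ψ (fun p => (w k p : Ω)) ∈ W,
      aeval tb (Q'.map r) * ρ ⟨_, hxW⟩ =
        ∑ i, aeval tb ((pv (w k) i).map r) * ρ ⟨e i, h.eW i⟩ := by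
    intro k
    apply h.mem_of_eq hQ'
    rw [hΨ]
    refine Finset.sum_congr rfl fun i _ => ?_
    rw [h.coe_evW, pv_map]
    rfl
  choose hW hρ using hu
  refine ⟨fun k => ⟨_, hW k⟩, fun k => hw k, ?_⟩
  rw [Fintype.linearIndependent_iff] at hind ⊢
  intro c hc
  apply hind
  have h1 : ∑ i, aeval tb (∑ k, Polynomial.C (c k) * (pv (w k) i).map r) * ρ ⟨e i, h.eW i⟩ = 0 := by
    have h2 := congrArg (fun y => aeval tb (Q'.map r) * y) hc
    simp only [mul_zero, Finset.mul_sum] at h2
    have h3 : ∀ k, aeval tb (Q'.map r) * (c k • ρ ⟨_, hW k⟩) =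
        ∑ i, algebraMap κ E (c k) * (aeval tb ((pv (w k) i).map r) * ρ ⟨e i, h.eW i⟩) := by
      intro k
      rw [Algebra.smul_def, mul_left_comm, hρ, Finset.mul_sum]
    rw [Finset.sum_congr rfl fun k _ => h3 k, Finset.sum_comm] at h2
    rw [← h2]
    refine Finset.sum_congr rfl fun i _ => ?_
    rw [map_sum, Finset.sum_mul]
    refine Finset.sum_congr rfl fun k _ => ?_
    rw [map_mul, Polynomial.aeval_C, mul_assoc]
  have h2 := h.ind _ h1
  funext ⟨i, j⟩
  have h3 := congrArg (fun p => p.coeff (j : ℕ)) (h2 i)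
  simp only [Polynomial.finsetSum_coeff, Polynomial.coeff_zero, Polynomial.coeff_C_mul, pv_map,
    coeff_pv] at h3
  rw [Finset.sum_apply]
  simpa using h3

end Fermat.Agent.Flat
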