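import Mathlib
import Fermat.Agent.Flat.Model

/-!
Function fields with a basis having independent reductions: integrality.
-/

set_option autoImplicit false
set_option linter.unusedSectionVars false

noncomputable section

namespace Fermat.Agent.Flat

open AlgebraicCurve IsDedekindDomain IntermediateField WithZero Module Fermat.Agent.FunField
open Polynomial (aeval)

section Reflect

theorem aeval_reflect {K F : Type*} [Field K] [Field F] [Algebra K F] {t : F} (ht : t ≠ 0)
    {N : ℕ} {P : Polynomial K} (hP : P.natDegree ≤ N) :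
    aeval t⁻¹ (Polynomial.reflect N P) * t ^ N = aeval t P := by
  let := invertibleOfNonzero ht
  have h := Polynomial.eval₂_reflect_mul_pow (algebraMap K F) t N P hP
  rw [invOf_eq_inv] at h
  exact h

theorem transcendental_inv {K F : Type*} [Field K] [Field F] [Algebra K F] {t : F}
    (ht : Transcendental K t) : Transcendental K t⁻¹ := by
  intro h
  apply ht
  have := IsAlgebraic.inv h
  rwa [inv_inv] at this

theorem mem_nL_iff {K F : Type*} [Field K] [Field F] [Algebra K F] [IsAlgClosed K] {t : F}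
    (h : Sep K t) {n : ℕ} {z : F} : z ∈ riemannRochSpace (n • pol (K := K) t) ↔
      Reg K t z ∧ Reg K t⁻¹ (z * t⁻¹ ^ n) := by
  have ht0 := h.ne_zero
  constructor
  · intro hz
    refine ⟨mem_nL_reg h hz, fun v hv => ?_⟩
    by_cases hz0 : z = 0
    · rw [hz0, zero_mul, v.ord_zero]
    rw [v.ord_mul hz0 (pow_ne_zero _ (inv_ne_zero ht0)), ord_pow]
    have h1 := (mem_L' hz0).mp hz v
    rw [Finsupp.smul_apply, nsmul_eq_mul, pol_apply (h.finOrd t)] at h1
    rw [v.ord_inv] at hv ⊢
    have h2 : max 0 (-v.ord t) = - v.ord t := max_eq_right hv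
    rw [h2] at h1
    linarith
  · rintro ⟨h1, h2⟩
    by_cases hz0 : z = 0
    · rw [hz0]; exact zero_mem _
    rw [mem_L' hz0]
    intro v
    rw [Finsupp.smul_apply, nsmul_eq_mul, pol_apply (h.finOrd t)]
    rcases le_or_gt 0 (v.ord t) with hv | hv
    · rw [max_eq_left (by omega), mul_zero, neg_zero]
      exact h1 v hv
    · have h3 := h2 v (by rw [v.ord_inv]; omega)
      rw [v.ord_mul hz0 (pow_ne_zero _ (inv_ne_zero ht0)), ord_pow, v.ord_inv] at h3
      rw [max_eq_right (by omega)]
      linarith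

end Reflect

variable {Ω κ F E : Type*} [Field Ω] [Field κ] [Field F] [Field E] [Algebra Ω F] [Algebra κ E]
  {A : ValuationSubring Ω}
  {r : A →+* κ} {W : Subring F} {ρ : W →+* E} {t : F} {tb : E} {d : ℕ} {e : Fin d → F}

theorem Pre.t_ne (h : Pre r W ρ t tb e) : t ≠ 0 := by
  rintro rfl
  exact h.tr isAlgebraic_zero

theorem Pre.tb_ne (h : Pre r W ρ t tb e) : tb ≠ 0 := by
  intro h0
  apply h.trb
  rw [h0]
  exact isAlgebraic_zero

theorem Pre.tinvW (h : Pre r W ρ t tb e) : t⁻¹ ∈ W :=
  h.runit ⟨t, h.tW⟩ (by rw [h.tρ]; exact h.tb_ne)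

/-- The other chart. -/
theorem Pre.inv (h : Pre r W ρ t tb e) : Pre r W ρ t⁻¹ tb⁻¹ e where
  surj := h.surj
  unit := h.unit
  alg := h.alg
  ralg := h.ralg
  runit := h.runit
  tW := h.tinvW
  tρ := by
    have h1 : (⟨t, h.tW⟩ : W) * ⟨t⁻¹, h.tinvW⟩ = 1 := Subtype.ext (mul_inv_cancel₀ h.t_ne)
    have h2 := congrArg ρ h1
    rw [map_mul, h.tρ, map_one] at h2
    exact eq_inv_of_mul_eq_one_right h2
  tr := transcendental_inv h.tr
  trb := transcendental_inv h.trb
  eW := h.eW
  span x := by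
    obtain ⟨Q, P, hQ, hx⟩ := h.span x
    let N : ℕ := Q.natDegree + ∑ i, (P i).natDegree
    have hN : ∀ i, (P i).natDegree ≤ N := fun i => by
      have : (P i).natDegree ≤ ∑ i, (P i).natDegree :=
        Finset.single_le_sum (f := fun i => (P i).natDegree) (fun _ _ => Nat.zero_le _)
          (Finset.mem_univ i)
      omega
    refine ⟨Polynomial.reflect N Q, fun i => Polynomial.reflect N (P i), fun h0 => hQ
      (Polynomial.reflect_eq_zero_iff.mp h0), ?_⟩
    have ht := pow_ne_zero N h.t_ne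
    apply mul_right_cancel₀ ht
    rw [mul_right_comm, aeval_reflect h.t_ne (by omega), hx, Finset.sum_mul]
    refine Finset.sum_congr rfl fun i _ => ?_
    rw [mul_right_comm, aeval_reflect h.t_ne (hN i)]
  ind P hP := by
    let N : ℕ := ∑ i, (P i).natDegree
    have hN : ∀ i, (P i).natDegree ≤ N := fun i =>
      Finset.single_le_sum (f := fun i => (P i).natDegree) (fun _ _ => Nat.zero_le _)
          (Finset.mem_univ i)
    have h1 : ∑ i, aeval tb (Polynomial.reflect N (P i)) * ρ ⟨e i, h.eW i⟩ = 0 := by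
      have h2 := congrArg (fun y => y * tb ^ N) hP
      simp only [zero_mul, Finset.sum_mul] at h2
      rw [← h2]
      refine Finset.sum_congr rfl fun i _ => ?_
      have h3 := aeval_reflect (K := κ) (inv_ne_zero h.tb_ne)
        (P := P i) (N := N) (hN i)
      rw [inv_inv] at h3
      rw [← h3, mul_right_comm, mul_right_comm _ (tb⁻¹ ^ N), mul_assoc (aeval tb _), ← mul_pow,
        mul_inv_cancel₀ h.tb_ne, one_pow, mul_one]
    exact fun i => Polynomial.reflect_eq_zero_iff.mp (h.ind _ h1 i)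

/-- evaluation of polynomials with coefficients in `A` -/
def Pre.evF (h : Pre r W ρ t tb e) : Polynomial A →+* F := W.subtype.comp h.evW

theorem Pre.evF_apply (h : Pre r W ρ t tb e) (P : Polynomial A) :
    h.evF P = aeval t (P.map A.subtype) := h.coe_evW P

/-- The Gauss valuation ring. -/
def Pre.gau (h : Pre r W ρ t tb e) : ValuationSubring Ω⟮t⟯ :=
  h.val.comap (algebraMap Ω⟮t⟯ F)

theorem Pre.isIntegral_gau (h : Pre r W ρ t tb e) {z : F} (hz : z ∈ W) :
    letI : Algebra h.gau F := ((algebraMap Ω⟮t⟯ F).comp h.gau.subtype).toAlgebra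
    IsIntegral h.gau z := by
  classical
  let _ : Algebra h.gau F := ((algebraMap Ω⟮t⟯ F).comp h.gau.subtype).toAlgebra
  let S : Subalgebra h.gau F :=
    { W with
      algebraMap_mem' := fun a => a.2 }
  have hfg : (Subalgebra.toSubmodule S).FG := by
    refine ⟨Finset.univ.image e, ?_⟩
    apply le_antisymm
    · rw [Submodule.span_le]
      intro x hx
      rw [Finset.coe_image, Set.mem_image] at hx
      obtain ⟨i, -, rfl⟩ := hx
      exact h.eW i
    · intro x hx
      have hxW : x ∈ W := hx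
      obtain ⟨Q, P, hQ, hPx⟩ := h.span' x
      obtain ⟨P', hP'⟩ := h.exists_coeff hxW hPx
      have hQ0 : (h.evW Q : F) ≠ 0 := by
        intro h0
        have h1 : h.evW Q = 0 := Subtype.ext h0
        have h2 := h.ρ_evW Q
        rw [h1, map_zero] at h2
        exact hQ ((aeval_eq_zero_iff h.trb).mp h2.symm)
      let g : Polynomial A → Ω⟮t⟯ := fun P => aeval (AdjoinSimple.gen Ω t) (P.map A.subtype)
      have hg : ∀ P, algebraMap Ω⟮t⟯ F (g P) = (h.evW P : F) := by
        intro P
        rw [h.coe_evW]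
        simp only [g]
        rw [← Polynomial.aeval_algebraMap_apply, AdjoinSimple.algebraMap_gen]
      have hgm : ∀ i, g (P' i) / g Q ∈ h.gau := by
        intro i
        change algebraMap Ω⟮t⟯ F (g (P' i) / g Q) ∈ W
        rw [map_div₀, hg, hg, div_eq_mul_inv]
        exact mul_mem (h.evW _).2 (h.evW_inv hQ)
      have hxe : x = ∑ i, (⟨_, hgm i⟩ : h.gau) • e i := by
        apply mul_left_cancel₀ hQ0
        rw [hPx, Finset.mul_sum]
        refine Finset.sum_congr rfl fun i _ => ?_
        rw [Algebra.smul_def]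
        change _ = _ * (algebraMap Ω⟮t⟯ F (g (P' i) / g Q) * e i)
        rw [map_div₀, hg, hg, ← mul_assoc, mul_div_cancel₀ _ hQ0, h.coe_evW, hP']
      rw [hxe]
      refine Submodule.sum_mem _ fun i _ => Submodule.smul_mem _ _ (Submodule.subset_span ?_)
      rw [Finset.coe_image]
      exact ⟨i, Finset.mem_coe.mpr (Finset.mem_univ i), rfl⟩
  exact IsIntegral.of_mem_of_fg S hfg z hz

/-- Integral elements of `W` are integral over `A[t]`. -/
theorem Pre.exists_monic (h : Pre r W ρ t tb e) (ht : Sep Ω t) {z : F} (hz : z ∈ W)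
    (hint : IsIntegral (Algebra.adjoin Ω {t}) z) :
    ∃ p : Polynomial (Polynomial A), p.Monic ∧ p.eval₂ h.evF z = 0 := by
  let _ : Algebra h.gau F := ((algebraMap Ω⟮t⟯ F).comp h.gau.subtype).toAlgebra
  have _ : IsScalarTower h.gau Ω⟮t⟯ F := IsScalarTower.of_algebraMap_eq fun _ => rfl
  have hfd := ht.fd
  have hintF : IsIntegral Ω⟮t⟯ z := Algebra.IsIntegral.isIntegral z
  have h1 : ∀ i, ((minpoly Ω⟮t⟯ z).coeff i : F) ∈ W := by
    intro i
    rw [minpoly.isIntegrallyClosed_eq_field_fractions' Ω⟮t⟯ (h.isIntegral_gau hz),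
      Polynomial.coeff_map]
    exact ((minpoly h.gau z).coeff i).2
  have h2 : ∀ i, ∃ P : Polynomial A, h.evF P = ((minpoly Ω⟮t⟯ z).coeff i : F) := by
    intro i
    have h3 := coeff_minpoly_mem ht hint i
    rw [Algebra.adjoin_singleton_eq_range_aeval] at h3
    obtain ⟨P, hP⟩ := h3
    have h4 : aeval t P = ((minpoly Ω⟮t⟯ z).coeff i : F) := hP
    obtain ⟨P', hP'⟩ := h.exists_poly_A (P := P) (by rw [h4]; exact h1 i)
    exact ⟨P', by rw [h.evF_apply, hP', h4]⟩
  have h3 : ((minpoly Ω⟮t⟯ z).map (algebraMap Ω⟮t⟯ F)) ∈ Polynomial.lifts h.evF := by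
    rw [Polynomial.lifts_iff_coeff_lifts]
    intro i
    rw [Polynomial.coeff_map]
    exact h2 i
  obtain ⟨p, hp, -, hpm⟩ := Polynomial.lifts_and_natDegree_eq_and_monic h3
    ((minpoly.monic hintF).map _)
  refine ⟨p, hpm, ?_⟩
  rw [← Polynomial.eval_map, hp, Polynomial.eval_map, ← Polynomial.aeval_def, minpoly.aeval]

/-- Reduction of an integral equation. -/
theorem Pre.isIntegral_red (h : Pre r W ρ t tb e) {z : W} {p : Polynomial (Polynomial A)}
    (hp : p.Monic) (hpz : p.eval₂ h.evF (z : F) = 0) :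
    IsIntegral (Algebra.adjoin κ {tb}) (ρ z) := by
  have h1 : p.eval₂ h.evW z = 0 := by
    apply Subtype.ext
    change W.subtype (p.eval₂ h.evW z) = 0
    rw [Polynomial.hom_eval₂]
    exact hpz
  have h2 := congrArg ρ h1
  rw [map_zero, Polynomial.hom_eval₂] at h2
  let φ : Polynomial A →+* Algebra.adjoin κ {tb} :=
    (ρ.comp h.evW).codRestrict (Algebra.adjoin κ {tb}) (fun P => by
      rw [RingHom.comp_apply, h.ρ_evW, Algebra.adjoin_singleton_eq_range_aeval]
      exact ⟨_, rfl⟩)
  refine ⟨p.map φ, hp.map φ, ?_⟩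
  rw [Polynomial.eval₂_map]
  exact h2

/-- the valuation ring version -/
def Pre.ρv (h : Pre r W ρ t tb e) : h.val →+* E := ρ

variable [IsAlgClosed Ω] [IsAlgClosed κ]

/-- `int` -/
theorem Pre.int (h : Pre r W ρ t tb e) (ht : Sep Ω t) (htb : Sep κ tb) (n : ℕ) (z : W)
    (hz : (z : F) ∈ riemannRochSpace (n • pol (K := Ω) t)) :
    ρ z ∈ riemannRochSpace (n • pol (K := κ) tb) := by
  rw [mem_nL_iff ht] at hz
  rw [mem_nL_iff htb]
  obtain ⟨h1, h2⟩ := hz
  constructor
  · obtain ⟨p, hp, hpz⟩ := h.exists_monic ht z.2 (ht.isIntegral h1)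
    exact fun v hv => ord_nonneg_of_isIntegral (h.isIntegral_red hp hpz) v hv
  · have hzt : (z : F) * t⁻¹ ^ n ∈ W := mul_mem z.2 (pow_mem h.tinvW n)
    obtain ⟨p, hp, hpz⟩ := h.inv.exists_monic ht.inv hzt (ht.inv.isIntegral h2)
    have h3 := h.inv.isIntegral_red (z := ⟨_, hzt⟩) hp hpz
    have h4 : ρ ⟨_, hzt⟩ = ρ z * tb⁻¹ ^ n := by
      have h5 : (⟨_, hzt⟩ : W) = z * ⟨t⁻¹, h.tinvW⟩ ^ n := rfl
      rw [h5, map_mul, map_pow, h.inv.tρ]
    rw [h4] at h3
    exact fun v hv => ord_nonneg_of_isIntegral h3 v hv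

/-- `val` -/
theorem Pre.values (h : Pre r W ρ t tb e) (ht : Sep Ω t) (v : Place Ω F) (c : A)
    (hv : 0 < v.ord (t - algebraMap Ω F c)) (z : W) (hz : Reg Ω t (z : F)) :
    evp v (z : F) ∈ A := by
  obtain ⟨p, hp, hpz⟩ := h.exists_monic ht z.2 (ht.isIntegral hz)
  have hr := ht.rational v
  have hv0 := ord_t_nonneg hv
  have htv : t ∈ v.toValuationSubring := mem_of_ord_nonneg v hv0
  have htc : evp v t = c := evp_unique (by rw [adicValuation_lt_one_iff]; exact Or.inr hv)
  -- the evaluation ring homomorphism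
  let φ : v.toValuationSubring →+* Ω :=
    { toFun := fun x => evp v (x : F)
      map_one' := evp_one
      map_zero' := evp_zero
      map_mul' := fun x y => evp_mul hr x.2 y.2
      map_add' := fun x y => evp_add hr x.2 y.2 }
  let ψ : Polynomial A →+* v.toValuationSubring :=
    Polynomial.eval₂RingHom ((algebraMap Ω v.toValuationSubring).comp A.subtype) ⟨t, htv⟩
  have hψ : ∀ P, ((ψ P : v.toValuationSubring) : F) = h.evF P := by
    intro P
    rw [h.evF_apply]
    change v.toValuationSubring.subtype (Polynomial.eval₂ _ _ P) = _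
    rw [Polynomial.hom_eval₂, Polynomial.aeval_def, Polynomial.eval₂_map]
    rfl
  have h1 : p.eval₂ ψ ⟨(z : F), hz.mem hv0⟩ = 0 := by
    apply Subtype.ext
    change v.toValuationSubring.subtype (p.eval₂ ψ _) = 0
    rw [Polynomial.hom_eval₂]
    rw [← hpz]
    congr 1
    exact RingHom.ext fun P => hψ P
  have h2 := congrArg φ h1
  rw [map_zero, Polynomial.hom_eval₂] at h2
  have h3 : φ.comp ψ = A.subtype.comp (Polynomial.evalRingHom c) := by
    refine Polynomial.ringHom_ext (fun a => ?_) ?_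
    · rw [RingHom.comp_apply, RingHom.comp_apply]
      change evp v ((ψ (Polynomial.C a) : v.toValuationSubring) : F) = _
      rw [hψ, h.evF_apply, Polynomial.map_C, Polynomial.aeval_C, evp_algebraMap]
      simp
    · rw [RingHom.comp_apply, RingHom.comp_apply]
      change evp v ((ψ Polynomial.X : v.toValuationSubring) : F) = _
      rw [hψ, h.evF_apply, Polynomial.map_X, Polynomial.aeval_X, htc]
      simp
  rw [h3] at h2
  have h4 : IsIntegral A (evp v (z : F)) := by
    refine ⟨p.map (Polynomial.evalRingHom c), hp.map _, ?_⟩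
    rw [Polynomial.eval₂_map]
    exact h2
  obtain ⟨w, hw⟩ := IsIntegrallyClosed.isIntegral_iff.mp h4
  rw [← hw]
  exact w.2

end Fermat.Agent.Flat
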