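import Mathlib
import Fermat.Agent.Flat.Model2
import Fermat.Agent.Geo.Separable

/-!
Function fields with a basis having independent reductions: the axioms of good reduction.
-/

set_option autoImplicit false
set_option linter.unusedSectionVars false

noncomputable section

namespace Fermat.Agent.Flat

open AlgebraicCurve IsDedekindDomain IntermediateField WithZero Module Fermat.Agent.FunField
open Polynomial (aeval)

variable {Ω κ F E : Type*} [Field Ω] [Field κ] [Field F] [Field E] [Algebra Ω F] [Algebra κ E]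
  {A : ValuationSubring Ω}
  {r : A →+* κ} {W : Subring F} {ρ : W →+* E} {t : F} {tb : E} {d : ℕ} {e : Fin d → F}

/-- The field of reductions. -/
def Pre.Fb (h : Pre r W ρ t tb e) : IntermediateField κ E where
  carrier := {y | ∃ z : W, ρ z = y}
  mul_mem' := by
    rintro _ _ ⟨z, rfl⟩ ⟨w, rfl⟩
    exact ⟨z * w, map_mul ρ z w⟩
  add_mem' := by
    rintro _ _ ⟨z, rfl⟩ ⟨w, rfl⟩
    exact ⟨z + w, map_add ρ z w⟩
  algebraMap_mem' c := by
    obtain ⟨a, rfl⟩ := h.surj c
    exact ⟨_, h.ralg a (h.alg a a.2)⟩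
  inv_mem' := by
    rintro _ ⟨z, rfl⟩
    by_cases h0 : ρ z = 0
    · exact ⟨0, by rw [h0, inv_zero, map_zero]⟩
    · refine ⟨⟨_, h.runit z h0⟩, ?_⟩
      have hz0 : (z : F) ≠ 0 := by
        intro h1
        apply h0
        have : z = 0 := Subtype.ext h1
        rw [this, map_zero]
      have h1 : z * ⟨_, h.runit z h0⟩ = 1 := Subtype.ext (mul_inv_cancel₀ hz0)
      have h2 := congrArg ρ h1
      rw [map_mul, map_one] at h2
      exact eq_inv_of_mul_eq_one_right h2

/-- The reduction map. -/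
def Pre.ρb (h : Pre r W ρ t tb e) : W →+* h.Fb := ρ.codRestrict h.Fb fun z => ⟨z, rfl⟩

theorem Pre.ρb_surjective (h : Pre r W ρ t tb e) : Function.Surjective h.ρb := by
  rintro ⟨_, z, rfl⟩
  exact ⟨z, rfl⟩

theorem Pre.tb_mem (h : Pre r W ρ t tb e) : tb ∈ h.Fb := ⟨⟨t, h.tW⟩, h.tρ⟩

/-- The parameter. -/
def Pre.tbb (h : Pre r W ρ t tb e) : h.Fb := ⟨tb, h.tb_mem⟩

theorem Pre.coe_aeval (h : Pre r W ρ t tb e) (P : Polynomial κ) :
    ((aeval h.tbb P : h.Fb) : E) = aeval tb P := by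
  change h.Fb.val (aeval h.tbb P) = _
  rw [← Polynomial.aeval_algHom_apply]
  rfl

/-- The data with surjective reduction map. -/
theorem Pre.red (h : Pre r W ρ t tb e) : Pre r W h.ρb t h.tbb e where
  surj := h.surj
  unit := h.unit
  alg := h.alg
  ralg a ha := Subtype.ext (h.ralg a ha)
  runit z hz := h.runit z fun h0 => hz (Subtype.ext h0)
  tW := h.tW
  tρ := Subtype.ext h.tρ
  tr := h.tr
  trb := by
    rw [transcendental_iff]
    intro P hP
    have h1 := congrArg Subtype.val hP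
    rw [h.coe_aeval] at h1
    exact (aeval_eq_zero_iff h.trb).mp h1
  eW := h.eW
  span := h.span
  ind P hP := by
    apply h.ind
    have h1 := congrArg h.Fb.val hP
    rw [map_sum, map_zero] at h1
    rw [← h1]
    refine Finset.sum_congr rfl fun i _ => ?_
    rw [map_mul]
    change _ = ((aeval h.tbb (P i) : h.Fb) : E) * _
    rw [h.coe_aeval]
    rfl

/-- Normal form of the elements of the reduction. -/
theorem Pre.exists_red (h : Pre r W ρ t tb e) (z : W) : ∃ (Q : Polynomial κ)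
    (P : Fin d → Polynomial κ), Q ≠ 0 ∧
      aeval tb Q * ρ z = ∑ i, aeval tb (P i) * ρ ⟨e i, h.eW i⟩ := by
  obtain ⟨Q, P, hQ, hPx⟩ := h.span' (z : F)
  obtain ⟨P', hP'⟩ := h.exists_coeff z.2 hPx
  have h1 : h.evW Q * z = ∑ i, h.evW (P' i) * ⟨e i, h.eW i⟩ := by
    apply Subtype.ext
    push_cast
    rw [hPx]
    refine Finset.sum_congr rfl fun i _ => ?_
    rw [h.coe_evW, hP']
  have h2 := congrArg ρ h1
  rw [map_mul, map_sum, h.ρ_evW] at h2
  refine ⟨Q.map r, fun i => (P' i).map r, hQ, ?_⟩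
  rw [h2]
  refine Finset.sum_congr rfl fun i _ => ?_
  rw [map_mul, h.ρ_evW]

theorem Pre.fd (h : Pre r W ρ t tb e) (hs : Function.Surjective ρ) :
    FiniteDimensional κ⟮tb⟯ E := by
  classical
  refine ⟨⟨Finset.univ.image fun i => ρ ⟨e i, h.eW i⟩, ?_⟩⟩
  rw [eq_top_iff]
  rintro y -
  obtain ⟨z, rfl⟩ := hs y
  obtain ⟨Q, P, hQ, hz⟩ := h.exists_red z
  let g : Polynomial κ → κ⟮tb⟯ := fun P => aeval (AdjoinSimple.gen κ tb) P
  have hg : ∀ P, algebraMap κ⟮tb⟯ E (g P) = aeval tb P := by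
    intro P
    simp only [g]
    rw [← Polynomial.aeval_algebraMap_apply, AdjoinSimple.algebraMap_gen]
  have hQ0 : aeval tb Q ≠ 0 := fun h0 => hQ ((aeval_eq_zero_iff h.trb).mp h0)
  have hze : ρ z = ∑ i, (g (P i) / g Q) • ρ ⟨e i, h.eW i⟩ := by
    apply mul_left_cancel₀ hQ0
    rw [hz, Finset.mul_sum]
    refine Finset.sum_congr rfl fun i _ => ?_
    rw [Algebra.smul_def, map_div₀, hg, hg, ← mul_assoc, mul_div_cancel₀ _ hQ0]
  rw [hze]
  refine Submodule.sum_mem _ fun i _ => Submodule.smul_mem _ _ (Submodule.subset_span ?_)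
  rw [Finset.coe_image]
  exact ⟨i, Finset.mem_coe.mpr (Finset.mem_univ i), rfl⟩

/-- Separability from a derivation. -/
theorem sep_of_derivation {κ E M : Type*} [Field κ] [Field E] [Field M] [Algebra κ E]
    [Algebra κ M] [PerfectField κ] {tb : E} (hfd : FiniteDimensional κ⟮tb⟯ E) (φ : E →ₐ[κ] M)
    (D : Derivation κ M M) (hD : D (φ tb) ≠ 0) : Algebra.IsSeparable κ⟮tb⟯ E := by
  let _ : Algebra κ⟮tb⟯ M := ((φ : E →+* M).comp (algebraMap κ⟮tb⟯ E)).toAlgebra
  have _ : IsScalarTower κ κ⟮tb⟯ M := IsScalarTower.of_algebraMap_eq fun a => by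
    change _ = φ (algebraMap κ⟮tb⟯ E (algebraMap κ κ⟮tb⟯ a))
    rw [← IsScalarTower.algebraMap_apply, φ.commutes]
  let φ' : E →ₐ[κ⟮tb⟯] M := { (φ : E →+* M) with commutes' := fun a => rfl }
  refine ⟨fun y => ?_⟩
  have hy : IsIntegral κ⟮tb⟯ y := Algebra.IsIntegral.isIntegral y
  have htop : IntermediateField.adjoin κ {AdjoinSimple.gen κ tb} = ⊤ := by
    rw [eq_top_iff]
    intro x _
    have h1 : x.1 ∈ (IntermediateField.adjoin κ {AdjoinSimple.gen κ tb}).map κ⟮tb⟯.val := by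
      rw [IntermediateField.adjoin_map, Set.image_singleton]
      exact x.2
    obtain ⟨w, hw, hwx⟩ := h1
    have : w = x := Subtype.ext hwx
    rw [← this]
    exact hw
  have h1 := Geo.isSeparable_of_derivation (k := κ) (κ := κ⟮tb⟯) (L := M) D
    (t := AdjoinSimple.gen κ tb) htop hD (x := φ' y) (hy.map φ')
  unfold IsSeparable at h1 ⊢
  rwa [minpoly.algHom_eq φ' (φ' : E →+* M).injective y] at h1

variable {G : Type*} [Group G] [MulSemiringAction G Ω] {γ : G →* SemilinearAut Ω F}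
variable [IsAlgClosed Ω] [IsAlgClosed κ]

/-- **Good reduction** from a basis with independent reductions. -/
theorem Pre.goodCrv (h : Pre r W ρ t tb e) (ht : Sep Ω t) (htb : Sep κ tb)
    (hlift : ∃ M : ℕ, ∀ n ≥ M, ∀ zb ∈ riemannRochSpace (n • pol (K := κ) tb), ∃ z : W,
      (z : F) ∈ riemannRochSpace (n • pol (K := Ω) t) ∧ ρ z = zb ∧ ∀ g : G, γ g • (z : F) = z)
    (hbase : ∀ (g : G) (a : Ω), SemilinearAut.baseAut (γ g) a = g • a)
    (hstab : ∀ (g : G), ∀ z ∈ W, γ g • z ∈ W)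
    (htriv : ∀ (g : G) (z : W) (h : γ g • (z : F) ∈ W), ρ ⟨γ g • (z : F), h⟩ = ρ z)
    (hfixt : ∀ g : G, γ g • t = t) : GoodCrv r γ h.val h.ρv t tb where
  sep := ht
  sepb := htb
  surj := h.surj
  unit := h.unit
  alg := h.alg
  ralg := h.ralg
  runit := h.runit
  scale := h.scale
  sat := h.sat
  int n z hz := h.int ht htb n z hz
  lift := hlift
  val v c hv z hz := h.values ht v c hv z hz
  base := hbase
  stab := hstab
  triv := htriv
  fixt := hfixt

end Fermat.Agent.Flat
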