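import Mathlib
import Fermat.Agent.Flat.Model3
import Fermat.Agent.Flat.GaussA
import Fermat.Agent.LG.GRConcrete
import Fermat.Agent.LG.InertField3

/-!
The function field of `X₀(N)`: a basis with independent reductions.
-/

set_option autoImplicit false
set_option linter.unusedSectionVars false

noncomputable section

namespace Fermat.Agent.Flat

open AlgebraicCurve IsDedekindDomain IntermediateField WithZero Module Fermat.Agent.FunField
open Polynomial (aeval)
open Fermat.Agent.LG Fermat.Agent.ModFun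
open IsLocalRing ModularCurve

section Common

variable {K F : Type*} [Field K] [Field F] [Algebra K F] {t : F}

theorem exists_common (ht : Transcendental K t) {n : ℕ} (c : Fin n → K⟮t⟯) :
    ∃ (Q : Polynomial K) (P : Fin n → Polynomial K), Q ≠ 0 ∧
      ∀ i, aeval t Q * (c i : F) = aeval t (P i) := by
  classical
  have h1 : ∀ i, ∃ r s : Polynomial K, s ≠ 0 ∧ aeval t s * (c i : F) = aeval t r := by
    intro i
    obtain ⟨r, s, hrs⟩ := (mem_adjoin_simple_iff K (c i : F)).mp (c i).2
    by_cases hs : s = 0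
    · refine ⟨0, 1, one_ne_zero, ?_⟩
      rw [hrs, hs, map_zero, div_zero, mul_zero]
    · have hs0 : aeval t s ≠ 0 := fun h => hs ((aeval_eq_zero_iff ht).mp h)
      exact ⟨r, s, hs, by rw [hrs, mul_div_cancel₀ _ hs0]⟩
  choose r s hs hrs using h1
  refine ⟨∏ i, s i, fun i => (∏ j ∈ Finset.univ.erase i, s j) * r i,
    Finset.prod_ne_zero_iff.mpr fun i _ => hs i, fun i => ?_⟩
  rw [← Finset.mul_prod_erase Finset.univ s (Finset.mem_univ i), map_mul, map_mul, ← hrs]
  ring

end Common

section Indep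

variable {Ω κ F E : Type*} [Field Ω] [Field κ] [Field F] [Field E] [Algebra Ω F] [Algebra κ E]
  {A : ValuationSubring Ω} {r : A →+* κ} {W : Subring F} {ρ : W →+* E} {t : F} {tb : E} {d : ℕ}
  {e : Fin d → F}

/-- Elements with independent reductions are independent. -/
theorem indep_of_red (ev : Polynomial A →+* W)
    (hev : ∀ P, (ev P : F) = aeval t (P.map A.subtype))
    (hρ : ∀ P, ρ (ev P) = aeval tb (P.map r)) (he : ∀ i, e i ∈ W)
    (hind : ∀ P : Fin d → Polynomial κ, ∑ i, aeval tb (P i) * ρ ⟨e i, he i⟩ = 0 → ∀ i, P i = 0)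
    (P : Fin d → Polynomial Ω) (hP : ∑ i, aeval t (P i) * e i = 0) : ∀ i, P i = 0 := by
  by_contra hcon
  push Not at hcon
  obtain ⟨c, P', hc, h1, j, h2⟩ := exists_scale_poly (A := A) (r := r) P hcon
  have h3 : ∑ i, ev (P' i) * ⟨e i, he i⟩ = 0 := by
    apply Subtype.ext
    push_cast
    have h4 := congrArg (fun y => algebraMap Ω F c * y) hP
    simp only [mul_zero, Finset.mul_sum] at h4
    rw [← h4]
    refine Finset.sum_congr rfl fun i _ => ?_
    rw [hev, h1, map_mul, Polynomial.aeval_C, mul_assoc]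
  have h4 := congrArg ρ h3
  rw [map_sum, map_zero] at h4
  refine h2 (hind (fun i => (P' i).map r) ?_ j)
  rw [← h4]
  refine Finset.sum_congr rfl fun i _ => ?_
  rw [map_mul, hρ]

end Indep

section Span

variable {L : Type} [Field L] {p : ℕ} [Fact p.Prime] {κ : ℤ} {N : ℕ} [NeZero N]

theorem aeval_eq_eval₂ (P : Polynomial L) (x : LaurentSeries L) :
    aeval x P = P.eval₂ HahnSeries.C x := by
  have h3 : algebraMap L (LaurentSeries L) = HahnSeries.C := by
    ext1 a
    rw [ModularCurve.algebraMap_laurentSeries_eq_single]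
    rfl
  rw [Polynomial.aeval_def, h3]

theorem trans_tS : Transcendental L (tS L p κ) := by
  rw [transcendental_iff]
  intro q hq
  rw [aeval_eq_eval₂] at hq
  exact eval₂_tS_eq_zero hq

/-- Spanning over `L(t)` by counting. -/
theorem level_span (hle : Kt L p κ ≤ F0 L N) :
    letI := algI hle
    FiniteDimensional (Kt L p κ) (F0 L N) →
    ∀ (e : Fin (finrank (Kt L p κ) (F0 L N)) → F0 L N),
    (∀ P : Fin (finrank (Kt L p κ) (F0 L N)) → Polynomial L,
      ∑ i, aeval (tS L p κ) (P i) * (e i : LaurentSeries L) = 0 → ∀ i, P i = 0) →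
    ∀ y : F0 L N, ∃ (Q : Polynomial L) (P : Fin (finrank (Kt L p κ) (F0 L N)) → Polynomial L),
      Q ≠ 0 ∧ aeval (tS L p κ) Q * (y : LaurentSeries L) =
        ∑ i, aeval (tS L p κ) (P i) * (e i : LaurentSeries L) := by
  let _ := algI hle
  intro hfd e hind y
  have hdep : ¬ LinearIndependent (Kt L p κ) (Fin.cons y e : Fin (_ + 1) → F0 L N) := by
    intro hli
    have := hli.fintype_card_le_finrank
    rw [Fintype.card_fin] at this
    omega
  rw [Fintype.not_linearIndependent_iff] at hdep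
  obtain ⟨c, hc, i₀, hi₀⟩ := hdep
  obtain ⟨Q, P, hQ, hP⟩ := exists_common (K := L) (F := LaurentSeries L) (t := tS L p κ) trans_tS c
  have h1 : ∑ i, (c i : LaurentSeries L) * ((Fin.cons y e : Fin (_ + 1) → F0 L N) i) = 0 := by
    have h2 := congrArg (fun z : F0 L N => (z : LaurentSeries L)) hc
    simp only [IntermediateField.coe_sum, IntermediateField.coe_zero] at h2
    rw [← h2]
    exact Finset.sum_congr rfl fun i _ => rfl
  have h2 : ∑ i, aeval (tS L p κ) (P i) *
      ((Fin.cons y e : Fin (_ + 1) → F0 L N) i : LaurentSeries L) = 0 := by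
    have h3 := congrArg (fun z => aeval (tS L p κ) Q * z) h1
    simp only [mul_zero, Finset.mul_sum] at h3
    rw [← h3]
    refine Finset.sum_congr rfl fun i _ => ?_
    rw [← mul_assoc, hP]
  rw [Fin.sum_univ_succ, Fin.cons_zero] at h2
  simp only [Fin.cons_succ] at h2
  refine ⟨P 0, fun i => - P i.succ, fun h0 => ?_, ?_⟩
  · rw [h0, map_zero, zero_mul, zero_add] at h2
    have h3 := hind _ h2
    have h4 : ∀ i, P i = 0 := fun i => Fin.cases h0 h3 i
    have h5 := hP i₀
    rw [h4, map_zero] at h5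
    have hQ0 : aeval (tS L p κ) Q ≠ 0 := fun h => hQ ((aeval_eq_zero_iff trans_tS).mp h)
    exact hi₀ (Subtype.ext ((mul_eq_zero.mp h5).resolve_left hQ0))
  · rw [eq_neg_of_add_eq_zero_left h2, ← Finset.sum_neg_distrib]
    refine Finset.sum_congr rfl fun i _ => ?_
    rw [map_neg, neg_mul]

/-- The embedding of function fields. -/
def liftF {Ω : Type} [Field Ω] (f : L →+* Ω) (N : ℕ) [NeZero N] : F0 L N →+* F0 Ω N :=
  ((coeffMap f).comp (F0 L N).val.toRingHom).codRestrict (F0 Ω N)
    fun x => coeffMap_mem_adjoin f x.2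

theorem coe_liftF {Ω : Type} [Field Ω] (f : L →+* Ω) (x : F0 L N) :
    (liftF f N x : LaurentSeries Ω) = coeffMap f (x : LaurentSeries L) := rfl

theorem coeffMap_aeval {Ω : Type} [Field Ω] (f : L →+* Ω) (P : Polynomial L)
    (x : LaurentSeries L) : coeffMap f (aeval x P) = aeval (coeffMap f x) (P.map f) := by
  rw [aeval_eq_eval₂, aeval_eq_eval₂, Polynomial.hom_eval₂, Polynomial.eval₂_map]
  congr 1
  ext1 a
  rw [RingHom.comp_apply, RingHom.comp_apply, HahnSeries.C_apply, HahnSeries.C_apply]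
  exact coeffMap_single _ _ _

/-- Spanning over `Ω(t)`. -/
theorem span_of_level {Ω : Type} [Field Ω] (f : L →+* Ω) {n : ℕ} (e : Fin n → F0 L N)
    (hspan : ∀ y : F0 L N, ∃ (Q : Polynomial L) (P : Fin n → Polynomial L),
      Q ≠ 0 ∧ aeval (tS L p κ) Q * (y : LaurentSeries L) =
        ∑ i, aeval (tS L p κ) (P i) * (e i : LaurentSeries L))
    (t : F0 Ω N) (ht : (t : LaurentSeries Ω) = tS Ω p κ)
    (halg : Algebra.IsAlgebraic Ω⟮t⟯ (F0 Ω N)) (x : F0 Ω N) :
    ∃ (Q : Polynomial Ω) (P : Fin n → Polynomial Ω), Q ≠ 0 ∧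
      aeval t Q * x = ∑ i, aeval t (P i) * liftF f N (e i) := by
  classical
  have htr : Transcendental Ω t := by
    rw [transcendental_iff]
    intro P hP
    have h1 := congrArg (F0 Ω N).val hP
    rw [← Polynomial.aeval_algHom_apply, map_zero] at h1
    change aeval (t : LaurentSeries Ω) P = 0 at h1
    rw [ht] at h1
    exact (aeval_eq_zero_iff trans_tS).mp h1
  have hcoe : ∀ P : Polynomial Ω, ((aeval t P : F0 Ω N) : LaurentSeries Ω) =
      aeval (tS Ω p κ) P := by
    intro P
    change (F0 Ω N).val (aeval t P) = _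
    rw [← Polynomial.aeval_algHom_apply]
    change aeval (t : LaurentSeries Ω) P = _
    rw [ht]
  let T : Submodule Ω⟮t⟯ (F0 Ω N) := Submodule.span _ (Set.range fun i => liftF f N (e i))
  -- the image of the level `L`
  have h1 : ∀ y : F0 L N, liftF f N y ∈ T := by
    intro y
    obtain ⟨Q, P, hQ, hy⟩ := hspan y
    have hQ' : Q.map f ≠ 0 := (Polynomial.map_ne_zero_iff f.injective).mpr hQ
    have h2 : aeval t (Q.map f) * liftF f N y = ∑ i, aeval t ((P i).map f) * liftF f N (e i) := by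
      apply Subtype.ext
      have h3 := congrArg (coeffMap f) hy
      rw [map_mul, map_sum, coeffMap_aeval, coeffMap_tS] at h3
      push_cast
      rw [hcoe, coe_liftF, h3]
      refine Finset.sum_congr rfl fun i _ => ?_
      rw [map_mul, coeffMap_aeval, coeffMap_tS, hcoe, coe_liftF]
    have hQ0 : aeval t (Q.map f) ≠ 0 := fun h => hQ' ((aeval_eq_zero_iff htr).mp h)
    let g : Polynomial Ω → Ω⟮t⟯ := fun P => aeval (AdjoinSimple.gen Ω t) P
    have hg : ∀ P, algebraMap Ω⟮t⟯ (F0 Ω N) (g P) = aeval t P := by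
      intro P
      simp only [g]
      rw [← Polynomial.aeval_algebraMap_apply, AdjoinSimple.algebraMap_gen]
    have h3 : liftF f N y = ∑ i, (g ((P i).map f) / g (Q.map f)) • liftF f N (e i) := by
      apply mul_left_cancel₀ hQ0
      rw [h2, Finset.mul_sum]
      refine Finset.sum_congr rfl fun i _ => ?_
      rw [Algebra.smul_def, map_div₀, hg, hg, ← mul_assoc, mul_div_cancel₀ _ hQ0]
    rw [h3]
    exact Submodule.sum_mem _ fun i _ => Submodule.smul_mem _ _ (Submodule.subset_span ⟨i, rfl⟩)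
  have hone : (1 : F0 Ω N) ∈ T := by
    have := h1 1
    rwa [map_one] at this
  have hmul : T * T ≤ T := by
    rw [Submodule.span_mul_span, Submodule.span_le]
    rintro _ ⟨_, ⟨i, rfl⟩, _, ⟨j, rfl⟩, rfl⟩
    change liftF f N (e i) * liftF f N (e j) ∈ T
    rw [← map_mul]
    exact h1 _
  let S : Subalgebra Ω⟮t⟯ (F0 Ω N) :=
    T.toSubalgebra hone fun a b ha hb => hmul (Submodule.mul_mem_mul ha hb)
  have hST : ∀ x, x ∈ S ↔ x ∈ T := fun x => Submodule.mem_toSubalgebra
  let S' : IntermediateField Ω⟮t⟯ (F0 Ω N) :=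
    { S with
      inv_mem' := fun x hx => S.inv_mem_of_algebraic (x := ⟨x, hx⟩)
        (Algebra.IsAlgebraic.isAlgebraic _) }
  have hle : F0 Ω N ≤ (S'.restrictScalars Ω).map (F0 Ω N).val := by
    rw [IntermediateField.adjoin_le_iff]
    rintro y ⟨d, hd0, hd, rfl⟩
    have hmem : qExpand L d (jqModC L) ∈ F0 L N :=
      IntermediateField.subset_adjoin _ _ ⟨d, hd0, hd, rfl⟩
    refine ⟨liftF f N ⟨_, hmem⟩, ?_, ?_⟩
    · exact (hST _).mpr (h1 _)
    · change ((liftF f N ⟨_, hmem⟩ : F0 Ω N) : LaurentSeries Ω) = _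
      rw [coe_liftF, coeffMap_qExpand, coeffMap_jqModC]
  obtain ⟨y, hy, hyx⟩ := hle x.2
  have hyx' : y = x := Subtype.ext hyx
  have hxT : x ∈ T := by
    rw [← hyx']
    exact (hST _).mp hy
  obtain ⟨c, hc⟩ := (Submodule.mem_span_range_iff_exists_fun _).mp hxT
  obtain ⟨Q, P, hQ, hP⟩ := exists_common htr c
  refine ⟨Q, P, hQ, ?_⟩
  rw [← hc, Finset.mul_sum]
  refine Finset.sum_congr rfl fun i _ => ?_
  rw [Algebra.smul_def, ← mul_assoc]
  congr 1
  exact hP i

end Span

end Fermat.Agent.Flat
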