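import Mathlib
import Fermat.Agent.Flat.Defs

/-!
Galois descent for functions on a finite set.
-/

set_option autoImplicit false
set_option linter.unusedSectionVars false

noncomputable section

namespace Fermat.Agent.Flat

open Module

/-- `R` has the fixed field of `G` as field of fractions. -/
structure Desc (R G Ω : Type*) [CommRing R] [Field Ω] [Algebra R Ω] [Group G]
    [MulSemiringAction G Ω] : Prop where
  inj : Function.Injective (algebraMap R Ω)
  fix : ∀ (g : G) (a : R), g • algebraMap R Ω a = algebraMap R Ω a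
  frac : ∀ x : Ω, (∀ g : G, g • x = x) → ∃ a : R, a ≠ 0 ∧ ∃ b : R,
    algebraMap R Ω a * x = algebraMap R Ω b

section

variable {R G Ω V : Type*} [CommRing R] [Field Ω] [Algebra R Ω] [Group G]
  [MulSemiringAction G Ω] [MulAction G V]

/-- common denominators -/
theorem Desc.common (hD : Desc R G Ω) [IsDomain R] {ι : Type*} [Finite ι] (c : ι → Ω)
    (hc : ∀ i, ∀ g : G, g • c i = c i) :
    ∃ a : R, a ≠ 0 ∧ ∃ b : ι → R, ∀ i, algebraMap R Ω a * c i = algebraMap R Ω (b i) := by
  classical
  have := Fintype.ofFinite ι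
  choose a ha b hb using fun i => hD.frac (c i) (hc i)
  refine ⟨∏ i, a i, Finset.prod_ne_zero_iff.mpr fun i _ => ha i,
    fun i => (∏ j ∈ Finset.univ.erase i, a j) * b i, fun i => ?_⟩
  rw [← Finset.mul_prod_erase Finset.univ a (Finset.mem_univ i), map_mul, map_mul, ← hb]
  ring

theorem smul_sum_eq {ι : Type*} [Fintype ι] {h : ι → V → Ω}
    (hh : ∀ i (g : G) v, h i (g • v) = g • h i v) {c : ι → Ω} (hc : ∑ i, c i • h i = 0) (g : G) :
    ∑ i, (g • c i) • h i = 0 := by
  funext v
  have h1 := congrFun hc (g⁻¹ • v)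
  have h2 := congrArg (fun x => g • x) h1
  simp only [Finset.sum_apply, Pi.smul_apply, smul_eq_mul, Pi.zero_apply, smul_zero,
    Finset.smul_sum, smul_mul'] at h2 ⊢
  rw [← h2]
  refine Finset.sum_congr rfl fun i _ => ?_
  rw [hh, smul_inv_smul]

/-- Equivariant functions independent over the invariants are independent. -/
theorem Desc.indep (hD : Desc R G Ω) [IsDomain R] {ι : Type*} [Fintype ι] {h : ι → V → Ω}
    (hh : ∀ i (g : G) v, h i (g • v) = g • h i v)
    (hR : ∀ c : ι → R, ∑ i, c i • h i = 0 → ∀ i, c i = 0) : LinearIndependent Ω h := by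
  classical
  rw [Fintype.linearIndependent_iff]
  -- strong induction on the size of the support
  have key : ∀ n : ℕ, ∀ c : ι → Ω, (Finset.univ.filter fun i => c i ≠ 0).card = n →
      ∑ i, c i • h i = 0 → ∀ i, c i = 0 := by
    intro n
    induction n using Nat.strong_induction_on with
    | _ n ih =>
      intro c hcn hc
      by_contra hcon
      push Not at hcon
      obtain ⟨j, hj⟩ := hcon
      -- normalise
      let c' : ι → Ω := fun i => (c j)⁻¹ * c i
      have hc' : ∑ i, c' i • h i = 0 := by
        have h1 := congrArg (fun x => (c j)⁻¹ • x) hc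
        simp only [Finset.smul_sum, smul_zero, smul_smul] at h1
        exact h1
      have hc'j : c' j = 1 := inv_mul_cancel₀ hj
      have hfix : ∀ i, ∀ g : G, g • c' i = c' i := by
        intro i g
        have h1 : ∑ i, (g • c' i - c' i) • h i = 0 := by
          simp only [sub_smul, Finset.sum_sub_distrib]
          rw [smul_sum_eq hh hc' g, hc', sub_zero]
        have h2 : (Finset.univ.filter fun i => g • c' i - c' i ≠ 0).card < n := by
          rw [← hcn]
          apply Finset.card_lt_card
          rw [Finset.ssubset_iff_of_subset]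
          · refine ⟨j, ?_, ?_⟩
            · simpa using hj
            · simp [hc'j]
          · intro i hi
            simp only [Finset.mem_filter, Finset.mem_univ, true_and] at hi ⊢
            intro h0
            apply hi
            simp only [c', h0, mul_zero, smul_zero, sub_zero]
        exact sub_eq_zero.mp (ih _ h2 _ rfl h1 i)
      obtain ⟨a, ha, b, hb⟩ := hD.common c' hfix
      have h3 : ∑ i, b i • h i = 0 := by
        have h4 := congrArg (fun x => algebraMap R Ω a • x) hc'
        simp only [Finset.smul_sum, smul_zero, smul_smul] at h4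
        rw [← h4]
        refine Finset.sum_congr rfl fun i _ => ?_
        rw [hb, algebraMap_smul]
      have h4 := hR b h3 j
      have h5 := hb j
      rw [hc'j, mul_one, h4, map_zero] at h5
      exact ha (hD.inj (by rw [h5, map_zero]))
  exact fun c hc => key _ c rfl hc

/-- Bases of finitely generated modules of equivariant functions. -/
theorem Desc.exists_basis (hD : Desc R G Ω) [IsDomain R] [IsPrincipalIdealRing R]
    (H : Submodule R (V → Ω)) (hfg : H.FG) (hH : ∀ f ∈ H, ∀ (g : G) v, f (g • v) = g • f v) :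
    ∃ (n : ℕ) (h : Fin n → V → Ω), (∀ i, h i ∈ H) ∧ LinearIndependent Ω h ∧
      ∀ f ∈ H, ∃ c : Fin n → R, f = ∑ i, c i • h i := by
  classical
  have hfin : Module.Finite R H := Module.Finite.iff_fg.mpr hfg
  have htf : Module.IsTorsionFree R (V → Ω) := by
    have : FaithfulSMul R Ω := (faithfulSMul_iff_algebraMap_injective R Ω).mpr hD.inj
    have : Module.IsTorsionFree R Ω := inferInstance
    infer_instance
  have htf' : Module.IsTorsionFree R H := inferInstance
  have hfree : Module.Free R H := inferInstance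
  let b := Module.finBasis R H
  refine ⟨_, fun i => (b i : V → Ω), fun i => (b i).2, ?_, fun f hf => ?_⟩
  · refine hD.indep (fun i g v => hH _ (b i).2 g v) fun c hc i => ?_
    have h1 : ∑ i, c i • b i = 0 := by
      apply Subtype.ext
      rw [AddSubmonoidClass.coe_finsetSum]
      exact hc
    exact Fintype.linearIndependent_iff.mp b.linearIndependent c h1 i
  · refine ⟨fun i => b.repr ⟨f, hf⟩ i, ?_⟩
    have h1 := b.sum_repr ⟨f, hf⟩
    have h2 := congrArg Subtype.val h1
    rw [AddSubmonoidClass.coe_finsetSum] at h2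
    exact h2.symm

/-- Coordinates of equivariant functions are invariant. -/
theorem repr_fix {ι : Type*} [Fintype ι] {h : ι → V → Ω} (hli : LinearIndependent Ω h)
    (hh : ∀ i (g : G) v, h i (g • v) = g • h i v) {f : V → Ω} (hf : ∀ (g : G) v, f (g • v) = g • f v)
    {c : ι → Ω} (hc : f = ∑ i, c i • h i) (i : ι) (g : G) : g • c i = c i := by
  have h1 : ∑ i, (g • c i - c i) • h i = 0 := by
    funext v
    have h2 := congrFun hc (g⁻¹ • v)
    have h3 := congrFun hc v
    have h4 := congrArg (fun x => g • x) h2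
    simp only [Finset.sum_apply, Pi.smul_apply, smul_eq_mul, Pi.zero_apply,
      Finset.smul_sum, smul_mul'] at h3 h4 ⊢
    rw [← hf, smul_inv_smul] at h4
    simp only [sub_mul, Finset.sum_sub_distrib]
    rw [← h3, sub_eq_zero, h4]
    refine Finset.sum_congr rfl fun i _ => ?_
    rw [← hh, smul_inv_smul]
  exact sub_eq_zero.mp (Fintype.linearIndependent_iff.mp hli _ h1 i)

/-- Denominators of equivariant functions. -/
theorem Desc.exists_mul_mem (hD : Desc R G Ω) [IsDomain R] {ι : Type*} [Fintype ι]
    {H : Submodule R (V → Ω)} {h : ι → V → Ω} (hmem : ∀ i, h i ∈ H)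
    (hli : LinearIndependent Ω h)
    (hh : ∀ i (g : G) v, h i (g • v) = g • h i v) {f : V → Ω} (hf : ∀ (g : G) v, f (g • v) = g • f v)
    (hspan : f ∈ Submodule.span Ω (Set.range h)) : ∃ a : R, a ≠ 0 ∧ a • f ∈ H := by
  obtain ⟨c, hc⟩ := (Submodule.mem_span_range_iff_exists_fun _).mp hspan
  obtain ⟨a, ha, b, hb⟩ := hD.common c fun i g => repr_fix hli hh hf hc.symm i g
  refine ⟨a, ha, ?_⟩
  have h1 : a • f = ∑ i, b i • h i := by
    rw [← hc, Finset.smul_sum]
    refine Finset.sum_congr rfl fun i _ => ?_
    rw [← algebraMap_smul Ω a, ← algebraMap_smul Ω (b i), smul_smul, hb]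
  rw [h1]
  exact Submodule.sum_mem _ fun i _ => Submodule.smul_mem _ _ (hmem i)

end

section Sep

variable {R Ω V : Type*} [CommRing R] [Field Ω] [Algebra R Ω] [Finite V]

/-- Separating algebras of functions span. -/
theorem span_of_sep (H : Subalgebra R (V → Ω)) (hsep : ∀ v w : V, (∀ f ∈ H, f v = f w) → v = w)
    (f : V → Ω) : f ∈ Submodule.span Ω (H : Set (V → Ω)) := by
  classical
  have := Fintype.ofFinite V
  -- the span is a subalgebra
  set S : Submodule Ω (V → Ω) := Submodule.span Ω (H : Set (V → Ω)) with hS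
  have hone : (1 : V → Ω) ∈ S := Submodule.subset_span (one_mem H)
  have hmul : ∀ x ∈ S, ∀ y ∈ S, x * y ∈ S := by
    intro x hx y hy
    have h1 : S * S ≤ S := by
      rw [hS, Submodule.span_mul_span, Submodule.span_le]
      rintro _ ⟨a, ha, b, hb, rfl⟩
      exact Submodule.subset_span (mul_mem (s := H) ha hb)
    exact h1 (Submodule.mul_mem_mul hx hy)
  have hprod : ∀ (s : Finset V) (F : V → V → Ω), (∀ i ∈ s, F i ∈ S) → ∏ i ∈ s, F i ∈ S := by
    intro s F hF
    induction s using Finset.induction_on with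
    | empty => rw [Finset.prod_empty]; exact hone
    | insert a s ha ih =>
      rw [Finset.prod_insert ha]
      exact hmul _ (hF a (Finset.mem_insert_self a s)) _
        (ih fun i hi => hF i (Finset.mem_insert_of_mem hi))
  -- indicator functions
  have hind : ∀ v : V, (Pi.single v (1 : Ω) : V → Ω) ∈ S := by
    intro v
    have h1 : ∀ w : V, w ≠ v → ∃ F : V → Ω, F ∈ S ∧ F v = 1 ∧ F w = 0 := by
      intro w hw
      have h2 : ∃ f ∈ H, f v ≠ f w := by
        by_contra hcon
        push Not at hcon
        exact hw (hsep v w hcon).symm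
      obtain ⟨f, hf, hfv⟩ := h2
      refine ⟨(f v - f w)⁻¹ • (f - (f w) • (1 : V → Ω)), ?_, ?_, ?_⟩
      · exact Submodule.smul_mem _ _ (Submodule.sub_mem _ (Submodule.subset_span hf)
          (Submodule.smul_mem _ _ hone))
      · simp only [Pi.smul_apply, Pi.sub_apply, Pi.one_apply, smul_eq_mul, mul_one]
        exact inv_mul_cancel₀ (sub_ne_zero.mpr hfv)
      · simp
    choose! F hF hFv hFw using h1
    have h2 : (Pi.single v (1 : Ω) : V → Ω) = ∏ w ∈ Finset.univ.erase v, F w := by
      funext x
      rw [Finset.prod_apply]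
      by_cases hx : x = v
      · subst hx
        rw [Pi.single_eq_same]
        symm
        exact Finset.prod_eq_one fun w hw => hFv w (Finset.ne_of_mem_erase hw)
      · rw [Pi.single_eq_of_ne hx]
        symm
        exact Finset.prod_eq_zero (Finset.mem_erase.mpr ⟨hx, Finset.mem_univ x⟩) (hFw x hx)
    rw [h2]
    exact hprod _ _ fun w hw => hF w (Finset.ne_of_mem_erase hw)
  have h3 : f = ∑ v, f v • (Pi.single v (1 : Ω) : V → Ω) := by
    funext x
    rw [Finset.sum_apply, Finset.sum_eq_single x]
    · simp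
    · intro w _ hw
      rw [Pi.smul_apply, Pi.single_eq_of_ne hw.symm, smul_zero]
    · intro h
      exact absurd (Finset.mem_univ x) h
  rw [h3]
  exact Submodule.sum_mem _ fun v _ => Submodule.smul_mem _ _ (hind v)

end Sep

section Hopf

variable {R G Ω V : Type*} [CommRing R] [IsDomain R] [IsPrincipalIdealRing R] [Field Ω]
  [Algebra R Ω] [Group G] [MulSemiringAction G Ω] [AddCommGroup V] [Finite V]
  [DistribMulAction G V]

/-- A basis of a Hopf order. -/
structure HBasis (H : Subalgebra R (V → Ω)) {n : ℕ} (h : Fin n → V → Ω) : Prop where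
  mem : ∀ i, h i ∈ H
  li : LinearIndependent Ω h
  span : ∀ f ∈ H, ∃ c : Fin n → R, f = ∑ i, c i • h i
  top : ∀ f : V → Ω, ∃ c : Fin n → Ω, f = ∑ i, c i • h i

theorem IsHopfOrder.exists_hbasis (hD : Desc R G Ω) {H : Subalgebra R (V → Ω)}
    (hH : IsHopfOrder R G H) : ∃ (n : ℕ) (h : Fin n → V → Ω), HBasis H h := by
  obtain ⟨n, h, h1, h2, h3⟩ := hD.exists_basis (Subalgebra.toSubmodule H) hH.fg
    fun f hf g v => hH.equiv g f hf v
  refine ⟨n, h, h1, h2, h3, fun f => ?_⟩
  have h4 := span_of_sep H hH.sep f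
  have h5 : f ∈ Submodule.span Ω (Set.range h) := by
    have h6 : Submodule.span Ω (H : Set (V → Ω)) ≤ Submodule.span Ω (Set.range h) := by
      rw [Submodule.span_le]
      intro x hx
      obtain ⟨c, rfl⟩ := h3 x hx
      refine Submodule.sum_mem _ fun i _ => ?_
      rw [← algebraMap_smul Ω]
      exact Submodule.smul_mem _ _ (Submodule.subset_span ⟨i, rfl⟩)
    exact h6 h4
  obtain ⟨c, hc⟩ := (Submodule.mem_span_range_iff_exists_fun _).mp h5
  exact ⟨c, hc.symm⟩

/-- Elements of `tens₂` in terms of a basis. -/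
theorem HBasis.exists_tens {X : Type*} {H : Subalgebra R (V → Ω)} {n : ℕ} {h : Fin n → V → Ω}
    (hb : HBasis H h) {H' : Subalgebra R (X → Ω)} {F : X × V → Ω} (hF : F ∈ tens₂ R H' H) :
    ∃ a : Fin n → X → Ω, (∀ i, a i ∈ H') ∧ ∀ x v, F (x, v) = ∑ i, a i x * h i v := by
  obtain ⟨m, a, b, ha, hb', hFab⟩ := mem_tens₂_iff.mp hF
  choose c hc using fun i => hb.span (b i) (hb' i)
  refine ⟨fun j => ∑ i, c i j • a i, fun j => sum_mem fun i _ => H'.smul_mem (ha i) _,
    fun x v => ?_⟩
  rw [hFab]
  simp only [Finset.sum_apply, Pi.smul_apply, Finset.sum_mul]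
  rw [Finset.sum_comm]
  refine Finset.sum_congr rfl fun i _ => ?_
  conv_lhs => rw [hc i]
  rw [Finset.sum_apply, Finset.mul_sum]
  refine Finset.sum_congr rfl fun j _ => ?_
  rw [Pi.smul_apply, Algebra.smul_def, Algebra.smul_def]
  ring

end Hopf

end Fermat.Agent.Flat
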