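import Mathlib
import Fermat.Agent.Flat.Desc

/-!
Subgroups, quotients and products of flat groups.
-/

set_option autoImplicit false
set_option linter.unusedSectionVars false

noncomputable section

namespace Fermat.Agent.Flat

open Module

variable {R G Ω : Type*} [CommRing R] [Field Ω] [Algebra R Ω] [Group G] [MulSemiringAction G Ω]

section Sub

variable {V V' : Type*} [AddCommGroup V] [DistribMulAction G V] [AddCommGroup V']
  [DistribMulAction G V']

/-- Subgroups of flat groups are flat. -/
theorem IsFlat.of_injective (hV : IsFlat R G V Ω) (φ : V' →+ V) (hφ : Function.Injective φ)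
    (hG : ∀ (g : G) v, φ (g • v) = g • φ v) : IsFlat R G V' Ω := by
  obtain ⟨H, hH⟩ := hV
  refine ⟨H.map (pull R φ), ?_, ?_, ?_, ?_⟩
  · have h1 : Subalgebra.toSubmodule (H.map (pull R φ)) =
        (Subalgebra.toSubmodule H).map (pull R φ : (V → Ω) →ₐ[R] (V' → Ω)).toLinearMap := rfl
    rw [h1]
    exact hH.fg.map _
  · intro v w h
    apply hφ
    apply hH.sep
    intro f hf
    exact h (pull R φ f) ⟨f, hf, rfl⟩
  · rintro g _ ⟨f, hf, rfl⟩ v
    change f (φ (g • v)) = g • f (φ v)
    rw [hG, hH.equiv g f hf]
  · rintro _ ⟨f, hf, rfl⟩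
    obtain ⟨n, a, b, ha, hb, h⟩ := mem_tens₂_iff.mp (hH.comul f hf)
    refine mem_tens₂_iff.mpr ⟨n, fun i => pull R φ (a i), fun i => pull R φ (b i),
      fun i => ⟨a i, ha i, rfl⟩, fun i => ⟨b i, hb i, rfl⟩, fun x y => ?_⟩
    change f (φ (x + y)) = _
    rw [map_add]
    exact h (φ x) (φ y)

/-- Transport along equivariant isomorphisms. -/
theorem IsFlat.congr (hV : IsFlat R G V Ω) (φ : V' ≃+ V)
    (hG : ∀ (g : G) v, φ (g • v) = g • φ v) : IsFlat R G V' Ω :=
  hV.of_injective (φ : V' →+ V) φ.injective hG

/-- The trivial group. -/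
theorem isFlat_of_subsingleton (hD : Desc R G Ω) [Subsingleton V] : IsFlat R G V Ω := by
  refine ⟨⊥, ?_, ?_, ?_, ?_⟩
  · refine ⟨{1}, ?_⟩
    rw [Algebra.toSubmodule_bot, Submodule.one_eq_span]
    simp
  · intro v w _
    exact Subsingleton.elim v w
  · rintro g f hf v
    obtain ⟨a, rfl⟩ := Algebra.mem_bot.mp hf
    exact (hD.fix g a).symm
  · intro f hf
    obtain ⟨a, rfl⟩ := Algebra.mem_bot.mp hf
    exact (tens₂ R ⊥ ⊥).algebraMap_mem a

end Sub

section Prod

variable {V V' : Type*} [AddCommGroup V] [DistribMulAction G V] [AddCommGroup V']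
  [DistribMulAction G V']

/-- Products of flat groups are flat. -/
theorem IsFlat.prod (hV : IsFlat R G V Ω) (hV' : IsFlat R G V' Ω) : IsFlat R G (V × V') Ω := by
  obtain ⟨H, hH⟩ := hV
  obtain ⟨H', hH'⟩ := hV'
  refine ⟨tens₂ R H H', ?_, ?_, ?_, ?_⟩
  · obtain ⟨S, hS⟩ := hH.fg
    obtain ⟨S', hS'⟩ := hH'.fg
    have h1 : Subalgebra.toSubmodule (H.map (pull R (Prod.fst : V × V' → V)) ⊔
        H'.map (pull R (Prod.snd : V × V' → V')) : Subalgebra R (V × V' → Ω)) =
        Subalgebra.toSubmodule (H.map (pull R Prod.fst)) *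
          Subalgebra.toSubmodule (H'.map (pull R Prod.snd)) := by
      exact (Subalgebra.mul_toSubmodule _ _).symm
    change (Subalgebra.toSubmodule (H.map (pull R (Prod.fst : V × V' → V)) ⊔
        H'.map (pull R (Prod.snd : V × V' → V')) : Subalgebra R (V × V' → Ω))).FG
    rw [h1]
    exact (hH.fg.map (pull R (Prod.fst : V × V' → V)).toLinearMap).mul
      (hH'.fg.map (pull R (Prod.snd : V × V' → V')).toLinearMap)
  · rintro ⟨v, v'⟩ ⟨w, w'⟩ h
    have h1 : v = w := hH.sep v w fun f hf => h _ (fst_mem_tens₂ hf)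
    have h2 : v' = w' := hH'.sep v' w' fun f hf => h _ (snd_mem_tens₂ hf)
    rw [h1, h2]
  · intro g f hf
    refine tens₂_induction (P := fun f => ∀ v : V × V', f (g • v) = g • f v) ?_ ?_ ?_ ?_ hf
    · intro f hf v
      exact hH.equiv g f hf v.1
    · intro f hf v
      exact hH'.equiv g f hf v.2
    · intro f f' h h' v
      rw [Pi.add_apply, Pi.add_apply, h, h', smul_add]
    · intro f f' h h' v
      rw [Pi.mul_apply, Pi.mul_apply, h, h', smul_mul']
  · intro f hf
    -- the set of functions with a comultiplication is a subalgebra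
    refine tens₂_induction (P := fun f => (fun p : (V × V') × (V × V') => f (p.1 + p.2)) ∈
      tens₂ R (tens₂ R H H') (tens₂ R H H')) ?_ ?_ ?_ ?_ hf
    · intro f hf
      obtain ⟨n, a, b, ha, hb, h⟩ := mem_tens₂_iff.mp (hH.comul f hf)
      exact mem_tens₂_iff.mpr ⟨n, fun i => fun p => a i p.1, fun i => fun p => b i p.1,
        fun i => fst_mem_tens₂ (ha i), fun i => fst_mem_tens₂ (hb i),
        fun x y => h x.1 y.1⟩
    · intro f hf
      obtain ⟨n, a, b, ha, hb, h⟩ := mem_tens₂_iff.mp (hH'.comul f hf)
      exact mem_tens₂_iff.mpr ⟨n, fun i => fun p => a i p.2, fun i => fun p => b i p.2,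
        fun i => snd_mem_tens₂ (ha i), fun i => snd_mem_tens₂ (hb i),
        fun x y => h x.2 y.2⟩
    · intro f f' h h'
      exact add_mem h h'
    · intro f f' h h'
      exact mul_mem h h'

/-- Powers of flat groups are flat. -/
theorem IsFlat.pi (hD : Desc R G Ω) (hV : IsFlat R G V Ω) (n : ℕ) :
    IsFlat R G (Fin n → V) Ω := by
  induction n with
  | zero => exact isFlat_of_subsingleton hD
  | succ n ih =>
    refine (hV.prod ih).of_injective
      { toFun := fun x => (x 0, fun i => x i.succ)
        map_zero' := rfl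
        map_add' := fun _ _ => rfl } ?_ fun g v => rfl
    intro x y hxy
    funext i
    refine Fin.cases ?_ (fun i => ?_) i
    · exact congrArg Prod.fst hxy
    · exact congrFun (congrArg Prod.snd hxy) i

end Prod

section Quot

variable {V V' : Type*} [AddCommGroup V] [Finite V] [DistribMulAction G V] [AddCommGroup V']
  [DistribMulAction G V'] [IsDomain R] [IsPrincipalIdealRing R]

/-- Quotients of flat groups are flat. -/
theorem IsFlat.of_surjective (hD : Desc R G Ω) [CharZero Ω] (hV : IsFlat R G V Ω) (φ : V →+ V')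
    (hφ : Function.Surjective φ) (hG : ∀ (g : G) v, φ (g • v) = g • φ v) : IsFlat R G V' Ω := by
  classical
  have := Fintype.ofFinite V
  obtain ⟨H, hH⟩ := hV
  obtain ⟨n, h, hb⟩ := hH.exists_hbasis hD
  let H' : Subalgebra R (V' → Ω) := H.comap (pull R φ)
  have hmem : ∀ f : V' → Ω, f ∈ H' ↔ (fun v => f (φ v)) ∈ H := fun f => Iff.rfl
  have hinj : Function.Injective (pull R φ : (V' → Ω) →ₐ[R] (V → Ω)) := by
    intro f f' hff
    funext v'
    obtain ⟨v, rfl⟩ := hφ v'
    exact congrFun hff v
  have hfg : (Subalgebra.toSubmodule H').FG := by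
    have h1 : Module.Finite R (Subalgebra.toSubmodule H) := Module.Finite.iff_fg.mpr hH.fg
    have h2 : IsNoetherian R (Subalgebra.toSubmodule H) := inferInstance
    let ψ : Subalgebra.toSubmodule H' →ₗ[R] Subalgebra.toSubmodule H :=
      ((pull R φ : (V' → Ω) →ₐ[R] (V → Ω)).toLinearMap.comp
        (Subalgebra.toSubmodule H').subtype).codRestrict _ fun f => f.2
    have hψ : Function.Injective ψ := by
      intro f f' hff
      exact Subtype.ext (hinj (congrArg Subtype.val hff))
    have h3 : IsNoetherian R (Subalgebra.toSubmodule H') := isNoetherian_of_injective ψ hψ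
    exact Module.Finite.iff_fg.mp inferInstance
  have hequiv : ∀ (g : G), ∀ f ∈ H', ∀ v : V', f (g • v) = g • f v := by
    intro g f hf v'
    obtain ⟨v, rfl⟩ := hφ v'
    rw [← hG]
    exact hH.equiv g _ hf v
  have hsep : ∀ v' w' : V', (∀ f ∈ H', f v' = f w') → v' = w' := by
    intro v' w' hvw
    by_contra hne
    obtain ⟨v₀, hv₀⟩ := hφ v'
    -- the trace along the fibres
    let T : (V → Ω) → V' → Ω := fun f x => ∑ v ∈ Finset.univ.filter (fun v => φ v = x), f v
    have hTadd : ∀ f f', T (f + f') = T f + T f' := by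
      intro f f'
      funext x
      simp only [T, Pi.add_apply, Finset.sum_add_distrib]
    have hTsmul : ∀ (c : Ω) f, T (c • f) = c • T f := by
      intro c f
      funext x
      simp only [T, Pi.smul_apply, smul_eq_mul, Finset.mul_sum]
    have hTequiv : ∀ f ∈ H, ∀ (g : G) x, T f (g • x) = g • T f x := by
      intro f hf g x
      simp only [T, Finset.smul_sum]
      refine Finset.sum_bij' (fun v _ => g⁻¹ • v) (fun v _ => g • v) ?_ ?_ ?_ ?_ ?_
      · intro v hv
        simp only [Finset.mem_filter, Finset.mem_univ, true_and] at hv ⊢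
        rw [hG, hv, inv_smul_smul]
      · intro v hv
        simp only [Finset.mem_filter, Finset.mem_univ, true_and] at hv ⊢
        rw [hG, hv]
      · intro v _
        exact smul_inv_smul g v
      · intro v _
        exact inv_smul_smul g v
      · intro v _
        rw [← hH.equiv g f hf, smul_inv_smul]
    have hTeq : ∀ f ∈ H, T f v' = T f w' := by
      intro f hf
      have h1 : ∀ (g : G) v, (fun v => T f (φ v)) (g • v) = g • (fun v => T f (φ v)) v := by
        intro g v
        change T f (φ (g • v)) = _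
        rw [hG, hTequiv f hf]
      obtain ⟨c, hc⟩ := hb.top (fun v => T f (φ v))
      obtain ⟨a, ha, haT⟩ := hD.exists_mul_mem (H := Subalgebra.toSubmodule H) hb.mem hb.li
        (fun i g v => hH.equiv g _ (hb.mem i) v) h1
        ((Submodule.mem_span_range_iff_exists_fun _).mpr ⟨c, hc.symm⟩)
      have h2 : a • T f ∈ H' := haT
      have h3 := hvw _ h2
      simp only [Pi.smul_apply, Algebra.smul_def] at h3
      exact mul_left_cancel₀ (fun h0 => ha (hD.inj (by rw [h0, map_zero]))) h3
    have hTeq' : ∀ f : V → Ω, T f v' = T f w' := by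
      intro f
      have h1 := span_of_sep H hH.sep f
      induction h1 using Submodule.span_induction with
      | mem f hf => exact hTeq f hf
      | zero =>
        have : T 0 = 0 := by
          funext x
          simp [T]
        rw [this]
        rfl
      | add f f' _ _ h h' => rw [hTadd, Pi.add_apply, Pi.add_apply, h, h']
      | smul c f _ h => rw [hTsmul, Pi.smul_apply, Pi.smul_apply, h]
    have h1 := hTeq' (Pi.single v₀ 1)
    have h2 : T (Pi.single v₀ 1) v' = 1 := by
      simp only [T]
      rw [Finset.sum_eq_single v₀]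
      · rw [Pi.single_eq_same]
      · intro v _ hv
        rw [Pi.single_eq_of_ne hv]
      · intro hcon
        exact (hcon (by simp [hv₀])).elim
    have h3 : T (Pi.single v₀ 1) w' = 0 := by
      simp only [T]
      refine Finset.sum_eq_zero fun v hv => ?_
      rw [Pi.single_eq_of_ne]
      rintro rfl
      simp only [Finset.mem_filter, Finset.mem_univ, true_and] at hv
      exact hne (by rw [← hv₀, hv])
    rw [h2, h3] at h1
    exact one_ne_zero h1
  have hV'fin : Finite V' := Finite.of_surjective φ hφ
  obtain ⟨n', h', hh'mem, hh'li, hh'span⟩ := hD.exists_basis (Subalgebra.toSubmodule H') hfg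
    fun f hf g v => hequiv g f hf v
  refine ⟨H', hfg, hsep, hequiv, fun f hf => ?_⟩
  -- the comultiplication
  obtain ⟨a, ha, hfa⟩ := hb.exists_tens (hH.comul _ hf)
  have hfa' : ∀ v w, f (φ v + φ w) = ∑ i, a i v * h i w := by
    intro v w
    rw [← map_add]
    exact hfa v w
  -- the coefficients are functions on the quotient
  have ha1 : ∀ i v v₂, φ v = φ v₂ → a i v = a i v₂ := by
    intro i v v₂ hvv
    have h1 : ∑ i, (a i v - a i v₂) • h i = 0 := by
      funext w
      simp only [Finset.sum_apply, Pi.smul_apply, smul_eq_mul, sub_mul, Finset.sum_sub_distrib,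
        Pi.zero_apply]
      rw [← hfa', ← hfa', hvv, sub_self]
    exact sub_eq_zero.mp (Fintype.linearIndependent_iff.mp hb.li _ h1 i)
  choose s hs using hφ
  let a' : Fin n → V' → Ω := fun i x => a i (s x)
  have ha'H : ∀ i, a' i ∈ H' := by
    intro i
    rw [hmem]
    have : (fun v => a' i (φ v)) = a i := by
      funext v
      exact ha1 i _ _ (hs _)
    rw [this]
    exact ha i
  choose c hc using fun i => hh'span (a' i) (ha'H i)
  let b' : Fin n' → V → Ω := fun j w => ∑ i, c i j • h i w
  have hb'H : ∀ j, b' j ∈ H := by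
    intro j
    have : b' j = ∑ i, c i j • h i := by
      funext w
      simp [b']
    rw [this]
    exact sum_mem fun i _ => H.smul_mem (hb.mem i) _
  have hfb : ∀ x w, f (x + φ w) = ∑ j, h' j x * b' j w := by
    intro x w
    have h1 : f (x + φ w) = ∑ i, a' i x * h i w := by
      rw [← hs x]
      rw [hfa']
      refine Finset.sum_congr rfl fun i _ => ?_
      simp only [a', hs]
    rw [h1]
    have h2 : ∀ i, a' i x = ∑ j, c i j • h' j x := by
      intro i
      have := congrFun (hc i) x
      rw [Finset.sum_apply] at this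
      exact this
    simp only [b', h2, Finset.sum_mul, Finset.mul_sum]
    rw [Finset.sum_comm]
    refine Finset.sum_congr rfl fun j _ => Finset.sum_congr rfl fun i _ => ?_
    rw [Algebra.smul_def, Algebra.smul_def]
    ring
  have hb1 : ∀ j w w₂, φ w = φ w₂ → b' j w = b' j w₂ := by
    intro j w w₂ hww
    have h1 : ∑ j, (b' j w - b' j w₂) • h' j = 0 := by
      funext x
      simp only [Finset.sum_apply, Pi.smul_apply, smul_eq_mul, sub_mul, Finset.sum_sub_distrib,
        Pi.zero_apply]
      have h2 := hfb x w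
      have h3 := hfb x w₂
      rw [hww, h3] at h2
      rw [sub_eq_zero]
      simp only [mul_comm (b' _ _)]
      exact h2.symm
    exact sub_eq_zero.mp (Fintype.linearIndependent_iff.mp hh'li _ h1 j)
  refine mem_tens₂_iff.mpr ⟨n', h', fun j y => b' j (s y), hh'mem, fun j => ?_, fun x y => ?_⟩
  · rw [hmem]
    have : (fun v => b' j (s (φ v))) = b' j := by
      funext v
      exact hb1 j _ _ (hs _)
    rw [this]
    exact hb'H j
  · change f (x + y) = _
    conv_lhs => rw [← hs y]
    rw [hfb]

end Quot

end Fermat.Agent.Flat
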