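import Mathlib
import Fermat.Agent.Flat.SubQuot
import Fermat.Agent.Flat.Inv

/-!
Unramified descent: stable orders.
-/

set_option autoImplicit false
set_option linter.unusedSectionVars false

noncomputable section

namespace Fermat.Agent.Flat

open Module

section Tw

variable {G Ω V : Type*} [Field Ω] [Group G] [MulSemiringAction G Ω] [MulAction G V]

/-- The twisted action on functions. -/
def tw (σ : G) : (V → Ω) →+* (V → Ω) where
  toFun f := fun v => σ • f (σ⁻¹ • v)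
  map_one' := by funext v; simp
  map_mul' f g := by funext v; simp
  map_zero' := by funext v; simp
  map_add' f g := by funext v; simp

theorem tw_apply (σ : G) (f : V → Ω) (v : V) : tw σ f v = σ • f (σ⁻¹ • v) := rfl

theorem tw_one (f : V → Ω) : tw (1 : G) f = f := by
  funext v
  rw [tw_apply, inv_one, one_smul, one_smul]

theorem tw_mul (σ τ : G) (f : V → Ω) : tw (σ * τ) f = tw σ (tw τ f) := by
  funext v
  rw [tw_apply, tw_apply, tw_apply, mul_inv_rev, mul_smul, mul_smul]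

theorem tw_eq_iff (σ : G) (f : V → Ω) : tw σ f = f ↔ ∀ v, f (σ • v) = σ • f v := by
  constructor
  · intro h v
    have := congrFun h (σ • v)
    rw [tw_apply, inv_smul_smul] at this
    exact this.symm
  · intro h
    funext v
    rw [tw_apply, ← h, smul_inv_smul]

theorem tw_smul (σ : G) (c : Ω) (f : V → Ω) : tw σ (c • f) = (σ • c) • tw σ f := by
  funext v
  rw [tw_apply, Pi.smul_apply, Pi.smul_apply, tw_apply, smul_eq_mul, smul_eq_mul, smul_mul']

end Tw

section Stable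

variable {G Ω V : Type*} [Field Ω] [Group G] [MulSemiringAction G Ω] [AddCommGroup V] [Finite V]
  [DistribMulAction G V] {A : ValuationSubring Ω} {I D : Subgroup G}

theorem fixA_smul_mem (hA : ∀ σ ∈ D, ∀ a ∈ A, σ • a ∈ A)
    (hI : ∀ σ ∈ D, ∀ τ ∈ I, σ⁻¹ * τ * σ ∈ I) {σ : G} (hσ : σ ∈ D) {a : Ω} (ha : a ∈ fixA I A) :
    σ • a ∈ fixA I A := by
  refine ⟨hA σ hσ a ha.1, fun g => ?_⟩
  have h1 : (σ⁻¹ * (g : G) * σ) • a = a := ha.2 ⟨_, hI σ hσ g g.2⟩
  change (g : G) • σ • a = σ • a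
  rw [← mul_smul]
  have h2 : (g : G) * σ = σ * (σ⁻¹ * (g : G) * σ) := by group
  rw [h2, mul_smul, h1]

theorem tw_equiv (hI : ∀ σ ∈ D, ∀ τ ∈ I, σ⁻¹ * τ * σ ∈ I) {σ : G} (hσ : σ ∈ D) {f : V → Ω}
    (hf : ∀ (g : I) (v : V), f (g • v) = g • f v) (g : I) (v : V) :
    tw σ f (g • v) = g • tw σ f v := by
  have h1 : f ((σ⁻¹ * (g : G) * σ) • σ⁻¹ • v) = (σ⁻¹ * (g : G) * σ) • f (σ⁻¹ • v) :=
    hf ⟨_, hI σ hσ g g.2⟩ _
  rw [tw_apply, tw_apply]
  change σ • f (σ⁻¹ • (g : G) • v) = (g : G) • σ • f (σ⁻¹ • v)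
  have h2 : σ⁻¹ • (g : G) • v = (σ⁻¹ * (g : G) * σ) • σ⁻¹ • v := by
    rw [← mul_smul, ← mul_smul]
    congr 1
    group
  rw [h2, h1, ← mul_smul, ← mul_smul]
  congr 1
  group

/-- Hopf orders consist of functions with integral values. -/
theorem IsHopfOrder.value_mem {H : Subalgebra (fixA I A) (V → Ω)}
    (hH : IsHopfOrder (fixA I A) I H) {f : V → Ω} (hf : f ∈ H) (v : V) : f v ∈ A := by
  have h1 : IsIntegral (fixA I A) f := IsIntegral.of_mem_of_fg H hH.fg f hf
  have h2 : IsIntegral (fixA I A) (f v) :=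
    h1.map (Pi.evalAlgHom (fixA I A) (fun _ : V => Ω) v)
  have h3 : IsIntegral A (f v) := by
    obtain ⟨p, hp, hpv⟩ := h2
    let φ : fixA I A →+* A := (fixA I A).subtype.codRestrict A.toSubring fun a => a.2.1
    refine ⟨p.map φ, hp.map φ, ?_⟩
    rw [Polynomial.eval₂_map]
    exact hpv
  obtain ⟨w, hw⟩ := IsIntegrallyClosed.isIntegral_iff.mp h3
  rw [← hw]
  exact w.2

/-- Existence of stable Hopf orders. -/
theorem IsHopfOrder.exists_stable (hA : ∀ σ ∈ D, ∀ a ∈ A, σ • a ∈ A)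
    (hI : ∀ σ ∈ D, ∀ τ ∈ I, σ⁻¹ * τ * σ ∈ I)
    {H : Subalgebra (fixA I A) (V → Ω)} (hH : IsHopfOrder (fixA I A) I H)
    (hfin : ∀ f ∈ H, {x : V → Ω | ∃ σ ∈ D, x = tw σ f}.Finite) :
    ∃ H' : Subalgebra (fixA I A) (V → Ω), IsHopfOrder (fixA I A) I H' ∧
      ∀ σ ∈ D, ∀ f ∈ H', tw σ f ∈ H' := by
  classical
  obtain ⟨s, hs⟩ := hH.fg
  have hsH : ∀ f ∈ s, f ∈ H := by
    intro f hf
    have : f ∈ Subalgebra.toSubmodule H := by
      rw [← hs]
      exact Submodule.subset_span hf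
    exact this
  let X : Set (V → Ω) := ⋃ f ∈ s, {x : V → Ω | ∃ σ ∈ D, x = tw σ f}
  have hXfin : X.Finite := s.finite_toSet.biUnion fun f hf => hfin f (hsH f hf)
  have hX : ∀ x, x ∈ X ↔ ∃ f ∈ s, ∃ σ ∈ D, x = tw σ f := by
    intro x
    simp only [X, Set.mem_iUnion, Set.mem_setOf_eq, exists_prop]
  let H' : Subalgebra (fixA I A) (V → Ω) := Algebra.adjoin (fixA I A) X
  -- semilinearity
  have htw : ∀ σ ∈ D, ∀ (a : fixA I A) (f : V → Ω), f ∈ (H' : Set (V → Ω)) → tw σ f ∈ H' →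
      tw σ (a • f) ∈ H' := by
    intro σ hσ a f _ hf
    have h1 : tw σ (a • f) = (⟨_, fixA_smul_mem hA hI hσ a.2⟩ : fixA I A) • tw σ f :=
      tw_smul σ (a : Ω) f
    rw [h1]
    exact H'.smul_mem hf _
  have hle' : ∀ σ ∈ D, ∀ f ∈ Submodule.span (fixA I A) (s : Set (V → Ω)), tw σ f ∈ H' := by
    intro σ hσ f hf'
    induction hf' using Submodule.span_induction with
    | mem f hf => exact Algebra.subset_adjoin ((hX _).mpr ⟨f, hf, σ, hσ, rfl⟩)
    | zero => rw [map_zero]; exact zero_mem _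
    | add f g hf hg h1 h2 =>
      rw [map_add]
      exact add_mem h1 h2
    | smul a f hf h2 =>
      have h3 : tw σ (a • f) = (⟨_, fixA_smul_mem hA hI hσ a.2⟩ : fixA I A) • tw σ f :=
        tw_smul σ (a : Ω) f
      rw [h3]
      exact H'.smul_mem h2 _
  have hle : ∀ σ ∈ D, ∀ f ∈ H, tw σ f ∈ H' := by
    intro σ hσ f hf
    apply hle' σ hσ
    rw [hs]
    exact hf
  have hstab : ∀ σ ∈ D, ∀ f ∈ H', tw σ f ∈ H' := by
    intro σ hσ f hf
    induction hf using Algebra.adjoin_induction with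
    | mem x hx =>
      obtain ⟨f, hf, τ, hτ, rfl⟩ := (hX x).mp hx
      rw [← tw_mul]
      exact hle _ (mul_mem hσ hτ) f (hsH f hf)
    | algebraMap a =>
      have h1 : algebraMap (fixA I A) (V → Ω) a = a • (1 : V → Ω) := by
        rw [Algebra.smul_def, mul_one]
      rw [h1]
      exact htw σ hσ a 1 (one_mem H') (by rw [map_one]; exact one_mem _)
    | add x y _ _ hx hy => rw [map_add]; exact add_mem hx hy
    | mul x y _ _ hx hy => rw [map_mul]; exact mul_mem hx hy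
  have hHH' : ∀ f ∈ H, f ∈ H' := by
    intro f hf
    have := hle 1 (one_mem D) f hf
    rwa [tw_one] at this
  have hequiv : ∀ f ∈ H', ∀ (g : I) (v : V), f (g • v) = g • f v := by
    intro f hf
    induction hf using Algebra.adjoin_induction with
    | mem x hx =>
      obtain ⟨f, hf, τ, hτ, rfl⟩ := (hX x).mp hx
      exact tw_equiv hI hτ fun g v => hH.equiv g f (hsH f hf) v
    | algebraMap a =>
      intro g v
      exact (a.2.2 g).symm
    | add x y _ _ hx hy =>
      intro g v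
      rw [Pi.add_apply, Pi.add_apply, hx, hy, smul_add]
    | mul x y _ _ hx hy =>
      intro g v
      rw [Pi.mul_apply, Pi.mul_apply, hx, hy, smul_mul']
  refine ⟨H', ⟨?_, ?_, ?_, ?_⟩, hstab⟩
  · apply fg_adjoin_of_finite hXfin
    intro x hx
    obtain ⟨f, hf, τ, hτ, rfl⟩ := (hX x).mp hx
    refine isIntegral_fun (G := I) (tw τ f) (fun v => ?_) fun g => ?_
    · rw [tw_apply]
      exact hA τ hτ _ (hH.value_mem (hsH f hf) _)
    · refine ⟨MulAction.toPerm g, fun v => ?_⟩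
      exact tw_equiv hI hτ (fun g v => hH.equiv g f (hsH f hf) v) g v
  · intro v w h
    exact hH.sep v w fun f hf => h f (hHH' f hf)
  · intro g f hf v
    exact hequiv f hf g v
  · intro f hf
    induction hf using Algebra.adjoin_induction with
    | mem x hx =>
      obtain ⟨f, hf, τ, hτ, rfl⟩ := (hX x).mp hx
      obtain ⟨n, a, b, ha, hb, h⟩ := mem_tens₂_iff.mp (hH.comul f (hsH f hf))
      refine mem_tens₂_iff.mpr ⟨n, fun i => tw τ (a i), fun i => tw τ (b i),
        fun i => hle τ hτ _ (ha i), fun i => hle τ hτ _ (hb i), fun x y => ?_⟩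
      change τ • f (τ⁻¹ • (x + y)) = _
      have h1 : f (τ⁻¹ • x + τ⁻¹ • y) = _ := h (τ⁻¹ • x) (τ⁻¹ • y)
      rw [smul_add, h1, Finset.smul_sum]
      refine Finset.sum_congr rfl fun i _ => ?_
      exact smul_mul' _ _ _
    | algebraMap a => exact (tens₂ (fixA I A) H' H').algebraMap_mem a
    | add x y _ _ hx hy => exact add_mem hx hy
    | mul x y _ _ hx hy => exact mul_mem hx hy

end Stable

end Fermat.Agent.Flat
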