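import Mathlib
import Fermat.Agent.Flat.Unram1

/-!
Unramified descent: invariants generate.
-/

set_option autoImplicit false
set_option linter.unusedSectionVars false

noncomputable section

namespace Fermat.Agent.Flat

open Module

section

variable {G Ω V : Type*} [Field Ω] [Group G] [MulSemiringAction G Ω] [MulAction G V]
  {A : ValuationSubring Ω} {I D : Subgroup G}

theorem tw_comm_of_fix {ζ : Ω} {f : V → Ω} (hfix : ∀ σ ∈ D, σ • ζ = ζ → tw σ f = f)
    {σ τ : G} (hσ : σ ∈ D) (hτ : τ ∈ D) (h : σ • ζ = τ • ζ) : tw σ f = tw τ f := by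
  have h1 : tw (τ⁻¹ * σ) f = f := by
    apply hfix _ (mul_mem (inv_mem hτ) hσ)
    rw [mul_smul, h, inv_smul_smul]
  have h2 : σ = τ * (τ⁻¹ * σ) := by group
  rw [h2, tw_mul, h1]

/-- The invariants generate. -/
theorem mem_span_inv {ζ : Ω} (hζfin : {η : Ω | ∃ σ ∈ D, η = σ • ζ}.Finite)
    (hζA : ∀ σ ∈ D, σ • ζ ∈ fixA I A)
    (hζu : ∀ σ ∈ D, σ • ζ ≠ ζ → (ζ - σ • ζ)⁻¹ ∈ A)
    (M : Submodule (fixA I A) (V → Ω)) (hM : ∀ σ ∈ D, ∀ f ∈ M, tw σ f ∈ M)
    {f : V → Ω} (hf : f ∈ M) (hfix : ∀ σ ∈ D, σ • ζ = ζ → tw σ f = f) :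
    f ∈ Submodule.span (fixA I A) {h : V → Ω | h ∈ M ∧ ∀ σ ∈ D, tw σ h = h} := by
  classical
  let T : Finset Ω := hζfin.toFinset
  have hT : ∀ η, η ∈ T ↔ ∃ σ ∈ D, η = σ • ζ := by
    intro η
    simp only [T, Set.Finite.mem_toFinset, Set.mem_setOf_eq]
  have hζT : ζ ∈ T := (hT ζ).mpr ⟨1, one_mem D, (one_smul G ζ).symm⟩
  have hTA : ∀ η ∈ T, η ∈ fixA I A := by
    intro η hη
    obtain ⟨σ, hσ, rfl⟩ := (hT η).mp hη
    exact hζA σ hσ
  choose! s hsD hs using fun η (hη : η ∈ T) => (hT η).mp hη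
  -- the polynomial
  let e : Ω → fixA I A := fun η => if h : η ∈ fixA I A then ⟨η, h⟩ else 0
  have he : ∀ η ∈ T, (e η : Ω) = η := by
    intro η hη
    simp only [e, dif_pos (hTA η hη)]
  let P : Polynomial (fixA I A) := ∏ η ∈ T.erase ζ, (Polynomial.X - Polynomial.C (e η))
  have hPeval : ∀ x : Ω, P.eval₂ (fixA I A).subtype x = ∏ η ∈ T.erase ζ, (x - η) := by
    intro x
    simp only [P]
    rw [Polynomial.eval₂_finsetProd]
    refine Finset.prod_congr rfl fun η hη => ?_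
    rw [Polynomial.eval₂_sub, Polynomial.eval₂_X, Polynomial.eval₂_C]
    congr 1
    exact he η (Finset.mem_of_mem_erase hη)
  -- the invariant functions
  let h : ℕ → V → Ω := fun i => ∑ η ∈ T, (η ^ i) • tw (s η) f
  have hhM : ∀ i, h i ∈ M := by
    intro i
    refine Submodule.sum_mem _ fun η hη => ?_
    have h1 : (η ^ i) • tw (s η) f = (⟨η ^ i, pow_mem (hTA η hη) i⟩ : fixA I A) • tw (s η) f := rfl
    rw [h1]
    exact M.smul_mem _ (hM _ (hsD η hη) f hf)
  have hhD : ∀ i, ∀ τ ∈ D, tw τ (h i) = h i := by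
    intro i τ hτ
    simp only [h]
    rw [map_sum]
    refine Finset.sum_bij' (fun η _ => τ • η) (fun η _ => τ⁻¹ • η) ?_ ?_ ?_ ?_ ?_
    · intro η hη
      obtain ⟨σ, hσ, rfl⟩ := (hT η).mp hη
      exact (hT _).mpr ⟨τ * σ, mul_mem hτ hσ, by rw [mul_smul]⟩
    · intro η hη
      obtain ⟨σ, hσ, rfl⟩ := (hT η).mp hη
      exact (hT _).mpr ⟨τ⁻¹ * σ, mul_mem (inv_mem hτ) hσ, by rw [mul_smul]⟩
    · intro η _
      exact inv_smul_smul τ η
    · intro η _
      exact smul_inv_smul τ η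
    · intro η hη
      have hη' : τ • η ∈ T := by
        obtain ⟨σ, hσ, rfl⟩ := (hT η).mp hη
        exact (hT _).mpr ⟨τ * σ, mul_mem hτ hσ, by rw [mul_smul]⟩
      rw [tw_smul, smul_pow', ← tw_mul]
      congr 1
      apply tw_comm_of_fix hfix (mul_mem hτ (hsD η hη)) (hsD _ hη')
      rw [mul_smul, ← hs η hη, ← hs _ hη']
  -- the relation
  set c : Ω := ∏ η ∈ T.erase ζ, (ζ - η) with hc
  have hcne : c ≠ 0 := by
    rw [hc, Finset.prod_ne_zero_iff]
    intro η hη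
    exact sub_ne_zero.mpr (Finset.ne_of_mem_erase hη).symm
  have hrel : c • f = ∑ i ∈ Finset.range (P.natDegree + 1), P.coeff i • h i := by
    have h1 : ∀ η ∈ T, ∑ i ∈ Finset.range (P.natDegree + 1), (P.coeff i : Ω) * η ^ i =
        if η = ζ then c else 0 := by
      intro η hη
      have h2 := hPeval η
      rw [Polynomial.eval₂_eq_sum_range] at h2
      change ∑ i ∈ Finset.range (P.natDegree + 1), (P.coeff i : Ω) * η ^ i = _ at h2
      rw [h2]
      split_ifs with h3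
      · rw [h3]
      · exact Finset.prod_eq_zero (Finset.mem_erase.mpr ⟨h3, hη⟩) (sub_self η)
    have h2 : ∑ i ∈ Finset.range (P.natDegree + 1), P.coeff i • h i =
        ∑ η ∈ T, (∑ i ∈ Finset.range (P.natDegree + 1), (P.coeff i : Ω) * η ^ i) • tw (s η) f := by
      simp only [h, Finset.smul_sum, Finset.sum_smul]
      rw [Finset.sum_comm]
      refine Finset.sum_congr rfl fun η _ => Finset.sum_congr rfl fun i _ => ?_
      change (P.coeff i : Ω) • (η ^ i) • tw (s η) f = _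
      rw [smul_smul]
    rw [h2, Finset.sum_congr rfl fun η hη => by rw [h1 η hη], Finset.sum_eq_single ζ]
    · rw [if_pos rfl]
      congr 1
      exact (hfix _ (hsD ζ hζT) (hs ζ hζT).symm).symm
    · intro η _ hη
      rw [if_neg hη, zero_smul]
    · intro h3
      exact absurd hζT h3
  have hcinv : c⁻¹ ∈ fixA I A := by
    rw [hc, ← Finset.prod_inv_distrib]
    refine prod_mem fun η hη => ⟨?_, fun g => ?_⟩
    · obtain ⟨σ, hσ, rfl⟩ := (hT η).mp (Finset.mem_of_mem_erase hη)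
      exact hζu σ hσ (Finset.ne_of_mem_erase hη)
    · rw [smul_inv'', smul_sub, (hTA ζ hζT).2 g, (hTA η (Finset.mem_of_mem_erase hη)).2 g]
  have hf2 : f = (⟨c⁻¹, hcinv⟩ : fixA I A) •
      ∑ i ∈ Finset.range (P.natDegree + 1), P.coeff i • h i := by
    rw [← hrel]
    change f = c⁻¹ • c • f
    rw [smul_smul, inv_mul_cancel₀ hcne, one_smul]
  rw [hf2]
  refine Submodule.smul_mem _ _ (Submodule.sum_mem _ fun i _ => Submodule.smul_mem _ _
    (Submodule.subset_span ⟨hhM i, fun σ hσ => hhD i σ hσ⟩))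

end

end Fermat.Agent.Flat
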