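import Mathlib
import Fermat.Agent.Flat.Unram2
import Fermat.Agent.LG.InertField

/-!
Unramified descent: roots of unity.
-/

set_option autoImplicit false
set_option linter.unusedSectionVars false

noncomputable section

namespace Fermat.Agent.Flat

open Module
open scoped Pointwise NumberField
open Fermat.Agent.GaloisBasics Fermat.Agent.Inertia Fermat.Agent.EC Fermat.Agent.LG

/-- The field of algebraic numbers. -/
local notation "Qb" => AlgebraicClosure ℚ
/-- The ring of algebraic integers. -/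
local notation "Zb" => integralClosure ℤ (AlgebraicClosure ℚ)
/-- The absolute Galois group. -/
local notation "GQ" => (AlgebraicClosure ℚ ≃ₐ[ℚ] AlgebraicClosure ℚ)

variable {A : ValuationSubring Qb} {q : ℕ}

theorem decomp_mem {σ : GQ} (hσ : σ ∈ A.decompositionSubgroup ℚ) {a : Qb} (ha : a ∈ A) :
    σ a ∈ A := by
  have h1 : σ • A = A := hσ
  rw [← h1]
  exact ValuationSubring.smul_mem_pointwise_smul σ a A ha

theorem decomp_lt {σ : GQ} (hσ : σ ∈ A.decompositionSubgroup ℚ) {a : Qb}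
    (ha : A.valuation a < 1) : A.valuation (σ a) < 1 := by
  by_contra hcon
  rw [not_lt] at hcon
  have h0 : a ≠ 0 := by
    rintro rfl
    rw [map_zero, map_zero] at hcon
    exact absurd hcon (not_le.mpr zero_lt_one)
  have h1 : (σ a)⁻¹ ∈ A := by
    rw [← A.valuation_le_one_iff, map_inv₀]
    exact inv_le_one_of_one_le₀ hcon
  have h2 := decomp_mem (inv_mem hσ) h1
  have h3 : (σ⁻¹ : GQ) (σ a)⁻¹ = a⁻¹ := by
    rw [map_inv₀]
    congr 1
    exact σ.symm_apply_apply a
  rw [h3, ← A.valuation_le_one_iff, map_inv₀] at h2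
  have h4 : A.valuation a ≠ 0 := (Valuation.ne_zero_iff _).mpr h0
  have h5 : 1 < (A.valuation a)⁻¹ := by
    rw [one_lt_inv₀ (zero_lt_iff.mpr h4)]
    exact ha
  exact absurd h2 (not_le.mpr h5)

theorem inertia_le_decomp {σ : GQ} (hσ : σ ∈ A.inertiaSubgroupIn ℚ) :
    σ ∈ A.decompositionSubgroup ℚ := by
  rw [ValuationSubring.inertiaSubgroupIn, Subgroup.mem_map] at hσ
  obtain ⟨g, -, rfl⟩ := hσ
  exact g.2

theorem inertia_conj {σ τ : GQ} (hσ : σ ∈ A.decompositionSubgroup ℚ)
    (hτ : τ ∈ A.inertiaSubgroupIn ℚ) : σ⁻¹ * τ * σ ∈ A.inertiaSubgroupIn ℚ := by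
  rw [ValuationSubring.inertiaSubgroupIn, Subgroup.mem_map] at hτ ⊢
  obtain ⟨g, hg, rfl⟩ := hτ
  refine ⟨(⟨σ, hσ⟩ : A.decompositionSubgroup ℚ)⁻¹ * g * ⟨σ, hσ⟩, ?_, rfl⟩
  rw [ValuationSubring.inertiaSubgroup, MonoidHom.mem_ker] at hg ⊢
  rw [map_mul, map_mul, hg, mul_one, map_inv, inv_mul_cancel]

/-- Elements are congruent to roots of unity. -/
theorem exists_root_control (hq : q.Prime) (hA : A.LiesOverPrime q) {a : Qb} (ha : a ∈ A) :
    ∃ m : ℕ, ¬ q ∣ m ∧ ∀ σ ∈ A.decompositionSubgroup ℚ, (∀ η : Qb, η ^ m = 1 → σ η = η) →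
      A.valuation (σ a - a) < 1 := by
  have hva : A.valuation a ≤ 1 := (A.valuation_le_one_iff a).mpr ha
  rcases hva.lt_or_eq with h | h
  · refine ⟨1, fun h1 => hq.one_lt.ne' (Nat.dvd_one.mp h1), fun σ hσ _ => ?_⟩
    exact v_sub_lt (decomp_lt hσ h) h
  obtain ⟨m, hm, h1⟩ := exists_pow_congr_one hq hA h
  have hm0 : m ≠ 0 := by rintro rfl; simp at hm
  have : NeZero m := ⟨hm0⟩
  refine ⟨m, hm, fun σ hσ hfix => ?_⟩
  obtain ⟨ζ, hζ⟩ := HasEnoughRootsOfUnity.exists_primitiveRoot Qb m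
  have h2 := Polynomial.X_pow_sub_one_eq_prod (Nat.pos_of_ne_zero hm0) hζ
  have h3 := congrArg (Polynomial.eval a) h2
  rw [Polynomial.eval_sub, Polynomial.eval_pow, Polynomial.eval_X, Polynomial.eval_one,
    Polynomial.eval_prod] at h3
  simp only [Polynomial.eval_sub, Polynomial.eval_X, Polynomial.eval_C] at h3
  have hroot : ∀ η ∈ Polynomial.nthRootsFinset m (1 : Qb), η ^ m = 1 := by
    intro η hη
    exact (Polynomial.mem_nthRootsFinset (Nat.pos_of_ne_zero hm0) 1).mp hη
  have hvη : ∀ η ∈ Polynomial.nthRootsFinset m (1 : Qb), A.valuation η = 1 := by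
    intro η hη
    have := congrArg A.valuation (hroot η hη)
    rw [map_pow, map_one] at this
    exact (pow_eq_one_iff_of_ne_zero' hm0).mp this
  by_contra hcon
  have h4 : ∀ η ∈ Polynomial.nthRootsFinset m (1 : Qb), A.valuation (a - η) = 1 := by
    intro η hη
    refine le_antisymm (v_sub_le hva (hvη η hη).le) ?_
    by_contra hlt
    rw [not_le] at hlt
    apply hcon
    have h5 : σ a - a = σ (a - η) - (a - η) := by
      rw [map_sub, hfix η (hroot η hη)]
      ring
    rw [h5]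
    exact v_sub_lt (decomp_lt hσ hlt) hlt
  rw [h3, map_prod, Finset.prod_congr rfl h4, Finset.prod_const_one] at h1
  exact lt_irrefl _ h1

/-- A root of unity controlling the action on the residue field of a number field. -/
theorem exists_zeta_control (hq : q.Prime) (hA : A.LiesOverPrime q) (F : IntermediateField ℚ Qb)
    (hfin' : @FiniteDimensional ℚ F _ _ F.algebra'.toModule)
    (hstab : ∀ g : GQ, ∀ x ∈ F, g x ∈ F) :
    ∃ M : ℕ, ¬ q ∣ M ∧ ∃ ζ : Qb, IsPrimitiveRoot ζ M ∧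
      ∀ σ ∈ A.decompositionSubgroup ℚ, σ ζ = ζ →
        ∃ ρ ∈ A.inertiaSubgroupIn ℚ, ∀ x ∈ F, ρ x = σ x := by
  classical
  have hfin : FiniteDimensional ℚ F := hfin'
  have hnf : NumberField F := { to_charZero := inferInstance, to_finiteDimensional := hfin }
  obtain ⟨s, hs⟩ : (⊤ : Submodule ℤ (𝓞 F)).FG := Module.Finite.fg_top
  have hint : ∀ x : 𝓞 F, IsIntegral ℤ ((x : F) : Qb) := by
    intro x
    have hx : IsIntegral ℤ (x : F) := x.2
    exact hx.map (F.val.restrictScalars ℤ)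
  have hxA : ∀ x : 𝓞 F, ((x : F) : Qb) ∈ A := fun x =>
    integralClosure_le_valuationSubring A (hint x)
  choose m hm hmc using fun x : 𝓞 F => exists_root_control hq hA (hxA x)
  let M : ℕ := ∏ x ∈ s, m x
  have hM : ¬ q ∣ M := by
    rw [Prime.dvd_finset_prod_iff hq.prime]
    rintro ⟨x, -, hx⟩
    exact hm x hx
  have hM0 : M ≠ 0 := by
    intro h0
    apply hM
    rw [h0]
    exact dvd_zero q
  have : NeZero M := ⟨hM0⟩
  obtain ⟨ζ, hζ⟩ := HasEnoughRootsOfUnity.exists_primitiveRoot Qb M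
  refine ⟨M, hM, ζ, hζ, fun σ hσ hσζ => ?_⟩
  apply exists_inertia_lift F hstab A σ
  -- the roots of unity are fixed
  have hroots : ∀ η : Qb, η ^ M = 1 → σ η = η := by
    intro η hη
    obtain ⟨i, -, rfl⟩ := hζ.eq_pow_of_pow_eq_one hη
    rw [map_pow, hσζ]
  have hs1 : ∀ x ∈ s, A.valuation (σ ((x : F) : Qb) - ((x : F) : Qb)) < 1 := by
    intro x hx
    apply hmc x σ hσ
    intro η hη
    apply hroots
    obtain ⟨k, hk⟩ : m x ∣ M := Finset.dvd_prod_of_mem m hx
    rw [hk, pow_mul, hη, one_pow]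
  have hall : ∀ x : 𝓞 F, A.valuation (σ ((x : F) : Qb) - ((x : F) : Qb)) < 1 := by
    intro x
    have hx : x ∈ Submodule.span ℤ (s : Set (𝓞 F)) := by rw [hs]; trivial
    induction hx using Submodule.span_induction with
    | mem x hx => exact hs1 x hx
    | zero => simp
    | add x y _ _ h1 h2 =>
      have e : σ (((x + y : 𝓞 F) : F) : Qb) - (((x + y : 𝓞 F) : F) : Qb) =
          (σ ((x : F) : Qb) - ((x : F) : Qb)) + (σ ((y : F) : Qb) - ((y : F) : Qb)) := by
        have : (((x + y : 𝓞 F) : F) : Qb) = ((x : F) : Qb) + ((y : F) : Qb) := by push_cast; rfl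
        rw [this, map_add]
        ring
      rw [e]
      exact Valuation.map_add_lt _ h1 h2
    | smul a x _ h1 =>
      have e : σ (((a • x : 𝓞 F) : F) : Qb) - (((a • x : 𝓞 F) : F) : Qb) =
          (a : Qb) * (σ ((x : F) : Qb) - ((x : F) : Qb)) := by
        have : (((a • x : 𝓞 F) : F) : Qb) = (a : Qb) * ((x : F) : Qb) := by
          rw [zsmul_eq_mul]
          push_cast
          rfl
        rw [this, map_mul, map_intCast]
        ring
      rw [e, map_mul]
      have h2 : A.valuation (a : Qb) ≤ 1 := (A.valuation_le_one_iff _).mpr (intCast_mem A a)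
      exact (mul_le_of_le_one_left' h2).trans_lt h1
  intro x hx
  have hxi : IsIntegral ℤ (⟨x, hx⟩ : F) := by
    have hx' : IsIntegral ℤ (x : Qb) := x.2
    exact (isIntegral_algHom_iff (F.val.restrictScalars ℤ) F.val.injective).mp hx'
  have h1 := hall ⟨⟨x, hx⟩, hxi⟩
  rw [mem_idealOf]
  exact h1

end Fermat.Agent.Flat
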