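import Mathlib
import Fermat.Agent.Flat.Unram3
import Fermat.Agent.LG.InertField3
import Fermat.Prelude.Def_GaloisRep_Flat
import Fermat.Agent.GaloisBasics.FrobeniusExists

/-!
Unramified descent: arithmetic of the inertia and decomposition fields.
-/

set_option autoImplicit false
set_option linter.unusedSectionVars false

noncomputable section

namespace Fermat.Agent.Flat

open Module
open scoped Pointwise NumberField
open Fermat.Agent.GaloisBasics Fermat.Agent.Inertia Fermat.Agent.EC Fermat.Agent.LG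

/-- The field of algebraic numbers. -/
local notation "Qb" => AlgebraicClosure ℚ
/-- The absolute Galois group. -/
local notation "GQ" => (AlgebraicClosure ℚ ≃ₐ[ℚ] AlgebraicClosure ℚ)

section Gen

variable {G Ω : Type*} [Field Ω] [Group G] [MulSemiringAction G Ω] {A : ValuationSubring Ω}

theorem desc_fixA : Desc (fixA G A) G Ω where
  inj := Subtype.val_injective
  fix g a := a.2.2 g
  frac x hx := by
    rcases A.mem_or_inv_mem x with h | h
    · exact ⟨1, one_ne_zero, ⟨x, h, hx⟩, by rw [map_one, one_mul]; rfl⟩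
    · by_cases hx0 : x = 0
      · exact ⟨1, one_ne_zero, 0, by rw [hx0, mul_zero, map_zero]⟩
      refine ⟨⟨x⁻¹, h, fun g => by rw [smul_inv'', hx]⟩, fun h0 => ?_, 1, ?_⟩
      · exact inv_ne_zero hx0 (congrArg Subtype.val h0)
      · rw [map_one]
        exact inv_mul_cancel₀ hx0

end Gen

variable {A : ValuationSubring Qb} {q : ℕ}

variable (A) in
/-- The valuation ring of the inertia field. -/
abbrev OI : Subring Qb := fixA (A.inertiaSubgroupIn ℚ) A

variable (A) in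
/-- comparison of the two valuation rings of the inertia field -/
def oiEquiv : OI A ≃+* A.comap (algebraMap (KI A) Qb) where
  toFun a := ⟨⟨a, mem_KI.mpr fun σ hσ => a.2.2 ⟨σ, hσ⟩⟩, a.2.1⟩
  invFun a := ⟨((a : KI A) : Qb), a.2, fun g => mem_KI.mp (a : KI A).2 g g.2⟩
  left_inv _ := rfl
  right_inv _ := rfl
  map_mul' _ _ := rfl
  map_add' _ _ := rfl

theorem isDVR_comapKI (hq : q.Prime) (hA : A.LiesOverPrime q) :
    IsDiscreteValuationRing (A.comap (algebraMap (KI A) Qb)) := by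
  have h1 : (⊥ : IntermediateField (KI A) Qb).restrictScalars ℚ = KI A := by
    ext x
    rw [IntermediateField.mem_restrictScalars, IntermediateField.mem_bot]
    constructor
    · rintro ⟨y, rfl⟩
      exact y.2
    · intro hx
      exact ⟨⟨x, hx⟩, rfl⟩
  have h2 : IsDiscreteValuationRing (A.comap (algebraMap
      ((⊥ : IntermediateField (KI A) Qb).restrictScalars ℚ) Qb)) := LG.isDVR hq hA ⊥
  rwa [h1] at h2

theorem isDVR_OI (hq : q.Prime) (hA : A.LiesOverPrime q) : IsDiscreteValuationRing (OI A) := by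
  have := isDVR_comapKI hq hA
  exact IsDiscreteValuationRing.RingEquivClass.isDiscreteValuationRing (oiEquiv A).symm

/-- Powers of `q` are cofinal. -/
theorem exists_q_pow (hq : q.Prime) (hA : A.LiesOverPrime q) {a : OI A} (ha : a ≠ 0) :
    ∃ (m : ℕ) (b : OI A), (q : Qb) ^ m = (a : Qb) * b := by
  have ha0 : (a : Qb) ≠ 0 := fun h => ha (Subtype.ext h)
  have haK : (a : Qb) ∈ KI A := mem_KI.mpr fun σ hσ => a.2.2 ⟨σ, hσ⟩
  obtain ⟨m, hm⟩ := exists_zpow A hq hA haK ha0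
  have hvq : A.valuation (q : Qb) < 1 := hA
  have hq0 : (q : Qb) ≠ 0 := by exact_mod_cast hq.ne_zero
  have hvq0 : A.valuation (q : Qb) ≠ 0 := (Valuation.ne_zero_iff _).mpr hq0
  have hva : A.valuation (a : Qb) ≤ 1 := (A.valuation_le_one_iff _).mpr a.2.1
  obtain ⟨n, hn⟩ : ∃ n : ℕ, m ≤ n := ⟨m.toNat, Int.self_le_toNat m⟩
  refine ⟨n, ⟨(a : Qb)⁻¹ * (q : Qb) ^ n, ?_, fun g => ?_⟩, ?_⟩
  · rw [← A.valuation_le_one_iff, map_mul, map_inv₀, map_pow, hm]
    rw [← zpow_natCast, ← zpow_neg, ← zpow_add₀ hvq0]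
    obtain ⟨k, hk⟩ : ∃ k : ℕ, -m + (n : ℤ) = k := ⟨(-m + n).toNat, by omega⟩
    rw [hk, zpow_natCast]
    exact pow_le_one₀ zero_le hvq.le
  · rw [smul_mul', smul_inv'', a.2.2 g, smul_pow']
    congr 2
    exact map_natCast ((g : GQ) : Qb ≃ₐ[ℚ] Qb) q
  · rw [← mul_assoc, mul_inv_cancel₀ ha0, one_mul]

/-- The residue field of the decomposition field. -/
theorem residue_int (hq : q.Prime) (hA : A.LiesOverPrime q) {c : Qb} (hcA : c ∈ A)
    (hc : ∀ σ ∈ A.decompositionSubgroup ℚ, σ c = c) :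
    ∃ n : ℕ, A.valuation (c - n) < 1 := by
  have : Fact q.Prime := ⟨hq⟩
  set κ := IsLocalRing.ResidueField A with hκ
  let r : A →+* κ := IsLocalRing.residue A
  have hr0 : ∀ z : A, r z = 0 ↔ A.valuation (z : Qb) < 1 := by
    intro z
    rw [IsLocalRing.residue_eq_zero_iff, ValuationSubring.valuation_lt_one_iff]
  have hchar : CharP κ q := by
    have h1 : ((q : ℕ) : κ) = 0 := by
      rw [← map_natCast r, hr0]
      exact_mod_cast hA
    exact (CharP.charP_iff_prime_eq_zero hq).mpr h1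
  obtain ⟨σ, hσ⟩ := exists_isFrobeniusAt hq A hA
  obtain ⟨hσD, hσx⟩ := hσ
  have h1 : (r ⟨c, hcA⟩) ^ q = r ⟨c, hcA⟩ := by
    rw [← hσx (r ⟨c, hcA⟩)]
    change (⟨σ, hσD⟩ : A.decompositionSubgroup ℚ) • IsLocalRing.residue A ⟨c, hcA⟩ = _
    rw [← IsLocalRing.ResidueField.residue_smul]
    congr 1
    exact Subtype.ext (hc σ hσD)
  have h2 := (Subfield.mem_bot_iff_pow_eq_self κ q).mpr h1
  rw [← ZMod.fieldRange_castHom_eq_bot (K := κ) q] at h2
  obtain ⟨a, ha⟩ := h2
  refine ⟨a.val, ?_⟩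
  have h3 : r (⟨c, hcA⟩ - (a.val : A)) = 0 := by
    rw [map_sub, map_natCast, ← ha, sub_eq_zero]
    conv_lhs => rw [← ZMod.natCast_zmod_val a]
    exact map_natCast (ZMod.castHom (dvd_refl q) κ) a.val
  have h4 := (hr0 _).mp h3
  have h5 : (((⟨c, hcA⟩ - (a.val : A) : A)) : Qb) = c - (a.val : Qb) := by
    rw [AddSubgroupClass.coe_sub]
    congr 1
  rwa [h5] at h4

theorem dstep (hq : q.Prime) (hA : A.LiesOverPrime q) {c : Qb} (hcA : c ∈ A)
    (hc : ∀ σ ∈ A.decompositionSubgroup ℚ, σ c = c) :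
    ∃ n : ℕ, ∃ y ∈ A, (∀ σ ∈ A.decompositionSubgroup ℚ, σ y = y) ∧ c = n + q * y := by
  obtain ⟨n, hn⟩ := residue_int hq hA hcA hc
  have hq0 : (q : Qb) ≠ 0 := by exact_mod_cast hq.ne_zero
  have hvq : A.valuation (q : Qb) < 1 := hA
  have hvq0 : A.valuation (q : Qb) ≠ 0 := (Valuation.ne_zero_iff _).mpr hq0
  have hfix : ∀ σ ∈ A.decompositionSubgroup ℚ, σ ((c - n) / q) = (c - n) / q := by
    intro σ hσ
    rw [map_div₀, map_sub, hc σ hσ, map_natCast, map_natCast]
  refine ⟨n, (c - n) / q, ?_, hfix, by field_simp; ring⟩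
  by_cases h0 : c - n = 0
  · rw [h0, zero_div]
    exact zero_mem _
  have hK : c - n ∈ KI A := mem_KI.mpr fun σ hσ => by
    rw [map_sub, hc σ (inertia_le_decomp hσ), map_natCast]
  obtain ⟨m, hm⟩ := exists_zpow A hq hA hK h0
  rw [hm] at hn
  have hm1 : 1 ≤ m := by
    by_contra hlt
    have h1 : 1 ≤ A.valuation (q : Qb) ^ m := by
      obtain ⟨k, hk⟩ : ∃ k : ℕ, m = -(k : ℤ) := ⟨(-m).toNat, by omega⟩
      rw [hk, zpow_neg, zpow_natCast]
      exact (one_le_inv₀ (zero_lt_iff.mpr (pow_ne_zero _ hvq0))).mpr (pow_le_one₀ zero_le hvq.le)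
    exact absurd hn (not_lt.mpr h1)
  rw [← A.valuation_le_one_iff, map_div₀, hm]
  obtain ⟨k, hk⟩ : ∃ k : ℕ, m = k + 1 := ⟨(m - 1).toNat, by omega⟩
  rw [hk, zpow_add₀ hvq0, zpow_one, mul_div_assoc, div_self hvq0, mul_one, zpow_natCast]
  exact pow_le_one₀ zero_le hvq.le

theorem dapprox (hq : q.Prime) (hA : A.LiesOverPrime q) (k : ℕ) {c : Qb} (hcA : c ∈ A)
    (hc : ∀ σ ∈ A.decompositionSubgroup ℚ, σ c = c) :
    ∃ n : ℕ, ∃ y ∈ A, (∀ σ ∈ A.decompositionSubgroup ℚ, σ y = y) ∧ c = n + q ^ k * y := by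
  induction k generalizing c with
  | zero => exact ⟨0, c, hcA, hc, by simp⟩
  | succ k ih =>
    obtain ⟨n, y, hy, hyD, h⟩ := ih hcA hc
    obtain ⟨n', y', hy', hyD', h'⟩ := dstep hq hA hy hyD
    refine ⟨n + q ^ k * n', y', hy', hyD', ?_⟩
    rw [h, h']
    push_cast
    ring

/-- Approximation of elements of the decomposition field by rational numbers. -/
theorem exists_rat_approx (hq : q.Prime) (hA : A.LiesOverPrime q) (k : ℕ) {c : Qb}
    (hc : ∀ σ ∈ A.decompositionSubgroup ℚ, σ c = c) :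
    ∃ (r : ℚ) (y : OI A), c = algebraMap ℚ Qb r + (q : Qb) ^ k * y := by
  -- clear denominators
  have hq0 : (q : Qb) ≠ 0 := by exact_mod_cast hq.ne_zero
  obtain ⟨s, hs⟩ : ∃ s : ℕ, (q : Qb) ^ s * c ∈ A := by
    rcases A.mem_or_inv_mem c with h | h
    · exact ⟨0, by rwa [pow_zero, one_mul]⟩
    by_cases hc0 : c = 0
    · exact ⟨0, by rw [hc0, mul_zero]; exact zero_mem _⟩
    let a : OI A := ⟨c⁻¹, h, fun g => by
      change (g : GQ) c⁻¹ = c⁻¹
      rw [map_inv₀, hc g (inertia_le_decomp g.2)]⟩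
    obtain ⟨m, b, hb⟩ := exists_q_pow (a := a) hq hA (fun h0 =>
      inv_ne_zero hc0 (congrArg Subtype.val h0))
    refine ⟨m, ?_⟩
    rw [hb]
    change c⁻¹ * (b : Qb) * c ∈ A
    rw [mul_comm c⁻¹, mul_assoc, inv_mul_cancel₀ hc0, mul_one]
    exact b.2.1
  obtain ⟨n, y, hy, hyD, h⟩ := dapprox hq hA (k + s) hs (fun σ hσ => by
    rw [map_mul, map_pow, map_natCast, hc σ hσ])
  refine ⟨(n : ℚ) / (q : ℚ) ^ s, ⟨y, hy, fun g => hyD g (inertia_le_decomp g.2)⟩, ?_⟩
  apply mul_left_cancel₀ (pow_ne_zero s hq0)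
  rw [h, map_div₀, map_pow, map_natCast, map_natCast]
  field_simp
  ring

/-- `ℚ ∩ A`. -/
theorem mem_ratLocalizedAt (hq : q.Prime) (hA : A.LiesOverPrime q) {r : ℚ}
    (hr : algebraMap ℚ Qb r ∈ A) : r ∈ GaloisRep.ratLocalizedAt q := by
  change r.den.Coprime q
  rw [Nat.coprime_comm, Nat.Prime.coprime_iff_not_dvd hq]
  intro hdvd
  have hvq : A.valuation (q : Qb) < 1 := hA
  have h1 : ¬ (q : ℤ) ∣ r.num := by
    intro h2
    have h3 := r.reduced
    rw [Nat.coprime_iff_gcd_eq_one] at h3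
    have h4 : q ∣ r.num.natAbs.gcd r.den := Nat.dvd_gcd (Int.natCast_dvd.mp h2) hdvd
    rw [h3] at h4
    exact hq.one_lt.ne' (Nat.dvd_one.mp h4)
  have hnum : A.valuation (r.num : Qb) = 1 := by
    have h2 : ¬ q ∣ r.num.natAbs := fun h => h1 (Int.natCast_dvd.mpr h)
    have h3 : A.valuation ((r.num.natAbs : ℕ) : Qb) = 1 := v_nat_eq_one hq hvq h2
    rcases Int.natAbs_eq r.num with h | h
    · have h4 : ((r.num : ℤ) : Qb) = ((r.num.natAbs : ℕ) : Qb) := by
        conv_lhs => rw [h]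
        rw [Int.cast_natCast]
      rw [h4, h3]
    · have h4 : ((r.num : ℤ) : Qb) = -((r.num.natAbs : ℕ) : Qb) := by
        conv_lhs => rw [h]
        rw [Int.cast_neg, Int.cast_natCast]
      rw [h4, Valuation.map_neg, h3]
  have hden : A.valuation (r.den : Qb) < 1 := by
    obtain ⟨m, hm⟩ := hdvd
    rw [hm]
    push_cast
    rw [map_mul]
    have h2 : A.valuation (m : Qb) ≤ 1 := (A.valuation_le_one_iff _).mpr (natCast_mem A m)
    exact (mul_le_of_le_one_right' h2).trans_lt hvq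
  have h2 : algebraMap ℚ Qb r * (r.den : Qb) = (r.num : Qb) := by
    have h3 : r * r.den = r.num := Rat.mul_den_eq_num r
    have h4 := congrArg (algebraMap ℚ Qb) h3
    rw [map_mul, map_natCast, map_intCast] at h4
    exact h4
  have h3 := congrArg A.valuation h2
  rw [map_mul, hnum] at h3
  have h4 : A.valuation (algebraMap ℚ Qb r) ≤ 1 := (A.valuation_le_one_iff _).mpr hr
  have h5 : A.valuation (algebraMap ℚ Qb r) * A.valuation (r.den : Qb) < 1 :=
    (mul_le_of_le_one_left' h4).trans_lt hden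
  rw [h3] at h5
  exact lt_irrefl _ h5

theorem desc_rat (q : ℕ) : Desc (GaloisRep.ratLocalizedAt q) GQ Qb where
  inj := fun a b h => Subtype.ext ((algebraMap ℚ Qb).injective h)
  fix g a := (g : Qb ≃ₐ[ℚ] Qb).commutes (a : ℚ)
  frac x hx := by
    have h1 : x ∈ (⊥ : IntermediateField ℚ Qb) := (InfiniteGalois.mem_bot_iff_fixed x).mpr hx
    obtain ⟨r, rfl⟩ := IntermediateField.mem_bot.mp h1
    refine ⟨⟨(r.den : ℚ), ?_⟩, ?_, ⟨(r.num : ℚ), ?_⟩, ?_⟩
    · change ((r.den : ℚ)).den.Coprime q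
      rw [Rat.den_natCast]
      exact Nat.coprime_one_left q
    · intro h
      have h2 : (r.den : ℚ) = 0 := congrArg Subtype.val h
      exact r.den_ne_zero (by exact_mod_cast h2)
    · change ((r.num : ℚ)).den.Coprime q
      rw [Rat.den_intCast]
      exact Nat.coprime_one_left q
    · change algebraMap ℚ Qb (r.den : ℚ) * algebraMap ℚ Qb r = algebraMap ℚ Qb (r.num : ℚ)
      rw [← map_mul, mul_comm, Rat.mul_den_eq_num]

end Fermat.Agent.Flat
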