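import Mathlib
import Fermat.Agent.Geo.Unique

/-!
Lifting regular functions from the special fibre.
-/

set_option autoImplicit false
set_option linter.unusedSectionVars false

open IsLocalRing Polynomial Fermat.Agent.Geo

universe u

namespace Fermat.Agent.Flat

section Inv

variable {O F E : Type u} [CommRing O] [IsDomain O] [IsDiscreteValuationRing O]
  [Field F] [Field E] [Algebra O F] [Algebra O E] [Algebra F E] [IsScalarTower O F E]
  {t : F} {π : O}

/-- Good reduction in the other chart. -/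
theorem goodRed_inv {ht : IsParam O t} {hπ : Prime π} {S : Set O}
    (hE : GoodRed ht hπ S E) (ht' : IsParam O t⁻¹) (hu : ∀ c ∈ S, c = 0 ∨ IsUnit c) :
    GoodRed ht' hπ ({0} ∪ {c' | ∃ c ∈ S, c * c' = 1}) E where
  gauss := by
    rw [gaussVal_inv ht ht' hπ]
    exact hE.gauss
  place := by
    intro p hp hpπ hpS
    have hp0 : p.coeff 0 ≠ 0 := by
      intro h0
      have h1 : (X : O[X]) ∣ p := X_dvd_iff.mpr h0
      apply hpS 0 (Or.inl rfl)
      rw [C_0, sub_zero]
      exact (prime_X.associated_of_dvd hp h1).symm.dvd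
    have hq := prime_reflect hp hp0
    have hdeg := natDegree_reflect_natDegree hp0
    have hpl : placeVal ht hq = placeVal ht' hp :=
      placeVal_inv ht ht' hq hp (by rw [hdeg, reflect_reflect']) hdeg.symm
    rw [← hpl]
    apply hE.place _ hq
    · rw [C_dvd_reflect_iff le_rfl]
      exact hpπ
    · intro c hc hqc
      have h1 : p ∣ reflect 1 (X - C c) := by
        apply dvd_of_dvd_reflect rfl hdeg
          (natDegree_reflect_le' (by rw [natDegree_X_sub_C]))
        rwa [reflect_reflect']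
      have h2 : reflect 1 (X - C c) = 1 - C c * X := by
        rw [reflect_sub, reflect_C, pow_one]
        have := reflect_monomial (R := O) 1 1
        rw [pow_one] at this
        rw [this, revAt_le le_rfl, Nat.sub_self, pow_zero]
      rw [h2] at h1
      rcases hu c hc with rfl | hcu
      · rw [C_0, zero_mul, sub_zero] at h1
        exact hp.not_isUnit (isUnit_of_dvd_one h1)
      · obtain ⟨c', hc'⟩ := hcu.exists_right_inv
        apply hpS c' (Or.inr ⟨c, hc, hc'⟩)
        have h3 : (X - C c' : O[X]) = (1 - C c * X) * (-C c') := by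
          have h4 : (C c * C c' : O[X]) = 1 := by rw [← C_mul, hc', C_1]
          linear_combination (-X : O[X]) * h4
        rw [h3]
        exact h1.mul_right _
  sep := by
    intro c' hc' d' hd' hne
    rcases hc' with rfl | ⟨c, hc, hcc⟩
    · rcases hd' with rfl | ⟨d, hd, hdd⟩
      · exact absurd rfl hne
      · rw [zero_sub]
        exact (IsUnit.of_mul_eq_one d (by rw [mul_comm]; exact hdd)).neg
    · rcases hd' with rfl | ⟨d, hd, hdd⟩
      · rw [sub_zero]
        exact (IsUnit.of_mul_eq_one c (by rw [mul_comm]; exact hcc))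
      · have hcd : c ≠ d := by
          rintro rfl
          apply hne
          have h1 : c' = c' * (c * d') := by rw [hdd, mul_one]
          rw [h1, ← mul_assoc, mul_comm c', hcc, one_mul]
        have h1 : c' - d' = c' * d' * (d - c) := by
          linear_combination (-c') * hdd + d' * hcc
        rw [h1]
        exact ((IsUnit.of_mul_eq_one c (by rw [mul_comm]; exact hcc)).mul
          (IsUnit.of_mul_eq_one d (by rw [mul_comm]; exact hdd))).mul (hE.sep d hd c hc hcd.symm)

end Inv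

section Overlap

variable {O E : Type*} [CommRing O] [Field E] [Algebra O E]

/-- Vanishing of the first cohomology of the high twists. -/
theorem exists_overlap_bound {u : E} (hu : u ≠ 0)
    (hfin : ∃ S : Finset E, (∀ b ∈ S, b ∈ chart O u⁻¹) ∧
      ∀ x ∈ chart O u⁻¹, ∃ p : E → O[X], x = ∑ b ∈ S, aeval u⁻¹ (p b) * b) :
    ∃ M : ℕ, ∀ n ≥ M, ∀ x ∈ overlap O u, ∃ a ∈ chart O u, ∃ a' ∈ chart O u⁻¹,
      x = a + u ^ n * a' := by
  classical
  obtain ⟨S, hS, hspan⟩ := hfin
  obtain ⟨M, hM⟩ : ∃ M : ℕ, ∀ b ∈ S, ∀ j : ℕ, M ≤ j → u ^ j * b ∈ chart O u := by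
    have h1 : ∀ b ∈ S, ∃ k : ℕ, u ^ k * b ∈ chart O u := fun b hb => by
      have := exists_pow_mul_mem (inv_ne_zero hu) (hS b hb)
      rwa [inv_inv] at this
    choose! k hk using h1
    refine ⟨∑ b ∈ S, k b, fun b hb j hj => ?_⟩
    have h2 : k b ≤ j := (Finset.single_le_sum (f := k) (fun _ _ => Nat.zero_le _) hb).trans hj
    obtain ⟨i, rfl⟩ := Nat.exists_eq_add_of_le h2
    have h3 : u ^ (k b + i) * b = u ^ i * (u ^ k b * b) := by ring
    rw [h3]
    exact mul_mem (pow_mem (self_mem_chart _) i) (hk b hb)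
  refine ⟨M, fun n hn x hx => ?_⟩
  -- the module of decomposable elements
  let N : Submodule O E := Subalgebra.toSubmodule (chart O u) ⊔
    (Subalgebra.toSubmodule (chart O u⁻¹)).map (LinearMap.mulLeft O (u ^ n))
  suffices h : x ∈ N by
    obtain ⟨a, ha, y, ⟨a', ha', rfl⟩, h2⟩ := Submodule.mem_sup.mp h
    exact ⟨a, ha, a', ha', h2.symm⟩
  obtain ⟨k, hk⟩ : ∃ k : ℕ, u⁻¹ ^ k * x ∈ chart O u⁻¹ := by
    obtain ⟨m, hm⟩ := hx
    obtain ⟨m', hm'⟩ := exists_pow_mul_mem hu hm
    refine ⟨m', ?_⟩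
    have h1 : u⁻¹ ^ m' * x = u⁻¹ ^ m * (u⁻¹ ^ m' * (u ^ m * x)) := by
      have : u⁻¹ ^ m * u ^ m = 1 := by rw [← mul_pow, inv_mul_cancel₀ hu, one_pow]
      linear_combination (-(u⁻¹ ^ m' * x)) * this
    rw [h1]
    exact mul_mem (pow_mem (self_mem_chart _) m) hm'
  obtain ⟨p, hp⟩ := hspan _ hk
  have hterm : ∀ b ∈ S, ∀ i : ℕ, u ^ k * (u⁻¹ ^ i * b) ∈ N := by
    intro b hb i
    rcases le_or_gt (i + n) k with h | h
    · obtain ⟨j, rfl⟩ := Nat.exists_eq_add_of_le h
      have h1 : u ^ (i + n + j) * (u⁻¹ ^ i * b) = u ^ (n + j) * b := by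
        have : u ^ i * u⁻¹ ^ i = 1 := by rw [← mul_pow, mul_inv_cancel₀ hu, one_pow]
        rw [show i + n + j = i + (n + j) by ring, pow_add]
        linear_combination (u ^ (n + j) * b) * this
      rw [h1]
      exact Submodule.mem_sup_left (hM b hb _ (by omega))
    · obtain ⟨j, hj⟩ := Nat.exists_eq_add_of_le h.le
      refine Submodule.mem_sup_right ⟨u⁻¹ ^ j * b,
        (show u⁻¹ ^ j * b ∈ chart O u⁻¹ from mul_mem (pow_mem (self_mem_chart _) j) (hS b hb)), ?_⟩
      change u ^ n * (u⁻¹ ^ j * b) = _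
      have h1 : u ^ k * u⁻¹ ^ k = 1 := by rw [← mul_pow, mul_inv_cancel₀ hu, one_pow]
      have h2 : u ^ n * u⁻¹ ^ n = 1 := by rw [← mul_pow, mul_inv_cancel₀ hu, one_pow]
      have h3 : u⁻¹ ^ i * u⁻¹ ^ n = u⁻¹ ^ k * u⁻¹ ^ j := by rw [← pow_add, ← pow_add, hj]
      calc u ^ n * (u⁻¹ ^ j * b) = u ^ n * ((u ^ k * u⁻¹ ^ k) * u⁻¹ ^ j * b) := by
            rw [h1, one_mul]
        _ = u ^ n * (u ^ k * (u⁻¹ ^ k * u⁻¹ ^ j) * b) := by ring
        _ = (u ^ n * u⁻¹ ^ n) * (u ^ k * (u⁻¹ ^ i * b)) := by rw [← h3]; ring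
        _ = _ := by rw [h2, one_mul]
  have h1 : x = ∑ b ∈ S, ∑ i ∈ Finset.range ((p b).natDegree + 1),
      (p b).coeff i • (u ^ k * (u⁻¹ ^ i * b)) := by
    have h2 : x = u ^ k * (u⁻¹ ^ k * x) := by
      rw [← mul_assoc, ← mul_pow, mul_inv_cancel₀ hu, one_pow, one_mul]
    rw [h2, hp, Finset.mul_sum]
    refine Finset.sum_congr rfl fun b _ => ?_
    rw [aeval_eq_sum_range, Finset.sum_mul, Finset.mul_sum]
    refine Finset.sum_congr rfl fun i _ => ?_
    rw [smul_mul_assoc, mul_smul_comm]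
  rw [h1]
  exact Submodule.sum_mem _ fun b hb => Submodule.sum_mem _ fun i _ =>
    Submodule.smul_mem _ _ (hterm b hb i)

end Overlap

section Main

variable {O F E : Type u} [CommRing O] [IsDomain O] [IsDiscreteValuationRing O]
  [Field F] [Field E] [Algebra O F] [Algebra O E] [Algebra F E] [IsScalarTower O F E]
  {t : F} {π : O} [FiniteDimensional F E] [Algebra.IsSeparable F E] [CharZero O]

/-- **Lifting** functions from the special fibre. -/
theorem exists_lift {ht : IsParam O t} {hπ : Prime π} {S S' : Set O} (ht' : IsParam O t⁻¹)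
    (hE : GoodRed ht hπ S E) (hE' : GoodRed ht' hπ S' E) :
    ∃ M : ℕ, ∀ n ≥ M, ∀ x : E, RedIntP ht hπ x →
      RedIntP ht' hπ ((algebraMap F E t)⁻¹ ^ n * x) →
      ∃ z ∈ chart O (algebraMap F E t), (algebraMap F E t)⁻¹ ^ n * z ∈ chart O (algebraMap F E t)⁻¹ ∧
        ∃ w : E, IntOver (gaussVal ht hπ).toSubring w ∧ x = z + π • w := by
  have ht0 : algebraMap F E t ≠ 0 := by
    rw [Ne, map_eq_zero]
    exact ht.ne_zero
  have hinv : algebraMap F E t⁻¹ = (algebraMap F E t)⁻¹ := map_inv₀ _ _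
  have hgg : gaussVal ht' hπ = gaussVal ht hπ := gaussVal_inv ht ht' hπ
  obtain ⟨M, hM⟩ := exists_overlap_bound (O := O) ht0 (by
    have := exists_finset_chart (E := E) ht'
    rwa [hinv] at this)
  refine ⟨M, fun n hn x hx hx' => ?_⟩
  set u := algebraMap F E t with hu
  obtain ⟨b, hb, w, hw, hbw⟩ := hE.exists_of_redIntP hx
  obtain ⟨b', hb', w', hw', hbw'⟩ := hE'.exists_of_redIntP hx'
  rw [hinv] at hb'
  rw [hgg] at hw'
  have hun : u ^ n * u⁻¹ ^ n = 1 := by rw [← mul_pow, mul_inv_cancel₀ ht0, one_pow]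
  have hunw : IntOver (gaussVal ht hπ).toSubring (u ^ n * w') := by
    have := hw'.smul_gauss (X ^ n)
    rwa [map_pow, aeval_X] at this
  have h1 : b - u ^ n * b' = π • (u ^ n * w' - w) := by
    rw [smul_sub, ← mul_smul_comm]
    have h2 : x = u ^ n * (b' + π • w') := by
      rw [← hbw', ← mul_assoc, hun, one_mul]
    linear_combination h2 - hbw
  have hov : u ^ n * w' - w ∈ overlap O u := by
    apply mem_overlap_of_smul_mem ht hπ (hunw.sub hw)
    rw [← h1]
    refine sub_mem (chart_le_overlap hb) (mul_mem (pow_mem (chart_le_overlap (self_mem_chart u)) n)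
      (chart_inv_le_overlap ht0 hb'))
  obtain ⟨a, ha, a', ha', haa⟩ := hM n hn _ hov
  refine ⟨b - π • a, sub_mem hb (smul_mem_chart ha π), ?_, w + a,
    hw.add (intOver_of_mem_chart ht hπ ha), ?_⟩
  · have h2 : b - π • a = u ^ n * (b' + π • a') := by
      rw [haa] at h1
      rw [mul_add, mul_smul_comm]
      rw [smul_add] at h1
      linear_combination h1
    rw [h2, ← mul_assoc, mul_comm (u⁻¹ ^ n), hun, one_mul]
    exact add_mem hb' (smul_mem_chart ha' π)
  · rw [smul_add]
    linear_combination hbw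

/-- Valuation rings over the Gauss valuation ring determine integrality. -/
theorem intOver_of_unique {ht : IsParam O t} {hπ : Prime π} (W : Subring E)
    (hW : ∀ W' : ValuationSubring E, (∀ x ∈ gaussVal ht hπ, algebraMap F E x ∈ W') →
      algebraMap O E π ∈ W'.nonunits → ∀ x ∈ W, x ∈ W') {x : E} (hx : x ∈ W) :
    IntOver (gaussVal ht hπ).toSubring x := by
  let V := gaussVal ht hπ
  have _ : IsDiscreteValuationRing V := isDiscreteValuationRing_gaussVal ht hπ
  obtain ⟨ϖ, hϖ, hϖπ⟩ := exists_gauss_unif ht hπ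
  have hϖE : algebraMap F E ϖ = algebraMap O E π := by
    rw [hϖπ, ← IsScalarTower.algebraMap_apply]
  apply isIntegralElem_of_forall_valuationSubring
  intro W' hW'
  have hW'' : ∀ x ∈ gaussVal ht hπ, algebraMap F E x ∈ W' := fun x hx => hW' ⟨x, hx⟩
  by_cases hπW : algebraMap O E π ∈ W'.nonunits
  · exact hW W' hW'' hπW x hx
  · -- `W'` contains `F`
    have h1 : (algebraMap O E π)⁻¹ ∈ W' := by
      have h2 : algebraMap O E π ∈ W' := by rw [← hϖE]; exact hW'' _ ϖ.2
      rw [ValuationSubring.mem_nonunits_iff] at hπW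
      rw [← ValuationSubring.valuation_le_one_iff, map_inv₀]
      exact inv_le_one_of_one_le₀ (not_lt.mp hπW)
    have h3 : ∀ y : F, algebraMap F E y ∈ W' := by
      intro y
      rcases V.mem_or_inv_mem y with hy | hy
      · exact hW'' y hy
      by_cases hy0 : y = 0
      · rw [hy0, map_zero]; exact zero_mem _
      have hy1 : (⟨y⁻¹, hy⟩ : V) ≠ 0 := fun h => inv_ne_zero hy0 (congrArg Subtype.val h)
      obtain ⟨n, v, hv⟩ := IsDiscreteValuationRing.eq_unit_mul_pow_irreducible hy1 hϖ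
      have hv' : y⁻¹ = (v : V) * (ϖ : F) ^ n := congrArg Subtype.val hv
      have hvv : ((v⁻¹ : Vˣ) : V) * (v : V) = (1 : V) := by
        rw [← Units.val_mul, inv_mul_cancel, Units.val_one]
      have hvv' : (((v⁻¹ : Vˣ) : V) : F) * ((v : V) : F) = 1 := congrArg Subtype.val hvv
      have h4 : y = (((v⁻¹ : Vˣ) : V) : F) * ((ϖ : F)⁻¹) ^ n := by
        have hϖ0 : (ϖ : F) ≠ 0 := fun h0 => hϖ.ne_zero (Subtype.ext h0)
        have hv0 : ((v : V) : F) ≠ 0 := fun h0 => v.ne_zero (Subtype.ext h0)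
        rw [← inv_inv y, hv', mul_inv, inv_pow]
        congr 1
        exact (eq_inv_of_mul_eq_one_left hvv').symm
      rw [h4, map_mul, map_pow, map_inv₀, hϖE]
      exact mul_mem (hW'' _ (((v⁻¹ : Vˣ) : V)).2) (pow_mem h1 n)
    have h5 : (algebraMap F E).IsIntegralElem x := Algebra.IsIntegral.isIntegral x
    exact mem_valuationSubring_of_isIntegralElem W' (algebraMap F E) h3 h5

end Main

end Fermat.Agent.Flat
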