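import Mathlib
import Fermat.Agent.Flat.Model3
import Fermat.Agent.Flat.Lift

/-!
Lifting functions from the special fibre: comparison of the levels.
-/

set_option autoImplicit false
set_option linter.unusedSectionVars false

noncomputable section

namespace Fermat.Agent.Flat

open AlgebraicCurve IsDedekindDomain IntermediateField WithZero Module Fermat.Agent.FunField
open Polynomial (aeval)
open Fermat.Agent.Geo IsLocalRing

universe u

section Conv

variable {K F : Type*} [Field K] [Field F] [Algebra K F] {t z : F}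

theorem exists_monic_of_isIntegral (h : IsIntegral (Algebra.adjoin K {t}) z) :
    ∃ p : Polynomial (Polynomial K), p.Monic ∧
      p.eval₂ ((aeval t : Polynomial K →ₐ[K] F) : Polynomial K →+* F) z = 0 := by
  obtain ⟨p, hp, hpz⟩ := h
  have h1 : p.map (algebraMap (Algebra.adjoin K {t}) F) ∈
      Polynomial.lifts ((aeval t : Polynomial K →ₐ[K] F) : Polynomial K →+* F) := by
    rw [Polynomial.lifts_iff_coeff_lifts]
    intro i
    rw [Polynomial.coeff_map]
    have h2 : Algebra.adjoin K {t} ≤ (aeval t : Polynomial K →ₐ[K] F).range :=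
      (Algebra.adjoin_singleton_eq_range_aeval K t).le
    exact h2 (p.coeff i).2
  obtain ⟨q, hq, -, hqm⟩ := Polynomial.lifts_and_natDegree_eq_and_monic h1 (hp.map _)
  refine ⟨q, hqm, ?_⟩
  rw [← Polynomial.eval_map, hq, Polynomial.eval_map]
  exact hpz

theorem isIntegral_of_monic {R : Type*} [CommRing R] (f : R →+* F)
    (hf : ∀ x, f x ∈ Algebra.adjoin K {t}) {p : Polynomial R} (hp : p.Monic)
    (hpz : p.eval₂ f z = 0) : IsIntegral (Algebra.adjoin K {t}) z := by
  let φ : R →+* Algebra.adjoin K {t} := f.codRestrict (Algebra.adjoin K {t}) hf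
  refine ⟨p.map φ, hp.map φ, ?_⟩
  rw [Polynomial.eval₂_map]
  exact hpz

end Conv

section Red

variable {O F E : Type u} [CommRing O] [IsDomain O] [IsDiscreteValuationRing O]
  [Field F] [Field E] [Algebra O F] [Algebra O E] [Algebra F E] [IsScalarTower O F E]
  {t : F} {π : O}

/-- Elements with an integral equation modulo `π`. -/
theorem redIntP_of_red {ht : IsParam O t} {hπ : Prime π} {κ M : Type*} [CommRing κ] [CommRing M]
    (WL : Subring E) (hint : ∀ x ∈ WL, IntOver (gaussVal ht hπ).toSubring x) (ρ : WL →+* M)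
    (hker : ∀ x : WL, ρ x = 0 → ∃ w ∈ WL, (x : E) = π • w)
    (ev : Polynomial O →+* WL) (hev : ∀ P, (ev P : E) = aeval (algebraMap F E t) P)
    (r : O →+* κ) (hr : Function.Surjective r) (φ : Polynomial κ →+* M)
    (hφ : ∀ P, ρ (ev P) = φ (P.map r)) (x : WL)
    {p : Polynomial (Polynomial κ)} (hp : p.Monic) (hpx : p.eval₂ φ (ρ x) = 0) :
    RedIntP ht hπ (x : E) := by
  have h1 : p ∈ Polynomial.lifts (Polynomial.mapRingHom r) := by
    rw [Polynomial.lifts_iff_coeff_lifts]
    intro i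
    exact Polynomial.map_surjective r hr _
  obtain ⟨P, hP, -, hPm⟩ := Polynomial.lifts_and_natDegree_eq_and_monic h1 hp
  have h2 : ρ (P.eval₂ ev x) = 0 := by
    rw [Polynomial.hom_eval₂]
    have h3 : ρ.comp ev = φ.comp (Polynomial.mapRingHom r) := RingHom.ext hφ
    rw [h3, ← Polynomial.eval₂_map, hP]
    exact hpx
  obtain ⟨w, hw, hxw⟩ := hker _ h2
  refine ⟨P, hPm, w, hint w hw, ?_⟩
  rw [← hxw]
  change _ = WL.subtype (P.eval₂ ev x)
  rw [Polynomial.hom_eval₂]
  congr 1
  exact (RingHom.ext hev).symm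

end Red

variable {Ω κ F E : Type*} [Field Ω] [Field κ] [Field F] [Field E] [Algebra Ω F] [Algebra κ E]
  {A : ValuationSubring Ω}
  {r : A →+* κ} {W : Subring F} {ρ : W →+* E} {t : F} {tb : E} {d : ℕ} {e : Fin d → F}
  [IsAlgClosed Ω] [IsAlgClosed κ]

variable {O FL EL : Type u} [CommRing O] [IsDomain O] [IsDiscreteValuationRing O] [Field FL]
  [Field EL] [Algebra O FL] [Algebra O EL] [Algebra FL EL] [IsScalarTower O FL EL]
  [FiniteDimensional FL EL] [Algebra.IsSeparable FL EL] [CharZero O] {tL : FL} {π : O}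

/-- **Lifting**. -/
theorem Pre.exists_lift (h : Pre r W ρ t tb e) (ht : Sep Ω t) (htb : Sep κ h.tbb)
    {htL : IsParam O tL} {hπ : Prime π} {S S' : Set O} (htL' : IsParam O tL⁻¹)
    (hE : GoodRed htL hπ S EL) (hE' : GoodRed htL' hπ S' EL)
    (WL : Subring EL) (hint : ∀ x ∈ WL, IntOver (gaussVal htL hπ).toSubring x)
    (hint' : ∀ x, IntOver (gaussVal htL hπ).toSubring x → x ∈ WL)
    (j : EL →+* F) (hj : ∀ x ∈ WL, j x ∈ W)
    (hker : ∀ x (hx : x ∈ WL), ρ ⟨j x, hj x hx⟩ = 0 → ∃ w ∈ WL, x = π • w)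
    (s : O →+* A) (hs : ∀ a, j (algebraMap O EL a) = algebraMap Ω F (s a))
    (hsr : Function.Surjective (r.comp s)) (hsπ : r (s π) = 0)
    (hjt : j (algebraMap FL EL tL) = t) (htW : algebraMap FL EL tL ∈ WL)
    (hOW : ∀ a, algebraMap O EL a ∈ WL)
    (hinvL : ∀ x (hx : x ∈ WL), ρ ⟨j x, hj x hx⟩ ≠ 0 → x⁻¹ ∈ WL)
    (eL : Fin d → EL) (heW : ∀ i, eL i ∈ WL) (hje : ∀ i, j (eL i) = e i) :
    ∃ M : ℕ, ∀ n ≥ M, ∀ zb ∈ riemannRochSpace (n • pol (K := κ) h.tbb),
      ∃ (zL : EL) (hz : zL ∈ WL), j zL ∈ riemannRochSpace (n • pol (K := Ω) t) ∧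
        h.ρb ⟨j zL, hj zL hz⟩ = zb := by
  obtain ⟨M, hM⟩ := Fermat.Agent.Flat.exists_lift htL' hE hE'
  refine ⟨M, fun n hn zb hzb => ?_⟩
  -- the reduction at level `L`
  let jW : WL →+* W := (j.comp WL.subtype).codRestrict W fun x => hj x x.2
  let ρL : WL →+* E := ρ.comp jW
  let evL : Polynomial O →+* WL :=
    Polynomial.eval₂RingHom ((algebraMap O EL).codRestrict WL hOW) ⟨_, htW⟩
  have hevL : ∀ P, (evL P : EL) = aeval (algebraMap FL EL tL) P := by
    intro P
    change WL.subtype (Polynomial.eval₂ _ _ P) = _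
    rw [Polynomial.hom_eval₂, Polynomial.aeval_def]
    rfl
  have hρev : ∀ P, ρL (evL P) = aeval tb (P.map (r.comp s)) := by
    intro P
    change ρL (Polynomial.eval₂ _ _ P) = _
    rw [Polynomial.hom_eval₂, Polynomial.aeval_def, Polynomial.eval₂_map]
    have h1 : ρL ⟨_, htW⟩ = tb := by
      rw [← h.tρ]
      change ρ (jW _) = _
      congr 1
      exact Subtype.ext hjt
    rw [h1]
    congr 1
    refine RingHom.ext fun a => ?_
    change ρ (jW _) = algebraMap κ E (r (s a))
    rw [← h.ralg (s a) (h.alg _ (s a).2)]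
    congr 1
    exact Subtype.ext (hs a)
  have hkerL : ∀ x : WL, ρL x = 0 → ∃ w ∈ WL, (x : EL) = π • w := fun x hx => hker x x.2 hx
  have hρπ : ∀ w ∈ WL, ∀ h0 : π • w ∈ WL, ρL ⟨π • w, h0⟩ = 0 := by
    intro w hw h0
    have h1 : (⟨π • w, h0⟩ : WL) = evL (Polynomial.C π) * ⟨w, hw⟩ := by
      apply Subtype.ext
      rw [Subring.coe_mul, hevL, Polynomial.aeval_C]
      exact Algebra.smul_def _ _
    rw [h1, map_mul, hρev, Polynomial.map_C]
    change aeval tb (Polynomial.C (r (s π))) * _ = 0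
    rw [hsπ, map_zero, map_zero, zero_mul]
  have htL0 : algebraMap FL EL tL ≠ 0 := by
    rw [Ne, map_eq_zero]
    exact htL.ne_zero
  have htLinv : (algebraMap FL EL tL)⁻¹ ∈ WL := by
    apply hinvL _ htW
    have h1 : ρ ⟨j (algebraMap FL EL tL), hj _ htW⟩ = tb := by
      rw [← h.tρ]
      congr 1
      exact Subtype.ext hjt
    rw [h1]
    exact h.tb_ne
  -- an element reducing to `zb`
  obtain ⟨x0, hx0⟩ : ∃ x0 : WL, ρL x0 = (zb : E) := by
    obtain ⟨z0, hz0⟩ := zb.2
    obtain ⟨Q, P, hQ, hQP⟩ := h.exists_red z0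
    rw [hz0] at hQP
    obtain ⟨Q', hQ'⟩ := Polynomial.map_surjective _ hsr Q
    choose P' hP' using fun i => Polynomial.map_surjective _ hsr (P i)
    have hρQ : ρL (evL Q') ≠ 0 := by
      rw [hρev, hQ', Ne, aeval_eq_zero_iff h.trb]
      exact hQ
    have hQinv : ((evL Q' : WL) : EL)⁻¹ ∈ WL := hinvL _ (evL Q').2 hρQ
    have hQ0 : ((evL Q' : WL) : EL) ≠ 0 := by
      intro h0
      have h1 : evL Q' = 0 := Subtype.ext h0
      rw [h1, map_zero] at hρQ
      exact hρQ rfl
    let x0 : WL := ⟨_, hQinv⟩ * ∑ i, evL (P' i) * ⟨eL i, heW i⟩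
    refine ⟨x0, ?_⟩
    have h1 : evL Q' * x0 = ∑ i, evL (P' i) * ⟨eL i, heW i⟩ := by
      have h2 : evL Q' * ⟨_, hQinv⟩ = 1 := Subtype.ext (mul_inv_cancel₀ hQ0)
      simp only [x0]
      rw [← mul_assoc, h2, one_mul]
    have h2 := congrArg ρL h1
    rw [map_mul, map_sum, hρev, hQ'] at h2
    apply mul_left_cancel₀ (a := aeval tb Q)
    · rw [Ne, aeval_eq_zero_iff h.trb]
      exact hQ
    · rw [h2, hQP]
      refine Finset.sum_congr rfl fun i _ => ?_
      rw [map_mul, hρev, hP']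
      congr 1
      change ρ (jW _) = _
      congr 1
      exact Subtype.ext (hje i)
  -- integral equations
  rw [mem_nL_iff htb] at hzb
  obtain ⟨hz1, hz2⟩ := hzb
  have hred1 : RedIntP htL hπ (x0 : EL) := by
    obtain ⟨p, hp, hpz⟩ := exists_monic_of_isIntegral (htb.isIntegral hz1)
    refine redIntP_of_red WL hint ρL hkerL evL hevL (r.comp s) hsr
      ((aeval tb : Polynomial κ →ₐ[κ] E) : Polynomial κ →+* E) hρev x0 hp ?_
    rw [hx0]
    have h1 := congrArg h.Fb.val hpz
    rw [map_zero] at h1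
    change (h.Fb.val : h.Fb →+* E) _ = 0 at h1
    rw [Polynomial.hom_eval₂] at h1
    rw [← h1]
    congr 1
    refine RingHom.ext fun P => ?_
    exact (h.coe_aeval P).symm
  have hinvE : algebraMap FL EL tL⁻¹ = (algebraMap FL EL tL)⁻¹ := map_inv₀ _ _
  have hgg : gaussVal htL' hπ = gaussVal htL hπ := gaussVal_inv htL htL' hπ
  have hred2 : RedIntP htL' hπ ((algebraMap FL EL tL)⁻¹ ^ n * (x0 : EL)) := by
    obtain ⟨p, hp, hpz⟩ := exists_monic_of_isIntegral (htb.inv.isIntegral hz2)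
    let evL' : Polynomial O →+* WL :=
      Polynomial.eval₂RingHom ((algebraMap O EL).codRestrict WL hOW) ⟨_, htLinv⟩
    have hevL' : ∀ P, (evL' P : EL) = aeval (algebraMap FL EL tL⁻¹) P := by
      intro P
      change WL.subtype (Polynomial.eval₂ _ _ P) = _
      rw [Polynomial.hom_eval₂, Polynomial.aeval_def, hinvE]
      rfl
    have hρt : ρL ⟨_, htLinv⟩ = tb⁻¹ := by
      apply eq_inv_of_mul_eq_one_right
      have h1 : ρL ⟨_, htW⟩ = tb := by
        rw [← h.tρ]
        change ρ (jW _) = _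
        congr 1
        exact Subtype.ext hjt
      rw [← h1, ← map_mul, ← map_one ρL]
      congr 1
      exact Subtype.ext (mul_inv_cancel₀ htL0)
    have hρev' : ∀ P, ρL (evL' P) =
        ((aeval tb⁻¹ : Polynomial κ →ₐ[κ] E) : Polynomial κ →+* E) (P.map (r.comp s)) := by
      intro P
      change ρL (Polynomial.eval₂ _ _ P) = aeval tb⁻¹ (P.map (r.comp s))
      rw [Polynomial.hom_eval₂, Polynomial.aeval_def, Polynomial.eval₂_map, hρt]
      congr 1
      refine RingHom.ext fun a => ?_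
      change ρ (jW _) = algebraMap κ E (r (s a))
      rw [← h.ralg (s a) (h.alg _ (s a).2)]
      congr 1
      exact Subtype.ext (hs a)
    let x1 : WL := ⟨_, htLinv⟩ ^ n * x0
    refine redIntP_of_red (ht := htL') WL (fun x hx => by rw [hgg]; exact hint x hx) ρL hkerL evL'
      hevL' (r.comp s) hsr
      ((aeval tb⁻¹ : Polynomial κ →ₐ[κ] E) : Polynomial κ →+* E) hρev' x1 hp ?_
    have hx1 : ρL x1 = ((zb * h.tbb⁻¹ ^ n : h.Fb) : E) := by
      simp only [x1]
      rw [map_mul, map_pow, hρt, hx0]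
      push_cast
      rw [mul_comm]
      rfl
    rw [hx1]
    have h1 := congrArg h.Fb.val hpz
    rw [map_zero] at h1
    change (h.Fb.val : h.Fb →+* E) _ = 0 at h1
    rw [Polynomial.hom_eval₂] at h1
    rw [← h1]
    congr 1
    refine RingHom.ext fun P => ?_
    change aeval tb⁻¹ P = h.Fb.val (aeval h.tbb⁻¹ P)
    rw [← Polynomial.aeval_algHom_apply]
    congr 2
  obtain ⟨z, hz, hz', w, hw, hxz⟩ := hM n hn _ hred1 hred2
  have hzW : z ∈ WL := hint' z (intOver_of_mem_chart htL hπ hz)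
  have hadj : ∀ P : Polynomial O, j (aeval (algebraMap FL EL tL) P) ∈ Algebra.adjoin Ω {t} := by
    intro P
    rw [Algebra.adjoin_singleton_eq_range_aeval]
    refine ⟨P.map (A.subtype.comp s), ?_⟩
    change aeval t _ = _
    rw [Polynomial.aeval_def, Polynomial.aeval_def, Polynomial.hom_eval₂, Polynomial.eval₂_map, hjt]
    congr 1
    exact RingHom.ext fun a => (hs a).symm
  have hadj' : ∀ P : Polynomial O, j (aeval (algebraMap FL EL tL)⁻¹ P) ∈
      Algebra.adjoin Ω {t⁻¹} := by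
    intro P
    rw [Algebra.adjoin_singleton_eq_range_aeval]
    refine ⟨P.map (A.subtype.comp s), ?_⟩
    change aeval t⁻¹ _ = _
    rw [Polynomial.aeval_def, Polynomial.aeval_def, Polynomial.hom_eval₂, Polynomial.eval₂_map,
      map_inv₀, hjt]
    congr 1
    exact RingHom.ext fun a => (hs a).symm
  refine ⟨z, hzW, ?_, ?_⟩
  · rw [mem_nL_iff ht]
    constructor
    · obtain ⟨p, hp, hpz⟩ := hz
      have h1 : IsIntegral (Algebra.adjoin Ω {t}) (j z) := by
        refine isIntegral_of_monic (j.comp ((aeval (algebraMap FL EL tL) : Polynomial O →ₐ[O] EL) :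
          Polynomial O →+* EL)) hadj hp ?_
        rw [← Polynomial.hom_eval₂, hpz, map_zero]
      exact fun v hv => ord_nonneg_of_isIntegral h1 v hv
    · obtain ⟨p, hp, hpz⟩ := hz'
      have h1 : IsIntegral (Algebra.adjoin Ω {t⁻¹}) (j z * t⁻¹ ^ n) := by
        have h2 : j z * t⁻¹ ^ n = j ((algebraMap FL EL tL)⁻¹ ^ n * z) := by
          rw [map_mul, map_pow, map_inv₀, hjt, mul_comm]
        rw [h2]
        refine isIntegral_of_monic (j.comp ((aeval (algebraMap FL EL tL)⁻¹ :
          Polynomial O →ₐ[O] EL) : Polynomial O →+* EL)) hadj' hp ?_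
        rw [← Polynomial.hom_eval₂, hpz, map_zero]
      exact fun v hv => ord_nonneg_of_isIntegral h1 v hv
  · apply Subtype.ext
    change ρL ⟨z, hzW⟩ = _
    rw [← hx0]
    have hwW : w ∈ WL := hint' w hw
    have hπw : π • w ∈ WL := by
      rw [Algebra.smul_def]
      exact mul_mem (hOW π) hwW
    have h1 : x0 = ⟨z, hzW⟩ + ⟨π • w, hπw⟩ := Subtype.ext hxz
    rw [h1, map_add, hρπ w hwW hπw, add_zero]

end Fermat.Agent.Flat
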