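import Mathlib
import Fermat.Agent.Flat.Conc
import Fermat.Agent.Flat.Conc2
import Fermat.Agent.ESCore.Defs
import Fermat.Agent.ModFun.Degree
import Fermat.Agent.EC.InertiaQ

/-!
Good reduction of `X₀(N)`: the axioms.
-/

set_option autoImplicit false
set_option linter.unusedSectionVars false

noncomputable section

namespace Fermat.Agent.Flat

open AlgebraicCurve IsDedekindDomain IntermediateField WithZero Module Fermat.Agent.FunField
open Polynomial (aeval)
open Fermat.Agent.LG Fermat.Agent.ModFun Fermat.Agent.Geo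
open Fermat.Agent.ESCore (HauptFn haupt2 haupt3 ιC)
open IsLocalRing ModularCurve

/-- The field of algebraic numbers. -/
local notation "Qb" => AlgebraicClosure ℚ

section Zeta

/-- roots of unity -/
theorem exists_zetaΩ {Ω : Type*} [Field Ω] [IsAlgClosed Ω] (ι : Ω →+* ℂ) (N : ℕ) [NeZero N] :
    ∃ ζ : Ωˣ, ι ζ = Complex.exp (2 * Real.pi * Complex.I / N) := by
  have hN : 0 < N := Nat.pos_of_ne_zero (NeZero.ne N)
  set w := Complex.exp (2 * Real.pi * Complex.I / N) with hw
  have hprim : IsPrimitiveRoot w N := Complex.isPrimitiveRoot_exp N (NeZero.ne N)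
  have hP0 : (Polynomial.X ^ N - 1 : Polynomial Ω) ≠ 0 :=
    Polynomial.X_pow_sub_C_ne_zero hN 1
  have hsp : (Polynomial.X ^ N - 1 : Polynomial Ω).Splits := IsAlgClosed.splits _
  have hmap : (Polynomial.X ^ N - 1 : Polynomial Ω).map ι = Polynomial.X ^ N - 1 := by
    rw [Polynomial.map_sub, Polynomial.map_pow, Polynomial.map_X, Polynomial.map_one]
  have hroot : w ∈ ((Polynomial.X ^ N - 1 : Polynomial Ω).map ι).roots := by
    rw [Polynomial.mem_roots ((Polynomial.map_ne_zero_iff ι.injective).mpr hP0), hmap,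
      Polynomial.IsRoot.def]
    simp [hprim.pow_eq_one]
  rw [hsp.roots_map ι, Multiset.mem_map] at hroot
  obtain ⟨a, -, ha⟩ := hroot
  have ha0 : a ≠ 0 := by
    rintro rfl
    rw [map_zero] at ha
    exact Complex.exp_ne_zero _ ha.symm
  exact ⟨Units.mk0 a ha0, ha⟩

end Zeta

section Der

variable (k : Type*) [Field k]

theorem algebraMap_laurent (a : k) : algebraMap k (LaurentSeries k) a = HahnSeries.C a := by
  rw [ModularCurve.algebraMap_laurentSeries_eq_single]
  rfl

variable {k} in
/-- A linear derivation from an additive map. -/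
def derivOfAddK {L : Type*} [Field L] [Algebra k L] (f : L →+ L)
    (h : ∀ x y, f (x * y) = x * f y + y * f x) (h0 : ∀ a : k, f (algebraMap k L a) = 0) :
    Derivation k L L :=
  Derivation.mk'
    { toFun := f
      map_add' := map_add f
      map_smul' := fun a x => by
        rw [RingHom.id_apply, Algebra.smul_def, Algebra.smul_def, h, h0, mul_zero, add_zero] }
    h

theorem exists_thDk : ∃ D : @Derivation k (LaurentSeries k) (LaurentSeries k) _ _ _ _
    Semiring.toModule Algebra.toModule, ∀ x, D x = thD x :=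
  ⟨derivOfAddK (thAdd k) thFun_mul fun a => by
    rw [algebraMap_laurent]
    exact thD_C a, fun x => rfl⟩

end Der

section Res

variable {A : ValuationSubring Qb} {q : ℕ} {L : IntermediateField ℚ Qb}

theorem residueComp_surjective (hq : q.Prime) (hA : A.LiesOverPrime q) (hL : KI A ≤ L) :
    Function.Surjective ((residue A).comp (subA (A := A) (L := L))) := by
  intro y
  obtain ⟨a, rfl⟩ := residue_surjective y
  obtain ⟨b, hbK, hbA, hb⟩ := LG.exists_residue hq hA a.2
  refine ⟨⟨⟨b, hL hbK⟩, hbA⟩, ?_⟩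
  rw [RingHom.comp_apply, ← sub_eq_zero, ← map_sub, residue_eq_zero_iff]
  refine (ValuationSubring.valuation_lt_one_iff _ _).mpr ?_
  rw [← Valuation.map_neg, neg_sub] at hb
  exact hb

theorem subK_surjective (hq : q.Prime) (hA : A.LiesOverPrime q) (hL : KI A ≤ L) :
    Function.Surjective (subK (A := A) (L := L)) := by
  intro y
  obtain ⟨a, ha⟩ := residueComp_surjective hq hA hL y
  exact ⟨residue _ a, ha⟩

theorem isAlgClosed_residueA (hq : q.Prime) (hA : A.LiesOverPrime q) :
    IsAlgClosed (ResidueField A) := by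
  have h1 := LG.isAlgClosed_residue A hq hA (KI A) le_rfl
  exact IsAlgClosed.of_ringEquiv _ _ (RingEquiv.ofBijective (subK (A := A) (L := KI A))
    ⟨subK.injective, subK_surjective hq hA le_rfl⟩)

/-- the inertia field is discretely valued -/
theorem isDVR_KI (hq : q.Prime) (hA : A.LiesOverPrime q) :
    IsDiscreteValuationRing (A.comap (algebraMap (KI A) Qb)) := by
  have h1 : (⊥ : IntermediateField (KI A) Qb).restrictScalars ℚ = KI A := by
    ext x
    rw [IntermediateField.mem_restrictScalars, IntermediateField.mem_bot]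
    constructor
    · rintro ⟨y, rfl⟩
      exact y.2
    · intro hx
      exact ⟨⟨x, hx⟩, rfl⟩
  have h2 : IsDiscreteValuationRing (A.comap (algebraMap
      ((⊥ : IntermediateField (KI A) Qb).restrictScalars ℚ) Qb)) := LG.isDVR hq hA ⊥
  rwa [h1] at h2

theorem isUnit_natCast (hq : q.Prime) (hA : A.LiesOverPrime q) {n : ℕ} (hn : ¬ q ∣ n) :
    IsUnit ((n : ℕ) : A.comap (algebraMap L Qb)) := by
  have h1 : A.valuation (n : Qb) = 1 := EC.v_nat_eq_one hq hA hn
  have h0 : (n : Qb) ≠ 0 := by
    intro h
    rw [h, map_zero] at h1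
    exact zero_ne_one h1
  have h0' : (n : L) ≠ 0 := by
    intro h
    apply h0
    have := congrArg (algebraMap L Qb) h
    rwa [map_natCast, map_zero] at this
  have h2 : ((n : L))⁻¹ ∈ A.comap (algebraMap L Qb) := by
    rw [ValuationSubring.mem_comap, map_inv₀, map_natCast, ← A.valuation_le_one_iff, map_inv₀, h1,
      inv_one]
  refine IsUnit.of_mul_eq_one ⟨_, h2⟩ (Subtype.ext ?_)
  change ((n : ℕ) : A.comap (algebraMap L Qb)).1 * (n : L)⁻¹ = 1
  have h3 : (((n : ℕ) : A.comap (algebraMap L Qb)).1 : L) = (n : L) := by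
    exact map_natCast (A.comap (algebraMap L Qb)).subtype n
  rw [h3]
  exact mul_inv_cancel₀ h0'

end Res

section W

variable (A : ValuationSubring Qb) (N : ℕ) [NeZero N]

/-- The Gauss valuation ring of the function field. -/
def W0 : Subring (F0 Qb N) := (gA A).comap ((F0 Qb N).val : F0 Qb N →+* LaurentSeries Qb)

/-- The reduction map. -/
def ρ0 : W0 A N →+* LaurentSeries (ResidueField A) :=
  gAR.comp (((F0 Qb N).val : F0 Qb N →+* LaurentSeries Qb).restrict (W0 A N) (gA A) fun _ hx => hx)

variable {A N}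

theorem mem_W0 {x : F0 Qb N} : x ∈ W0 A N ↔ (x : LaurentSeries Qb) ∈ gA A := Iff.rfl

theorem ρ0_apply (x : W0 A N) : ρ0 A N x = gAR ⟨((x : F0 Qb N) : LaurentSeries Qb), x.2⟩ := rfl

end W

end Fermat.Agent.Flat
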