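import Mathlib
import Fermat.Agent.Flat.Points

/-!
Points of the curve which are fixed by inertia and have distinct reductions, continued.
-/

set_option autoImplicit false
set_option linter.unusedSectionVars false

noncomputable section

namespace Fermat.Agent.Flat

open AlgebraicCurve IsDedekindDomain IntermediateField WithZero Module Fermat.Agent.FunField

variable {Ω κ F Fb : Type*} [Field Ω] [Field κ] [Field F] [Field Fb] [Algebra Ω F] [Algebra κ Fb]
  {A : ValuationSubring Ω} {G : Type*} [Group G] [MulSemiringAction G Ω]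
  [IsAlgClosed Ω] [IsAlgClosed κ] {r : A →+* κ} {γ : G →* SemilinearAut Ω F}
  {W : ValuationSubring F} {ρ : W →+* Fb} {t : F} {tb : Fb} {g C : ℤ}

theorem evp_prod {K F : Type*} [Field K] [Field F] [Algebra K F] {v : Place K F} (hv : Rational v)
    {α : Type*} (s : Finset α) (f : α → F)
    (hf : ∀ i ∈ s, f i ∈ v.toValuationSubring) : evp v (∏ i ∈ s, f i) = ∏ i ∈ s, evp v (f i) := by
  classical
  induction s using Finset.induction_on with
  | empty => rw [Finset.prod_empty, Finset.prod_empty, evp_one]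
  | insert a s ha ih =>
    rw [Finset.prod_insert ha, Finset.prod_insert ha,
      evp_mul hv (hf a (Finset.mem_insert_self _ _))
      (prod_mem fun i hi => hf i (Finset.mem_insert_of_mem hi)),
      ih fun i hi => hf i (Finset.mem_insert_of_mem hi)]

theorem Reg.prod {K F : Type*} [Field K] [Field F] [Algebra K F] {t : F} {α : Type*}
    (s : Finset α) (f : α → F) (hf : ∀ i ∈ s, Reg K t (f i)) : Reg K t (∏ i ∈ s, f i) :=
  fun v hv => ord_nonneg_of_mem v (prod_mem fun i hi => (hf i hi).mem hv)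

theorem Reg.pow {K F : Type*} [Field K] [Field F] [Algebra K F] {t z : F} (h : Reg K t z) (n : ℕ) :
    Reg K t (z ^ n) := fun _ hv =>
  ord_nonneg_of_mem _ (pow_mem (h.mem hv) n)

theorem rational_smul {K F : Type*} [Field K] [Field F] [Algebra K F] (g : SemilinearAut K F)
    {v : Place K F} (hv : Rational v) {z : F} (hz : z ∈ v.toValuationSubring) :
    evp (g • v) (g • z) = SemilinearAut.baseAut g (evp v z) := by
  apply evp_unique
  have h1 := evp_spec hv hz
  rw [adicValuation_lt_one_iff] at h1 ⊢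
  have h2 : g • z - algebraMap K F (SemilinearAut.baseAut g (evp v z)) =
      g • (z - algebraMap K F (evp v z)) := by
    rw [smul_sub, SemilinearAut.smul_algebraMap]
  rw [h2, SemilinearAut.ord_smul]
  rcases h1 with h1 | h1
  · left; rw [h1, smul_zero]
  · exact Or.inr h1

/-- Every place above `r c` is the reduction of a place above `c`. -/
theorem GoodCrv.exists_above (hG : GoodCrv r γ W ρ t tb) (hCb : Crv κ Fb g C) (htW : t ∈ W)
    (htb : ρ ⟨t, htW⟩ = tb) (c : A) {vb : Place κ Fb}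
    (hvb : 0 < vb.ord (tb - algebraMap κ Fb (r c))) :
    ∃ v : Place Ω F, 0 < v.ord (t - algebraMap Ω F c) ∧ RedTo r ρ t v vb := by
  classical
  obtain ⟨s, hs, -, -⟩ := hG.sep.above (c : Ω)
  haveI : Nonempty (Place κ Fb) := ⟨vb⟩
  choose! red hred1 hred2 using fun (v : Place Ω F) (hv : v ∈ s) =>
    hG.exists_red htW htb ((hs v).mp hv)
  by_contra hcon
  push Not at hcon
  have hne : ∀ v ∈ s, red v ≠ vb := fun v hv h => by
    apply hcon v ((hs v).mp hv)
    rw [← h]
    exact hred2 v hv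
  have hposb : 0 < dg (pol (K := κ) tb) := by
    have := hG.sepb.fd
    rw [hG.sepb.dg_pol]; exact_mod_cast finrank_pos
  have hvb0 := ord_t_nonneg hvb
  -- a function vanishing at `vb`, but not at the reductions
  let n : ℕ := (C + 2).toNat
  have hn : C + 2 ≤ n := Int.self_le_toNat _
  obtain ⟨zb, hzbL, hzb0, hzb⟩ := hCb.exists_section (D := n • pol (K := κ) tb - Finsupp.single vb 1)
    (by rw [map_sub, dg_single, map_nsmul, nsmul_eq_mul]
        have : (0 : ℤ) ≤ n := Int.natCast_nonneg _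
        nlinarith) (insert vb (s.image red)) (Finset.insert_nonempty _ _)
  have hzreg : Reg κ tb zb := by
    apply mem_nL_reg hG.sepb (n := n)
    refine L_mono ?_ hzbL
    intro w
    rw [Finsupp.sub_apply]
    by_cases hw : w = vb
    · subst hw; rw [Finsupp.single_eq_same]; omega
    · rw [Finsupp.single_eq_of_ne hw]; omega
  have hzvb : evp vb zb = 0 := by
    rw [evp_eq_zero_iff (hG.sepb.rational vb) (hzreg.mem hvb0)]
    right
    rw [hzb vb (Finset.mem_insert_self _ _), Finsupp.sub_apply, Finsupp.smul_apply,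
      pol_eq_zero hG.sepb hvb0, Finsupp.single_eq_same, smul_zero]
    norm_num
  have hzred : ∀ v ∈ s, evp (red v) zb ≠ 0 := by
    intro v hv
    have h0 := ord_t_nonneg (hred1 v hv)
    rw [evp_ne_zero_iff (hG.sepb.rational _) (hzreg.mem h0)]
    refine ⟨hzb0, ?_⟩
    rw [hzb _ (Finset.mem_insert_of_mem (Finset.mem_image_of_mem _ hv)), Finsupp.sub_apply,
      Finsupp.smul_apply, pol_eq_zero hG.sepb h0, Finsupp.single_eq_of_ne (hne v hv), smul_zero]
    norm_num
  obtain ⟨z, hz, hρz, -⟩ := hG.exists_lift hzreg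
  have hzA : ∀ v ∈ s, evp v (z : F) ∈ A := fun v hv => (hred2 v hv z hz).1
  have hzr : ∀ (v) (hv : v ∈ s), r ⟨evp v (z : F), hzA v hv⟩ = evp (red v) (ρ z) :=
    fun v hv => (hred2 v hv z hz).2
  -- the product
  let a : s → A := fun v => ⟨evp v.1 (z : F), hzA v.1 v.2⟩
  let y₀ : W := ∏ v : s, (z - ⟨algebraMap Ω F (a v), hG.alg _ (a v).2⟩)
  have hfac : ∀ v : s, Reg Ω t ((z - ⟨algebraMap Ω F (a v), hG.alg _ (a v).2⟩ : W) : F) := by
    intro v
    push_cast
    rw [sub_eq_add_neg]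
    exact hz.add (Reg.algebraMap _).neg
  have hy₀reg : Reg Ω t (y₀ : F) := by
    simp only [y₀]
    push_cast
    exact Reg.prod _ _ fun v _ => hfac v
  have hρy₀ : ρ y₀ = ∏ v : s, (zb - algebraMap κ Fb (evp (red v.1) zb)) := by
    simp only [y₀]
    rw [map_prod]
    refine Finset.prod_congr rfl fun v _ => ?_
    rw [map_sub, hρz, hG.ralg', ← hρz]
    congr 2
    exact hzr v.1 v.2
  have hy₀vb : evp vb (ρ y₀) ≠ 0 := by
    have hmem : ∀ v : s, zb - algebraMap κ Fb (evp (red v.1) zb) ∈ vb.toValuationSubring :=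
      fun v => sub_mem (hzreg.mem hvb0) (vb.algebraMap_mem' _)
    rw [hρy₀, evp_prod (hG.sepb.rational vb) _ _ fun v _ => hmem v, Finset.prod_ne_zero_iff]
    intro v _
    rw [evp_sub (hG.sepb.rational vb) (hzreg.mem hvb0) (vb.algebraMap_mem' _), hzvb,
      evp_algebraMap, zero_sub]
    exact neg_ne_zero.mpr (hzred v.1 v.2)
  have hy₀0 : (y₀ : F) ≠ 0 := by
    intro h0
    have h1 : y₀ = 0 := Subtype.ext h0
    rw [h1, map_zero, evp_zero] at hy₀vb
    exact hy₀vb rfl
  have hy₀s : ∀ v ∈ s, 0 < v.ord (y₀ : F) := by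
    intro v hv
    have hv0 := ord_t_nonneg ((hs v).mp hv)
    have h1 : evp v (y₀ : F) = 0 := by
      have h2 : (y₀ : F) = ∏ w : s, ((z : F) - algebraMap Ω F (a w)) := by
        simp only [y₀]
        push_cast
        rfl
      rw [h2, evp_prod (hG.sep.rational v) _ _ fun w _ =>
        sub_mem (hz.mem hv0) (v.algebraMap_mem' _)]
      refine Finset.prod_eq_zero (Finset.mem_univ ⟨v, hv⟩) ?_
      rw [evp_sub (hG.sep.rational v) (hz.mem hv0) (v.algebraMap_mem' _), evp_algebraMap]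
      exact sub_self _
    rw [evp_eq_zero_iff (hG.sep.rational v) (hy₀reg.mem hv0)] at h1
    exact h1.resolve_left hy₀0
  -- divide by `t - c`
  let m : ℕ := ∑ v ∈ s, (v.ord (t - algebraMap Ω F c)).toNat
  have htc0 : t - algebraMap Ω F (c : Ω) ≠ 0 := (hG.sep.sub _).ne_zero
  have htcW : t - algebraMap Ω F (c : Ω) ∈ W := sub_mem htW (hG.alg _ c.2)
  have htcρ : ρ ⟨_, htcW⟩ = tb - algebraMap κ Fb (r c) := by
    have h1 : (⟨_, htcW⟩ : W) = ⟨t, htW⟩ - ⟨algebraMap Ω F c, hG.alg _ c.2⟩ := rfl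
    rw [h1, map_sub, htb, hG.ralg']
  have htcinv : (t - algebraMap Ω F (c : Ω))⁻¹ ∈ W :=
    hG.runit ⟨_, htcW⟩ (by rw [htcρ]; exact (hG.sepb.sub _).ne_zero)
  let y : W := y₀ ^ m * ⟨_, htcinv⟩
  have hyreg : Reg Ω t (y : F) := by
    intro v hv
    have h1 : (y : F) = (y₀ : F) ^ m * (t - algebraMap Ω F (c : Ω))⁻¹ := rfl
    rw [h1, v.ord_mul (pow_ne_zero _ hy₀0) (inv_ne_zero htc0), v.ord_inv, ord_pow]
    by_cases hvs : v ∈ s
    · have h2 := hy₀s v hvs
      have h3 : (v.ord (t - algebraMap Ω F c)).toNat ≤ m :=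
        Finset.single_le_sum (f := fun v : Place Ω F => (v.ord (t - algebraMap Ω F c)).toNat)
          (fun _ _ => Nat.zero_le _) hvs
      have h4 : v.ord (t - algebraMap Ω F c) ≤ (v.ord (t - algebraMap Ω F c)).toNat :=
        Int.self_le_toNat _
      have h5 : ((v.ord (t - algebraMap Ω F c)).toNat : ℤ) ≤ m := by exact_mod_cast h3
      have h6 : (0 : ℤ) ≤ m := Int.natCast_nonneg _
      nlinarith
    · have h2 : v.ord (t - algebraMap Ω F c) ≤ 0 := by
        by_contra h; exact hvs ((hs v).mpr (not_le.mp h))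
      have h3 := hy₀reg v hv
      have h6 : (0 : ℤ) ≤ m := Int.natCast_nonneg _
      nlinarith
  have hρy : ρ y * (tb - algebraMap κ Fb (r c)) = ρ y₀ ^ m := by
    have h1 : y * ⟨_, htcW⟩ = y₀ ^ m := by
      apply Subtype.ext
      change (y₀ : F) ^ m * (t - algebraMap Ω F (c : Ω))⁻¹ * (t - algebraMap Ω F (c : Ω)) = (y₀ : F) ^ m
      rw [mul_assoc, inv_mul_cancel₀ htc0, mul_one]
    rw [← htcρ, ← map_mul, h1, map_pow]
  have h1 := congrArg (evp vb) hρy
  have hρyreg := hG.reg_red hyreg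
  have hrvb := hG.sepb.rational vb
  have hzero : evp vb (tb - algebraMap κ Fb (r c)) = 0 := by
    rw [evp_eq_zero_iff hrvb (mem_of_ord_nonneg _ hvb.le)]
    exact Or.inr hvb
  rw [evp_mul hrvb (hρyreg.mem hvb0) (mem_of_ord_nonneg _ hvb.le), hzero, mul_zero,
    evp_pow hrvb ((hG.reg_red hy₀reg).mem hvb0)] at h1
  exact pow_ne_zero _ hy₀vb h1.symm

variable (r γ ρ t) in
/-- `G`-fixed points with distinct reductions. -/
structure Pts {ι : Type*} (tb : Fb) (x : ι → Place Ω F) (xb : ι → Place κ Fb) : Prop where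
  inj : Function.Injective x
  injb : Function.Injective xb
  ord : ∀ i, 0 ≤ (x i).ord t
  ordb : ∀ i, 0 ≤ (xb i).ord tb
  red : ∀ i, RedTo r ρ t (x i) (xb i)
  fix : ∀ (g : G) i, γ g • x i = x i
  cA : ∀ i, ∃ c : A, 0 < (x i).ord (t - algebraMap Ω F c)

theorem GoodCrv.ord_one (hG : GoodCrv r γ W ρ t tb) (c : Ω) {s : Finset (Place Ω F)}
    (hs : ∀ v, v ∈ s ↔ 0 < v.ord (t - algebraMap Ω F c)) : s.card ≤ finrank Ω⟮t⟯ F := by
  obtain ⟨s', hs', hsum, -⟩ := hG.sep.above c
  have h1 : s = s' := by ext v; rw [hs, hs']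
  rw [h1]
  have h2 : ∑ v ∈ s', (1 : ℤ) ≤ ∑ v ∈ s', v.ord (t - algebraMap Ω F c) :=
    Finset.sum_le_sum fun v hv => by
      have := (hs' v).mp hv
      omega
  rw [hsum, Finset.sum_const, nsmul_eq_mul, mul_one] at h2
  exact_mod_cast h2

/-- If the reduction is unramified above `r c` then the reduction map is bijective, and the
places above `c` are fixed by `G`. -/
theorem GoodCrv.unram (hG : GoodCrv r γ W ρ t tb) (hI : Inert G r) (hC : Crv Ω F g C) {gb Cb : ℤ}
    (hCb : Crv κ Fb gb Cb)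
    (htW : t ∈ W) (htb : ρ ⟨t, htW⟩ = tb) {c : A} (hc : ∀ g : G, g • (c : Ω) = c)
    (hun : ∀ vb : Place κ Fb, 0 < vb.ord (tb - algebraMap κ Fb (r c)) →
      vb.ord (tb - algebraMap κ Fb (r c)) = 1) :
    (∀ v v' : Place Ω F, 0 < v.ord (t - algebraMap Ω F c) → 0 < v'.ord (t - algebraMap Ω F c) →
      ∀ vb : Place κ Fb, 0 ≤ vb.ord tb → RedTo r ρ t v vb → RedTo r ρ t v' vb → v = v') ∧
    ∀ v : Place Ω F, 0 < v.ord (t - algebraMap Ω F c) → ∀ g : G, γ g • v = v := by
  classical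
  obtain ⟨s, hs, -, -⟩ := hG.sep.above (c : Ω)
  obtain ⟨sb, hsb, hsumb, -⟩ := hG.sepb.above (r c)
  have : Nonempty (Place κ Fb) := by
    have := hG.sepb.fd
    have hpos : 0 < finrank κ⟮tb⟯ Fb := finrank_pos
    have hne : sb.Nonempty := by
      by_contra h
      rw [Finset.not_nonempty_iff_eq_empty] at h
      rw [h, Finset.sum_empty] at hsumb
      omega
    exact ⟨hne.choose⟩
  choose! red hred1 hred2 using fun (v : Place Ω F) (hv : v ∈ s) =>
    hG.exists_red htW htb ((hs v).mp hv)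
  obtain ⟨hdeg, -, -⟩ := hG.numerics hC hCb
  rw [hG.sep.dg_pol, hG.sepb.dg_pol] at hdeg
  have hsbc : sb.card = finrank κ⟮tb⟯ Fb := by
    have h1 : ∑ vb ∈ sb, vb.ord (tb - algebraMap κ Fb (r c)) = ∑ vb ∈ sb, (1 : ℤ) :=
      Finset.sum_congr rfl fun vb hvb => hun vb ((hsb vb).mp hvb)
    rw [h1, Finset.sum_const, nsmul_eq_mul, mul_one] at hsumb
    exact_mod_cast hsumb
  have hsc := hG.ord_one (c : Ω) hs
  have hle : s.card ≤ sb.card := by
    rw [hsbc]
    have : (finrank κ⟮tb⟯ Fb : ℤ) = finrank Ω⟮t⟯ F := hdeg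
    omega
  have himg : sb ⊆ s.image red := by
    intro vb hvb
    obtain ⟨v, hv, hvr⟩ := hG.exists_above hCb htW htb c ((hsb vb).mp hvb)
    have hvs := (hs v).mpr hv
    rw [Finset.mem_image]
    exact ⟨v, hvs, hG.red_unique (hred2 v hvs) hvr (ord_t_nonneg (hred1 v hvs))
      (ord_t_nonneg ((hsb vb).mp hvb))⟩
  have hinj : Set.InjOn red s := by
    rw [← Finset.card_image_iff]
    have h1 := Finset.card_le_card himg
    have h2 : (s.image red).card ≤ s.card := Finset.card_image_le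
    omega
  have key : ∀ v v' : Place Ω F, 0 < v.ord (t - algebraMap Ω F c) →
      0 < v'.ord (t - algebraMap Ω F c) →
      ∀ vb : Place κ Fb, 0 ≤ vb.ord tb → RedTo r ρ t v vb → RedTo r ρ t v' vb → v = v' := by
    intro v v' hv hv' vb hvb h h'
    have hvs := (hs v).mpr hv
    have hvs' := (hs v').mpr hv'
    apply hinj hvs hvs'
    rw [hG.red_unique (hred2 v hvs) h (ord_t_nonneg (hred1 v hvs)) hvb,
      hG.red_unique (hred2 v' hvs') h' (ord_t_nonneg (hred1 v' hvs')) hvb]
  refine ⟨key, fun v hv g => ?_⟩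
  have hvs := (hs v).mpr hv
  have hgv : 0 < (γ g • v).ord (t - algebraMap Ω F c) := by
    have h1 : t - algebraMap Ω F (c : Ω) = γ g • (t - algebraMap Ω F (c : Ω)) := by
      rw [smul_sub, hG.fixt, SemilinearAut.smul_algebraMap, hG.base, hc]
    rw [h1, SemilinearAut.ord_smul]
    exact hv
  refine key _ _ hgv hv (red v) (ord_t_nonneg (hred1 v hvs)) ?_ (hred2 v hvs)
  intro z hz
  -- a `G`-fixed function with the same reduction
  obtain ⟨z', hz', hρ, hfix⟩ := hG.exists_lift (hG.reg_red hz)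
  have h1 : evp (γ g • v) (z' : F) = g • evp v (z' : F) := by
    conv_lhs => rw [← hfix g]
    rw [rational_smul _ (hG.sep.rational v) (hz'.mem (ord_t_nonneg hv)), hG.base]
  refine ⟨hG.val _ c hgv z hz, ?_⟩
  rw [hG.val_congr hgv hz hz' hρ.symm]
  obtain ⟨h2, h3⟩ := hred2 v hvs z' hz'
  rw [← hρ, ← h3]
  have h4 : g • evp v (z' : F) ∈ A := hI.stab g _ h2
  rw [← hI.triv g ⟨_, h2⟩ h4]
  congr 1
  exact Subtype.ext h1

/-- Existence of many points. -/
theorem GoodCrv.exists_pts (hG : GoodCrv r γ W ρ t tb) (hI : Inert G r) (hC : Crv Ω F g C)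
    {gb Cb : ℤ} (hCb : Crv κ Fb gb Cb) (htW : t ∈ W) (htb : ρ ⟨t, htW⟩ = tb) (N : ℕ) :
    ∃ (x : Fin N → Place Ω F) (xb : Fin N → Place κ Fb), Pts r γ ρ t tb x xb := by
  classical
  obtain ⟨T, hT⟩ := hG.sepb.finite_ram
  -- the values of `tb` at the bad places
  have hbad : (⋃ vb ∈ T, {c : κ | 0 < vb.ord (tb - algebraMap κ Fb c)}).Finite := by
    refine T.finite_toSet.biUnion fun vb _ => ?_
    apply Set.Subsingleton.finite
    intro c hc c' hc'
    rw [Set.mem_ofPred_eq] at hc hc'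
    rw [← evp_unique (v := vb) (x := tb) (a := c) (by
      rw [adicValuation_lt_one_iff]; exact Or.inr hc)]
    exact evp_unique (by rw [adicValuation_lt_one_iff]; exact Or.inr hc')
  have hinf : Infinite {c : κ // c ∉ ⋃ vb ∈ T, {c : κ | 0 < vb.ord (tb - algebraMap κ Fb c)}} :=
    hbad.infinite_compl.to_subtype
  obtain ⟨e⟩ : Nonempty (Fin N ↪ {c : κ // c ∉ ⋃ vb ∈ T,
    {c : κ | 0 < vb.ord (tb - algebraMap κ Fb c)}}) :=
    ⟨(Fin.valEmbedding).trans (Infinite.natEmbedding _)⟩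
  have hlift : ∀ i, ∃ c : A, (∀ g : G, g • (c : Ω) = c) ∧ r c = (e i).1 := fun i => hI.surj _
  choose c hcG hcr using hlift
  have hun : ∀ i, ∀ vb : Place κ Fb, 0 < vb.ord (tb - algebraMap κ Fb (r (c i))) →
      vb.ord (tb - algebraMap κ Fb (r (c i))) = 1 := by
    intro i vb hvb
    refine hT vb (fun hvT => ?_) _ hvb
    rw [hcr] at hvb
    exact (e i).2 (Set.mem_iUnion₂.mpr ⟨vb, hvT, hvb⟩)
  -- a place above each
  have hex : ∀ i, ∃ vb : Place κ Fb, 0 < vb.ord (tb - algebraMap κ Fb (r (c i))) := by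
    intro i
    obtain ⟨s, hs, hsum, -⟩ := hG.sepb.above (r (c i))
    have := hG.sepb.fd
    have hpos : 0 < finrank κ⟮tb⟯ Fb := finrank_pos
    have hne : s.Nonempty := by
      by_contra h
      rw [Finset.not_nonempty_iff_eq_empty] at h
      rw [h, Finset.sum_empty] at hsum
      omega
    obtain ⟨vb, hvb⟩ := hne
    exact ⟨vb, (hs vb).mp hvb⟩
  choose xb hxb using hex
  choose x hx hxr using fun i => hG.exists_above hCb htW htb (c i) (hxb i)
  have hcx : ∀ i, evp (x i) t = c i := fun i =>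
    evp_unique (by rw [adicValuation_lt_one_iff]; exact Or.inr (hx i))
  have hcxb : ∀ i, evp (xb i) tb = r (c i) := fun i =>
    evp_unique (by rw [adicValuation_lt_one_iff]; exact Or.inr (hxb i))
  have hinjb : Function.Injective xb := by
    intro i j hij
    apply e.injective
    apply Subtype.ext
    rw [← hcr, ← hcr, ← hcxb, ← hcxb, hij]
  refine ⟨x, xb, ⟨?_, hinjb, fun i => ord_t_nonneg (hx i), fun i => ord_t_nonneg (hxb i), hxr,
    fun g i => (hG.unram hI hC hCb htW htb (hcG i) (hun i)).2 _ (hx i) g, fun i => ⟨c i, hx i⟩⟩⟩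
  intro i j hij
  apply e.injective
  apply Subtype.ext
  have h1 : (c i : Ω) = c j := by rw [← hcx, ← hcx, hij]
  rw [← hcr, ← hcr, Subtype.ext h1]

end Fermat.Agent.Flat
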