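import Mathlib
import Fermat.Agent.Flat.Points2

/-!
Good representatives of the divisible classes, and the data of the criterion.
-/

set_option autoImplicit false
set_option linter.unusedSectionVars false

noncomputable section

namespace Fermat.Agent.Flat

open AlgebraicCurve IsDedekindDomain IntermediateField WithZero Module Fermat.Agent.FunField

variable {ι : Type*} [Fintype ι] [DecidableEq ι]

/-- Equivalence of pairs. -/
def Eqv {K F : Type*} [Field K] [Field F] [Algebra K F] (m : ℕ) (x : ι → Place K F) (f : F)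
    (η : ι → K) (f' : F) (η' : ι → K) : Prop :=
  ∃ u : F, u ≠ 0 ∧ (∀ i, (x i).ord u = 0) ∧ f = f' * u ^ m ∧ η = η' * fun i => evp (x i) u

section Eqv

variable {K F : Type*} [Field K] [Field F] [Algebra K F] {m : ℕ} {x : ι → Place K F}
  {f f' f'' f₁ f₁' : F} {η η' η'' η₁ η₁' : ι → K} {g C : ℤ} {E : Divisor K F}

theorem Eqv.refl : Eqv m x f η f η :=
  ⟨1, one_ne_zero, fun i => (x i).ord_one, by rw [one_pow, mul_one],
    by simp only [evp_one]; exact (mul_one η).symm⟩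

theorem evp_inv_ne (hr : ∀ v : Place K F, Rational v) {u : F} (hu : u ≠ 0)
    (hux : ∀ i, (x i).ord u = 0) (i : ι) : evp (x i) u ≠ 0 :=
  (evp_ne_zero_iff (hr _) (mem_of_ord_nonneg _ (hux i).ge)).mpr ⟨hu, hux i⟩

theorem Eqv.symm (hr : ∀ v : Place K F, Rational v) (h : Eqv m x f η f' η') :
    Eqv m x f' η' f η := by
  obtain ⟨u, hu, hux, h1, h2⟩ := h
  refine ⟨u⁻¹, inv_ne_zero hu, fun i => by rw [(x i).ord_inv, hux, neg_zero], ?_, ?_⟩
  · rw [h1, mul_assoc, ← mul_pow, mul_inv_cancel₀ hu, one_pow, mul_one]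
  · rw [h2]
    funext i
    rw [Pi.mul_apply, Pi.mul_apply, evp_inv (hr _) hu (hux i), mul_assoc,
      mul_inv_cancel₀ (evp_inv_ne hr hu hux i), mul_one]

theorem Eqv.trans (hr : ∀ v : Place K F, Rational v) (h : Eqv m x f η f' η')
    (h' : Eqv m x f' η' f'' η'') : Eqv m x f η f'' η'' := by
  obtain ⟨u, hu, hux, h1, h2⟩ := h
  obtain ⟨w, hw, hwx, h3, h4⟩ := h'
  refine ⟨w * u, mul_ne_zero hw hu, fun i => by rw [(x i).ord_mul hw hu, hux, hwx, add_zero],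
    ?_, ?_⟩
  · rw [h1, h3, mul_pow, mul_assoc]
  · rw [h2, h4]
    funext i
    rw [Pi.mul_apply, Pi.mul_apply, Pi.mul_apply, evp_mul (hr _)
      (mem_of_ord_nonneg _ (hwx i).ge) (mem_of_ord_nonneg _ (hux i).ge), mul_assoc]

theorem Eqv.mul (hr : ∀ v : Place K F, Rational v) (h : Eqv m x f η f' η')
    (h' : Eqv m x f₁ η₁ f₁' η₁') : Eqv m x (f * f₁) (η * η₁) (f' * f₁') (η' * η₁') := by
  obtain ⟨u, hu, hux, h1, h2⟩ := h
  obtain ⟨w, hw, hwx, h3, h4⟩ := h'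
  refine ⟨u * w, mul_ne_zero hu hw, fun i => by rw [(x i).ord_mul hu hw, hux, hwx, add_zero],
    ?_, ?_⟩
  · rw [h1, h3, mul_pow]; ring
  · rw [h2, h4]
    funext i
    simp only [Pi.mul_apply]
    rw [evp_mul (hr _) (mem_of_ord_nonneg _ (hux i).ge) (mem_of_ord_nonneg _ (hwx i).ge)]
    ring

theorem Eqv.Wz_eq (hC : Crv K F g C) (hm : m ≠ 0) (hE : ∀ i, E (x i) = 0) (h' : Adm m x f' η')
    (h : Eqv m x f η f' η') (n : ℕ) : Wz m x E f η n = Wz m x E f' η' n := by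
  obtain ⟨u, hu, hux, rfl, rfl⟩ := h
  exact h'.Wz_congr hC hm hE hu hux n

theorem Sep.nonempty [IsAlgClosed K] {t : F} (h : Sep K t) : Nonempty (Place K F) := by
  obtain ⟨s, -, hsum, -⟩ := h.aboveInf
  by_contra hno
  rw [not_nonempty_iff] at hno
  rw [Finset.eq_empty_of_isEmpty s, Finset.sum_empty] at hsum
  have := h.fd
  have h1 : 0 < finrank K⟮t⟯ F := finrank_pos
  omega

end Eqv

variable {Ω κ F Fb : Type*} [Field Ω] [Field κ] [Field F] [Field Fb] [Algebra Ω F] [Algebra κ Fb]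
  {A : ValuationSubring Ω} {G : Type*} [Group G] [MulSemiringAction G Ω]
  [IsAlgClosed Ω] [IsAlgClosed κ] {r : A →+* κ} {γ : G →* SemilinearAut Ω F}
  {W : ValuationSubring F} {ρ : W →+* Fb} {t : F} {tb : Fb} {g C : ℤ}
  {m : ℕ} {x : ι → Place Ω F} {xb : ι → Place κ Fb}

theorem Pts.E0 (hG : GoodCrv r γ W ρ t tb) (hP : Pts r γ ρ t tb x xb) (i : ι) :
    pol (K := Ω) t (x i) = 0 := pol_eq_zero hG.sep (hP.ord i)

theorem Pts.E0b (hG : GoodCrv r γ W ρ t tb) (hP : Pts r γ ρ t tb x xb) (i : ι) :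
    pol (K := κ) tb (xb i) = 0 := pol_eq_zero hG.sepb (hP.ordb i)

/-- Evaluation of quotients of regular functions. -/
theorem GoodCrv.eval_of_mul (hG : GoodCrv r γ W ρ t tb) (hP : Pts r γ ρ t tb x xb) (i : ι)
    {f z : W} (hf : Reg Ω t (f : F)) (hf0 : evp (xb i) (ρ f) ≠ 0)
    (hz : (z : F) ∈ (x i).toValuationSubring) (hzf : Reg Ω t ((z * f : W) : F)) :
    ρ z ∈ (xb i).toValuationSubring ∧ ∃ h : evp (x i) (z : F) ∈ A,
      r ⟨_, h⟩ = evp (xb i) (ρ z) := by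
  have hrb := hG.sepb.rational (xb i)
  have hr := hG.sep.rational (x i)
  have hρf := (hG.reg_red hf).mem (hP.ordb i)
  have hρzf := (hG.reg_red hzf).mem (hP.ordb i)
  obtain ⟨hf1, hf2⟩ := (evp_ne_zero_iff hrb hρf).mp hf0
  have hρz : ρ z ∈ (xb i).toValuationSubring := by
    apply mem_of_ord_nonneg
    by_cases hz0 : ρ z = 0
    · rw [hz0, (xb i).ord_zero]
    have h1 := ord_nonneg_of_mem _ hρzf
    rw [map_mul, (xb i).ord_mul hz0 hf1, hf2, add_zero] at h1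
    exact h1
  refine ⟨hρz, ?_⟩
  obtain ⟨ha, hra⟩ := hP.red i f hf
  obtain ⟨hb, hrb'⟩ := hP.red i (z * f) hzf
  have hfu : (evp (x i) (f : F))⁻¹ ∈ A := hG.unit ⟨_, ha⟩ (by rw [hra]; exact hf0)
  have hf3 : evp (x i) (f : F) ≠ 0 := by
    intro h0
    apply hf0
    rw [← hra]
    have : (⟨evp (x i) (f : F), ha⟩ : A) = 0 := Subtype.ext h0
    rw [this, map_zero]
  have h1 : evp (x i) ((z * f : W) : F) = evp (x i) (z : F) * evp (x i) (f : F) :=
    evp_mul hr hz (hf.mem (hP.ord i))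
  have h2 : evp (x i) (z : F) = evp (x i) ((z * f : W) : F) * (evp (x i) (f : F))⁻¹ := by
    rw [h1, mul_assoc, mul_inv_cancel₀ hf3, mul_one]
  have hzA : evp (x i) (z : F) ∈ A := by rw [h2]; exact mul_mem hb hfu
  refine ⟨hzA, ?_⟩
  have h3 : (⟨evp (x i) ((z * f : W) : F), hb⟩ : A) = ⟨_, hzA⟩ * ⟨_, ha⟩ := Subtype.ext h1
  rw [h3, map_mul, hra, map_mul, evp_mul hrb hρz hρf] at hrb'
  exact mul_right_cancel₀ hf0 hrb'

variable (r ρ t m x xb) in
/-- Good representatives. -/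
structure VAdm (f : W) (η : ι → A) : Prop where
  adm : Adm m x (f : F) (fun i => (η i : Ω))
  reg : Reg Ω t (f : F)
  admb : Adm m xb (ρ f) (fun i => r (η i))

variable {f f' : W} {η η' : ι → A}

theorem VAdm.mul (hC : Crv Ω F g C) {gb Cb : ℤ} (hCb : Crv κ Fb gb Cb)
    (h : VAdm r ρ t m x xb f η) (h' : VAdm r ρ t m x xb f' η') :
    VAdm r ρ t m x xb (f * f') (η * η') where
  adm := h.adm.mul hC h'.adm
  reg := h.reg.mul h'.reg
  admb := by
    have := h.admb.mul hCb h'.admb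
    rw [← map_mul] at this
    convert this using 1
    funext i
    rw [Pi.mul_apply, map_mul, Pi.mul_apply]

theorem VAdm.evb_ne (hCb : Crv κ Fb g C) (h : VAdm r ρ t m x xb f η) (i : ι) :
    evp (xb i) (ρ f) ≠ 0 := by
  rw [evp_ne_zero_iff (hCb.rat _) (mem_of_ord_nonneg _ (h.admb.ord i).ge)]
  exact ⟨h.admb.ne, h.admb.ord i⟩

/-- Evaluation of sections is compatible with reduction. -/
theorem VAdm.eval (hG : GoodCrv r γ W ρ t tb) (hC : Crv Ω F g C) (hCb : Crv κ Fb g C)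
    (hP : Pts r γ ρ t tb x xb) (hm : m ≠ 0) (h : VAdm r ρ t m x xb f η) {n : ℕ} {z : W}
    (hz : (z : F) ∈ riemannRochSpace (dm (K := Ω) m (f : F) + n • pol t)) (i : ι) :
    ∃ h : evp (x i) (z : F) ∈ A, r ⟨_, h⟩ = evp (xb i) (ρ z) := by
  have hzf : Reg Ω t ((z * f : W) : F) := by
    intro v hv
    push_cast
    by_cases hz0 : (z : F) = 0
    · rw [hz0, zero_mul, v.ord_zero]
    rw [v.ord_mul hz0 h.adm.ne]
    have h1 := (mem_L' hz0).mp hz v
    rw [Finsupp.add_apply, Finsupp.smul_apply, pol_eq_zero hG.sep hv, smul_zero, add_zero] at h1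
    have h2 := h.adm.mul_dm hC v
    have h3 := h.reg v hv
    have h4 : (1 : ℤ) ≤ m := by exact_mod_cast Nat.pos_of_ne_zero hm
    have h5 : 0 ≤ dm (K := Ω) m (f : F) v := by
      rw [← h2] at h3
      exact nonneg_of_mul_nonneg_right h3 (by omega)
    nlinarith
  exact (hG.eval_of_mul hP i h.reg (h.evb_ne hCb i)
    (h.adm.reg hC (hP.E0 hG) hz i) hzf).2

/-- Equivalent good representatives have equivalent reductions. -/
theorem VAdm.eqv (hG : GoodCrv r γ W ρ t tb) (hC : Crv Ω F g C) (hCb : Crv κ Fb g C)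
    (hP : Pts r γ ρ t tb x xb) (hm : m ≠ 0) (h : VAdm r ρ t m x xb f η)
    (h' : VAdm r ρ t m x xb f' η')
    (he : Eqv m x (f : F) (fun i => (η i : Ω)) (f' : F) (fun i => (η' i : Ω))) :
    Eqv m xb (ρ f) (fun i => r (η i)) (ρ f') (fun i => r (η' i)) := by
  obtain ⟨u, hu, hux, h1, h2⟩ := he
  have hf0 := h.adm.ne
  have hf0' := h'.adm.ne
  have hmpos : 0 < m := Nat.pos_of_ne_zero hm
  have hf'inv := hG.runit f' h'.admb.ne
  have hfinv := hG.runit f h.admb.ne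
  have hum : u ^ m = (f : F) * (f' : F)⁻¹ := by
    rw [h1, mul_comm (f' : F), mul_assoc, mul_inv_cancel₀ hf0', mul_one]
  have huW : u ∈ W := by
    rw [← W.valuation_le_one_iff]
    have h3 : W.valuation (u ^ m) ≤ 1 := by
      rw [W.valuation_le_one_iff, hum]
      exact mul_mem f.2 hf'inv
    rw [map_pow] at h3
    by_contra hcon
    exact absurd h3 (not_le.mpr (one_lt_pow₀ (not_le.mp hcon) hm))
  have huWinv : u⁻¹ ∈ W := by
    rw [← W.valuation_le_one_iff]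
    have h3 : W.valuation (u⁻¹ ^ m) ≤ 1 := by
      rw [W.valuation_le_one_iff, inv_pow, hum, mul_inv_rev, inv_inv]
      exact mul_mem f'.2 hfinv
    rw [map_pow] at h3
    by_contra hcon
    exact absurd h3 (not_le.mpr (one_lt_pow₀ (not_le.mp hcon) hm))
  have hub : ρ ⟨u, huW⟩ ≠ 0 := by
    intro h0
    have h3 : (⟨u, huW⟩ : W) * ⟨u⁻¹, huWinv⟩ = 1 := Subtype.ext (mul_inv_cancel₀ hu)
    have h4 := congrArg ρ h3
    rw [map_mul, h0, zero_mul, map_one] at h4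
    exact zero_ne_one h4
  have h1' : ρ f = ρ f' * ρ ⟨u, huW⟩ ^ m := by
    rw [← map_pow, ← map_mul]
    congr 1
    exact Subtype.ext h1
  have hord : ∀ i, (xb i).ord (ρ ⟨u, huW⟩) = 0 := by
    intro i
    have h3 := h.admb.ord i
    rw [h1', (xb i).ord_mul h'.admb.ne (pow_ne_zero _ hub), h'.admb.ord i, ord_pow, zero_add] at h3
    rcases mul_eq_zero.mp h3 with h4 | h4
    · exact absurd (by exact_mod_cast h4) hm
    · exact h4
  refine ⟨ρ ⟨u, huW⟩, hub, hord, h1', ?_⟩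
  funext i
  have hreg : Reg Ω t (((⟨u, huW⟩ : W) * f' : W) : F) := by
    intro v hv
    change 0 ≤ v.ord (u * f')
    rw [v.ord_mul hu hf0']
    have h3 := h.reg v hv
    have h4 := h'.reg v hv
    rw [h1, v.ord_mul hf0' (pow_ne_zero _ hu), ord_pow] at h3
    have h5 : (1 : ℤ) ≤ m := by exact_mod_cast hmpos
    by_contra hcon
    push Not at hcon
    nlinarith
  obtain ⟨-, hA, hr⟩ := hG.eval_of_mul hP i h'.reg (h'.evb_ne hCb i)
    (z := ⟨u, huW⟩) (mem_of_ord_nonneg _ (hux i).ge) hreg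
  have h3 : η i = η' i * ⟨_, hA⟩ := Subtype.ext (congrFun h2 i)
  rw [h3, map_mul, hr]
  rfl

/-- Existence of good representatives. -/
theorem exists_vadm (hG : GoodCrv r γ W ρ t tb) (hC : Crv Ω F g C) (hCb : Crv κ Fb g C)
    (hP : Pts r γ ρ t tb x xb) (hm : m ≠ 0) {f : F} {η : ι → Ω} (h : Adm m x f η) :
    ∃ (f' : W) (η' : ι → A), VAdm r ρ t m x xb f' η' ∧
      Eqv m x (f' : F) (fun i => (η' i : Ω)) f η := by
  classical
  obtain ⟨hdeg, -, hpos⟩ := hG.numerics hC hCb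
  let n₀ : ℕ := (C + 1).toNat
  have hn₀ : C + 1 ≤ n₀ * dg (pol (K := Ω) t) := by
    have h1 : C + 1 ≤ n₀ := Int.self_le_toNat _
    have h0 : (0 : ℤ) ≤ n₀ := Int.natCast_nonneg _
    nlinarith
  -- scale
  obtain ⟨c, hc0, hcW, hcρ⟩ := hG.scale f h.ne
  obtain ⟨d, hd⟩ := IsAlgClosed.exists_pow_nat_eq c (Nat.pos_of_ne_zero hm)
  have hd0 : d ≠ 0 := by
    rintro rfl
    rw [zero_pow hm] at hd
    exact hc0 hd.symm
  have hdF : algebraMap Ω F d ≠ 0 := by rwa [Ne, map_eq_zero]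
  let f₁ : W := ⟨_, hcW⟩
  have hf₁ : (f₁ : F) = f * (algebraMap Ω F d) ^ m := by
    change algebraMap Ω F c * f = _
    rw [← hd, map_pow, mul_comm]
  have hadm₁ : Adm m x (f₁ : F) (η * fun i => evp (x i) (algebraMap Ω F d)) := by
    rw [hf₁]
    exact h.mul hC (Adm.of_pow hC hdF fun i => ord_algebraMap _ _)
  -- reduction
  obtain ⟨hdvdb, hred⟩ := hG.reduction hC hCb hdeg hm (f := f₁) hcρ hadm₁.dvd hn₀
  obtain ⟨-, hlift⟩ := hred n₀ hn₀
  have hdegb : dg (dm (K := κ) m (ρ f₁)) = 0 := by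
    have h1 : m • dm (K := κ) m (ρ f₁) = dv (ρ f₁) := by
      ext v
      rw [Finsupp.smul_apply, nsmul_eq_mul, dm_apply hCb, dv_apply (hCb.fin _)]
      exact Int.mul_ediv_cancel' (hdvdb v)
    have h2 := congrArg dg h1
    rw [map_nsmul, hCb.deg0 _ hcρ, nsmul_eq_mul] at h2
    rcases mul_eq_zero.mp h2 with h3 | h3
    · exact absurd (by exact_mod_cast h3) hm
    · exact h3
  obtain ⟨vb₀⟩ := hG.sepb.nonempty
  obtain ⟨zb, hzbL, hzb0, hzb⟩ := hCb.exists_section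
    (D := dm (K := κ) m (ρ f₁) + n₀ • pol tb)
    (by rw [map_add, hdegb, map_nsmul, nsmul_eq_mul, hdeg]; linarith)
    (insert vb₀ (Finset.univ.image xb)) (Finset.insert_nonempty _ _)
  obtain ⟨z, hzL, hρz⟩ := hlift zb hzbL
  have hz0 : (z : F) ≠ 0 := by
    intro h0
    have h1 : z = 0 := Subtype.ext h0
    rw [h1, map_zero] at hρz
    exact hzb0 hρz.symm
  let f₂ : W := f₁ * z ^ m
  have hreg : Reg Ω t (f₂ : F) := by
    intro v hv
    change 0 ≤ v.ord ((f₁ : F) * (z : F) ^ m)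
    rw [v.ord_mul hadm₁.ne (pow_ne_zero _ hz0), ord_pow]
    have h1 := (mem_L' hz0).mp hzL v
    rw [Finsupp.add_apply, Finsupp.smul_apply, pol_eq_zero hG.sep hv, smul_zero, add_zero] at h1
    have h2 := hadm₁.mul_dm hC v
    have h4 : (1 : ℤ) ≤ m := by exact_mod_cast Nat.pos_of_ne_zero hm
    nlinarith
  have hρf₂ : ρ f₂ = ρ f₁ * zb ^ m := by
    simp only [f₂]
    rw [map_mul, map_pow, hρz]
  have hf₂b : ∀ i, (xb i).ord (ρ f₂) = 0 := by
    intro i
    rw [hρf₂, (xb i).ord_mul hcρ (pow_ne_zero _ hzb0), ord_pow,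
      hzb _ (Finset.mem_insert_of_mem (Finset.mem_image_of_mem _ (Finset.mem_univ i))),
      Finsupp.add_apply, Finsupp.smul_apply, hP.E0b hG, smul_zero, add_zero, dm_apply hCb]
    have := Int.mul_ediv_cancel' (hdvdb (xb i))
    linarith
  have hρ0 : ρ f₂ ≠ 0 := by rw [hρf₂]; exact mul_ne_zero hcρ (pow_ne_zero _ hzb0)
  have hevb : ∀ i, evp (xb i) (ρ f₂) ≠ 0 := fun i => by
    rw [evp_ne_zero_iff (hCb.rat _) (mem_of_ord_nonneg _ (hf₂b i).ge)]
    exact ⟨hρ0, hf₂b i⟩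
  choose hA hr using fun i => hP.red i f₂ hreg
  have hev : ∀ i, evp (x i) (f₂ : F) ≠ 0 := by
    intro i h0
    apply hevb i
    rw [← hr i]
    have : (⟨evp (x i) (f₂ : F), hA i⟩ : A) = 0 := Subtype.ext h0
    rw [this, map_zero]
  have hzord : ∀ i, (x i).ord (z : F) = 0 := by
    intro i
    have h1 := ((evp_ne_zero_iff (hC.rat _) (hreg.mem (hP.ord i))).mp (hev i)).2
    change (x i).ord ((f₁ : F) * (z : F) ^ m) = 0 at h1
    rw [(x i).ord_mul hadm₁.ne (pow_ne_zero _ hz0), hadm₁.ord, ord_pow, zero_add] at h1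
    rcases mul_eq_zero.mp h1 with h4 | h4
    · exact absurd (by exact_mod_cast h4) hm
    · exact h4
  have hadm₂ := hadm₁.mul hC (Adm.of_pow (m := m) hC hz0 hzord)
  set η₂ : ι → Ω := η * (fun i => evp (x i) (algebraMap Ω F d)) * fun i => evp (x i) (z : F)
    with hη₂
  have hη₂A : ∀ i, η₂ i ∈ A := by
    intro i
    rw [← A.valuation_le_one_iff]
    have h3 : A.valuation (η₂ i ^ m) ≤ 1 := by
      rw [A.valuation_le_one_iff, ← hadm₂.pow i]
      exact hA i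
    rw [map_pow] at h3
    by_contra hcon
    exact absurd h3 (not_le.mpr (one_lt_pow₀ (not_le.mp hcon) hm))
  refine ⟨f₂, fun i => ⟨η₂ i, hη₂A i⟩, ⟨hadm₂, hreg, hρ0, ?_, hf₂b, ?_⟩, ?_⟩
  · intro v
    rw [hρf₂, v.ord_mul hcρ (pow_ne_zero _ hzb0), ord_pow]
    exact dvd_add (hdvdb v) (dvd_mul_right _ _)
  · intro i
    rw [← hr i, ← map_pow]
    congr 1
    exact Subtype.ext (hadm₂.pow i)
  · refine ⟨algebraMap Ω F d * z, mul_ne_zero hdF hz0, fun i => ?_, ?_, ?_⟩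
    · rw [(x i).ord_mul hdF hz0, ord_algebraMap, hzord, add_zero]
    · change (f₁ : F) * (z : F) ^ m = _
      rw [hf₁, mul_pow, mul_assoc]
    · change η₂ = _
      rw [hη₂, mul_assoc]
      congr 1
      funext i
      rw [Pi.mul_apply, evp_mul (hC.rat _) ((x i).algebraMap_mem' d)
        (mem_of_ord_nonneg _ (hzord i).ge)]

/-- Reduction of the evaluation spaces. -/
theorem VAdm.lift (hG : GoodCrv r γ W ρ t tb) (hC : Crv Ω F g C) (hCb : Crv κ Fb g C)
    (hP : Pts r γ ρ t tb x xb) (hm : m ≠ 0) (h : VAdm r ρ t m x xb f η) {n : ℕ}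
    (hn : C + 1 ≤ n * dg (pol (K := Ω) t)) {yb : ι → κ}
    (hy : yb ∈ Wz m xb (pol tb) (ρ f) (fun i => r (η i)) n) :
    ∃ y : ι → A, (fun i => (y i : Ω)) ∈ Wz m x (pol t) (f : F) (fun i => (η i : Ω)) n ∧
      ∀ i, r (y i) = yb i := by
  obtain ⟨hdeg, -, -⟩ := hG.numerics hC hCb
  obtain ⟨zb, hzb, hy'⟩ := (h.admb.mem_Wz hCb (hP.E0b hG)).mp hy
  obtain ⟨-, hred⟩ := hG.reduction hC hCb hdeg hm (f := f) h.admb.ne h.adm.dvd hn
  obtain ⟨z, hz, hρz⟩ := (hred n hn).2 zb hzb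
  choose hA hr using fun i => h.eval hG hC hCb hP hm hz i
  refine ⟨fun i => ⟨_, hA i⟩ * η i, ?_, fun i => ?_⟩
  · exact Submodule.subset_span ⟨z, hz, fun i => rfl⟩
  · rw [map_mul, hr, hρz, hy']

end Fermat.Agent.Flat
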