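import Mathlib
import Fermat.Agent.Flat.Class

/-!
Divisible classes with rigidification: existence of the Hopf order.
-/

set_option autoImplicit false
set_option linter.unusedSectionVars false

noncomputable section

namespace Fermat.Agent.Flat

open AlgebraicCurve IsDedekindDomain IntermediateField WithZero Module Fermat.Agent.FunField

variable {ι : Type*} [Fintype ι] [DecidableEq ι]

variable {Ω κ F Fb : Type*} [Field Ω] [Field κ] [Field F] [Field Fb] [Algebra Ω F] [Algebra κ Fb]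
  {A : ValuationSubring Ω} {G : Type*} [Group G] [MulSemiringAction G Ω]
  {r : A →+* κ} {γ : G →* SemilinearAut Ω F}
  {W : ValuationSubring F} {ρ : W →+* Fb} {t : F} {tb : Fb} {g C : ℤ}
  {m : ℕ} {x : ι → Place Ω F} {xb : ι → Place κ Fb}
  {V : Type*} [AddCommGroup V] [Finite V] [DistribMulAction G V]

variable (γ m x) in
/-- A group of classes. -/
structure ClassData (fv : V → F) (ηv : V → ι → Ω) : Prop where
  adm : ∀ v, Adm m x (fv v) (ηv v)
  zero : Eqv m x (fv 0) (ηv 0) 1 1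
  add : ∀ v w, Eqv m x (fv (v + w)) (ηv (v + w)) (fv v * fv w) (ηv v * ηv w)
  smul : ∀ (g : G) v, Eqv m x (fv (g • v)) (ηv (g • v)) (γ g • fv v) (fun i => g • ηv v i)
  inj : ∀ v w, Eqv m x (fv v) (ηv v) (fv w) (ηv w) → v = w

theorem smul_mem_L {K F : Type*} [Field K] [Field F] [Algebra K F] {g C : ℤ} (hC : Crv K F g C)
    (σ : SemilinearAut K F) {m : ℕ} {f z t : F} {n : ℕ} (ht : σ • t = t)
    (hz : z ∈ riemannRochSpace (dm (K := K) m f + n • pol t)) :
    σ • z ∈ riemannRochSpace (dm (K := K) m (σ • f) + n • pol t) := by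
  by_cases hz0 : z = 0
  · rw [hz0, smul_zero]; exact zero_mem _
  have hz0' : σ • z ≠ 0 := fun h => hz0 (by
    have := congrArg (fun y => σ⁻¹ • y) h
    simpa using this)
  rw [mem_L' hz0']
  intro v
  have h1 := (mem_L' hz0).mp hz (σ⁻¹ • v)
  have ho : ∀ y : F, v.ord (σ • y) = (σ⁻¹ • v).ord y := by
    intro y
    have := SemilinearAut.ord_smul σ (σ⁻¹ • v) y
    rwa [smul_inv_smul] at this
  rw [Finsupp.add_apply, Finsupp.smul_apply, dm_apply hC, pol_apply (hC.fin _)] at h1 ⊢
  rw [ho, ho]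
  have h2 : (σ⁻¹ • v).ord t = v.ord t := by
    rw [← ho, ht]
  rwa [h2] at h1

variable [IsAlgClosed Ω] [IsAlgClosed κ]

/-- The level used for the criterion. -/
def lvl (s k : ℕ) : ℕ := (min k 2 + 1) * s

theorem ClassData.critData (hG : GoodCrv r γ W ρ t tb) (hI : Inert G r) (hC : Crv Ω F g C)
    (hCb : Crv κ Fb g C) (hP : Pts r γ ρ t tb x xb) (hm : m ≠ 0) {fv : V → F} {ηv : V → ι → Ω}
    (hV : ClassData γ m x fv ηv) {s : ℕ} (hs : C + 1 ≤ s * dg (pol (K := Ω) t)) (hC0 : 0 ≤ C)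
    (hcard : 4 * s * dg (pol (K := Ω) t) < Fintype.card ι) :
    ∃ (Wv : ℕ → V → Submodule Ω (ι → Ω)) (Wb : ℕ → V → Submodule κ (ι → κ)),
      CritData G r Wv Wb := by
  classical
  obtain ⟨hdeg, -, hpos⟩ := hG.numerics hC hCb
  have hne := hG.sep.nonempty
  have hneb := hG.sepb.nonempty
  have hInf : Infinite Ω := inferInstance
  have hInfb : Infinite κ := inferInstance
  choose f' η' hadm heqv using fun v => exists_vadm hG hC hCb hP hm (hV.adm v)
  have hE := hP.E0 hG
  have hEb := hP.E0b hG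
  have hr := hC.rat
  -- the new representatives form class data again
  have hadd : ∀ v w, Eqv m x (f' (v + w) : F) (fun i => (η' (v + w) i : Ω))
      ((f' v * f' w : W) : F) (fun i => ((η' v * η' w) i : A)) := by
    intro v w
    have h1 := (heqv v).mul hr (heqv w)
    exact ((heqv (v + w)).trans hr (hV.add v w)).trans hr (h1.symm hr)
  have hone : VAdm r ρ t m x xb (1 : W) (1 : ι → A) := by
    refine ⟨Adm.one, ?_, ?_⟩
    · have := Reg.algebraMap (K := Ω) (F := F) (t := t) 1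
      rwa [map_one] at this
    · rw [map_one]
      have : (fun i => r ((1 : ι → A) i)) = (1 : ι → κ) := funext fun i => map_one r
      rw [this]
      exact Adm.one
  have hzero : Eqv m x (f' 0 : F) (fun i => (η' 0 i : Ω)) ((1 : W) : F)
      (fun i => ((1 : ι → A) i : Ω)) := (heqv 0).trans hr hV.zero
  let D := dg (pol (K := Ω) t)
  have hDpos : (0 : ℤ) < D := hpos
  have hs0 : (0 : ℤ) ≤ s := Int.natCast_nonneg _
  have hsD : C + 1 ≤ s * D := hs
  have hcard' : 4 * (s * D) < Fintype.card ι := by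
    have := hcard
    change 4 * (s : ℤ) * D < _ at this
    linarith
  have hlvl : ∀ k, C + 1 ≤ (lvl s k : ℤ) * D ∧ (lvl s k : ℤ) * D ≤ 3 * (s * D) := by
    intro k
    have h1 : (lvl s k : ℤ) = ((min k 2 : ℕ) + 1) * s := by simp [lvl]
    have h2 : ((min k 2 : ℕ) : ℤ) ≤ 2 := by exact_mod_cast min_le_right _ _
    have h3 : (0 : ℤ) ≤ (min k 2 : ℕ) := Int.natCast_nonneg _
    rw [h1]
    have h4 : 0 ≤ (s : ℤ) * D := by positivity
    constructor <;> nlinarith
  let Wv : ℕ → V → Submodule Ω (ι → Ω) := fun k v =>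
    Wz m x (pol t) (f' v : F) (fun i => (η' v i : Ω)) (lvl s k)
  let Wb : ℕ → V → Submodule κ (ι → κ) := fun k v =>
    Wz m xb (pol tb) (ρ (f' v)) (fun i => r (η' v i)) (lvl s k)
  have l0 : lvl s 0 = s := by simp [lvl]
  have l1 : lvl s 1 = 2 * s := by simp [lvl]
  have l2 : lvl s 2 = 3 * s := by simp [lvl]
  have hWv0 : Wv 0 0 = Wz m x (pol t) 1 1 s := by
    simp only [Wv, l0]
    exact hzero.Wz_eq hC hm hE Adm.one s
  have hWb0 : Wb 0 0 = Wz m xb (pol tb) 1 1 s := by
    simp only [Wb, l0]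
    have h1 := (hadm 0).eqv hG hC hCb hP hm hone hzero
    have h2 := h1.Wz_eq hCb hm hEb hone.admb s
    rw [h2, map_one]
    congr 1
    funext i
    exact map_one r
  have hmulv : ∀ v w n, Wz m x (pol t) (f' (v + w) : F) (fun i => (η' (v + w) i : Ω)) n =
      Wz m x (pol t) ((f' v : F) * f' w) ((fun i => (η' v i : Ω)) * fun i => (η' w i : Ω)) n :=
    fun v w n => (hadd v w).Wz_eq hC hm hE ((hadm v).adm.mul hC (hadm w).adm) n
  have hmulb : ∀ v w n, Wz m xb (pol tb) (ρ (f' (v + w))) (fun i => r (η' (v + w) i)) n =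
      Wz m xb (pol tb) (ρ (f' v) * ρ (f' w)) ((fun i => r (η' v i)) * fun i => r (η' w i)) n := by
    intro v w n
    have h1 := (hadm (v + w)).eqv hG hC hCb hP hm ((hadm v).mul hC hCb (hadm w)) (hadd v w)
    rw [h1.Wz_eq hCb hm hEb ((hadm v).mul hC hCb (hadm w)).admb n, map_mul]
    congr 1
    funext i
    rw [Pi.mul_apply, map_mul, Pi.mul_apply]
  refine ⟨Wv, Wb, ⟨?_, ?_, ?_, ?_, ?_, ?_, ?_, ?_⟩⟩
  · -- red
    intro k v yb hyb
    exact (hadm v).lift hG hC hCb hP hm (hlvl k).1 hyb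
  · -- rank
    intro k v
    have h1 := (hadm v).adm.finrank_Wz hC hm hE hP.inj (n := lvl s k)
      (by have := (hlvl k).2; change (lvl s k : ℤ) * D < _; nlinarith)
      (by have := (hlvl k).1; change C ≤ (lvl s k : ℤ) * D; linarith)
    have h2 := (hadm v).admb.finrank_Wz hCb hm hEb hP.injb (n := lvl s k)
      (by rw [hdeg]; have := (hlvl k).2; change (lvl s k : ℤ) * D < _; nlinarith)
      (by rw [hdeg]; have := (hlvl k).1; change C ≤ (lvl s k : ℤ) * D; linarith)
    rw [hdeg] at h2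
    have h3 : (finrank Ω (Wv k v) : ℤ) = finrank κ (Wb k v) := h1.trans h2.symm
    exact_mod_cast h3
  · -- equiv
    intro k v σ y hy
    have h1 : Eqv m x (f' (σ • v) : F) (fun i => (η' (σ • v) i : Ω)) (γ σ • (f' v : F))
        (fun i => σ • (η' v i : Ω)) := by
      refine ((heqv (σ • v)).trans hr (hV.smul σ v)).trans hr ?_
      obtain ⟨u, hu, hux, h2, h3⟩ := (heqv v).symm hr
      refine ⟨γ σ • u, fun h => hu (by
        have := congrArg (fun y => (γ σ)⁻¹ • y) h
        simpa using this), fun i => ?_, ?_, ?_⟩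
      · conv_lhs => rw [← hP.fix σ i]
        rw [SemilinearAut.ord_smul, hux]
      · rw [h2, smul_mul', smul_pow']
      · funext i
        rw [h3, Pi.mul_apply, smul_mul', Pi.mul_apply]
        congr 1
        conv_rhs => rw [← hP.fix σ i]
        rw [rational_smul _ (hr _) (mem_of_ord_nonneg _ (hux i).ge), hG.base]
    have h2 : Adm m x (γ σ • (f' v : F)) (fun i => σ • (η' v i : Ω)) := by
      refine ⟨fun h => (hadm v).adm.ne (by
        have := congrArg (fun y => (γ σ)⁻¹ • y) h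
        simpa using this), fun w => ?_, fun i => ?_, fun i => ?_⟩
      · have := SemilinearAut.ord_smul (γ σ) ((γ σ)⁻¹ • w) (f' v : F)
        rw [smul_inv_smul] at this
        rw [this]
        exact (hadm v).adm.dvd _
      · conv_lhs => rw [← hP.fix σ i]
        rw [SemilinearAut.ord_smul, (hadm v).adm.ord]
      · conv_lhs => rw [← hP.fix σ i]
        rw [rational_smul _ (hr _) (mem_of_ord_nonneg _ ((hadm v).adm.ord i).ge), hG.base,
          (hadm v).adm.pow, smul_pow']
    change _ ∈ Wz m x (pol t) (f' (σ • v) : F) (fun i => (η' (σ • v) i : Ω)) (lvl s k)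
    rw [h1.Wz_eq hC hm hE h2, h2.mem_Wz hC hE]
    obtain ⟨z, hz, hyz⟩ := ((hadm v).adm.mem_Wz hC hE).mp hy
    refine ⟨γ σ • z, smul_mem_L hC _ (hG.fixt σ) hz, fun i => ?_⟩
    rw [hyz, smul_mul']
    congr 1
    conv_rhs => rw [← hP.fix σ i]
    rw [rational_smul _ (hr _) ((hadm v).adm.reg hC hE hz i), hG.base]
  · -- mul
    intro v w
    have h1 := (hadm v).adm.Wz_mul_le hC hE (hadm w).adm (2 * s) s
    change Wz _ _ _ _ _ (lvl s 1) * Wz _ _ _ _ _ (lvl s 0) ≤ Wz _ _ _ _ _ (lvl s 2)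
    rw [l0, l1, l2, hmulv]
    have h2 : 2 * s + s = 3 * s := by ring
    rwa [h2] at h1
  · -- mulb
    intro v w
    change Wz _ _ _ _ _ (lvl s 2) = Wz _ _ _ _ _ (lvl s 1) * Wz _ _ _ _ _ (lvl s 0)
    rw [l0, l1, l2, hmulb, (hadm v).admb.Wz_mul hCb hm hEb (hadm w).admb (n := 2 * s) (n' := s)]
    · have h2 : 2 * s + s = 3 * s := by ring
      rw [h2]
    · rw [hdeg]; push_cast; change C ≤ 2 * (s : ℤ) * D; nlinarith
    · rw [hdeg]; exact hs
    · rw [hdeg]; push_cast; change C ≤ (2 * (s : ℤ) - s) * D; nlinarith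
    · rw [hdeg]; exact hpos.le
  · -- colon
    intro k hk v
    rw [hWv0]
    have key : ∀ n : ℕ, n ≤ 2 * s → colon (Wz m x (pol t) 1 1 s)
        (Wz m x (pol t) (f' v : F) (fun i => (η' v i : Ω)) (n + s)) =
        Wz m x (pol t) (f' v : F) (fun i => (η' v i : Ω)) n := by
      intro n hn
      refine (hadm v).adm.Wz_colon hC hm hE hP.inj hs ?_
      have h2 : (n : ℤ) ≤ 2 * s := by exact_mod_cast hn
      change ((n : ℤ) + 2 * s) * D < _
      nlinarith
    interval_cases k
    · have := key s (by omega)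
      change colon _ (Wz _ _ _ _ _ (lvl s 1)) = Wz _ _ _ _ _ (lvl s 0)
      rw [l0, l1, two_mul]
      exact this
    · have := key (2 * s) le_rfl
      change colon _ (Wz _ _ _ _ _ (lvl s 2)) = Wz _ _ _ _ _ (lvl s 1)
      rw [l1, l2]
      have h2 : 3 * s = 2 * s + s := by ring
      rw [h2]
      exact this
  · -- colonb
    intro k hk v
    rw [hWb0]
    have key : ∀ n : ℕ, n ≤ 2 * s → colon (Wz m xb (pol tb) 1 1 s)
        (Wz m xb (pol tb) (ρ (f' v)) (fun i => r (η' v i)) (n + s)) =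
        Wz m xb (pol tb) (ρ (f' v)) (fun i => r (η' v i)) n := by
      intro n hn
      refine (hadm v).admb.Wz_colon hCb hm hEb hP.injb (by rw [hdeg]; exact hs) ?_
      have h2 : (n : ℤ) ≤ 2 * s := by exact_mod_cast hn
      rw [hdeg]
      change ((n : ℤ) + 2 * s) * D < _
      nlinarith
    interval_cases k
    · have := key s (by omega)
      change colon _ (Wz _ _ _ _ _ (lvl s 1)) = Wz _ _ _ _ _ (lvl s 0)
      rw [l0, l1, two_mul]
      exact this
    · have := key (2 * s) le_rfl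
      change colon _ (Wz _ _ _ _ _ (lvl s 2)) = Wz _ _ _ _ _ (lvl s 1)
      rw [l1, l2]
      have h2 : 3 * s = 2 * s + s := by ring
      rw [h2]
      exact this
  · -- inj
    intro v w hvw
    change Wz _ _ _ _ _ (lvl s 1) = Wz _ _ _ _ _ (lvl s 1) at hvw
    rw [l1] at hvw
    have h1 := (hadm v).adm.Wz_inj hC hm hE hP.inj (hadm w).adm (n := 2 * s)
      (by push_cast; change C + 1 ≤ 2 * (s : ℤ) * D; nlinarith)
      (by push_cast; change 2 * (2 * (s : ℤ)) * D < _; nlinarith) hvw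
    have h2 : Eqv m x (f' v : F) (fun i => (η' v i : Ω)) (f' w : F) (fun i => (η' w i : Ω)) := h1
    exact hV.inj v w ((((heqv v).symm hr).trans hr h2).trans hr (heqv w))

end Fermat.Agent.Flat
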