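import Mathlib
import Fermat.Agent.Flat.Class2

/-!
The group of rigidified divisible classes.
-/

set_option autoImplicit false
set_option linter.unusedSectionVars false

noncomputable section

namespace Fermat.Agent.Flat

open AlgebraicCurve IsDedekindDomain IntermediateField WithZero Module Fermat.Agent.FunField

universe u

section Group

variable {ι : Type} [Fintype ι] [DecidableEq ι] {Ω F : Type u} [Field Ω] [Field F] [Algebra Ω F]
  {m : ℕ} {x : ι → Place Ω F} {g C : ℤ}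

theorem Adm.inv (hC : Crv Ω F g C) (hm : m ≠ 0) {f : F} {η : ι → Ω} (h : Adm m x f η) :
    Adm m x f⁻¹ η⁻¹ where
  ne := inv_ne_zero h.ne
  dvd v := by rw [v.ord_inv]; exact (dvd_neg).mpr (h.dvd v)
  ord i := by rw [(x i).ord_inv, h.ord, neg_zero]
  pow i := by rw [evp_inv (hC.rat _) h.ne (h.ord i), h.pow, Pi.inv_apply, inv_pow]

variable (m x) in
/-- rigidified divisible functions -/
def Zg (hC : Crv Ω F g C) (hm : m ≠ 0) : Subgroup (Fˣ × (ι → Ωˣ)) where
  carrier := {p | Adm m x (p.1 : F) (fun i => (p.2 i : Ω))}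
  one_mem' := Adm.one
  mul_mem' := fun {p q} hp hq => hp.mul hC hq
  inv_mem' := fun {p} hp => by
    have := Adm.inv hC hm hp
    have h1 : (fun i => ((p⁻¹).2 i : Ω)) = (fun i => (p.2 i : Ω))⁻¹ := by
      funext i
      simp
    change Adm m x ((p⁻¹).1 : F) (fun i => ((p⁻¹).2 i : Ω))
    rw [h1]
    simpa using this

variable (m x) in
/-- trivial ones -/
def Bg (hC : Crv Ω F g C) (hm : m ≠ 0) : Subgroup (Zg m x hC hm) where
  carrier := {p | Eqv m x (p.1.1 : F) (fun i => (p.1.2 i : Ω)) 1 1}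
  one_mem' := Eqv.refl
  mul_mem' := fun {p q} hp hq => by
    have := Eqv.mul hC.rat hp hq
    rwa [mul_one, mul_one] at this
  inv_mem' := fun {p} hp => by
    obtain ⟨u, hu, hux, h1, h2⟩ := hp
    refine ⟨u⁻¹, inv_ne_zero hu, fun i => by rw [(x i).ord_inv, hux, neg_zero], ?_, ?_⟩
    · have h3 : (((p⁻¹ : Zg m x hC hm) : Fˣ × (ι → Ωˣ)).1 : F) = (p.1.1 : F)⁻¹ := by simp
      rw [h3, h1, one_mul, one_mul, inv_pow]
    · funext i
      have h3 : (((p⁻¹ : Zg m x hC hm) : Fˣ × (ι → Ωˣ)).2 i : Ω) = (p.1.2 i : Ω)⁻¹ := by simp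
      rw [h3, congrFun h2 i, Pi.mul_apply, Pi.mul_apply, Pi.one_apply, one_mul, one_mul,
        evp_inv (hC.rat _) hu (hux i)]

theorem mk_eq_iff (hC : Crv Ω F g C) (hm : m ≠ 0) (p q : Zg m x hC hm) :
    (QuotientGroup.mk p : Zg m x hC hm ⧸ Bg m x hC hm) = QuotientGroup.mk q ↔
      Eqv m x (p.1.1 : F) (fun i => (p.1.2 i : Ω)) (q.1.1 : F) (fun i => (q.1.2 i : Ω)) := by
  have key : ∀ p q : Zg m x hC hm, p⁻¹ * q ∈ Bg m x hC hm →
      Eqv m x (q.1.1 : F) (fun i => (q.1.2 i : Ω)) (p.1.1 : F) (fun i => (p.1.2 i : Ω)) := by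
    intro p q h
    have h' : Eqv m x (((p⁻¹ * q : Zg m x hC hm) : Fˣ × (ι → Ωˣ)).1 : F)
      (fun i => (((p⁻¹ * q : Zg m x hC hm) : Fˣ × (ι → Ωˣ)).2 i : Ω)) 1 1 := h
    have h2 := (Eqv.refl (m := m) (x := x) (f := (p.1.1 : F)) (η := fun i => (p.1.2 i : Ω))).mul
      hC.rat h'
    rw [mul_one, mul_one] at h2
    have h3 : (p.1.1 : F) * (((p⁻¹ * q : Zg m x hC hm) : Fˣ × (ι → Ωˣ)).1 : F) = q.1.1 := by
      rw [← Units.val_mul]
      congr 1
      simp
    have h4 : (fun i => (p.1.2 i : Ω)) *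
        (fun i => (((p⁻¹ * q : Zg m x hC hm) : Fˣ × (ι → Ωˣ)).2 i : Ω)) =
        fun i => (q.1.2 i : Ω) := by
      funext i
      rw [Pi.mul_apply, ← Units.val_mul]
      congr 1
      simp
    rwa [h3, h4] at h2
  rw [QuotientGroup.eq]
  constructor
  · exact fun h => (key p q h).symm hC.rat
  · intro h
    have h2 := (Eqv.refl (m := m) (x := x) (f := ((p⁻¹).1.1 : F))
      (η := fun i => ((p⁻¹).1.2 i : Ω))).mul hC.rat (h.symm hC.rat)
    have h3 : (((p⁻¹ : Zg m x hC hm) : Fˣ × (ι → Ωˣ)).1 : F) * (p.1.1 : F) = 1 := by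
      rw [← Units.val_mul]
      simp
    have h4 : (fun i => (((p⁻¹ : Zg m x hC hm) : Fˣ × (ι → Ωˣ)).2 i : Ω)) *
        (fun i => (p.1.2 i : Ω)) = 1 := by
      funext i
      rw [Pi.mul_apply, ← Units.val_mul]
      simp
    rw [h3, h4] at h2
    change Eqv m x (((p⁻¹ * q : Zg m x hC hm) : Fˣ × (ι → Ωˣ)).1 : F)
      (fun i => (((p⁻¹ * q : Zg m x hC hm) : Fˣ × (ι → Ωˣ)).2 i : Ω)) 1 1
    have h5 : (fun i => (((p⁻¹ * q : Zg m x hC hm) : Fˣ × (ι → Ωˣ)).2 i : Ω)) =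
        (fun i => ((p⁻¹).1.2 i : Ω)) * fun i => (q.1.2 i : Ω) := rfl
    rw [h5]
    exact h2

/-- Finiteness. -/
theorem finite_cls (hC : Crv Ω F g C) (hm : m ≠ 0) {S : Set F} (hS : S.Finite)
    (hSel : ∀ f : F, f ≠ 0 → (∀ v : Place Ω F, (m : ℤ) ∣ v.ord f) →
      ∃ f' ∈ S, ∃ u : F, u ≠ 0 ∧ f = f' * u ^ m) :
    Finite (Zg m x hC hm ⧸ Bg m x hC hm) := by
  classical
  have hm' : NeZero m := ⟨hm⟩
  -- base representatives
  have hbase : ∀ f' : F, ∃ q : Zg m x hC hm, (∃ p : Zg m x hC hm, ∃ u : F, u ≠ 0 ∧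
      (p.1.1 : F) = f' * u ^ m) → ∃ u : F, u ≠ 0 ∧ (q.1.1 : F) = f' * u ^ m := by
    intro f'
    by_cases h : ∃ p : Zg m x hC hm, ∃ u : F, u ≠ 0 ∧ (p.1.1 : F) = f' * u ^ m
    · obtain ⟨p, hp⟩ := h
      exact ⟨p, fun _ => hp⟩
    · exact ⟨1, fun h' => absurd h' h⟩
  choose q hq using hbase
  -- the torsion part
  let z : (ι → rootsOfUnity m Ω) → Zg m x hC hm := fun ζ => ⟨(1, fun i => (ζ i : Ωˣ)), by
    refine ⟨one_ne_zero, fun v => by rw [Units.val_one, v.ord_one]; exact dvd_zero _,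
      fun i => (x i).ord_one, fun i => ?_⟩
    rw [Units.val_one, evp_one]
    have := (ζ i).2
    rw [mem_rootsOfUnity'] at this
    exact this.symm⟩
  have hfin : (⋃ f' ∈ S, Set.range fun ζ : ι → rootsOfUnity m Ω =>
      (QuotientGroup.mk (q f' * z ζ) : Zg m x hC hm ⧸ Bg m x hC hm)).Finite :=
    hS.biUnion fun f' _ => Set.finite_range _
  refine Set.finite_univ_iff.mp (hfin.subset ?_)
  rintro c -
  obtain ⟨p, rfl⟩ := QuotientGroup.mk_surjective c
  obtain ⟨f', hf', u, hu, hfu⟩ := hSel p.1.1 p.1.1.ne_zero p.2.dvd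
  obtain ⟨w, hw, hqw⟩ := hq f' ⟨p, u, hu, hfu⟩
  have hq0 : (f' : F) ≠ 0 := by
    rintro rfl
    rw [zero_mul] at hfu
    exact p.1.1.ne_zero hfu
  rw [Set.mem_iUnion₂]
  refine ⟨f', hf', ?_⟩
  -- p = q (u/w)^m
  let s : F := u / w
  have hs : s ≠ 0 := div_ne_zero hu hw
  have hps : (p.1.1 : F) = (q f').1.1 * s ^ m := by
    rw [hfu, hqw, div_pow, mul_assoc]
    congr 1
    field_simp
  have hso : ∀ i, (x i).ord s = 0 := by
    intro i
    have h1 := p.2.ord i
    have h2 := (q f').2.ord i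
    rw [hps, (x i).ord_mul (q f').1.1.ne_zero (pow_ne_zero _ hs), h2, ord_pow, zero_add] at h1
    rcases mul_eq_zero.mp h1 with h4 | h4
    · exact absurd (by exact_mod_cast h4) hm
    · exact h4
  have hse : ∀ i, evp (x i) s ≠ 0 := evp_inv_ne hC.rat hs hso
  have hζ : ∀ i, ((p.1.2 i : Ω) * ((q f').1.2 i : Ω)⁻¹ * (evp (x i) s)⁻¹) ^ m = 1 := by
    intro i
    have h1 := p.2.pow i
    have h2 := (q f').2.pow i
    have h3 : evp (x i) (p.1.1 : F) = evp (x i) ((q f').1.1 : F) * evp (x i) s ^ m := by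
      rw [hps, evp_mul (hC.rat _) (mem_of_ord_nonneg _ ((q f').2.ord i).ge)
        (pow_mem (mem_of_ord_nonneg _ (hso i).ge) m),
        evp_pow (hC.rat _) (mem_of_ord_nonneg _ (hso i).ge)]
    rw [h1, h2] at h3
    have h4 : ((q f').1.2 i : Ω) ≠ 0 := Units.ne_zero _
    have h5 := hse i
    rw [mul_pow, mul_pow, inv_pow, inv_pow, h3]
    field_simp
  let ζ : ι → rootsOfUnity m Ω := fun i => rootsOfUnity.mkOfPowEq _ (hζ i)
  refine ⟨ζ, ?_⟩
  rw [mk_eq_iff]
  refine Eqv.symm hC.rat ⟨s, hs, hso, ?_, ?_⟩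
  · have : (((q f' * z ζ : Zg m x hC hm) : Fˣ × (ι → Ωˣ)).1 : F) = (q f').1.1 := by
      change (((q f').1.1 * 1 : Fˣ) : F) = _
      rw [mul_one]
    rw [this]
    exact hps
  · funext i
    have h6 : (((q f' * z ζ : Zg m x hC hm) : Fˣ × (ι → Ωˣ)).2 i : Ω) =
        ((q f').1.2 i : Ω) * ((p.1.2 i : Ω) * ((q f').1.2 i : Ω)⁻¹ * (evp (x i) s)⁻¹) := by
      change (((q f').1.2 i * (ζ i : Ωˣ) : Ωˣ) : Ω) = _
      rw [Units.val_mul]
      rfl
    rw [Pi.mul_apply, h6]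
    have h4 : ((q f').1.2 i : Ω) ≠ 0 := Units.ne_zero _
    have h5 := hse i
    field_simp

variable {G : Type*} [Group G] [MulSemiringAction G Ω] {γ : G →* SemilinearAut Ω F}

theorem Adm.smul (hC : Crv Ω F g C) (hbase : ∀ (σ : G) (a : Ω), SemilinearAut.baseAut (γ σ) a = σ • a)
    (hfix : ∀ (σ : G) i, γ σ • x i = x i) (σ : G) {f : F} {η : ι → Ω} (h : Adm m x f η) :
    Adm m x (γ σ • f) (fun i => σ • η i) := by
  refine ⟨fun h0 => h.ne (by
    have := congrArg (fun y => (γ σ)⁻¹ • y) h0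
    simpa using this), fun w => ?_, fun i => ?_, fun i => ?_⟩
  · have := SemilinearAut.ord_smul (γ σ) ((γ σ)⁻¹ • w) f
    rw [smul_inv_smul] at this
    rw [this]
    exact h.dvd _
  · conv_lhs => rw [← hfix σ i]
    rw [SemilinearAut.ord_smul, h.ord]
  · conv_lhs => rw [← hfix σ i]
    rw [rational_smul _ (hC.rat _) (mem_of_ord_nonneg _ (h.ord i).ge), hbase,
      h.pow, smul_pow']

theorem Eqv.smul (hC : Crv Ω F g C)
    (hbase : ∀ (σ : G) (a : Ω), SemilinearAut.baseAut (γ σ) a = σ • a)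
    (hfix : ∀ (σ : G) i, γ σ • x i = x i) (σ : G) {f f' : F} {η η' : ι → Ω}
    (h : Eqv m x f η f' η') :
    Eqv m x (γ σ • f) (fun i => σ • η i) (γ σ • f') (fun i => σ • η' i) := by
  obtain ⟨u, hu, hux, h2, h3⟩ := h
  refine ⟨γ σ • u, fun h => hu (by
    have := congrArg (fun y => (γ σ)⁻¹ • y) h
    simpa using this), fun i => ?_, ?_, ?_⟩
  · conv_lhs => rw [← hfix σ i]
    rw [SemilinearAut.ord_smul, hux]
  · rw [h2, smul_mul', smul_pow']
  · funext i
    rw [h3, Pi.mul_apply, smul_mul', Pi.mul_apply]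
    congr 1
    conv_rhs => rw [← hfix σ i]
    rw [rational_smul _ (hC.rat _) (mem_of_ord_nonneg _ (hux i).ge), hbase]

variable (γ) in
/-- The action on rigidified functions. -/
def actZ (hC : Crv Ω F g C) (hm : m ≠ 0)
    (hbase : ∀ (σ : G) (a : Ω), SemilinearAut.baseAut (γ σ) a = σ • a)
    (hfix : ∀ (σ : G) i, γ σ • x i = x i) (σ : G) : Zg m x hC hm →* Zg m x hC hm where
  toFun p := ⟨(Units.map (MulSemiringAction.toRingHom (SemilinearAut Ω F) F (γ σ)) p.1.1,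
    fun i => Units.map (MulSemiringAction.toRingHom G Ω σ) (p.1.2 i)), by
    change Adm m x (γ σ • (p.1.1 : F)) (fun i => σ • (p.1.2 i : Ω))
    exact Adm.smul hC hbase hfix σ p.2⟩
  map_one' := Subtype.ext (Prod.ext (map_one _) (funext fun i => map_one _))
  map_mul' p q := Subtype.ext (Prod.ext (map_mul _ _ _) (funext fun i => map_mul _ _ _))

variable (γ) in
/-- The action on classes. -/
def actQ (hC : Crv Ω F g C) (hm : m ≠ 0)
    (hbase : ∀ (σ : G) (a : Ω), SemilinearAut.baseAut (γ σ) a = σ • a)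
    (hfix : ∀ (σ : G) i, γ σ • x i = x i) (σ : G) :
    (Zg m x hC hm ⧸ Bg m x hC hm) →* (Zg m x hC hm ⧸ Bg m x hC hm) :=
  QuotientGroup.map _ _ (actZ γ hC hm hbase hfix σ) (fun p hp => by
    have h1 : Eqv m x (p.1.1 : F) (fun i => (p.1.2 i : Ω)) 1 1 := hp
    have h2 := h1.smul hC hbase hfix σ
    rw [smul_one] at h2
    have h3 : (fun i => σ • (1 : ι → Ω) i) = 1 := funext fun i => smul_one σ
    rw [h3] at h2
    exact h2)

variable (γ) in
/-- The action. -/
@[reducible] def actV (hC : Crv Ω F g C) (hm : m ≠ 0)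
    (hbase : ∀ (σ : G) (a : Ω), SemilinearAut.baseAut (γ σ) a = σ • a)
    (hfix : ∀ (σ : G) i, γ σ • x i = x i) :
    DistribMulAction G (Additive (Zg m x hC hm ⧸ Bg m x hC hm)) where
  smul σ v := Additive.ofMul (actQ γ hC hm hbase hfix σ v.toMul)
  one_smul v := by
    obtain ⟨p, hp⟩ := QuotientGroup.mk_surjective v.toMul
    have : v = Additive.ofMul (QuotientGroup.mk p) := by rw [hp]; rfl
    subst this
    change Additive.ofMul (QuotientGroup.mk (actZ γ hC hm hbase hfix 1 p)) = _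
    congr 2
    apply Subtype.ext
    refine Prod.ext (Units.ext ?_) (funext fun i => Units.ext ?_)
    · change γ 1 • (p.1.1 : F) = _
      rw [map_one, one_smul]
    · exact one_smul G _
  mul_smul σ τ v := by
    obtain ⟨p, hp⟩ := QuotientGroup.mk_surjective v.toMul
    have : v = Additive.ofMul (QuotientGroup.mk p) := by rw [hp]; rfl
    subst this
    change Additive.ofMul (QuotientGroup.mk (actZ γ hC hm hbase hfix (σ * τ) p)) =
      Additive.ofMul (QuotientGroup.mk (actZ γ hC hm hbase hfix σ (actZ γ hC hm hbase hfix τ p)))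
    congr 2
    apply Subtype.ext
    refine Prod.ext (Units.ext ?_) (funext fun i => Units.ext ?_)
    · change γ (σ * τ) • (p.1.1 : F) = γ σ • γ τ • (p.1.1 : F)
      rw [map_mul, mul_smul]
    · exact mul_smul σ τ _
  smul_zero σ := congrArg Additive.ofMul (map_one (actQ γ hC hm hbase hfix σ))
  smul_add σ v w := congrArg Additive.ofMul
    (map_mul (actQ γ hC hm hbase hfix σ) v.toMul w.toMul)

/-- The representatives form class data. -/
theorem classData_out (hC : Crv Ω F g C) (hm : m ≠ 0)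
    (hbase : ∀ (σ : G) (a : Ω), SemilinearAut.baseAut (γ σ) a = σ • a)
    (hfix : ∀ (σ : G) i, γ σ • x i = x i) :
    letI := actV γ hC hm hbase hfix
    ClassData (V := Additive (Zg m x hC hm ⧸ Bg m x hC hm)) γ m x
      (fun v => (v.toMul.out.1.1 : F)) (fun v i => (v.toMul.out.1.2 i : Ω)) := by
  letI := actV γ hC hm hbase hfix
  refine ⟨fun v => v.toMul.out.2, ?_, ?_, ?_, ?_⟩
  · have h1 := (mk_eq_iff hC hm (Quotient.out (1 : Zg m x hC hm ⧸ Bg m x hC hm)) 1).mp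
      (by exact Quotient.out_eq' _)
    exact h1
  · intro v w
    exact (mk_eq_iff hC hm (Quotient.out (v + w).toMul) (v.toMul.out * w.toMul.out)).mp (by
      have e1 : (QuotientGroup.mk (Quotient.out (v + w).toMul) : Zg m x hC hm ⧸ Bg m x hC hm) =
        (v + w).toMul := Quotient.out_eq' _
      rw [e1, QuotientGroup.mk_mul]
      have e2 : ∀ v : Zg m x hC hm ⧸ Bg m x hC hm, QuotientGroup.mk v.out = v :=
        fun v => Quotient.out_eq' _
      rw [e2, e2]
      rfl)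
  · intro σ v
    exact (mk_eq_iff hC hm (Quotient.out (σ • v).toMul) (actZ γ hC hm hbase hfix σ v.toMul.out)).mp
      (by
      have e2 : ∀ v : Zg m x hC hm ⧸ Bg m x hC hm, QuotientGroup.mk v.out = v :=
        fun v => Quotient.out_eq' _
      rw [e2]
      have e3 : (QuotientGroup.mk (actZ γ hC hm hbase hfix σ v.toMul.out) :
          Zg m x hC hm ⧸ Bg m x hC hm) =
          actQ γ hC hm hbase hfix σ (QuotientGroup.mk v.toMul.out) := rfl
      rw [e3, e2]
      rfl)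
  · intro v w h
    have h1 := (mk_eq_iff hC hm v.toMul.out w.toMul.out).mpr h
    have e2 : ∀ v : Zg m x hC hm ⧸ Bg m x hC hm, QuotientGroup.mk v.out = v :=
        fun v => Quotient.out_eq' _
    rw [e2, e2] at h1
    exact h1

end Group

end Fermat.Agent.Flat
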