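import Mathlib
import Fermat.Agent.Flat.Class3

/-!
Rigidified classes and the torsion of the class group.
-/

set_option autoImplicit false
set_option linter.unusedSectionVars false

noncomputable section

namespace Fermat.Agent.Flat

open AlgebraicCurve IsDedekindDomain IntermediateField WithZero Module Fermat.Agent.FunField

universe u

theorem Crv.mono {K F : Type*} [Field K] [Field F] [Algebra K F] {g C C' : ℤ} (h : Crv K F g C)
    (hCC : C ≤ C') : Crv K F g C' :=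
  ⟨h.rat, h.fin, h.const, h.deg0, h.fd, h.lb, fun D hD => h.rr D (hCC.trans hD)⟩

section Deg

variable {K F : Type*} [Field K] [Field F] [Algebra K F] [IsAlgClosed K] [CharZero K] {t : F}
  (h : Sep K t)

include h in
theorem degree_eq_dg (D : Divisor K F) : Divisor.degree D = dg D := by
  have := h.fd
  have := h.sep
  induction D using Finsupp.induction with
  | zero => simp
  | single_add v n D _ _ ih =>
    rw [map_add, map_add, ih, Divisor.degree_single, dg_single, deg_eq_one h.trans v]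
    simp

end Deg

section Group

variable {ι : Type} [Fintype ι] [DecidableEq ι] {Ω F : Type u} [Field Ω] [Field F] [Algebra Ω F]
  {m : ℕ} {x : ι → Place Ω F} {g C : ℤ} [IsAlgClosed Ω] [CharZero Ω] {t : F}

/-- the class of `(1/m) div f` -/
def clsZ (ht : Sep Ω t) (hC : Crv Ω F g C) (hm : m ≠ 0) :
    Zg m x hC hm →* Multiplicative (Pic0 Ω F) where
  toFun p := Multiplicative.ofAdd (Pic0.mk ⟨dm m (p.1.1 : F), by
    rw [Divisor.mem_degZero, degree_eq_dg ht]
    exact p.2.dg_dm hC hm⟩)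
  map_one' := by
    have h1 : (⟨dm (K := Ω) m (((1 : Zg m x hC hm).1.1 : Fˣ) : F), by
        rw [Divisor.mem_degZero, degree_eq_dg ht]
        exact (1 : Zg m x hC hm).2.dg_dm hC hm⟩ : Divisor.degZero (K := Ω) (F := F)) = 0 := by
      apply Subtype.ext
      exact dm_one hC
    rw [h1]
    rfl
  map_mul' p q := by
    rw [← ofAdd_add, ← Pic0.mk_add]
    congr 2
    apply Subtype.ext
    exact p.2.dm_mul hC q.2

theorem clsZ_ker (ht : Sep Ω t) (hC : Crv Ω F g C) (hm : m ≠ 0) :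
    Bg m x hC hm ≤ (clsZ (x := x) ht hC hm).ker := by
  intro p hp
  obtain ⟨u, hu, hux, h1, h2⟩ := hp
  rw [MonoidHom.mem_ker]
  change Multiplicative.ofAdd (Pic0.mk _) = Multiplicative.ofAdd 0
  congr 1
  rw [Pic0.mk, QuotientAddGroup.eq_zero_iff, AddSubgroup.mem_addSubgroupOf]
  refine ⟨u, hu, fun v => ?_⟩
  change dm m (p.1.1 : F) v = _
  rw [dm_apply hC, h1, one_mul, ord_pow]
  exact Int.mul_ediv_cancel_left _ (by exact_mod_cast hm)

/-- The map to the class group. -/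
def clsV (ht : Sep Ω t) (hC : Crv Ω F g C) (hm : m ≠ 0) :
    Additive (Zg m x hC hm ⧸ Bg m x hC hm) →+ Pic0 Ω F :=
  MonoidHom.toAdditiveLeft (QuotientGroup.lift (Bg m x hC hm) (clsZ (x := x) ht hC hm)
    (clsZ_ker ht hC hm))

theorem clsV_mk (ht : Sep Ω t) (hC : Crv Ω F g C) (hm : m ≠ 0) (p : Zg m x hC hm) :
    clsV (x := x) ht hC hm (Additive.ofMul (QuotientGroup.mk p)) =
      Pic0.mk ⟨dm m (p.1.1 : F), by
        rw [Divisor.mem_degZero, degree_eq_dg ht]
        exact p.2.dg_dm hC hm⟩ := rfl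

theorem clsV_torsion (ht : Sep Ω t) (hC : Crv Ω F g C) (hm : m ≠ 0)
    (v : Additive (Zg m x hC hm ⧸ Bg m x hC hm)) : (m : ℤ) • clsV (x := x) ht hC hm v = 0 := by
  obtain ⟨p, hp⟩ := QuotientGroup.mk_surjective v.toMul
  have : v = Additive.ofMul (QuotientGroup.mk p) := by rw [hp]; rfl
  subst this
  rw [clsV_mk, natCast_zsmul]
  have h1 : ∀ (D : Divisor.degZero (K := Ω) (F := F)) (n : ℕ), n • Pic0.mk D = Pic0.mk (n • D) := by
    intro D n
    rfl
  rw [h1, Pic0.mk, QuotientAddGroup.eq_zero_iff, AddSubgroup.mem_addSubgroupOf]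
  refine ⟨p.1.1, p.1.1.ne_zero, fun v => ?_⟩
  rw [← p.2.mul_dm hC v]
  simp

theorem clsV_surj (ht : Sep Ω t) (hC : Crv Ω F g C) (hm : m ≠ 0) {y : Pic0 Ω F}
    (hy : (m : ℤ) • y = 0) : ∃ v, clsV (x := x) ht hC hm v = y := by
  classical
  obtain ⟨D, rfl⟩ := Pic0.mk_surjective y
  have h1 : ∀ (D : Divisor.degZero (K := Ω) (F := F)) (n : ℕ), n • Pic0.mk D = Pic0.mk (n • D) := by
    intro D n
    rfl
  rw [natCast_zsmul, h1, Pic0.mk, QuotientAddGroup.eq_zero_iff, AddSubgroup.mem_addSubgroupOf] at hy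
  obtain ⟨f, hf, hDf⟩ := hy
  have hDf' : ∀ v : Place Ω F, (m : ℤ) * (D : Divisor Ω F) v = v.ord f := by
    intro v
    rw [← hDf v]
    simp
  -- move away from the points
  have hne := ht.nonempty
  have hInf : Infinite Ω := inferInstance
  have hpos : 0 < dg (pol (K := Ω) t) := by
    have := ht.fd
    rw [ht.dg_pol]; exact_mod_cast finrank_pos
  have hdgD : dg (D : Divisor Ω F) = 0 := by
    rw [← degree_eq_dg ht]
    exact D.2
  let n : ℕ := (C + 1).toNat
  have hn : C + 1 ≤ n := Int.self_le_toNat _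
  have hn0 : (0 : ℤ) ≤ n := Int.natCast_nonneg _
  obtain ⟨v₀⟩ := hne
  -- a section of `D + nE` and one of `nE`, exact at the points
  obtain ⟨a, -, ha0, ha⟩ := hC.exists_section (D := (D : Divisor Ω F) + n • pol (K := Ω) t)
    (by rw [map_add, hdgD, map_nsmul, nsmul_eq_mul]; nlinarith)
    (insert v₀ (Finset.univ.image x)) (Finset.insert_nonempty _ _)
  obtain ⟨b, -, hb0, hb⟩ := hC.exists_section (D := n • pol (K := Ω) t)
    (by rw [map_nsmul, nsmul_eq_mul]; nlinarith)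
    (insert v₀ (Finset.univ.image x)) (Finset.insert_nonempty _ _)
  let u : F := a / b
  have hu : u ≠ 0 := div_ne_zero ha0 hb0
  have hux : ∀ i, (x i).ord u = - (D : Divisor Ω F) (x i) := by
    intro i
    have hi : x i ∈ insert v₀ (Finset.univ.image x) :=
      Finset.mem_insert_of_mem (Finset.mem_image_of_mem _ (Finset.mem_univ i))
    rw [show u = a * b⁻¹ from div_eq_mul_inv a b, (x i).ord_mul ha0 (inv_ne_zero hb0),
      (x i).ord_inv, ha _ hi, hb _ hi, Finsupp.add_apply]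
    ring
  let f₁ : F := f * u ^ m
  have hf₁ : f₁ ≠ 0 := mul_ne_zero hf (pow_ne_zero _ hu)
  have hf₁o : ∀ v : Place Ω F, v.ord f₁ = m * ((D : Divisor Ω F) v + v.ord u) := by
    intro v
    simp only [f₁]
    rw [v.ord_mul hf (pow_ne_zero _ hu), ord_pow, ← hDf']
    ring
  have hf₁x : ∀ i, (x i).ord f₁ = 0 := by
    intro i
    rw [hf₁o, hux]
    ring
  choose η hη using fun i => IsAlgClosed.exists_pow_nat_eq (evp (x i) f₁) (Nat.pos_of_ne_zero hm)
  have hadm : Adm m x f₁ η :=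
    ⟨hf₁, fun v => by rw [hf₁o]; exact dvd_mul_right _ _, hf₁x, fun i => (hη i).symm⟩
  have hη0 := hadm.eta_ne hC hm
  let p : Zg m x hC hm := ⟨(Units.mk0 f₁ hf₁, fun i => Units.mk0 (η i) (hη0 i)), hadm⟩
  refine ⟨Additive.ofMul (QuotientGroup.mk p), ?_⟩
  rw [clsV_mk, Pic0.mk, Pic0.mk, QuotientAddGroup.eq, AddSubgroup.mem_addSubgroupOf]
  refine ⟨u⁻¹, inv_ne_zero hu, fun v => ?_⟩
  have h2 : dm m f₁ v = (D : Divisor Ω F) v + v.ord u := by
    rw [dm_apply hC, hf₁o]
    exact Int.mul_ediv_cancel_left _ (by exact_mod_cast hm)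
  change - dm m f₁ v + (D : Divisor Ω F) v = _
  rw [h2, v.ord_inv]
  ring

variable {G : Type*} [Group G] [MulSemiringAction G Ω] {γ : G →* SemilinearAut Ω F}

theorem clsV_smul (ht : Sep Ω t) (hC : Crv Ω F g C) (hm : m ≠ 0)
    (hbase : ∀ (σ : G) (a : Ω), SemilinearAut.baseAut (γ σ) a = σ • a)
    (hfix : ∀ (σ : G) i, γ σ • x i = x i) (σ : G)
    (v : Additive (Zg m x hC hm ⧸ Bg m x hC hm)) :
    clsV (x := x) ht hC hm ((actV γ hC hm hbase hfix).smul σ v) =
      γ σ • clsV (x := x) ht hC hm v := by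
  obtain ⟨p, hp⟩ := QuotientGroup.mk_surjective v.toMul
  have : v = Additive.ofMul (QuotientGroup.mk p) := by rw [hp]; rfl
  subst this
  change clsV (x := x) ht hC hm (Additive.ofMul (QuotientGroup.mk
    (actZ γ hC hm hbase hfix σ p))) = _
  rw [clsV_mk, clsV_mk, SemilinearAut.pic0_smul_mk]
  congr 1
  apply Subtype.ext
  ext w
  rw [SemilinearAut.coe_degZeroSMulHom, SemilinearAut.divisor_smul_apply]
  change dm m (γ σ • (p.1.1 : F)) w = dm m (p.1.1 : F) _
  rw [dm_apply hC, dm_apply hC]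
  have := SemilinearAut.ord_smul (γ σ) ((γ σ)⁻¹ • w) (p.1.1 : F)
  rw [smul_inv_smul] at this
  rw [this]

end Group

variable {Ω F : Type u} {κ Fb : Type*} [Field Ω] [Field κ] [Field F] [Field Fb] [Algebra Ω F]
  [Algebra κ Fb]
  {A : ValuationSubring Ω} {G : Type*} [Group G] [MulSemiringAction G Ω]
  {r : A →+* κ} {γ : G →* SemilinearAut Ω F}
  {W : ValuationSubring F} {ρ : W →+* Fb} {t : F} {tb : Fb}
  {m : ℕ} [IsAlgClosed Ω] [CharZero Ω] [IsAlgClosed κ]

/-- **Flatness at the level of inertia**: there is a flat module surjecting onto the `m`-torsion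
of the class group. -/
theorem GoodCrv.exists_flat (hG : GoodCrv r γ W ρ t tb) (hI : Inert G r) (htW : t ∈ W)
    (htb : ρ ⟨t, htW⟩ = tb) (hm : m ≠ 0) {S : Set F} (hS : S.Finite)
    (hSel : ∀ f : F, f ≠ 0 → (∀ v : Place Ω F, (m : ℤ) ∣ v.ord f) →
      ∃ f' ∈ S, ∃ u : F, u ≠ 0 ∧ f = f' * u ^ m) :
    ∃ (V : Type u) (_ : AddCommGroup V) (_ : Finite V) (_ : DistribMulAction G V)
      (π : V →+ Pic0 Ω F), IsFlat (fixA G A) G V Ω ∧
        (∀ (g : G) v, π (g • v) = γ g • π v) ∧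
        (∀ v, (m : ℤ) • π v = 0) ∧ ∀ y : Pic0 Ω F, (m : ℤ) • y = 0 → ∃ v, π v = y := by
  classical
  obtain ⟨g, C₁, hC₁⟩ := hG.sep.exists_crv
  obtain ⟨gb, C₂, hC₂⟩ := hG.sepb.exists_crv
  obtain ⟨hdeg, hgg, hpos⟩ := hG.numerics hC₁ hC₂
  let C : ℤ := max 0 (max C₁ C₂)
  have hC : Crv Ω F g C := hC₁.mono ((le_max_left _ _).trans (le_max_right _ _))
  have hCb : Crv κ Fb g C := by
    rw [← hgg]
    exact hC₂.mono ((le_max_right _ _).trans (le_max_right _ _))
  have hC0 : 0 ≤ C := le_max_left _ _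
  let s : ℕ := (C + 1).toNat
  have hs' : C + 1 ≤ s := Int.self_le_toNat _
  have hs : C + 1 ≤ s * dg (pol (K := Ω) t) := by
    have : (0 : ℤ) ≤ s := Int.natCast_nonneg _
    nlinarith
  let N : ℕ := (4 * s * dg (pol (K := Ω) t) + 1).toNat
  have hN : 4 * s * dg (pol (K := Ω) t) + 1 ≤ N := Int.self_le_toNat _
  obtain ⟨x, xb, hP⟩ := hG.exists_pts hI hC hCb htW htb N
  let _ := actV γ hC hm hG.base hP.fix
  have hfin := finite_cls (x := x) hC hm hS hSel
  have hfin' : Finite (Additive (Zg m x hC hm ⧸ Bg m x hC hm)) := hfin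
  have hcd := classData_out (x := x) hC hm hG.base hP.fix
  obtain ⟨Wv, Wb, hcrit⟩ := ClassData.critData hG hI hC hCb hP hm hcd hs hC0
    (by rw [Fintype.card_fin]; omega)
  exact ⟨Additive (Zg m x hC hm ⧸ Bg m x hC hm), inferInstance, hfin', inferInstance,
    clsV hG.sep hC hm, ⟨_, hcrit.isHopfOrder hI⟩, clsV_smul hG.sep hC hm hG.base hP.fix,
    clsV_torsion hG.sep hC hm, fun y hy => clsV_surj hG.sep hC hm hy⟩

end Fermat.Agent.Flat
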