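import Mathlib
import Fermat.Agent.Flat.Conc3

/-!
Good reduction of `X₀(N)`: the axioms.
-/

set_option autoImplicit false
set_option linter.unusedSectionVars false

noncomputable section

namespace Fermat.Agent.Flat

open AlgebraicCurve IsDedekindDomain IntermediateField WithZero Module Fermat.Agent.FunField
open Polynomial (aeval)
open Fermat.Agent.LG Fermat.Agent.ModFun Fermat.Agent.Geo
open Fermat.Agent.ESCore (HauptFn haupt2 haupt3 ιC)
open IsLocalRing ModularCurve

/-- The field of algebraic numbers. -/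
local notation "Qb" => AlgebraicClosure ℚ

section Level

variable {L : Type} [Field L] {B : ValuationSubring L} [IsDiscreteValuationRing B]
  {p : ℕ} [Fact p.Prime] {κ : ℤ} {N : ℕ} [NeZero N]

variable (B p κ) in
/-- evaluation at `t` -/
def evB : Polynomial B →+* gV B L :=
  ((toL B L).comp (Polynomial.eval₂RingHom HahnSeries.C (tS B p κ))).codRestrict (gV B L)
    fun _ => toL_mem_gV _

theorem coe_evB (P : Polynomial B) : (evB B p κ P : LaurentSeries L) =
    aeval (tS L p κ) (P.map B.subtype) := by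
  change toL B L (P.eval₂ HahnSeries.C (tS B p κ)) = _
  rw [Polynomial.hom_eval₂, aeval_eq_eval₂, Polynomial.eval₂_map]
  congr 1
  · ext1 a
    rw [RingHom.comp_apply, toL_C]
    rfl

theorem gR_evB (P : Polynomial B) : gR (evB B p κ P) =
    aeval (tS (ResidueField B) p κ) (P.map (residue B)) := by
  have h1 : evB B p κ P = ⟨toL B L (P.eval₂ HahnSeries.C (tS B p κ)), toL_mem_gV _⟩ := rfl
  rw [h1, gR_toL, toK_eval₂, aeval_eq_eval₂]
  congr 1

/-- Independence over `L(t)`. -/
theorem indep_level {d : ℕ} {e : Fin d → F0 L N} (he : ∀ i, (e i : LaurentSeries L) ∈ gV B L)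
    (hind : ∀ P : Fin d → Polynomial (ResidueField B),
      ∑ i, (P i).eval₂ HahnSeries.C (tS (ResidueField B) p κ) * gR (⟨_, he i⟩ : gV B L) = 0 →
        ∀ i, P i = 0)
    (P : Fin d → Polynomial L)
    (hP : ∑ i, aeval (tS L p κ) (P i) * (e i : LaurentSeries L) = 0) : ∀ i, P i = 0 := by
  refine indep_of_red (A := B) (r := residue B) (W := gV B L) (ρ := gR)
    (tb := tS (ResidueField B) p κ) (evB B p κ) coe_evB gR_evB he ?_ P hP
  intro P hP
  apply hind P
  rw [← hP]
  exact Finset.sum_congr rfl fun i _ => by rw [aeval_eq_eval₂]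

end Level

section Pre

variable {A : ValuationSubring Qb} {q : ℕ} {L : IntermediateField ℚ Qb}
  {p : ℕ} [Fact p.Prime] {κ : ℤ} {N : ℕ} [NeZero N]

/-- The parameter. -/
def tF (H : HauptFn p κ) (hp : p ∣ N) : F0 Qb N := ⟨tS Qb p κ, tS_mem_F0 H ιC hp⟩

theorem coe_tF (H : HauptFn p κ) (hp : p ∣ N) : (tF H hp : LaurentSeries Qb) = tS Qb p κ := rfl

theorem trans_tF (H : HauptFn p κ) (hp : p ∣ N) : Transcendental Qb (tF H hp) := by
  rw [transcendental_iff]
  intro P hP
  have h1 := congrArg (F0 Qb N).val hP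
  rw [← Polynomial.aeval_algHom_apply, map_zero] at h1
  change aeval (tS Qb p κ) P = 0 at h1
  exact (aeval_eq_zero_iff trans_tS).mp h1

theorem sep_tF (H : HauptFn p κ) (hp : p ∣ N) : Sep Qb (tF H hp) := by
  obtain ⟨ζ, hζ⟩ := exists_zetaΩ ιC N
  have := finiteDimensional_F0 (K := Qb) (N := N) hζ
  have hfd : FiniteDimensional Qb⟮tF H hp⟯ (F0 Qb N) :=
    finiteDimensional_adjoin (transcendental_jF (K := Qb) (N := N)) (trans_tF H hp)
  exact ⟨trans_tF H hp, hfd, inferInstance⟩

theorem tS_mem_gA : ∃ h : tS Qb p κ ∈ gA A,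
    gAR ⟨tS Qb p κ, h⟩ = tS (ResidueField A) p κ := by
  have h1 : lA A (tS A p κ) = tS Qb p κ := coeffMap_tS _ p κ
  have h2 : lK A (tS A p κ) = tS (ResidueField A) p κ := coeffMap_tS _ p κ
  refine ⟨by rw [← h1]; exact lA_mem_gA _, ?_⟩
  rw [← h2, ← gAR_lA]
  congr 1

/-- The basis. -/
theorem pre_of_level (hq : q.Prime) (hA : A.LiesOverPrime q) (hL : KI A ≤ L)
    [IsDiscreteValuationRing (A.comap (algebraMap L Qb))] (H : HauptFn p κ) (hp : p ∣ N)
    {d : ℕ} {e : Fin d → F0 L N}
    (hspan : ∀ y : F0 L N, ∃ (Q : Polynomial L) (P : Fin d → Polynomial L),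
      Q ≠ 0 ∧ aeval (tS L p κ) Q * (y : LaurentSeries L) =
        ∑ i, aeval (tS L p κ) (P i) * (e i : LaurentSeries L))
    (he : ∀ i, (e i : LaurentSeries L) ∈ gV (A.comap (algebraMap L Qb)) L)
    (hind : ∀ P : Fin d → Polynomial (ResidueField (A.comap (algebraMap L Qb))),
      ∑ i, (P i).eval₂ HahnSeries.C (tS (ResidueField (A.comap (algebraMap L Qb))) p κ) *
        gR (⟨_, he i⟩ : gV (A.comap (algebraMap L Qb)) L) = 0 → ∀ i, P i = 0) :
    Pre (residue A) (W0 A N) (ρ0 A N) (tF H hp) (tS (ResidueField A) p κ)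
      (fun i => liftF (algebraMap L Qb) N (e i)) := by
  have hW : ∀ i, liftF (algebraMap L Qb) N (e i) ∈ W0 A N := fun i =>
    (mem_gA_of_gV (he i)).1
  exact
  { surj := residue_surjective
    unit := fun a ha => by
      obtain ⟨u, hu⟩ : IsUnit a := (residue_ne_zero_iff_isUnit a).mp ha
      rw [← hu]
      have h1 : ((u : A) : Qb) * ((u⁻¹ : Aˣ) : A) = 1 := congrArg Subtype.val u.mul_inv
      rw [← eq_inv_of_mul_eq_one_right h1]
      exact ((u⁻¹ : Aˣ) : A).2
    alg := fun a ha => by
      rw [mem_W0]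
      have h1 : ((algebraMap Qb (F0 Qb N) a : F0 Qb N) : LaurentSeries Qb) = HahnSeries.C a :=
        algebraMap_laurent Qb a
      rw [h1]
      exact C_mem_gA ⟨a, ha⟩
    ralg := fun a ha => by
      rw [algebraMap_laurent, ← gAR_C, ρ0_apply]
      congr 1
      exact Subtype.ext (algebraMap_laurent Qb (a : Qb))
    runit := fun z hz => inv_mem_gA (x := ⟨_, z.2⟩) hz
    tW := tS_mem_gA.1
    tρ := tS_mem_gA.2
    tr := trans_tF H hp
    trb := trans_tS
    eW := hW
    span := by
      have hsep := sep_tF (N := N) H hp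
      have := hsep.fd
      exact fun x => span_of_level (algebraMap L Qb) e hspan (tF H hp) rfl inferInstance x
    ind := fun P hP => by
      choose P' hP' using fun i => Polynomial.map_surjective _ (subK_surjective hq hA hL) (P i)
      have h1 : ∀ i, ρ0 A N ⟨liftF (algebraMap L Qb) N (e i), hW i⟩ =
          coeffMap subK (gR (⟨_, he i⟩ : gV (A.comap (algebraMap L Qb)) L)) := fun i =>
        (mem_gA_of_gV (he i)).2
      have h2 : coeffMap subK (∑ i, (P' i).eval₂ HahnSeries.C
          (tS (ResidueField (A.comap (algebraMap L Qb))) p κ) *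
          gR (⟨_, he i⟩ : gV (A.comap (algebraMap L Qb)) L)) = 0 := by
        rw [map_sum, ← hP]
        refine Finset.sum_congr rfl fun i _ => ?_
        rw [map_mul, h1, ← aeval_eq_eval₂, coeffMap_aeval, hP', coeffMap_tS]
      have h3 := hind P' ((map_eq_zero_iff _ (coeffMap_inj subK.injective)).mp h2)
      intro i
      rw [← hP', h3 i, Polynomial.map_zero] }

end Pre

end Fermat.Agent.Flat
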