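import Mathlib
import Fermat.Agent.Flat.Conc4

/-!
Good reduction of `X₀(N)`: the axioms.
-/

set_option autoImplicit false
set_option linter.unusedSectionVars false

noncomputable section

namespace Fermat.Agent.Flat

open AlgebraicCurve IsDedekindDomain IntermediateField WithZero Module Fermat.Agent.FunField
open Polynomial (aeval)
open Fermat.Agent.LG Fermat.Agent.ModFun Fermat.Agent.Geo
open Fermat.Agent.ESCore (HauptFn haupt2 haupt3 ιC)
open IsLocalRing ModularCurve

/-- The field of algebraic numbers. -/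
local notation "Qb" => AlgebraicClosure ℚ

section

variable {A : ValuationSubring Qb} {q : ℕ} {L : IntermediateField ℚ Qb}
  {p : ℕ} [Fact p.Prime] {κ : ℤ} {N : ℕ} [NeZero N]

theorem sep_tbb {d : ℕ} {e : Fin d → F0 Qb N} [IsAlgClosed (ResidueField A)]
    {W : Subring (F0 Qb N)} {ρ : W →+* LaurentSeries (ResidueField A)} {t : F0 Qb N}
    (h : Pre (residue A) W ρ t (tS (ResidueField A) p κ) e) :
    Sep (ResidueField A) h.tbb := by
  have hfd := h.red.fd h.ρb_surjective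
  refine ⟨h.red.trb, hfd, ?_⟩
  obtain ⟨D, hD⟩ := exists_thDk (ResidueField A)
  exact sep_of_derivation hfd h.Fb.val D (by
    rw [hD]
    exact thD_tS_ne_zero)

/-- The lifting property. -/
theorem lift_of_level (hq : q.Prime) (hA : A.LiesOverPrime q) (hqN : ¬ q ∣ N) (hp : p ∣ N)
    {H : HauptFn p κ} {S : Set ℤ} {k : ℕ} {P : Polynomial ℤ} (hH : HautData H S k P)
    (hS : ∀ c ∈ S, ∀ c' ∈ S, c ≠ c' →
      IsUnit ((c - c' : ℤ) : A.comap (algebraMap (KI A) Qb))) :
    ∃ (d : ℕ) (e : Fin d → F0 Qb N)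
      (h : Pre (residue A) (W0 A N) (ρ0 A N) (tF H hp) (tS (ResidueField A) p κ) e),
      ∃ M : ℕ, ∀ n ≥ M, ∀ zb ∈ riemannRochSpace (n • pol (K := ResidueField A) h.tbb),
        ∃ z : W0 A N, (z : F0 Qb N) ∈ riemannRochSpace (n • pol (K := Qb) (tF H hp)) ∧
          h.ρb z = zb ∧ ∃ zL : F0 (KI A) N, (z : F0 Qb N) = liftF (algebraMap (KI A) Qb) N zL := by
  classical
  have hac : IsAlgClosed (ResidueField A) := isAlgClosed_residueA hq hA
  have hdvr := isDVR_KI hq hA
  have hac' := LG.isAlgClosed_residue A hq hA (KI A) le_rfl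
  have hNu : IsUnit ((N : ℕ) : A.comap (algebraMap (KI A) Qb)) := isUnit_natCast hq hA hqN
  obtain ⟨ζ, hζ⟩ := exists_zetaΩ ιC N
  have hζN : (ζ : Qb) ^ N = 1 := by
    apply ιC.injective
    rw [map_pow, hζ, map_one]
    exact (Complex.isPrimitiveRoot_exp N (NeZero.ne N)).pow_eq_one
  have hζL : (ζ : Qb) ∈ KI A := root_mem_KI hq hA hqN hζN
  let ζL : (KI A)ˣ := Units.mk0 ⟨ζ, hζL⟩ fun h0 => ζ.ne_zero (congrArg Subtype.val h0)
  let ι : KI A →+* ℂ := ιC.comp (algebraMap (KI A) Qb)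
  have hζ' : ι ζL = Complex.exp (2 * Real.pi * Complex.I / N) := hζ
  obtain ⟨π, hπi⟩ := IsDiscreteValuationRing.exists_irreducible (A.comap (algebraMap (KI A) Qb))
  have hπ : Prime π := hπi.prime
  have hle : Kt (KI A) p κ ≤ F0 (KI A) N := Kt_le_F0 H ι hp
  let _ := algO (A.comap (algebraMap (KI A) Qb)) (Kt (KI A) p κ)
  let _ := algO (A.comap (algebraMap (KI A) Qb)) (F0 (KI A) N)
  let _ := algI hle
  have _ : IsScalarTower (A.comap (algebraMap (KI A) Qb)) (Kt (KI A) p κ) (F0 (KI A) N) :=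
    tower_O _ hle
  obtain ⟨ht, hGR, hfd, huniq, e, he, hind⟩ := goodRed_F0 ι hζ' hNu hπ hp hH hS hle
  have hspan := level_span (N := N) hle hfd e fun P hP => indep_level he hind P hP
  have hpre := pre_of_level hq hA le_rfl H hp hspan he hind
  have hemb := (xModel_F0 (O := A.comap (algebraMap (KI A) Qb)) hle).isEmb
  have hgK : ∀ x : F0 (KI A) N, algebraMap (F0 (KI A) N) (LaurentSeries (KI A)) x ∈
      gK (A.comap (algebraMap (KI A) Qb)) (KI A) := fun x => F0_le_gK x.2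
  have hover := hemb.over (hθ := hgK) ht hπ
  let WL : Subring (F0 (KI A) N) := (gV (A.comap (algebraMap (KI A) Qb)) (KI A)).comap
    (algebraMap (F0 (KI A) N) (LaurentSeries (KI A)))
  have hu : ∀ c ∈ (fun c : ℤ => (c : A.comap (algebraMap (KI A) Qb))) '' S, c = 0 ∨ IsUnit c := by
    rintro _ ⟨c, hc, rfl⟩
    by_cases h0 : c = 0
    · left; rw [h0]; exact Int.cast_zero
    · right
      have := hS c hc 0 hH.zero h0
      rwa [sub_zero] at this
  have hGR' := goodRed_inv hGR ht.inv hu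
  have hsepL : Algebra.IsSeparable (Kt (KI A) p κ) (F0 (KI A) N) := inferInstance
  have hint : ∀ x ∈ WL, IntOver (gaussVal ht hπ).toSubring x := fun x hx =>
    intOver_of_unique WL (fun W' h1 h2 y hy => (huniq W' ⟨h1, h2⟩ y).mpr hy) hx
  have hint' : ∀ x, IntOver (gaussVal ht hπ).toSubring x → x ∈ WL := fun x hx =>
    mem_of_intOver hover.1 hx
  have hj : ∀ x ∈ WL, liftF (algebraMap (KI A) Qb) N x ∈ W0 A N := fun x hx =>
    (mem_gA_of_gV hx).1
  have hj2 : ∀ x (hx : x ∈ WL), ρ0 A N ⟨_, hj x hx⟩ =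
      coeffMap subK (gR (⟨_, hx⟩ : gV (A.comap (algebraMap (KI A) Qb)) (KI A))) := fun x hx =>
    (mem_gA_of_gV hx).2
  have hcoeO : ∀ a : A.comap (algebraMap (KI A) Qb),
      ((algebraMap (A.comap (algebraMap (KI A) Qb)) (F0 (KI A) N) a : F0 (KI A) N) :
        LaurentSeries (KI A)) = HahnSeries.C (algebraMap _ (KI A) a) := hemb.map_C
  have hCπ : (HahnSeries.C (algebraMap _ (KI A) π) : LaurentSeries (KI A)) ≠ 0 := by
    intro h0
    apply hπ.ne_zero
    apply Subtype.ext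
    exact HahnSeries.C_injective (h0.trans (map_zero _).symm)
  have hπ0 : algebraMap (A.comap (algebraMap (KI A) Qb)) (F0 (KI A) N) π ≠ 0 := by
    intro h4
    apply hCπ
    rw [← hcoeO, h4]
    rfl
  have hker : ∀ x (hx : x ∈ WL), ρ0 A N ⟨_, hj x hx⟩ = 0 → ∃ w ∈ WL, x = π • w := by
    intro x hx h0
    rw [hj2 x hx] at h0
    have h3 := (map_eq_zero_iff _ (coeffMap_inj subK.injective)).mp h0
    obtain ⟨y, hy, hxy⟩ := (gR_eq_zero_iff hπi _).mp h3
    refine ⟨(algebraMap _ (F0 (KI A) N) π)⁻¹ * x, ?_, ?_⟩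
    · change (((algebraMap _ (F0 (KI A) N) π)⁻¹ * x : F0 (KI A) N) : LaurentSeries (KI A)) ∈
        gV _ _
      have h6 : (x : LaurentSeries (KI A)) = HahnSeries.C (algebraMap _ (KI A) π) * y := hxy
      rw [IntermediateField.coe_mul, IntermediateField.coe_inv, hcoeO, h6, ← mul_assoc,
        inv_mul_cancel₀ hCπ, one_mul]
      exact hy
    · rw [Algebra.smul_def, ← mul_assoc, mul_inv_cancel₀ hπ0, one_mul]
  have hs : ∀ a : A.comap (algebraMap (KI A) Qb),
      liftF (algebraMap (KI A) Qb) N (algebraMap _ (F0 (KI A) N) a) =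
      algebraMap Qb (F0 Qb N) (subA a : A) := by
    intro a
    apply Subtype.ext
    rw [coe_liftF, hcoeO]
    have h3 : ((algebraMap Qb (F0 Qb N) (subA a : A) : F0 Qb N) : LaurentSeries Qb) =
      HahnSeries.C ((subA a : A) : Qb) := algebraMap_laurent Qb _
    rw [h3, HahnSeries.C_apply, HahnSeries.C_apply]
    exact coeffMap_single _ _ _
  have hsπ : residue A (subA π) = 0 := by
    rw [← subK_residue]
    have : residue _ π = 0 := by
      rw [residue_eq_zero_iff]
      exact hπ.not_isUnit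
    rw [this, map_zero]
  have hjt : liftF (algebraMap (KI A) Qb) N (algebraMap (Kt (KI A) p κ) (F0 (KI A) N)
      (tK (KI A) p κ)) = tF H hp := Subtype.ext (coeffMap_tS _ p κ)
  have htW : algebraMap (Kt (KI A) p κ) (F0 (KI A) N) (tK (KI A) p κ) ∈ WL := by
    change algebraMap (F0 (KI A) N) (LaurentSeries (KI A)) _ ∈ gV _ _
    rw [hemb.map_z]
    exact toL_mem_gV _
  have hOW : ∀ a, algebraMap (A.comap (algebraMap (KI A) Qb)) (F0 (KI A) N) a ∈ WL := by
    intro a
    change algebraMap (F0 (KI A) N) (LaurentSeries (KI A)) _ ∈ gV _ _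
    rw [hemb.map_C]
    exact C_mem_gV a
  have hinvL : ∀ x (hx : x ∈ WL), ρ0 A N ⟨_, hj x hx⟩ ≠ 0 → x⁻¹ ∈ WL := by
    intro x hx h0
    change algebraMap (F0 (KI A) N) (LaurentSeries (KI A)) _ ∈ gV _ _
    rw [map_inv₀]
    refine isUnit_of_gR_ne_zero (x := ⟨_, hx⟩) ?_
    intro h1
    apply h0
    rw [hj2 x hx, h1, map_zero]
  have hst := sep_tF (N := N) H hp
  have hstb := sep_tbb hpre
  have key := hpre.exists_lift hst hstb ht.inv hGR hGR' WL hint hint'
    (liftF (algebraMap (KI A) Qb) N) hj hker (subA (A := A) (L := KI A)) hs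
    (residueComp_surjective hq hA le_rfl)
    hsπ hjt htW hOW hinvL e he (fun i => rfl)
  obtain ⟨M, hM⟩ := key
  refine ⟨finrank (Kt (KI A) p κ) (F0 (KI A) N), fun i => liftF (algebraMap (KI A) Qb) N (e i),
    hpre, M, fun n hn zb hzb => ?_⟩
  obtain ⟨zL, hz, hz1, hz2⟩ := hM n hn zb hzb
  exact ⟨⟨liftF (algebraMap (KI A) Qb) N zL, hj zL hz⟩, hz1, hz2, zL, rfl⟩

end

end Fermat.Agent.Flat
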