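import Mathlib
import Fermat.Agent.Flat.Conc5
import Fermat.Agent.Flat.Class4

/-!
Good reduction of `X₀(N)`; flatness of the torsion of the class group at the level of inertia.
-/

set_option autoImplicit false
set_option linter.unusedSectionVars false

noncomputable section

namespace Fermat.Agent.Flat

open AlgebraicCurve IsDedekindDomain IntermediateField WithZero Module Fermat.Agent.FunField
open Polynomial (aeval)
open Fermat.Agent.LG Fermat.Agent.ModFun Fermat.Agent.Geo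
open Fermat.Agent.ESCore (HauptFn haupt2 haupt3 ιC)
open IsLocalRing ModularCurve

/-- The field of algebraic numbers. -/
local notation "Qb" => AlgebraicClosure ℚ
/-- The absolute Galois group. -/
local notation "GQ" => (AlgebraicClosure ℚ ≃ₐ[ℚ] AlgebraicClosure ℚ)

section

variable {A : ValuationSubring Qb} {q : ℕ}
  {p : ℕ} [Fact p.Prime] {κ : ℤ} {N : ℕ} [NeZero N]

theorem exists_goodCrv (hq : q.Prime) (hA : A.LiesOverPrime q) (hqN : ¬ q ∣ N) (hp : p ∣ N)
    {H : HauptFn p κ} {S : Set ℤ} {k : ℕ} {P : Polynomial ℤ} (hH : HautData H S k P)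
    (hS : ∀ c ∈ S, ∀ c' ∈ S, c ≠ c' →
      IsUnit ((c - c' : ℤ) : A.comap (algebraMap (KI A) Qb)))
    {G : Type*} [Group G] [MulSemiringAction G Qb] (γ : G →* SemilinearAut Qb (F0 Qb N))
    (hbase : ∀ (g : G) (a : Qb), SemilinearAut.baseAut (γ g) a = g • a)
    (hcoe : ∀ (g : G) (x : F0 Qb N), ((γ g • x : F0 Qb N) : LaurentSeries Qb) =
      coeffMap ((MulSemiringAction.toRingEquiv G Qb g : Qb ≃+* Qb) : Qb →+* Qb) x)
    (hfix : ∀ (g : G), ∀ x ∈ KI A, g • x = x)
    (hstab : ∀ (g : G), ∀ a ∈ A, g • a ∈ A)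
    (htriv : ∀ (g : G) (a : A), residue A ⟨g • (a : Qb), hstab g a a.2⟩ = residue A a) :
    ∃ (Fb : IntermediateField (ResidueField A) (LaurentSeries (ResidueField A)))
      (W : ValuationSubring (F0 Qb N)) (ρ : W →+* Fb) (t : F0 Qb N) (tb : Fb) (htW : t ∈ W),
      ρ ⟨t, htW⟩ = tb ∧ GoodCrv (residue A) γ W ρ t tb := by
  have hac : IsAlgClosed (ResidueField A) := isAlgClosed_residueA hq hA
  obtain ⟨d, e, h, M, hM⟩ := lift_of_level hq hA hqN hp hH hS
  have hgA : ∀ (g : G) (x : LaurentSeries Qb) (hx : x ∈ gA A),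
      ∃ h : coeffMap ((MulSemiringAction.toRingEquiv G Qb g : Qb ≃+* Qb) : Qb →+* Qb) x ∈ gA A,
        gAR ⟨_, h⟩ = gAR ⟨x, hx⟩ := fun g x hx =>
    coeffMap_mem_gA (σ := MulSemiringAction.toRingEquiv G Qb g) (hstab g) (htriv g) hx
  refine ⟨h.Fb, h.red.val, h.red.ρv, tF H hp, h.tbb, h.tW, h.red.tρ, ?_⟩
  refine h.red.goodCrv (sep_tF H hp) (sep_tbb h) ⟨M, fun n hn zb hzb => ?_⟩ hbase ?_ ?_ ?_
  · obtain ⟨z, hz1, hz2, zL, hzL⟩ := hM n hn zb hzb
    refine ⟨z, hz1, hz2, fun g => ?_⟩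
    apply Subtype.ext
    rw [hcoe, hzL, coe_liftF]
    ext i
    exact hfix g _ ((zL : LaurentSeries (KI A)).coeff i).2
  · intro g z hz
    rw [mem_W0, hcoe]
    exact (hgA g _ hz).1
  · intro g z hz
    apply Subtype.ext
    change ρ0 A N _ = ρ0 A N _
    refine Eq.trans ?_ (hgA g _ z.2).2
    change gAR _ = _
    congr 1
    exact Subtype.ext (hcoe g _)
  · intro g
    apply Subtype.ext
    rw [hcoe, coe_tF]
    exact coeffMap_tS _ p κ

/-- The action of inertia. -/
theorem inert_residue (hq : q.Prime) (hA : A.LiesOverPrime q) :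
    Inert (A.inertiaSubgroupIn ℚ) (residue A) where
  surj x := by
    obtain ⟨a, rfl⟩ := residue_surjective x
    obtain ⟨b, hbK, hbA, hb⟩ := LG.exists_residue hq hA a.2
    refine ⟨⟨b, hbA⟩, fun g => ?_, ?_⟩
    · exact mem_KI.mp hbK g g.2
    · rw [← sub_eq_zero, ← map_sub, residue_eq_zero_iff]
      refine (ValuationSubring.valuation_lt_one_iff _ _).mpr ?_
      rw [← Valuation.map_neg, neg_sub] at hb
      exact hb
  unit a ha := by
    obtain ⟨u, hu⟩ : IsUnit a := (residue_ne_zero_iff_isUnit a).mp ha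
    rw [← hu]
    have h1 : ((u : A) : Qb) * ((u⁻¹ : Aˣ) : A) = 1 := congrArg Subtype.val u.mul_inv
    rw [← eq_inv_of_mul_eq_one_right h1]
    exact ((u⁻¹ : Aˣ) : A).2
  stab g a ha := by
    have h1 := EC.inertia_residue g.2 ((A.valuation_le_one_iff a).mpr ha)
    have h2 : (g : GQ) a = a + ((g : GQ) a - a) := by ring
    change (g : GQ) a ∈ A
    rw [h2]
    exact add_mem ha ((A.valuation_le_one_iff _).mp h1.le)
  triv g a h := by
    have h1 := EC.inertia_residue g.2 ((A.valuation_le_one_iff (a : Qb)).mpr a.2)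
    rw [← sub_eq_zero, ← map_sub, residue_eq_zero_iff]
    exact (ValuationSubring.valuation_lt_one_iff _ _).mpr h1

end

end Fermat.Agent.Flat
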