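import Mathlib
import Fermat.Agent.Flat.Class4

/-!
Functions with divisor divisible by `m`, modulo `m`-th powers.
-/

set_option autoImplicit false
set_option linter.unusedSectionVars false

noncomputable section

namespace Fermat.Agent.Flat

open AlgebraicCurve IsDedekindDomain IntermediateField WithZero Module Fermat.Agent.FunField

section Val

variable {K F : Type*} [Field K] [Field F] [Algebra K F]

/-- Any valuation trivial on the constants is trivial or a multiple of a place. -/
theorem dvd_of_val (o : F → ℤ) (hmul : ∀ x y, x ≠ 0 → y ≠ 0 → o (x * y) = o x + o y)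
    (hadd : ∀ x y, x ≠ 0 → y ≠ 0 → x + y ≠ 0 → min (o x) (o y) ≤ o (x + y))
    (hconst : ∀ a : K, a ≠ 0 → o (algebraMap K F a) = 0) {m : ℤ} {f : F} (hf : f ≠ 0)
    (h : ∀ v : Place K F, m ∣ v.ord f) : m ∣ o f := by
  classical
  have hone : o 1 = 0 := by
    have := hmul 1 1 one_ne_zero one_ne_zero
    rw [mul_one] at this
    omega
  have hinv : ∀ x, x ≠ 0 → o x⁻¹ = - o x := by
    intro x hx
    have := hmul x x⁻¹ hx (inv_ne_zero hx)
    rw [mul_inv_cancel₀ hx, hone] at this
    omega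
  have hpow : ∀ x, x ≠ 0 → ∀ n : ℕ, o (x ^ n) = n * o x := by
    intro x hx n
    induction n with
    | zero => simp [hone]
    | succ n ih =>
      rw [pow_succ, hmul _ _ (pow_ne_zero n hx) hx, ih]
      push_cast
      ring
  have hzpow : ∀ x, x ≠ 0 → ∀ n : ℤ, o (x ^ n) = n * o x := by
    intro x hx n
    obtain ⟨n, rfl | rfl⟩ := n.eq_nat_or_neg
    · rw [zpow_natCast, hpow x hx]
    · rw [zpow_neg, zpow_natCast, hinv _ (pow_ne_zero n hx), hpow x hx]
      ring
  by_cases htriv : ∀ x, x ≠ 0 → o x = 0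
  · rw [htriv f hf]
    exact dvd_zero m
  push Not at htriv
  obtain ⟨x₀, hx₀, hox₀⟩ := htriv
  -- an element of minimal positive order
  have hex : ∃ n : ℕ, 0 < n ∧ ∃ x : F, x ≠ 0 ∧ o x = n := by
    rcases lt_or_gt_of_ne hox₀ with h1 | h1
    · exact ⟨(-o x₀).toNat, by omega, x₀⁻¹, inv_ne_zero hx₀, by rw [hinv _ hx₀]; omega⟩
    · exact ⟨(o x₀).toNat, by omega, x₀, hx₀, by omega⟩
  obtain ⟨hn0, u, hu0, hu⟩ := Nat.find_spec hex
  set e := Nat.find hex with he
  have hmin : ∀ x : F, x ≠ 0 → 0 < o x → (e : ℤ) ≤ o x := by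
    intro x hx hx0
    have h1 := Nat.find_min' hex (m := (o x).toNat) ⟨by omega, x, hx, by omega⟩
    omega
  have hedvd : ∀ x, x ≠ 0 → (e : ℤ) ∣ o x := by
    intro x hx
    by_contra hnd
    have he0 : (0 : ℤ) < e := by exact_mod_cast hn0
    have h1 : o (x * u ^ (-(o x / e))) = o x % e := by
      rw [hmul _ _ hx (zpow_ne_zero _ hu0), hzpow u hu0, hu, Int.emod_def]
      ring
    have h2 := Int.emod_nonneg (o x) he0.ne'
    have h3 := Int.emod_lt_of_pos (o x) he0
    have h4 : o x % e ≠ 0 := fun h => hnd (Int.dvd_of_emod_eq_zero h)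
    have h5 := hmin _ (mul_ne_zero hx (zpow_ne_zero (-(o x / e)) hu0)) (by rw [h1]; omega)
    rw [h1] at h5
    omega
  -- the valuation ring
  let V : ValuationSubring F :=
    { carrier := {x | x = 0 ∨ 0 ≤ o x}
      mul_mem' := by
        rintro a b (rfl | ha) (rfl | hb)
        · exact Or.inl (mul_zero _)
        · exact Or.inl (zero_mul _)
        · exact Or.inl (mul_zero _)
        · by_cases ha0 : a = 0
          · exact Or.inl (by rw [ha0, zero_mul])
          by_cases hb0 : b = 0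
          · exact Or.inl (by rw [hb0, mul_zero])
          · exact Or.inr (by rw [hmul _ _ ha0 hb0]; omega)
      one_mem' := Or.inr hone.ge
      add_mem' := by
        intro a b ha hb
        by_cases ha0 : a = 0
        · rw [ha0, zero_add]; exact hb
        by_cases hb0 : b = 0
        · rw [hb0, add_zero]; exact ha
        by_cases hab : a + b = 0
        · exact Or.inl hab
        · refine Or.inr (le_trans (le_min ?_ ?_) (hadd a b ha0 hb0 hab))
          · exact ha.resolve_left ha0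
          · exact hb.resolve_left hb0
      zero_mem' := Or.inl rfl
      neg_mem' := by
        rintro a (rfl | ha)
        · exact Or.inl neg_zero
        · by_cases ha0 : a = 0
          · exact Or.inl (by rw [ha0, neg_zero])
          · right
            have h1 : o (-1) = 0 := by
              have := hmul (-1) (-1) (neg_ne_zero.mpr one_ne_zero) (neg_ne_zero.mpr one_ne_zero)
              rw [neg_mul_neg, mul_one, hone] at this
              omega
            rw [← neg_one_mul, hmul _ _ (neg_ne_zero.mpr one_ne_zero) ha0, h1]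
            omega
      mem_or_inv_mem' := by
        intro x
        by_cases hx : x = 0
        · exact Or.inl (Or.inl hx)
        · rcases le_total 0 (o x) with h1 | h1
          · exact Or.inl (Or.inr h1)
          · exact Or.inr (Or.inr (by rw [hinv x hx]; omega)) }
  have hmem : ∀ x, x ∈ V ↔ x = 0 ∨ 0 ≤ o x := fun x => Iff.rfl
  have he0 : (0 : ℤ) < e := by exact_mod_cast hn0
  have huV : u ∈ V := Or.inr (by rw [hu]; exact he0.le)
  have hunit : ∀ x : V, x ≠ 0 → o x = 0 → IsUnit x := by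
    intro x hx h0
    have hx0 : (x : F) ≠ 0 := fun h => hx (Subtype.ext h)
    have h1 : (x : F)⁻¹ ∈ V := Or.inr (by rw [hinv _ hx0, h0, neg_zero])
    exact ⟨⟨x, ⟨_, h1⟩, Subtype.ext (mul_inv_cancel₀ hx0), Subtype.ext (inv_mul_cancel₀ hx0)⟩, rfl⟩
  have hunit' : ∀ x : Vˣ, o ((x : V) : F) = 0 := by
    intro x
    have hx0 : ((x : V) : F) ≠ 0 := fun h => x.ne_zero (Subtype.ext h)
    have h1 := ((hmem _).mp (x : V).2).resolve_left hx0
    have h3 : (((x⁻¹ : Vˣ) : V) : F) = ((x : V) : F)⁻¹ := by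
      have h3 := congrArg Subtype.val (x.mul_inv)
      have h4 : ((x : V) : F) * (((x⁻¹ : Vˣ) : V) : F) = 1 := h3
      exact eq_inv_of_mul_eq_one_right h4
    have h2 := ((hmem _).mp ((x⁻¹ : Vˣ) : V).2).resolve_left (by rw [h3]; exact inv_ne_zero hx0)
    rw [h3, hinv _ hx0] at h2
    omega
  have hfac : ∀ x : V, x ≠ 0 → ∃ (n : ℕ) (w : Vˣ), (⟨u, huV⟩ : V) ^ n * w = x := by
    intro x hx
    have hx0 : (x : F) ≠ 0 := fun h => hx (Subtype.ext h)
    have h1 := ((hmem _).mp x.2).resolve_left hx0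
    obtain ⟨k, hk⟩ := hedvd x hx0
    have hk0 : 0 ≤ k := by nlinarith
    have h3 : o ((x : F) * u ^ (-k)) = 0 := by
      rw [hmul _ _ hx0 (zpow_ne_zero _ hu0), hzpow u hu0, hu, hk]
      ring
    have h4 : (x : F) * u ^ (-k) ∈ V := Or.inr h3.ge
    obtain ⟨w, hw⟩ := hunit ⟨_, h4⟩ (fun h => by
      have := congrArg Subtype.val h
      exact mul_ne_zero hx0 (zpow_ne_zero _ hu0) this) h3
    refine ⟨k.toNat, w, Subtype.ext ?_⟩
    rw [hw]
    change u ^ k.toNat * ((x : F) * u ^ (-k)) = x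
    rw [← zpow_natCast, Int.toNat_of_nonneg hk0, zpow_neg]
    have := zpow_ne_zero k hu0
    field_simp
  have hirr : Irreducible (⟨u, huV⟩ : V) := by
    refine ⟨fun h => ?_, fun x y hxy => ?_⟩
    · obtain ⟨w, hw⟩ := h
      have h1 := hunit' w
      rw [hw, hu] at h1
      omega
    have hxy' : u = (x : F) * y := congrArg Subtype.val hxy
    have hx0 : (x : F) ≠ 0 := by
      intro h
      rw [h, zero_mul] at hxy'
      exact hu0 hxy'
    have hy0 : (y : F) ≠ 0 := by
      intro h
      rw [h, mul_zero] at hxy'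
      exact hu0 hxy'
    have h1 := ((hmem _).mp x.2).resolve_left hx0
    have h2 := ((hmem _).mp y.2).resolve_left hy0
    have h3 := hmul _ _ hx0 hy0
    rw [← hxy', hu] at h3
    rcases h1.eq_or_lt with h4 | h4
    · exact Or.inl (hunit x (fun h => hx0 (congrArg Subtype.val h)) h4.symm)
    · have h5 := hmin _ hx0 h4
      exact Or.inr (hunit y (fun h => hy0 (congrArg Subtype.val h)) (by omega))
  have hdvr : IsDiscreteValuationRing V :=
    IsDiscreteValuationRing.ofHasUnitMulPowIrreducibleFactorization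
      ⟨_, hirr, fun {x} hx => hfac x hx⟩
  let v : Place K F :=
    { toValuationSubring := V
      algebraMap_mem' := fun a => by
        by_cases ha : a = 0
        · exact Or.inl (by rw [ha, map_zero])
        · exact Or.inr (hconst a ha).ge
      ne_top' := by
        intro htop
        have h1 : u⁻¹ ∈ V := htop ▸ ValuationSubring.mem_top _
        have h2 := ((hmem _).mp h1).resolve_left (inv_ne_zero hu0)
        rw [hinv _ hu0, hu] at h2
        omega
      isPrincipalIdealRing' := inferInstance }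
  obtain ⟨w, hw⟩ := v.exists_unit_mul_zpow hf (π := ⟨u, huV⟩) hirr
  have h1 : o f = v.ord f * e := by
    have hw0 : ((w : V) : F) ≠ 0 := fun h => w.ne_zero (Subtype.ext h)
    conv_lhs => rw [hw]
    rw [hmul _ _ hw0 (zpow_ne_zero _ hu0), hzpow u hu0, hu]
    have := hunit' w
    rw [this, zero_add]
  rw [h1]
  exact (h v).mul_right _

/-- The order at a place pulled back by a ring homomorphism. -/
theorem dvd_ord_map {K' F' : Type*} [Field K'] [Field F'] [Algebra K' F'] (φ : F →+* F')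
    (hφ : ∀ a : K, ∃ b : K', φ (algebraMap K F a) = algebraMap K' F' b) {m : ℤ} {f : F}
    (hf : f ≠ 0) (h : ∀ v : Place K F, m ∣ v.ord f) (w : Place K' F') : m ∣ w.ord (φ f) := by
  refine dvd_of_val (K := K) (fun x => w.ord (φ x)) ?_ ?_ ?_ hf h
  · intro x y hx hy
    change w.ord (φ (x * y)) = _
    rw [map_mul, w.ord_mul ((map_ne_zero φ).mpr hx) ((map_ne_zero φ).mpr hy)]
  · intro x y hx hy hxy
    change _ ≤ w.ord (φ (x + y))
    rw [map_add]
    have h1 : φ x + φ y ≠ 0 := by
      rw [← map_add]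
      exact (map_ne_zero φ).mpr hxy
    rcases ord_add_le w h1 with h2 | h2 | h2
    · exact h2
    · exact absurd h2 ((map_ne_zero φ).mpr hx)
    · exact absurd h2 ((map_ne_zero φ).mpr hy)
  · intro a ha
    obtain ⟨b, hb⟩ := hφ a
    change w.ord (φ (algebraMap K F a)) = 0
    rw [hb]
    exact ord_algebraMap w b

end Val

section Sel

variable (K F : Type*) [Field K] [Field F] [Algebra K F] (m : ℕ)

/-- Functions with divisor divisible by `m`. -/
def SelZ : Subgroup Fˣ where
  carrier := {f | ∀ v : Place K F, (m : ℤ) ∣ v.ord (f : F)}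
  one_mem' := fun v => by rw [Units.val_one, v.ord_one]; exact dvd_zero _
  mul_mem' := fun {f g} hf hg v => by
    rw [Units.val_mul, v.ord_mul f.ne_zero g.ne_zero]
    exact dvd_add (hf v) (hg v)
  inv_mem' := fun {f} hf v => by
    rw [Units.val_inv_eq_inv_val, v.ord_inv]
    exact (dvd_neg).mpr (hf v)

/-- `m`-th powers. -/
def SelB : Subgroup (SelZ K F m) where
  carrier := {f | ∃ u : Fˣ, (f : Fˣ) = u ^ m}
  one_mem' := ⟨1, by simp⟩
  mul_mem' := by
    rintro f g ⟨u, hu⟩ ⟨w, hw⟩
    exact ⟨u * w, by rw [Subgroup.coe_mul, hu, hw, mul_pow]⟩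
  inv_mem' := by
    rintro f ⟨u, hu⟩
    exact ⟨u⁻¹, by rw [Subgroup.coe_inv, hu, inv_pow]⟩

/-- Functions with divisor divisible by `m` modulo `m`-th powers. -/
abbrev Sel : Type _ := Additive (SelZ K F m ⧸ SelB K F m)

variable {K F m}

/-- the class of a function -/
def Sel.mk (f : SelZ K F m) : Sel K F m := Additive.ofMul (QuotientGroup.mk f)

theorem Sel.mk_surjective : Function.Surjective (Sel.mk (K := K) (F := F) (m := m)) := by
  intro v
  obtain ⟨p, hp⟩ := QuotientGroup.mk_surjective v.toMul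
  exact ⟨p, by rw [Sel.mk, hp]; rfl⟩

theorem Sel.mk_mul (f g : SelZ K F m) : Sel.mk (f * g) = Sel.mk f + Sel.mk g := rfl

theorem Sel.mk_eq_zero {f : SelZ K F m} :
    Sel.mk f = 0 ↔ ∃ u : F, u ≠ 0 ∧ ((f : Fˣ) : F) = u ^ m := by
  have h1 : Sel.mk f = 0 ↔ f ∈ SelB K F m := QuotientGroup.eq_one_iff f
  rw [h1]
  constructor
  · rintro ⟨u, hu⟩
    exact ⟨u, u.ne_zero, by rw [hu, Units.val_pow_eq_pow_val]⟩
  · rintro ⟨u, hu, hfu⟩
    exact ⟨Units.mk0 u hu, Units.ext (by rw [hfu, Units.val_pow_eq_pow_val, Units.val_mk0])⟩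

theorem Sel.torsion (x : Sel K F m) : m • x = 0 := by
  obtain ⟨f, rfl⟩ := Sel.mk_surjective x
  have h1 : ∀ n : ℕ, n • Sel.mk f = Sel.mk (f ^ n) := fun n => rfl
  rw [h1, Sel.mk_eq_zero]
  exact ⟨(f : Fˣ), Units.ne_zero _, by simp⟩

section Map

variable {K' F' : Type*} [Field K'] [Field F'] [Algebra K' F'] (φ : F →+* F')
    (hφ : ∀ a : K, ∃ b : K', φ (algebraMap K F a) = algebraMap K' F' b)

/-- functoriality -/
def SelZ.map (m : ℕ) : SelZ K F m →* SelZ K' F' m where
  toFun f := ⟨Units.map (φ : F →* F') (f : Fˣ), fun w =>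
    dvd_ord_map φ hφ (Units.ne_zero (f : Fˣ)) f.2 w⟩
  map_one' := Subtype.ext (map_one _)
  map_mul' _ _ := Subtype.ext (map_mul _ _ _)

/-- functoriality -/
def Sel.map (m : ℕ) : Sel K F m →+ Sel K' F' m :=
  MonoidHom.toAdditive (QuotientGroup.map _ _ (SelZ.map φ hφ m) (by
    rintro f ⟨u, hu⟩
    refine ⟨Units.map (φ : F →* F') u, ?_⟩
    change Units.map (φ : F →* F') (f : Fˣ) = _
    rw [hu, map_pow]))

theorem Sel.map_mk (m : ℕ) (f : SelZ K F m) :
    Sel.map φ hφ m (Sel.mk f) = Sel.mk (SelZ.map φ hφ m f) := rfl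

theorem Sel.map_injective (m : ℕ) (h : ∀ f : F, f ≠ 0 → (∀ v : Place K F, (m : ℤ) ∣ v.ord f) →
    (∃ u : F', u ≠ 0 ∧ φ f = u ^ m) → ∃ u : F, f = u ^ m) :
    Function.Injective (Sel.map φ hφ m) := by
  by_cases hm : m = 0
  · subst hm
    rw [injective_iff_map_eq_zero]
    intro x hx
    obtain ⟨f, rfl⟩ := Sel.mk_surjective x
    rw [Sel.map_mk, Sel.mk_eq_zero] at hx
    obtain ⟨u, hu, hfu⟩ := hx
    rw [Sel.mk_eq_zero]
    refine ⟨1, one_ne_zero, ?_⟩
    rw [pow_zero] at hfu ⊢
    exact φ.injective (by rw [map_one]; exact hfu)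
  rw [injective_iff_map_eq_zero]
  intro x hx
  obtain ⟨f, rfl⟩ := Sel.mk_surjective x
  rw [Sel.map_mk, Sel.mk_eq_zero] at hx
  obtain ⟨u, hu⟩ := h _ (Units.ne_zero _) f.2 hx
  rw [Sel.mk_eq_zero]
  refine ⟨u, ?_, hu⟩
  rintro rfl
  rw [zero_pow hm] at hu
  exact (f : Fˣ).ne_zero hu

end Map

section Act

variable {G : Type*} [Group G] (γ : G →* SemilinearAut K F)

theorem smul_comm_aux (σ : G) (a : K) : ∃ b : K,
    MulSemiringAction.toRingHom (SemilinearAut K F) F (γ σ) (algebraMap K F a) =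
      algebraMap K F b := ⟨_, SemilinearAut.smul_algebraMap (γ σ) a⟩

variable (m) in
/-- the action on functions -/
def selHom (σ : G) : Sel K F m →+ Sel K F m :=
  Sel.map (MulSemiringAction.toRingHom (SemilinearAut K F) F (γ σ)) (smul_comm_aux γ σ) m

theorem selHom_mk (σ : G) (f : SelZ K F m) : ∃ h, selHom m γ σ (Sel.mk f) =
    Sel.mk ⟨Units.mk0 (γ σ • ((f : Fˣ) : F)) (by
      intro h0
      exact (f : Fˣ).ne_zero (by
        have := congrArg (fun y => (γ σ)⁻¹ • y) h0
        simpa using this)), h⟩ := by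
  have h1 : selHom m γ σ (Sel.mk f) = Sel.mk (SelZ.map _ (smul_comm_aux γ σ) m f) := rfl
  have h2 : ((SelZ.map _ (smul_comm_aux γ σ) m f : SelZ K F m) : Fˣ) =
      Units.mk0 (γ σ • ((f : Fˣ) : F)) (by
      intro h0
      exact (f : Fˣ).ne_zero (by
        have := congrArg (fun y => (γ σ)⁻¹ • y) h0
        simpa using this)) := Units.ext rfl
  refine ⟨by rw [← h2]; exact Subtype.prop _, ?_⟩
  rw [h1]
  congr 1
  exact Subtype.ext h2

variable (m) in
/-- The action on classes. -/
@[reducible] def selAct : DistribMulAction G (Sel K F m) where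
  smul σ v := selHom m γ σ v
  one_smul v := by
    obtain ⟨f, rfl⟩ := Sel.mk_surjective v
    obtain ⟨h, h1⟩ := selHom_mk γ 1 f
    refine h1.trans ?_
    congr 1
    apply Subtype.ext
    apply Units.ext
    change γ 1 • ((f : Fˣ) : F) = _
    rw [map_one, one_smul]
  mul_smul σ τ v := by
    obtain ⟨f, rfl⟩ := Sel.mk_surjective v
    change Sel.mk (SelZ.map _ (smul_comm_aux γ (σ * τ)) m f) =
      Sel.mk (SelZ.map _ (smul_comm_aux γ σ) m (SelZ.map _ (smul_comm_aux γ τ) m f))
    congr 1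
    apply Subtype.ext
    apply Units.ext
    change γ (σ * τ) • ((f : Fˣ) : F) = γ σ • γ τ • ((f : Fˣ) : F)
    rw [map_mul, mul_smul]
  smul_zero σ := map_zero _
  smul_add σ v w := map_add _ _ _

end Act

end Sel

end Fermat.Agent.Flat
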