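import Mathlib
import Fermat.Agent.Flat.Sel

/-!
The torsion of the class group and divisible functions.
-/

set_option autoImplicit false
set_option linter.unusedSectionVars false

noncomputable section

namespace Fermat.Agent.Flat

open AlgebraicCurve IsDedekindDomain IntermediateField WithZero Module Fermat.Agent.FunField

universe u

section Pic

variable {Ω F : Type u} [Field Ω] [Field F] [Algebra Ω F] {m : ℕ} {g C : ℤ}

theorem SelZ.adm (f : SelZ Ω F m) :
    Adm m (Fin.elim0 : Fin 0 → Place Ω F) ((f : Fˣ) : F) (Fin.elim0 : Fin 0 → Ω) :=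
  ⟨Units.ne_zero _, f.2, fun i => i.elim0, fun i => i.elim0⟩

variable [IsAlgClosed Ω] [CharZero Ω] {t : F}

/-- the class of `(1/m) div f` -/
def toPicZ (ht : Sep Ω t) (hC : Crv Ω F g C) (hm : m ≠ 0) :
    SelZ Ω F m →* Multiplicative (Pic0 Ω F) where
  toFun p := Multiplicative.ofAdd (Pic0.mk ⟨dm m ((p : Fˣ) : F), by
    rw [Divisor.mem_degZero, degree_eq_dg ht]
    exact (SelZ.adm p).dg_dm hC hm⟩)
  map_one' := by
    have h1 : (⟨dm (K := Ω) m (((1 : SelZ Ω F m) : Fˣ) : F), by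
        rw [Divisor.mem_degZero, degree_eq_dg ht]
        exact (SelZ.adm 1).dg_dm hC hm⟩ : Divisor.degZero (K := Ω) (F := F)) = 0 := by
      apply Subtype.ext
      exact dm_one hC
    rw [h1]
    rfl
  map_mul' p q := by
    rw [← ofAdd_add, ← Pic0.mk_add]
    congr 2
    apply Subtype.ext
    exact (SelZ.adm p).dm_mul hC (SelZ.adm q)

theorem toPicZ_ker (ht : Sep Ω t) (hC : Crv Ω F g C) (hm : m ≠ 0) :
    (toPicZ ht hC hm).ker = SelB Ω F m := by
  ext p
  have key : p ∈ (toPicZ ht hC hm).ker ↔ ∃ u : F, u ≠ 0 ∧ ∀ v : Place Ω F,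
      dm m ((p : Fˣ) : F) v = v.ord u := by
    rw [MonoidHom.mem_ker]
    change Multiplicative.ofAdd (Pic0.mk _) = Multiplicative.ofAdd 0 ↔ _
    rw [Multiplicative.ofAdd.injective.eq_iff, Pic0.mk, QuotientAddGroup.eq_zero_iff,
      AddSubgroup.mem_addSubgroupOf]
    rfl
  rw [key]
  constructor
  · rintro ⟨u, hu, h⟩
    have h1 : ∀ v : Place Ω F, v.ord (((p : Fˣ) : F) / u ^ m) = 0 := by
      intro v
      rw [div_eq_mul_inv, v.ord_mul (Units.ne_zero _) (inv_ne_zero (pow_ne_zero _ hu)), v.ord_inv,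
        ord_pow, ← h, (SelZ.adm p).mul_dm hC]
      ring
    obtain ⟨c, hc⟩ := hC.const _ fun v => (h1 v).ge
    obtain ⟨c', hc'⟩ := IsAlgClosed.exists_pow_nat_eq c (Nat.pos_of_ne_zero hm)
    have h2 : ((p : Fˣ) : F) = (algebraMap Ω F c' * u) ^ m := by
      rw [mul_pow, ← map_pow, hc', hc, div_mul_cancel₀ _ (pow_ne_zero _ hu)]
    have h3 : algebraMap Ω F c' * u ≠ 0 := by
      intro h0
      rw [h0, zero_pow hm] at h2
      exact (p : Fˣ).ne_zero h2
    exact ⟨Units.mk0 _ h3, Units.ext h2⟩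
  · rintro ⟨u, hu⟩
    refine ⟨u, u.ne_zero, fun v => ?_⟩
    rw [dm_apply hC, hu, Units.val_pow_eq_pow_val, ord_pow]
    exact Int.mul_ediv_cancel_left _ (by exact_mod_cast hm)

/-- The map to the class group. -/
def toPic (ht : Sep Ω t) (hC : Crv Ω F g C) (hm : m ≠ 0) : Sel Ω F m →+ Pic0 Ω F :=
  MonoidHom.toAdditiveLeft (QuotientGroup.lift (SelB Ω F m) (toPicZ ht hC hm)
    (toPicZ_ker ht hC hm).ge)

theorem toPic_mk (ht : Sep Ω t) (hC : Crv Ω F g C) (hm : m ≠ 0) (p : SelZ Ω F m) :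
    toPic ht hC hm (Sel.mk p) = Pic0.mk ⟨dm m ((p : Fˣ) : F), by
        rw [Divisor.mem_degZero, degree_eq_dg ht]
        exact (SelZ.adm p).dg_dm hC hm⟩ := rfl

theorem toPic_injective (ht : Sep Ω t) (hC : Crv Ω F g C) (hm : m ≠ 0) :
    Function.Injective (toPic ht hC hm) := by
  rw [injective_iff_map_eq_zero]
  intro x hx
  obtain ⟨p, rfl⟩ := Sel.mk_surjective x
  have h1 : p ∈ (toPicZ ht hC hm).ker := hx
  rw [toPicZ_ker] at h1
  exact (QuotientGroup.eq_one_iff p).mpr h1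

theorem toPic_torsion (ht : Sep Ω t) (hC : Crv Ω F g C) (hm : m ≠ 0) (v : Sel Ω F m) :
    (m : ℤ) • toPic ht hC hm v = 0 := by
  rw [natCast_zsmul, ← map_nsmul, Sel.torsion, map_zero]

theorem toPic_surj (ht : Sep Ω t) (hC : Crv Ω F g C) (hm : m ≠ 0) {y : Pic0 Ω F}
    (hy : (m : ℤ) • y = 0) : ∃ v, toPic ht hC hm v = y := by
  obtain ⟨D, rfl⟩ := Pic0.mk_surjective y
  have h1 : ∀ (D : Divisor.degZero (K := Ω) (F := F)) (n : ℕ), n • Pic0.mk D = Pic0.mk (n • D) := by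
    intro D n
    rfl
  rw [natCast_zsmul, h1, Pic0.mk, QuotientAddGroup.eq_zero_iff, AddSubgroup.mem_addSubgroupOf] at hy
  obtain ⟨f, hf, hDf⟩ := hy
  have hDf' : ∀ v : Place Ω F, v.ord f = (m : ℤ) * (D : Divisor Ω F) v := by
    intro v
    rw [← hDf v]
    simp
  let p : SelZ Ω F m := ⟨Units.mk0 f hf, fun v => by
    rw [Units.val_mk0, hDf']
    exact dvd_mul_right _ _⟩
  refine ⟨Sel.mk p, ?_⟩
  rw [toPic_mk]
  congr 1
  apply Subtype.ext
  ext v
  change dm m f v = _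
  rw [dm_apply hC, hDf']
  exact Int.mul_ediv_cancel_left _ (by exact_mod_cast hm)

variable {G : Type*} [Group G] (γ : G →* SemilinearAut Ω F)

theorem toPic_smul (ht : Sep Ω t) (hC : Crv Ω F g C) (hm : m ≠ 0) (σ : G) (x : Sel Ω F m) :
    toPic ht hC hm (selHom m γ σ x) = γ σ • toPic ht hC hm x := by
  obtain ⟨p, rfl⟩ := Sel.mk_surjective x
  have h0 : selHom m γ σ (Sel.mk p) = Sel.mk (SelZ.map _ (smul_comm_aux γ σ) m p) := rfl
  rw [h0, toPic_mk, toPic_mk, SemilinearAut.pic0_smul_mk]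
  congr 1
  apply Subtype.ext
  ext w
  rw [SemilinearAut.coe_degZeroSMulHom, SemilinearAut.divisor_smul_apply]
  change dm m (γ σ • ((p : Fˣ) : F)) w = dm m ((p : Fˣ) : F) _
  rw [dm_apply hC, dm_apply hC]
  have := SemilinearAut.ord_smul (γ σ) ((γ σ)⁻¹ • w) ((p : Fˣ) : F)
  rw [smul_inv_smul] at this
  rw [this]

end Pic

end Fermat.Agent.Flat
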