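import Mathlib
import Fermat.Agent.Flat.Unram4

/-!
Unramified descent.
-/

set_option autoImplicit false
set_option linter.unusedSectionVars false

noncomputable section

namespace Fermat.Agent.Flat

open Module
open scoped Pointwise NumberField
open Fermat.Agent.GaloisBasics Fermat.Agent.Inertia Fermat.Agent.EC Fermat.Agent.LG

universe u

/-- The field of algebraic numbers. -/
local notation "Qb" => AlgebraicClosure ℚ
/-- The absolute Galois group. -/
local notation "GQ" => (AlgebraicClosure ℚ ≃ₐ[ℚ] AlgebraicClosure ℚ)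

section Sep

variable {V : Type u} [MulAction GQ V]

/-- The action on `V` is continuous. -/
def SmoothAct (V : Type*) [MulAction GQ V] : Prop :=
  ∀ v : V, ∃ S : Finset Qb, ∀ σ : GQ, (∀ x ∈ S, σ x = x) → σ • v = v

/-- Enough elements. -/
theorem exists_fixed_ne {U : Subgroup GQ} {S : Finset Qb}
    (hU : ∀ σ : GQ, (∀ x ∈ S, σ x = x) → σ ∈ U) {σ₀ : GQ} (h₀ : σ₀ ∉ U) :
    ∃ x : Qb, (∀ τ ∈ U, τ x = x) ∧ σ₀ x ≠ x := by
  have hopen : IsOpen (U : Set GQ) := by
    let F : IntermediateField ℚ Qb := IntermediateField.adjoin ℚ (S : Set Qb)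
    have hfd : @FiniteDimensional ℚ F _ _ F.algebra'.toModule :=
      IntermediateField.finiteDimensional_adjoin fun x _ => Algebra.IsIntegral.isIntegral x
    have h1 : F.fixingSubgroup ≤ U := by
      intro σ hσ
      apply hU
      intro x hx
      exact (IntermediateField.mem_fixingSubgroup_iff F σ).mp hσ x
        (IntermediateField.subset_adjoin ℚ _ hx)
    exact Subgroup.isOpen_mono h1 (IntermediateField.fixingSubgroup_isOpen F)
  let Uc : ClosedSubgroup GQ := ⟨U, Subgroup.isClosed_of_isOpen U hopen⟩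
  have hfix : (IntermediateField.fixedField U).fixingSubgroup = U :=
    InfiniteGalois.fixingSubgroup_fixedField Uc
  by_contra hcon
  push Not at hcon
  apply h₀
  rw [← hfix, IntermediateField.mem_fixingSubgroup_iff]
  intro x hx
  apply hcon
  intro τ hτ
  exact (IntermediateField.mem_fixedField_iff _ _).mp hx τ hτ

variable (V) in
/-- Equivariant functions. -/
def eqF (R : Type*) [CommRing R] [Algebra R Qb] (hR : ∀ (σ : GQ) (a : R),
    σ (algebraMap R Qb a) = algebraMap R Qb a) : Subalgebra R (V → Qb) where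
  carrier := {f | ∀ (σ : GQ) (v : V), f (σ • v) = σ • f v}
  mul_mem' hf hg σ v := by
    rw [Pi.mul_apply, Pi.mul_apply, hf, hg, smul_mul']
  add_mem' hf hg σ v := by
    rw [Pi.add_apply, Pi.add_apply, hf, hg, smul_add]
  algebraMap_mem' a σ v := (hR σ a).symm

/-- Equivariant functions separate points. -/
theorem exists_equiv_sep (hV : SmoothAct V) {v w : V} (hvw : v ≠ w) :
    ∃ f : V → Qb, (∀ (σ : GQ) (v : V), f (σ • v) = σ • f v) ∧ f v ≠ f w := by
  classical
  by_cases horb : ∃ σ : GQ, w = σ • v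
  · obtain ⟨σ₀, rfl⟩ := horb
    obtain ⟨S, hS⟩ := hV v
    obtain ⟨x, hx, hx0⟩ := exists_fixed_ne (U := MulAction.stabilizer GQ v) (S := S)
      (fun σ hσ => hS σ hσ) (σ₀ := σ₀) (fun h => hvw (Eq.symm h))
    let f : V → Qb := fun y => if h : ∃ τ : GQ, y = τ • v then h.choose x else 0
    have hf : ∀ τ : GQ, f (τ • v) = τ x := by
      intro τ
      have h : ∃ τ' : GQ, τ • v = τ' • v := ⟨τ, rfl⟩
      simp only [f, dif_pos h]
      have h1 := h.choose_spec
      have h2 : (τ⁻¹ * h.choose : GQ) ∈ MulAction.stabilizer GQ v := by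
        rw [MulAction.mem_stabilizer_iff, mul_smul, ← h1, inv_smul_smul]
      have h3 := hx _ h2
      have h4 := congrArg τ h3
      rw [AlgEquiv.mul_apply] at h4
      rw [← h4]
      exact (τ.apply_symm_apply _).symm
    refine ⟨f, fun σ y => ?_, ?_⟩
    · by_cases hy : ∃ τ : GQ, y = τ • v
      · obtain ⟨τ, rfl⟩ := hy
        rw [← mul_smul, hf, hf]
        rfl
      · have hy' : ¬ ∃ τ : GQ, σ • y = τ • v := by
          rintro ⟨τ, hτ⟩
          exact hy ⟨σ⁻¹ * τ, by rw [mul_smul, ← hτ, inv_smul_smul]⟩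
        simp only [f, dif_neg hy, dif_neg hy', smul_zero]
    · have h1 := hf 1
      rw [one_smul] at h1
      rw [h1, hf]
      exact fun h => hx0 h.symm
  · refine ⟨fun y => if ∃ τ : GQ, y = τ • v then 1 else 0, fun σ y => ?_, ?_⟩
    · by_cases hy : ∃ τ : GQ, y = τ • v
      · have hy' : ∃ τ : GQ, σ • y = τ • v := by
          obtain ⟨τ, rfl⟩ := hy
          exact ⟨σ * τ, by rw [mul_smul]⟩
        simp only [if_pos hy, if_pos hy', smul_one]
      · have hy' : ¬ ∃ τ : GQ, σ • y = τ • v := by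
          rintro ⟨τ, hτ⟩
          exact hy ⟨σ⁻¹ * τ, by rw [mul_smul, ← hτ, inv_smul_smul]⟩
        simp only [if_neg hy, if_neg hy', smul_zero]
    · have h1 : ∃ τ : GQ, v = τ • v := ⟨1, (one_smul _ _).symm⟩
      simp only [if_pos h1, if_neg horb]
      exact one_ne_zero

/-- A basis of equivariant functions. -/
theorem exists_equiv_basis [Finite V] (hV : SmoothAct V) :
    ∃ (n : ℕ) (e : Fin n → V → Qb), (∀ i (σ : GQ) (v : V), e i (σ • v) = σ • e i v) ∧
      LinearIndependent Qb e ∧ ∀ f : V → Qb, ∃ c : Fin n → Qb, f = ∑ i, c i • e i := by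
  classical
  have hR : ∀ (σ : GQ) (a : ℚ), σ (algebraMap ℚ Qb a) = algebraMap ℚ Qb a :=
    fun σ a => σ.commutes a
  let E : Subalgebra ℚ (V → Qb) := eqF V ℚ hR
  have hsep : ∀ v w : V, (∀ f ∈ E, f v = f w) → v = w := by
    intro v w h
    by_contra hvw
    obtain ⟨f, hf, hne⟩ := exists_equiv_sep hV hvw
    exact hne (h f hf)
  have hspan : ⊤ ≤ Submodule.span Qb (E : Set (V → Qb)) := fun f _ => span_of_sep E hsep f
  let b := Basis.ofSpan hspan
  have hfin : FiniteDimensional Qb (V → Qb) := inferInstance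
  have hfinι : Finite ((linearIndepOn_empty Qb id).extend (Set.empty_subset (E : Set (V → Qb)))) :=
    Module.Finite.finite_basis b
  have := Fintype.ofFinite
    ((linearIndepOn_empty Qb id).extend (Set.empty_subset (E : Set (V → Qb))))
  let φ := Fintype.equivFin
    ((linearIndepOn_empty Qb id).extend (Set.empty_subset (E : Set (V → Qb))))
  let b' := b.reindex φ
  refine ⟨_, b', fun i σ v => ?_, b'.linearIndependent, fun f => ⟨fun i => b'.repr f i,
    (b'.sum_repr f).symm⟩⟩
  have h1 : b' i ∈ (E : Set (V → Qb)) := by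
    rw [Basis.reindex_apply]
    exact Basis.ofSpan_subset hspan ⟨_, rfl⟩
  exact h1 σ v

end Sep

end Fermat.Agent.Flat
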