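import Mathlib
import Fermat.Agent.Flat.Unram5

/-!
Unramified descent.
-/

set_option autoImplicit false
set_option linter.unusedSectionVars false

noncomputable section

namespace Fermat.Agent.Flat

open Module
open scoped Pointwise NumberField
open Fermat.Agent.GaloisBasics Fermat.Agent.Inertia Fermat.Agent.EC Fermat.Agent.LG

universe u

/-- The field of algebraic numbers. -/
local notation "Qb" => AlgebraicClosure ℚ
/-- The absolute Galois group. -/
local notation "GQ" => (AlgebraicClosure ℚ ≃ₐ[ℚ] AlgebraicClosure ℚ)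

variable {A : ValuationSubring Qb} {q : ℕ}
variable {V : Type u} [AddCommGroup V] [Finite V] [DistribMulAction GQ V]

/-- The orbits of functions are finite. -/
theorem finite_tw (f : V → Qb) (D : Subgroup GQ) : {x : V → Qb | ∃ σ ∈ D, x = tw σ f}.Finite := by
  classical
  have := Fintype.ofFinite V
  obtain ⟨T, hST, hT⟩ := exists_stable (Finset.univ.image f)
  refine (Set.Finite.pi' fun _ : V => T.finite_toSet).subset ?_
  rintro x ⟨σ, -, rfl⟩ v
  exact hT σ _ (hST (Finset.mem_image_of_mem f (Finset.mem_univ _)))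

/-- Roots of unity of order prime to `q`. -/
theorem root_mem_OI (hq : q.Prime) (hA : A.LiesOverPrime q) {m : ℕ} (hm : ¬ q ∣ m) {ζ : Qb}
    (hζ : ζ ^ m = 1) : ζ ∈ OI A := by
  have hm0 : m ≠ 0 := by rintro rfl; simp at hm
  refine ⟨?_, fun g => mem_KI.mp (root_mem_KI hq hA hm hζ) g g.2⟩
  rw [← A.valuation_le_one_iff]
  have := congrArg A.valuation hζ
  rw [map_pow, map_one] at this
  exact ((pow_eq_one_iff_of_ne_zero' hm0).mp this).le

/-- Control of the twisted action by a root of unity. -/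
theorem exists_zeta_tw (hq : q.Prime) (hA : A.LiesOverPrime q) (hV : SmoothAct V) {f : V → Qb}
    (hf : ∀ (g : A.inertiaSubgroupIn ℚ) (v : V), f (g • v) = g • f v) :
    ∃ M : ℕ, ¬ q ∣ M ∧ ∃ ζ : Qb, ζ ^ M = 1 ∧
      ∀ σ ∈ A.decompositionSubgroup ℚ, σ • ζ = ζ → tw σ f = f := by
  classical
  have := Fintype.ofFinite V
  choose S hS using hV
  obtain ⟨F, hF, hstab, hfin, -⟩ := exists_galois_field
    ((Finset.univ.image f) ∪ Finset.univ.biUnion S)
  obtain ⟨M, hM, ζ, hζ, hρ⟩ := exists_zeta_control hq hA F hfin hstab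
  refine ⟨M, hM, ζ, hζ.pow_eq_one, fun σ hσ hσζ => ?_⟩
  obtain ⟨ρ, hρI, hρF⟩ := hρ σ hσ hσζ
  rw [tw_eq_iff]
  intro v
  have h1 : σ • v = ρ • v := by
    have h2 : (ρ⁻¹ * σ) • v = v := by
      apply hS v
      intro x hx
      have hxF : x ∈ F := hF x (Finset.mem_union_right _
        (Finset.mem_biUnion.mpr ⟨v, Finset.mem_univ v, hx⟩))
      rw [AlgEquiv.mul_apply, ← hρF x hxF]
      exact ρ.symm_apply_apply x
    rw [mul_smul, inv_smul_eq_iff] at h2
    exact h2
  have h2 : f v ∈ F := hF _ (Finset.mem_union_left _ (Finset.mem_image_of_mem f (Finset.mem_univ v)))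
  rw [h1]
  have h3 := hf ⟨ρ, hρI⟩ v
  change f (ρ • v) = ρ (f v) at h3
  rw [h3]
  exact hρF _ h2

/-- The invariants of the decomposition group generate. -/
theorem mem_span_decomp (hq : q.Prime) (hA : A.LiesOverPrime q) (hV : SmoothAct V)
    {H : Subalgebra (OI A) (V → Qb)} (hH : IsHopfOrder (OI A) (A.inertiaSubgroupIn ℚ) H)
    (hstab : ∀ σ ∈ A.decompositionSubgroup ℚ, ∀ f ∈ H, tw σ f ∈ H) {f : V → Qb} (hf : f ∈ H) :
    f ∈ Submodule.span (OI A) {h : V → Qb | h ∈ H ∧
      ∀ σ ∈ A.decompositionSubgroup ℚ, tw σ h = h} := by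
  classical
  obtain ⟨M, hM, ζ, hζ, hfix⟩ := exists_zeta_tw hq hA hV fun g v => hH.equiv g f hf v
  have hM0 : 0 < M := Nat.pos_of_ne_zero (by rintro rfl; simp at hM)
  have hσζ : ∀ σ : GQ, (σ • ζ) ^ M = 1 := by
    intro σ
    rw [← smul_pow', hζ, smul_one]
  have hfin : {η : Qb | ∃ σ ∈ A.decompositionSubgroup ℚ, η = σ • ζ}.Finite := by
    refine (Polynomial.nthRootsFinset M (1 : Qb)).finite_toSet.subset ?_
    rintro _ ⟨σ, -, rfl⟩
    exact (Polynomial.mem_nthRootsFinset hM0 1).mpr (hσζ σ)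
  refine mem_span_inv (I := A.inertiaSubgroupIn ℚ) (D := A.decompositionSubgroup ℚ) hfin
    (fun σ _ => root_mem_OI hq hA hM (hσζ σ)) (fun σ _ hne => ?_) (Subalgebra.toSubmodule H)
    (fun σ hσ f hf => hstab σ hσ f hf) hf hfix
  rw [← A.valuation_le_one_iff, map_inv₀]
  apply inv_le_one_of_one_le₀
  by_contra hlt
  rw [not_le] at hlt
  exact hne (root_eq_of_congr hq hA hM hζ (hσζ σ) hlt).symm

/-- Approximation by equivariant functions. -/
theorem exists_approx (hq : q.Prime) (hA : A.LiesOverPrime q) (hV : SmoothAct V)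
    {H : Subalgebra (OI A) (V → Qb)} (hH : IsHopfOrder (OI A) (A.inertiaSubgroupIn ℚ) H)
    {f : V → Qb} (hf : f ∈ H) (hfD : ∀ σ ∈ A.decompositionSubgroup ℚ, tw σ f = f) :
    ∃ f' ∈ H, (∀ (σ : GQ) (v : V), f' (σ • v) = σ • f' v) ∧ ∃ g ∈ H, f = f' + (q : Qb) • g := by
  classical
  have hdvr := isDVR_OI hq hA
  obtain ⟨n, e, he, heli, hetop⟩ := exists_equiv_basis hV
  obtain ⟨d, h, hb⟩ := hH.exists_hbasis desc_fixA
  obtain ⟨c, hc⟩ := hetop f
  -- the coordinates are invariant under the decomposition group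
  have hcD : ∀ i, ∀ σ ∈ A.decompositionSubgroup ℚ, σ (c i) = c i := by
    intro i σ hσ
    exact repr_fix (G := A.decompositionSubgroup ℚ) heli (fun i g v => he i g v)
      (fun g v => (tw_eq_iff (g : GQ) f).mp (hfD g g.2) v) hc i ⟨σ, hσ⟩
  -- denominators
  have hden : ∀ i, ∃ m : ℕ, ((q : Qb) ^ m) • e i ∈ H := by
    intro i
    obtain ⟨x, hx⟩ := hb.top (e i)
    obtain ⟨a, ha, hae⟩ := (desc_fixA (G := A.inertiaSubgroupIn ℚ) (A := A)).exists_mul_mem
      (H := Subalgebra.toSubmodule H) hb.mem hb.li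
      (fun i g v => hH.equiv g _ (hb.mem i) v) (f := e i) (fun g v => he i g v)
      ((Submodule.mem_span_range_iff_exists_fun _).mpr ⟨x, hx.symm⟩)
    obtain ⟨m, b, hm⟩ := exists_q_pow hq hA ha
    refine ⟨m, ?_⟩
    have h1 : ((q : Qb) ^ m) • e i = b • (a • e i) := by
      rw [hm]
      change ((a : Qb) * (b : Qb)) • e i = (b : Qb) • ((a : Qb) • e i)
      rw [smul_smul, mul_comm]
    rw [h1]
    exact H.smul_mem hae b
  choose m hm using hden
  let K : ℕ := ∑ i, m i
  have hqO : ((q : ℕ) : Qb) ∈ OI A := natCast_mem (OI A) q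
  have hK : ∀ i, ((q : Qb) ^ K) • e i ∈ H := by
    intro i
    have h1 : m i ≤ K := Finset.single_le_sum (f := m) (fun _ _ => Nat.zero_le _)
      (Finset.mem_univ i)
    obtain ⟨k, hk⟩ := Nat.exists_eq_add_of_le h1
    have h2 : ((q : Qb) ^ K) • e i = (⟨_, pow_mem hqO k⟩ : OI A) • (((q : Qb) ^ m i) • e i) := by
      change _ = ((q : Qb) ^ k) • (((q : Qb) ^ m i) • e i)
      rw [smul_smul, ← pow_add, hk, add_comm]
    rw [h2]
    exact H.smul_mem (hm i) _
  choose r y hy using fun i => exists_rat_approx hq hA (K + 1) (hcD i)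
  let g : V → Qb := ∑ i, y i • (((q : Qb) ^ K) • e i)
  have hg : g ∈ H := sum_mem fun i _ => H.smul_mem (hK i) _
  let f' : V → Qb := ∑ i, algebraMap ℚ Qb (r i) • e i
  have hff : f = f' + (q : Qb) • g := by
    simp only [f', g]
    rw [Finset.smul_sum, ← Finset.sum_add_distrib]
    conv_lhs => rw [hc]
    refine Finset.sum_congr rfl fun i _ => ?_
    conv_lhs => rw [hy i]
    change _ = _ + (q : Qb) • ((y i : Qb) • (((q : Qb) ^ K) • e i))
    rw [add_smul, smul_smul, smul_smul]
    congr 2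
    ring
  have hqg : (q : Qb) • g ∈ H := by
    have h1 : (q : Qb) • g = (⟨_, hqO⟩ : OI A) • g := rfl
    rw [h1]
    exact H.smul_mem hg _
  refine ⟨f', ?_, fun σ v => ?_, g, hg, hff⟩
  · have h1 : f' = f - (q : Qb) • g := by rw [hff]; ring
    rw [h1]
    exact sub_mem hf hqg
  · simp only [f', Finset.sum_apply, Pi.smul_apply, smul_eq_mul, Finset.smul_sum]
    refine Finset.sum_congr rfl fun i _ => ?_
    rw [smul_mul', he]
    congr 1
    exact (σ.commutes (r i)).symm

/-- The rational elements generate. -/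
theorem mem_span_rat (hq : q.Prime) (hA : A.LiesOverPrime q) (hV : SmoothAct V)
    {H : Subalgebra (OI A) (V → Qb)} (hH : IsHopfOrder (OI A) (A.inertiaSubgroupIn ℚ) H)
    (hstab : ∀ σ ∈ A.decompositionSubgroup ℚ, ∀ f ∈ H, tw σ f ∈ H) {f : V → Qb} (hf : f ∈ H) :
    f ∈ Submodule.span (OI A) {h : V → Qb | h ∈ H ∧ ∀ (σ : GQ) (v : V), h (σ • v) = σ • h v} := by
  have hdvr := isDVR_OI hq hA
  have hqO : ((q : ℕ) : Qb) ∈ OI A := natCast_mem (OI A) q
  let qO : OI A := ⟨_, hqO⟩
  have hqm : qO ∈ IsLocalRing.maximalIdeal (OI A) := by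
    rw [IsLocalRing.mem_maximalIdeal, mem_nonunits_iff]
    rintro ⟨u, hu⟩
    have h1 : ((u : OI A) : Qb) * ((u⁻¹ : (OI A)ˣ) : OI A) = 1 := congrArg Subtype.val u.mul_inv
    rw [hu] at h1
    have h2 := congrArg A.valuation h1
    rw [map_mul, map_one] at h2
    have h3 : A.valuation (((u⁻¹ : (OI A)ˣ) : OI A) : Qb) ≤ 1 :=
      (A.valuation_le_one_iff _).mpr ((u⁻¹ : (OI A)ˣ) : OI A).2.1
    have h4 : A.valuation (qO : Qb) < 1 := hA
    have h5 : A.valuation (qO : Qb) * A.valuation (((u⁻¹ : (OI A)ˣ) : OI A) : Qb) < 1 :=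
      (mul_le_of_le_one_right' h3).trans_lt h4
    rw [h2] at h5
    exact lt_irrefl _ h5
  have key : Subalgebra.toSubmodule H ≤ Submodule.span (OI A)
      {h : V → Qb | h ∈ H ∧ ∀ (σ : GQ) (v : V), h (σ • v) = σ • h v} := by
    refine Submodule.le_of_le_smul_of_le_jacobson_bot (I := Ideal.span {qO}) hH.fg ?_ ?_
    · rw [IsLocalRing.jacobson_eq_maximalIdeal ⊥ bot_ne_top, Ideal.span_singleton_le_iff_mem]
      exact hqm
    · intro f hf
      have h1 := mem_span_decomp hq hA hV hH hstab hf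
      have h2 : Submodule.span (OI A) {h : V → Qb | h ∈ H ∧
          ∀ σ ∈ A.decompositionSubgroup ℚ, tw σ h = h} ≤ Submodule.span (OI A)
          {h : V → Qb | h ∈ H ∧ ∀ (σ : GQ) (v : V), h (σ • v) = σ • h v} ⊔
          Ideal.span {qO} • Subalgebra.toSubmodule H := by
        rw [Submodule.span_le]
        rintro h ⟨hh, hhD⟩
        obtain ⟨f', hf', hf'Q, g, hg, hfg⟩ := exists_approx hq hA hV hH hh hhD
        rw [hfg]
        refine Submodule.add_mem_sup (Submodule.subset_span ⟨hf', hf'Q⟩) ?_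
        have h3 : (q : Qb) • g = qO • g := rfl
        rw [h3]
        exact Submodule.smul_mem_smul (Ideal.mem_span_singleton_self qO) hg
      exact h2 h1
  exact key hf

/-- **Unramified descent** of Hopf orders. -/
theorem IsFlat.descend (hq : q.Prime) (hA : A.LiesOverPrime q) (hV : SmoothAct V)
    (h : IsFlat (OI A) (A.inertiaSubgroupIn ℚ) V Qb) :
    IsFlat (GaloisRep.ratLocalizedAt q) GQ V Qb := by
  classical
  have hdvr := isDVR_OI hq hA
  obtain ⟨H₀, hH₀⟩ := h
  obtain ⟨H, hH, hstab⟩ := hH₀.exists_stable (D := A.decompositionSubgroup ℚ)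
    (fun σ hσ a ha => decomp_mem hσ ha) (fun σ hσ τ hτ => inertia_conj hσ hτ)
    (fun f _ => finite_tw f _)
  -- the basis of rational elements
  let X : Type u := {f : V → Qb // f ∈ H ∧ ∀ (σ : GQ) (v : V), f (σ • v) = σ • f v}
  let v : X → Subalgebra.toSubmodule H := fun x => ⟨x.1, x.2.1⟩
  have hfinH : Module.Finite (OI A) (Subalgebra.toSubmodule H) := Module.Finite.iff_fg.mpr hH.fg
  have hspan : Submodule.span (OI A) (Set.range v) = ⊤ := by
    rw [eq_top_iff]
    rintro ⟨f, hf⟩ -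
    have h1 := mem_span_rat hq hA hV hH hstab hf
    have h2 : Submodule.span (OI A)
        {h : V → Qb | h ∈ H ∧ ∀ (σ : GQ) (v : V), h (σ • v) = σ • h v} =
        (Submodule.span (OI A) (Set.range v)).map (Subalgebra.toSubmodule H).subtype := by
      rw [Submodule.map_span, ← Set.range_comp]
      congr 1
      ext x
      constructor
      · intro hx
        exact ⟨⟨x, hx⟩, rfl⟩
      · rintro ⟨y, rfl⟩
        exact y.2
    rw [h2] at h1
    obtain ⟨y, hy, hyf⟩ := h1
    have : y = ⟨f, hf⟩ := Subtype.ext hyf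
    rwa [← this]
  have htf : Module.IsTorsionFree (OI A) (V → Qb) := by
    have : FaithfulSMul (OI A) Qb := (faithfulSMul_iff_algebraMap_injective _ _).mpr
      Subtype.val_injective
    have : Module.IsTorsionFree (OI A) Qb := inferInstance
    infer_instance
  have hfree : Module.Free (OI A) (Subalgebra.toSubmodule H) := inferInstance
  have hfp : Module.FinitePresentation (OI A) (Subalgebra.toSubmodule H) :=
    Module.finitePresentation_of_finite _ _
  obtain ⟨ι, a, b, hb⟩ := Module.exists_basis_of_span_of_flat v hspan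
  have hιfin : Finite ι := Module.Finite.finite_basis b
  have := Fintype.ofFinite ι
  let h : ι → V → Qb := fun i => (a i).1
  have hbh : ∀ i, (b i : V → Qb) = h i := fun i => congrArg Subtype.val (hb i)
  have hhH : ∀ i, h i ∈ H := fun i => (a i).2.1
  have hhQ : ∀ i (σ : GQ) (v : V), h i (σ • v) = σ • h i v := fun i => (a i).2.2
  have hspanH : ∀ f ∈ H, ∃ c : ι → OI A, f = ∑ i, c i • h i := by
    intro f hf
    refine ⟨fun i => b.repr ⟨f, hf⟩ i, ?_⟩
    have h1 := congrArg Subtype.val (b.sum_repr ⟨f, hf⟩)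
    rw [AddSubmonoidClass.coe_finsetSum] at h1
    refine (show f = _ from h1.symm).trans (Finset.sum_congr rfl fun i _ => ?_)
    rw [← hbh]
    rfl
  have hli : LinearIndependent Qb h := by
    refine (desc_fixA (G := A.inertiaSubgroupIn ℚ) (A := A)).indep
      (fun i g v => hhQ i g v) fun c hc i => ?_
    have h1 : ∑ i, c i • b i = 0 := by
      apply Subtype.ext
      rw [AddSubmonoidClass.coe_finsetSum]
      refine Eq.trans (Finset.sum_congr rfl fun i _ => ?_) hc
      rw [← hbh]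
      rfl
    exact Fintype.linearIndependent_iff.mp b.linearIndependent c h1 i
  -- the rational Hopf order
  have hcoef : ∀ f ∈ H, (∀ (σ : GQ) (v : V), f (σ • v) = σ • f v) →
      ∃ c : ι → GaloisRep.ratLocalizedAt q, f = ∑ i, c i • h i := by
    intro f hf hfQ
    obtain ⟨c, hc⟩ := hspanH f hf
    have hc' : f = ∑ i, (c i : Qb) • h i := hc
    have h1 : ∀ i (σ : GQ), σ • (c i : Qb) = c i := fun i σ => repr_fix hli hhQ hfQ hc' i σ
    have h2 : ∀ i, ∃ r : ℚ, algebraMap ℚ Qb r = c i := by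
      intro i
      have := (InfiniteGalois.mem_bot_iff_fixed (k := ℚ) (K := Qb) (c i : Qb)).mpr (h1 i)
      exact IntermediateField.mem_bot.mp this
    choose r hr using h2
    have h3 : ∀ i, r i ∈ GaloisRep.ratLocalizedAt q := fun i =>
      mem_ratLocalizedAt hq hA (by rw [hr]; exact (c i).2.1)
    refine ⟨fun i => ⟨r i, h3 i⟩, ?_⟩
    rw [hc']
    refine Finset.sum_congr rfl fun i _ => ?_
    rw [← hr]
    funext v
    simp only [Pi.smul_apply, Algebra.smul_def]
    rfl
  let HZ : Subalgebra (GaloisRep.ratLocalizedAt q) (V → Qb) :=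
    { carrier := {f | f ∈ H ∧ ∀ (σ : GQ) (v : V), f (σ • v) = σ • f v}
      mul_mem' := fun hf hg => ⟨mul_mem hf.1 hg.1, fun σ v => by
        rw [Pi.mul_apply, Pi.mul_apply, hf.2, hg.2, smul_mul']⟩
      add_mem' := fun hf hg => ⟨add_mem hf.1 hg.1, fun σ v => by
        rw [Pi.add_apply, Pi.add_apply, hf.2, hg.2, smul_add]⟩
      algebraMap_mem' := fun r => by
        have hrA : algebraMap ℚ Qb (r : ℚ) ∈ OI A := by
          refine ⟨?_, fun g => (g : GQ).commutes (r : ℚ)⟩
          have h1 : (r : ℚ).den.Coprime q := r.2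
          have h2 : ¬ q ∣ (r : ℚ).den := by
            rw [← Nat.Prime.coprime_iff_not_dvd hq, Nat.coprime_comm]
            exact h1
          have h3 : A.valuation (((r : ℚ).den : ℕ) : Qb) = 1 := v_nat_eq_one hq hA h2
          rw [← A.valuation_le_one_iff]
          have h4 : algebraMap ℚ Qb (r : ℚ) * (((r : ℚ).den : ℕ) : Qb) =
              (((r : ℚ).num : ℤ) : Qb) := by
            have h5 : (r : ℚ) * (r : ℚ).den = (r : ℚ).num := Rat.mul_den_eq_num _
            have h6 := congrArg (algebraMap ℚ Qb) h5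
            rw [map_mul, map_natCast, map_intCast] at h6
            exact h6
          have h5 := congrArg A.valuation h4
          rw [map_mul, h3, mul_one] at h5
          rw [h5]
          exact (A.valuation_le_one_iff _).mpr (intCast_mem A _)
        refine ⟨H.algebraMap_mem ⟨_, hrA⟩, fun σ v => ?_⟩
        exact (σ.commutes (r : ℚ)).symm }
  have hHZ : ∀ f, f ∈ HZ ↔ f ∈ H ∧ ∀ (σ : GQ) (v : V), f (σ • v) = σ • f v := fun f => Iff.rfl
  have hhZ : ∀ i, h i ∈ HZ := fun i => ⟨hhH i, hhQ i⟩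
  refine ⟨HZ, ?_, ?_, ?_, ?_⟩
  · refine ⟨Finset.univ.image h, ?_⟩
    apply le_antisymm
    · rw [Submodule.span_le]
      intro x hx
      rw [Finset.coe_image, Set.mem_image] at hx
      obtain ⟨i, -, rfl⟩ := hx
      exact hhZ i
    · intro f hf
      obtain ⟨c, hc⟩ := hcoef f hf.1 hf.2
      rw [hc]
      refine Submodule.sum_mem _ fun i _ => Submodule.smul_mem _ _ (Submodule.subset_span ?_)
      rw [Finset.coe_image]
      exact ⟨i, Finset.mem_coe.mpr (Finset.mem_univ i), rfl⟩
  · intro x y hxy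
    apply hH.sep
    intro f hf
    obtain ⟨c, hc⟩ := hspanH f hf
    rw [hc, Finset.sum_apply, Finset.sum_apply]
    refine Finset.sum_congr rfl fun i _ => ?_
    rw [Pi.smul_apply, Pi.smul_apply, hxy _ (hhZ i)]
  · intro σ f hf x
    exact hf.2 σ x
  · intro f hf
    obtain ⟨n, a', b', ha', hb', hfab⟩ := mem_tens₂_iff.mp (hH.comul f hf.1)
    choose c hc using fun i => hspanH (b' i) (hb' i)
    let α : ι → V → Qb := fun j => ∑ i, c i j • a' i
    have hα : ∀ j, α j ∈ H := fun j => sum_mem fun i _ => H.smul_mem (ha' i) _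
    have hfα : ∀ x y, f (x + y) = ∑ j, α j x * h j y := by
      intro x y
      have h1 : f (x + y) = ∑ i, a' i x * b' i y := hfab x y
      rw [h1]
      simp only [α, Finset.sum_apply, Pi.smul_apply, Finset.sum_mul]
      rw [Finset.sum_comm]
      refine Finset.sum_congr rfl fun i _ => ?_
      conv_lhs => rw [hc i]
      rw [Finset.sum_apply, Finset.mul_sum]
      refine Finset.sum_congr rfl fun j _ => ?_
      rw [Pi.smul_apply, Algebra.smul_def, Algebra.smul_def]
      ring
    have hαQ : ∀ j (σ : GQ) (x : V), α j (σ • x) = σ • α j x := by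
      intro j σ x
      have h1 : ∑ j, (α j (σ • x) - σ • α j x) • h j = 0 := by
        funext y
        have h2 := hfα (σ • x) y
        have h3 := hfα x (σ⁻¹ • y)
        have h4 := hf.2 σ (x + σ⁻¹ • y)
        rw [smul_add, smul_inv_smul, h2, h3, Finset.smul_sum] at h4
        simp only [Finset.sum_apply, Pi.smul_apply, smul_eq_mul, sub_mul,
          Finset.sum_sub_distrib, Pi.zero_apply]
        rw [h4, sub_eq_zero]
        refine Finset.sum_congr rfl fun j _ => ?_
        rw [smul_mul', ← hhQ, smul_inv_smul]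
      exact sub_eq_zero.mp (Fintype.linearIndependent_iff.mp hli _ h1 j)
    let φ := Fintype.equivFin ι
    refine mem_tens₂_iff.mpr ⟨Fintype.card ι, fun k => α (φ.symm k), fun k => h (φ.symm k),
      fun k => ⟨hα _, hαQ _⟩, fun k => hhZ _, fun x y => ?_⟩
    change f (x + y) = _
    rw [hfα, ← Equiv.sum_comp φ.symm]

end Fermat.Agent.Flat
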