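import Mathlib
import Fermat.Agent.Flat.Sel2
import Fermat.Agent.Flat.Conc6
import Fermat.Agent.Flat.Unram6
import Fermat.Agent.LG.KX7
import Fermat.Prelude.Def_ModularCurve_ArithmeticGalois

/-!
The Galois action on the function field of `X₀(N)`.
-/

set_option autoImplicit false
set_option linter.unusedSectionVars false

noncomputable section

namespace Fermat.Agent.Flat

open AlgebraicCurve IsDedekindDomain IntermediateField WithZero Module Fermat.Agent.FunField
open Fermat.Agent.LG Fermat.Agent.ModFun Fermat.Agent.Geo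
open Fermat.Agent.ESCore (HauptFn haupt2 haupt3 ιC)
open IsLocalRing ModularCurve

/-- The field of algebraic numbers. -/
local notation "Qb" => AlgebraicClosure ℚ
/-- The absolute Galois group. -/
local notation "GQ" => (AlgebraicClosure ℚ ≃ₐ[ℚ] AlgebraicClosure ℚ)

variable (N : ℕ) [NeZero N]

/-- action on the function field -/
def galRing (σ : GQ) : F0 Qb N ≃+* F0 Qb N where
  toFun x := ⟨ModularCurve.coeffMap ((σ.toRingEquiv : Qb ≃+* Qb) : Qb →+* Qb) x,
    (coeffMap_mem_F0_iff σ.toRingEquiv).mpr x.2⟩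
  invFun x := ⟨ModularCurve.coeffMap ((σ.symm.toRingEquiv : Qb ≃+* Qb) : Qb →+* Qb) x,
    (coeffMap_mem_F0_iff σ.symm.toRingEquiv).mpr x.2⟩
  left_inv x := Subtype.ext <| by
    ext n
    exact σ.symm_apply_apply _
  right_inv x := Subtype.ext <| by
    ext n
    exact σ.apply_symm_apply _
  map_mul' x y := Subtype.ext (map_mul (ModularCurve.coeffMap _) _ _)
  map_add' x y := Subtype.ext (map_add (ModularCurve.coeffMap _) _ _)

theorem galRing_algebraMap (σ : GQ) (a : Qb) :
    galRing N σ (algebraMap Qb (F0 Qb N) a) = algebraMap Qb (F0 Qb N) (σ a) :=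
  Subtype.ext (coeffMap_algebraMap ((σ.toRingEquiv : Qb ≃+* Qb) : Qb →+* Qb) a)

/-- the action on the function field -/
def galF0 : GQ →* SemilinearAut Qb (F0 Qb N) where
  toFun σ := ⟨(galRing N σ, σ.toRingEquiv), fun a => galRing_algebraMap N σ a⟩
  map_one' := by
    refine Subtype.ext (Prod.ext (RingEquiv.ext fun x => Subtype.ext ?_) rfl)
    ext n
    rfl
  map_mul' σ τ := by
    refine Subtype.ext (Prod.ext (RingEquiv.ext fun x => Subtype.ext ?_) rfl)
    ext n
    rfl

theorem coe_galF0_smul (σ : GQ) (x : F0 Qb N) :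
    ((galF0 N σ • x : F0 Qb N) : LaurentSeries Qb) =
      ModularCurve.coeffMap ((σ.toRingEquiv : Qb ≃+* Qb) : Qb →+* Qb) x := rfl

theorem coeff_galF0_smul (σ : GQ) (x : F0 Qb N) (n : ℤ) :
    ((galF0 N σ • x : F0 Qb N) : LaurentSeries Qb).coeff n =
      σ ((x : LaurentSeries Qb).coeff n) := rfl

theorem baseAut_galF0 (σ : GQ) : SemilinearAut.baseAut (galF0 N σ) = σ.toRingEquiv := rfl

variable {N}

/-- Functions are defined over number fields. -/
theorem smooth_F0 (x : F0 Qb N) : ∃ S : Finset Qb, ∀ σ : GQ, (∀ a ∈ S, σ a = a) →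
    galF0 N σ • x = x := by
  classical
  obtain ⟨x, hx⟩ := x
  have key : ∃ S : Finset Qb, ∀ σ : GQ, (∀ a ∈ S, σ a = a) →
      ModularCurve.coeffMap ((σ.toRingEquiv : Qb ≃+* Qb) : Qb →+* Qb) x = x := by
    have hx' : x ∈ IntermediateField.adjoin Qb (Fermat.Agent.ModFun.gens Qb N) := hx
    induction hx' using IntermediateField.adjoin_induction with
    | mem z hz =>
      obtain ⟨d, hd0, hd, rfl⟩ := hz
      refine ⟨∅, fun σ _ => ?_⟩
      rw [coeffMap_qExpand]
      congr 1
      exact map_jqModC _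
    | algebraMap r =>
      refine ⟨{r}, fun σ h => ?_⟩
      have h1 := coeffMap_algebraMap ((σ.toRingEquiv : Qb ≃+* Qb) : Qb →+* Qb) r
      refine h1.trans ?_
      congr 1
      exact h r (Finset.mem_singleton_self r)
    | add a b ha hb h1 h2 =>
      obtain ⟨S₁, h1⟩ := h1 ha
      obtain ⟨S₂, h2⟩ := h2 hb
      refine ⟨S₁ ∪ S₂, fun σ h => ?_⟩
      rw [map_add, h1 σ fun a ha => h a (Finset.mem_union_left _ ha),
        h2 σ fun a ha => h a (Finset.mem_union_right _ ha)]
    | inv a ha h1 =>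
      obtain ⟨S₁, h1⟩ := h1 ha
      refine ⟨S₁, fun σ h => ?_⟩
      rw [map_inv₀, h1 σ h]
    | mul a b ha hb h1 h2 =>
      obtain ⟨S₁, h1⟩ := h1 ha
      obtain ⟨S₂, h2⟩ := h2 hb
      refine ⟨S₁ ∪ S₂, fun σ h => ?_⟩
      rw [map_mul, h1 σ fun a ha => h a (Finset.mem_union_left _ ha),
        h2 σ fun a ha => h a (Finset.mem_union_right _ ha)]
  obtain ⟨S, hS⟩ := key
  exact ⟨S, fun σ h => Subtype.ext (hS σ h)⟩

theorem smooth_sel (m : ℕ) : letI := selAct m (galF0 N)
    SmoothAct (Sel Qb (F0 Qb N) m) := by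
  letI := selAct m (galF0 N)
  intro v
  obtain ⟨f, rfl⟩ := Sel.mk_surjective v
  obtain ⟨S, hS⟩ := smooth_F0 ((f : (F0 Qb N)ˣ) : F0 Qb N)
  refine ⟨S, fun σ h => ?_⟩
  change Sel.mk (SelZ.map _ (smul_comm_aux (galF0 N) σ) m f) = _
  congr 1
  apply Subtype.ext
  apply Units.ext
  exact hS σ h

end Fermat.Agent.Flat
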