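import Mathlib
import Fermat.Agent.Flat.Gal
import Fermat.Agent.JTors.RootForm

/-!
Finiteness of the group of divisible functions on `X₀(N)`.
-/

set_option autoImplicit false
set_option linter.unusedSectionVars false

noncomputable section

namespace Fermat.Agent.Flat

open UpperHalfPlane hiding I J
open ModularForm
open scoped IntermediateField.algebraAdjoinAdjoin
open scoped Manifold MatrixGroups ModularForm
open Fermat.Agent.Eis16 Fermat.Agent.ModFun Fermat.Agent.ESCore Fermat.Agent.ESCore.Gal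
open Fermat.Agent.LG AlgebraicCurve
open CongruenceSubgroup (Gamma0 Gamma Gamma0_mem Gamma_mem Gamma_normal)

local notation "Δ" => ModularForm.discriminant
/-- The field of algebraic numbers. -/
local notation "Qb" => AlgebraicClosure ℚ

section Form

variable {L : Type*} [Field L] {ι : L →+* ℂ} {N : ℕ} [NeZero N]

theorem disc_bdd : IsBoundedAtImInfty (Δ : ℍ → ℂ) := by
  refine disc_isBigO_qN.trans ?_
  refine Asymptotics.isBigO_of_le _ fun τ => ?_
  have := (norm_qN_lt 1 τ).le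
  simpa using this

/-- a form attached to a series with character, in any sufficiently large weight -/
theorem exists_mform_ge {χ : Gamma0 N →* ℂˣ} {y : LaurentSeries L} {f : ℍ → ℂ} (h1 : MDiff f)
    {k : ℕ} (hk : ∀ γ : SL(2, ℤ), IsBoundedAtImInfty (Δ ^ k * fun τ : ℍ => f (γ • τ)))
    (hf' : ∀ (γ : Gamma0 N) (τ : ℍ), f ((γ : SL(2, ℤ)) • τ) = (χ γ : ℂ) * f τ)
    (hfy : HasExp ι (qN 1) f y) :
    f * (Δ : ℍ → ℂ) ^ k ∈ mform χ (12 * k) ∧ ∃ P : PowerSeries L,
      HasQ 1 (f * (Δ : ℍ → ℂ) ^ k) (P.map ι) ∧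
      y * dSer L ^ k = HahnSeries.ofPowerSeries ℤ L P := by
  have hmd : MDiff (f * (Δ : ℍ → ℂ) ^ k) := h1.mul (mdiff_discriminant.pow k)
  have hsl : ∀ γ : SL(2, ℤ), (f * (Δ : ℍ → ℂ) ^ k) ∣[(12 * k : ℤ)] γ =
      (Δ ^ k * fun τ : ℍ => f (γ • τ)) := by
    intro γ
    funext τ
    have h2 : ((f * (Δ : ℍ → ℂ) ^ k) ∣[(12 * k : ℤ)] γ) τ = (f * (Δ : ℍ → ℂ) ^ k) (γ • τ) *
      denom γ τ ^ (-(12 * (k : ℤ))) := ModularForm.SL_slash_apply _ _ _
    have hd : denom γ (τ : ℂ) ≠ 0 := denom_ne_zero _ τ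
    rw [h2, Pi.mul_apply, Pi.pow_apply, disc_pow_smul, _root_.zpow_neg, Pi.mul_apply, Pi.pow_apply]
    have hd' : denom γ (τ : ℂ) ^ (12 * (k : ℤ)) ≠ 0 := zpow_ne_zero _ hd
    field_simp
  have hmf : f * (Δ : ℍ → ℂ) ^ k ∈ mform χ (12 * k) := by
    refine ⟨hmd, fun γ => ?_, fun γ => ?_⟩
    · rw [hsl]
      funext τ
      rw [Pi.mul_apply, Pi.smul_apply, smul_eq_mul, Pi.mul_apply, hf' γ τ]
      ring
    · rw [hsl]
      exact hk γ
  have hexp := hfy.mul ((hasExp_disc_L (ι := ι)).pow k)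
  have hT : ∀ τ : ℍ, (f * (Δ : ℍ → ℂ) ^ k) (ModularGroup.T • τ) = (f * (Δ : ℍ → ℂ) ^ k) τ :=
    fun τ => smul_T_of_hasExp hexp τ
  have hQ : HasQ 1 (f * (Δ : ℍ → ℂ) ^ k) (qExpansion 1 (f * (Δ : ℍ → ℂ) ^ k)) :=
    HasQ.of_periodic one_pos (periodic_of_T hT) hmd (by simpa using hmf.2.2 1)
  have h3 := hasExp_of_hasQ hQ
  have h4 := hexp.coeffMap ι (RingHom.id_comp ι)
  have h5 := h4.unique (RingHom.id ℂ).injective (isParam_qN 1) h3
  refine ⟨hmf, PowerSeries.mk fun n => (y * dSer L ^ k).coeff n, ?_, ?_⟩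
  · have h6 : (PowerSeries.mk fun n => (y * dSer L ^ k).coeff n).map ι =
        qExpansion 1 (f * (Δ : ℍ → ℂ) ^ k) := by
      ext n
      rw [PowerSeries.coeff_map, PowerSeries.coeff_mk]
      have h7 := congrArg (fun F : LaurentSeries ℂ => F.coeff (n : ℤ)) h5
      rw [HahnSeries.ofPowerSeries_apply_coeff] at h7
      exact h7
    rw [h6]
    exact hQ
  · ext n
    rcases lt_or_ge n 0 with hn | hn
    · rw [ModularCurve.ofPowerSeries_coeff_of_neg _ hn]
      have h7 := congrArg (fun F : LaurentSeries ℂ => F.coeff n) h5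
      simp only [ModularCurve.coeffMap_coeff] at h7
      rw [ModularCurve.ofPowerSeries_coeff_of_neg _ hn] at h7
      exact ι.injective (by rw [h7, map_zero])
    · lift n to ℕ using hn
      rw [HahnSeries.ofPowerSeries_apply_coeff, PowerSeries.coeff_mk]

/-- A power series over an algebraically closed field of characteristic zero whose order is a
multiple of `m` is an `m`-th power. -/
theorem exists_pow_eq_of_order' [IsAlgClosed L] [CharZero L] {P : PowerSeries L} {m k : ℕ}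
    (hm : 0 < m) (hP : P.order = ((m * k : ℕ) : ℕ∞)) : ∃ R : PowerSeries L, R ^ m = P := by
  obtain ⟨u, hu⟩ := PowerSeries.X_pow_order_dvd (φ := P)
  have h1 : P.order.toNat = m * k := by rw [hP]; rfl
  rw [h1] at hu
  have hu0 : PowerSeries.constantCoeff u ≠ 0 := by
    intro h0
    have h2 : PowerSeries.coeff (m * k) P = 0 := by
      rw [hu, PowerSeries.coeff_X_pow_mul', if_pos le_rfl, Nat.sub_self,
        PowerSeries.coeff_zero_eq_constantCoeff, h0]
    have h3 := PowerSeries.order_eq_nat.mp hP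
    exact h3.1 h2
  obtain ⟨v, hv, -⟩ := exists_pow_eq_series u hu0 hm
  exact ⟨PowerSeries.X ^ k * v, by rw [mul_pow, hv, ← pow_mul, mul_comm k m, ← hu]⟩

end Form

section Sel

variable {N : ℕ} [NeZero N]

theorem dvd_order_embF {m : ℕ} {z : F0 Qb N} (hz0 : z ≠ 0)
    (hdvd : ∀ v : Place Qb (F0 Qb N), (m : ℤ) ∣ v.ord z) {E : Type*} [Field E]
    (θ : F0 Qb N →+* LaurentSeries E) (hθ : ∀ a : Qb, a ≠ 0 →
      (θ (algebraMap Qb (F0 Qb N) a)).order = 0) : (m : ℤ) ∣ (θ z).order := by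
  refine dvd_of_val (K := Qb) (fun x => (θ x).order) ?_ ?_ hθ hz0 hdvd
  · intro x y hx hy
    change (θ (x * y)).order = _
    rw [map_mul, HahnSeries.order_mul ((map_ne_zero θ).mpr hx) ((map_ne_zero θ).mpr hy)]
  · intro x y hx hy hxy
    change _ ≤ (θ (x + y)).order
    rw [map_add]
    exact HahnSeries.min_order_le_order_add (by rw [← map_add]; exact (map_ne_zero θ).mpr hxy)

/-- **divisible functions are powers of forms with character** -/
theorem exists_xSer_of_dvd {m : ℕ} (hm : 0 < m) {z : F0 Qb N} (hz0 : z ≠ 0)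
    (hz : XSer ιC N 1 (z : LaurentSeries Qb))
    (hdvd : ∀ v : Place Qb (F0 Qb N), (m : ℤ) ∣ v.ord z) :
    ∃ χ ∈ XG N m, ∃ y : LaurentSeries Qb, y ≠ 0 ∧ XSer ιC N χ y ∧ y ^ m = z := by
  obtain ⟨f, ⟨hf1, k, hk⟩, hf', hfz⟩ := hz
  obtain ⟨ζ, hζ⟩ := exists_zeta_Qb N
  have hf0 : f ≠ 0 := by
    rintro rfl
    exact hz0 (Subtype.ext (hfz.eq_zero ιC.injective (isParam_qN 1)))
  have hinv : IsInv N f := fun γ hγ τ => by
    have := hf' ⟨γ, hγ⟩ τ
    simpa using this
  -- large weight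
  have hk' : ∀ γ : SL(2, ℤ), IsBoundedAtImInfty (Δ ^ (k * m) * fun τ : ℍ => f (γ • τ)) := by
    intro γ
    obtain ⟨m', rfl⟩ : ∃ m', m = m' + 1 := ⟨m - 1, by omega⟩
    have h1 : (Δ ^ (k * (m' + 1)) * fun τ : ℍ => f (γ • τ)) =
        Δ ^ (k * m') * (Δ ^ k * fun τ : ℍ => f (γ • τ)) := by
      rw [← mul_assoc, ← pow_add]
      congr 2
    rw [h1]
    refine Filter.BoundedAtFilter.mul ?_ (hk γ)
    have h2 : ∀ j : ℕ, IsBoundedAtImInfty ((Δ : ℍ → ℂ) ^ j) := by
      intro j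
      induction j with
      | zero => rw [pow_zero]; exact Filter.const_boundedAtFilter atImInfty (1 : ℂ)
      | succ j ih => rw [pow_succ]; exact ih.mul disc_bdd
    exact h2 _
  obtain ⟨hmf, P, hPQ, hP⟩ := exists_mform_ge hf1 hk' hf' hfz
  have hfD0 : f * (Δ : ℍ → ℂ) ^ (k * m) ≠ 0 := by
    intro h0
    apply hf0
    funext τ
    have h1 := congrFun h0 τ
    rw [Pi.mul_apply, Pi.pow_apply, Pi.zero_apply] at h1
    exact (mul_eq_zero.mp h1).resolve_right (pow_ne_zero _ (discriminant_ne_zero τ))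
  -- the orders on the upper half plane
  have hord : ∀ τ : ℍ, ∃ j : ℕ, ordH τ (divD hmf.1 (k * m) : ℍ → ℂ) = ((m * j : ℕ) : ℕ∞) := by
    intro τ₀
    have h1 : (divD hmf.1 (k * m) : ℍ → ℂ) = f := by
      funext τ
      rw [divD_apply, Pi.mul_apply, Pi.pow_apply,
        mul_div_cancel_right₀ _ (pow_ne_zero _ (discriminant_ne_zero τ))]
    rw [h1, ← order_dExp_eq hf1]
    have hE : embF (expData_sD τ₀) hζ ((1 : SL(2, ℤ)) : XN N) z =
        HahnSeries.ofPowerSeries ℤ ℂ (dExp τ₀ f) := by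
      refine embF_eq_of_hasExp (expData_sD τ₀) hζ _ hfz ?_
      rw [conjHom_one hinv]
      exact hasExp_dExp τ₀ hf1
    have hd := dvd_order_embF hz0 hdvd (embF (expData_sD τ₀) hζ ((1 : SL(2, ℤ)) : XN N))
      (fun a ha => by
        rw [embF_algebraMap_base]
        exact HahnSeries.order_C)
    rw [hE] at hd
    have hne : dExp τ₀ f ≠ 0 := fun h => hf0 (eq_zero_of_dExp_eq_zero τ₀ hf1 h)
    obtain ⟨n, hn⟩ := ENat.ne_top_iff_exists.mp (fun h => hne (PowerSeries.order_eq_top.mp h))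
    rw [ModFun.order_ofPowerSeries hn.symm] at hd
    obtain ⟨j, rfl⟩ := Int.natCast_dvd_natCast.mp hd
    exact ⟨j, hn.symm⟩
  -- the root of the expansion
  have hP0 : P ≠ 0 := by
    rintro rfl
    rw [map_zero] at hP
    exact (mul_ne_zero (fun h => hz0 (Subtype.ext h)) (pow_ne_zero _ (by
      intro h
      have := dSer_mul_dInvSer (L := Qb)
      rw [h, zero_mul] at this
      exact zero_ne_one this))) hP
  have hdS0 : dSer Qb ≠ 0 := by
    intro h
    have := dSer_mul_dInvSer (L := Qb)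
    rw [h, zero_mul] at this
    exact zero_ne_one this
  obtain ⟨n, hn⟩ := ENat.ne_top_iff_exists.mp (fun h => hP0 (PowerSeries.order_eq_top.mp h))
  have hdq : (m : ℤ) ∣ (z : LaurentSeries Qb).order :=
    dvd_order_embF hz0 hdvd (algebraMap (F0 Qb N) (LaurentSeries Qb)) (fun a ha => by
      change (algebraMap Qb (LaurentSeries Qb) a).order = 0
      rw [ModularCurve.algebraMap_laurentSeries_eq_single]
      exact HahnSeries.order_C)
  have hdP : m ∣ n := by
    have h1 : (HahnSeries.ofPowerSeries ℤ Qb P).order = n := by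
      refine order_eq_of_coeff ?_ ?_
      · rw [HahnSeries.ofPowerSeries_apply_coeff]
        exact (PowerSeries.order_eq_nat.mp hn.symm).1
      · intro j hj
        rcases lt_or_ge j 0 with h | h
        · exact ModularCurve.ofPowerSeries_coeff_of_neg _ h
        · lift j to ℕ using h
          rw [HahnSeries.ofPowerSeries_apply_coeff]
          exact (PowerSeries.order_eq_nat.mp hn.symm).2 j (by exact_mod_cast hj)
    have h2 : (HahnSeries.ofPowerSeries ℤ Qb P).order =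
        (z : LaurentSeries Qb).order + (k * m : ℕ) * (dSer Qb).order := by
      rw [← hP, HahnSeries.order_mul (fun h => hz0 (Subtype.ext h)) (pow_ne_zero _ hdS0),
        HahnSeries.order_pow]
      simp
    have h3 : (m : ℤ) ∣ n := by
      rw [← h1, h2]
      refine dvd_add hdq ?_
      push_cast
      exact Dvd.intro_left ((k : ℤ) * (dSer Qb).order) (by ring)
    exact_mod_cast h3
  obtain ⟨j, rfl⟩ := hdP
  obtain ⟨R, hR⟩ := exists_pow_eq_of_order' hm hn.symm
  have hRQ : HasQ 1 (f * (Δ : ℍ → ℂ) ^ (k * m)) ((R.map ιC) ^ m) := by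
    rw [← map_pow, hR]
    exact hPQ
  obtain ⟨χ, hχ, F, hF, hF0, hFm, hFR⟩ := Fermat.Agent.JTors.exists_root_form hm
    (T_mem_Gamma0 N) (n := k) (mform_congr hmf rfl (by push_cast; ring)) hfD0 hord hRQ
  refine ⟨χ, hχ, HahnSeries.ofPowerSeries ℤ Qb R * dInvSer Qb ^ k, ?_, xSer_of_mform hF hFR, ?_⟩
  · refine mul_ne_zero ?_ (pow_ne_zero _ ?_)
    · intro h
      have hR0 : R = 0 := HahnSeries.ofPowerSeries_injective (by rw [h, map_zero])
      rw [hR0, zero_pow hm.ne'] at hR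
      exact hP0 hR.symm
    · intro h
      have := dSer_mul_dInvSer (L := Qb)
      rw [h, mul_zero] at this
      exact zero_ne_one this
  · rw [mul_pow, ← map_pow, hR, ← hP, ← pow_mul, mul_assoc, ← mul_pow, dSer_mul_dInvSer, one_pow,
      mul_one]

/-- **Finiteness** of the group of divisible functions. -/
theorem exists_finite_sel {m : ℕ} (hm : 0 < m) : ∃ S : Set (F0 Qb N), S.Finite ∧
    ∀ f : F0 Qb N, f ≠ 0 → (∀ v : Place Qb (F0 Qb N), (m : ℤ) ∣ v.ord f) →
      ∃ f' ∈ S, ∃ u : F0 Qb N, u ≠ 0 ∧ f = f' * u ^ m := by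
  classical
  have hm' : NeZero m := ⟨hm.ne'⟩
  have hfin : Finite (XG N m) := ModP.finite_XG N m
  let Q : XG N m → F0 Qb N → Prop := fun χ z => z ≠ 0 ∧ ∃ y : LaurentSeries Qb, y ≠ 0 ∧
    XSer ιC N χ.1 y ∧ y ^ m = z
  let rep : XG N m → F0 Qb N := fun χ => if h : ∃ z, Q χ z then h.choose else 0
  have hrep : ∀ χ z, Q χ z → Q χ (rep χ) := by
    intro χ z hz
    have h : ∃ z, Q χ z := ⟨z, hz⟩
    simp only [rep, dif_pos h]
    exact h.choose_spec
  refine ⟨Set.range rep, Set.finite_range rep, fun f hf hdvd => ?_⟩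
  obtain ⟨a, b, hb, hab⟩ := IsFractionRing.div_surjective (A := Algebra.adjoin Qb (Fermat.Agent.ModFun.gens Qb N)) f
  have hb0 : b ≠ 0 := nonZeroDivisors.ne_zero hb
  have hb1 : algebraMap (A0 Qb N) (F0 Qb N) b ≠ 0 := by
    intro h
    exact hb0 ((IsFractionRing.to_map_eq_zero_iff (K := F0 Qb N)).mp h)
  set b' := algebraMap (A0 Qb N) (F0 Qb N) b with hb'
  have hle : A0 Qb N ≤ holC ιC N := Algebra.adjoin_le gens_subset_holC
  have hz : XSer ιC N 1 ((f * b' ^ m : F0 Qb N) : LaurentSeries Qb) := by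
    have h1 : f * b' ^ m = algebraMap (A0 Qb N) (F0 Qb N) (a * b ^ (m - 1)) := by
      obtain ⟨m', rfl⟩ : ∃ m', m = m' + 1 := ⟨m - 1, by omega⟩
      rw [← hab, Nat.add_sub_cancel, map_mul, map_pow, pow_succ]
      field_simp
      rfl
    rw [h1]
    exact xSer_one_iff.mpr (hle (a * b ^ (m - 1)).2)
  have hz0 : f * b' ^ m ≠ 0 := mul_ne_zero hf (pow_ne_zero _ hb1)
  obtain ⟨χ, hχ, y, hy0, hy, hym⟩ := exists_xSer_of_dvd hm hz0 hz fun v => by
    rw [v.ord_mul hf (pow_ne_zero _ hb1), ord_pow]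
    exact dvd_add (hdvd v) (dvd_mul_right _ _)
  obtain ⟨hr0, y', hy0', hy', hym'⟩ := hrep ⟨χ, hχ⟩ (f * b' ^ m) ⟨hz0, y, hy0, hy, hym⟩
  refine ⟨rep ⟨χ, hχ⟩, ⟨_, rfl⟩, ?_⟩
  have hu : y / y' ∈ F0 Qb N := hy'.div_mem hm hχ.1 hy0' hy
  refine ⟨⟨y / y', hu⟩ / b', div_ne_zero ?_ hb1, ?_⟩
  · intro h
    exact div_ne_zero hy0 hy0' (congrArg (fun x : F0 Qb N => (x : LaurentSeries Qb)) h)
  · have h1 : f * b' ^ m = rep ⟨χ, hχ⟩ * (⟨y / y', hu⟩ : F0 Qb N) ^ m := by
      apply Subtype.ext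
      change ((f * b' ^ m : F0 Qb N) : LaurentSeries Qb) =
        (rep ⟨χ, hχ⟩ : LaurentSeries Qb) * (y / y') ^ m
      rw [← hym, ← hym', div_pow, mul_div_cancel₀ _ (pow_ne_zero _ hy0')]
    rw [div_pow, ← mul_div_assoc, ← h1, mul_div_cancel_right₀ _ (pow_ne_zero _ hb1)]

end Sel

end Fermat.Agent.Flat
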