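import Mathlib
import Fermat.Agent.Flat.Fin

/-!
Divisible functions on `X₀(N)` over an algebraically closed field of characteristic zero are powers
of series with character.
-/

set_option autoImplicit false
set_option linter.unusedSectionVars false

noncomputable section

namespace Fermat.Agent.Flat

open UpperHalfPlane hiding I J
open ModularForm
open scoped IntermediateField.algebraAdjoinAdjoin
open scoped Manifold MatrixGroups ModularForm
open Fermat.Agent.Eis16 Fermat.Agent.ModFun Fermat.Agent.ESCore Fermat.Agent.ESCore.Gal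
open Fermat.Agent.LG AlgebraicCurve
open CongruenceSubgroup (Gamma0 Gamma Gamma0_mem Gamma_mem Gamma_normal)

local notation "Δ" => ModularForm.discriminant

section Gen

variable {K : Type*} [Field K] [IsAlgClosed K] [CharZero K] {ι : K →+* ℂ} {N : ℕ} [NeZero N]

theorem dvd_order_embF' {m : ℕ} {z : F0 K N} (hz0 : z ≠ 0)
    (hdvd : ∀ v : Place K (F0 K N), (m : ℤ) ∣ v.ord z) {E : Type*} [Field E]
    (θ : F0 K N →+* LaurentSeries E) (hθ : ∀ a : K, a ≠ 0 →
      (θ (algebraMap K (F0 K N) a)).order = 0) : (m : ℤ) ∣ (θ z).order := by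
  refine dvd_of_val (K := K) (fun x => (θ x).order) ?_ ?_ hθ hz0 hdvd
  · intro x y hx hy
    change (θ (x * y)).order = _
    rw [map_mul, HahnSeries.order_mul ((map_ne_zero θ).mpr hx) ((map_ne_zero θ).mpr hy)]
  · intro x y hx hy hxy
    change _ ≤ (θ (x + y)).order
    rw [map_add]
    exact HahnSeries.min_order_le_order_add (by rw [← map_add]; exact (map_ne_zero θ).mpr hxy)

/-- **divisible functions are powers of forms with character** -/
theorem exists_xSer_of_dvd' {m : ℕ} (hm : 0 < m) {z : F0 K N} (hz0 : z ≠ 0)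
    (hz : XSer ι N 1 (z : LaurentSeries K))
    (hdvd : ∀ v : Place K (F0 K N), (m : ℤ) ∣ v.ord z) :
    ∃ χ ∈ XG N m, ∃ y : LaurentSeries K, y ≠ 0 ∧ XSer ι N χ y ∧ y ^ m = z := by
  obtain ⟨f, ⟨hf1, k, hk⟩, hf', hfz⟩ := hz
  obtain ⟨ζ, hζ⟩ := exists_zeta ι N
  have hf0 : f ≠ 0 := by
    rintro rfl
    exact hz0 (Subtype.ext (hfz.eq_zero ι.injective (isParam_qN 1)))
  have hinv : IsInv N f := fun γ hγ τ => by
    have := hf' ⟨γ, hγ⟩ τ
    simpa using this
  -- large weight
  have hk' : ∀ γ : SL(2, ℤ), IsBoundedAtImInfty (Δ ^ (k * m) * fun τ : ℍ => f (γ • τ)) := by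
    intro γ
    obtain ⟨m', rfl⟩ : ∃ m', m = m' + 1 := ⟨m - 1, by omega⟩
    have h1 : (Δ ^ (k * (m' + 1)) * fun τ : ℍ => f (γ • τ)) =
        Δ ^ (k * m') * (Δ ^ k * fun τ : ℍ => f (γ • τ)) := by
      rw [← mul_assoc, ← pow_add]
      congr 2
    rw [h1]
    refine Filter.BoundedAtFilter.mul ?_ (hk γ)
    have h2 : ∀ j : ℕ, IsBoundedAtImInfty ((Δ : ℍ → ℂ) ^ j) := by
      intro j
      induction j with
      | zero => rw [pow_zero]; exact Filter.const_boundedAtFilter atImInfty (1 : ℂ)
      | succ j ih => rw [pow_succ]; exact ih.mul disc_bdd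
    exact h2 _
  obtain ⟨hmf, P, hPQ, hP⟩ := exists_mform_ge hf1 hk' hf' hfz
  have hfD0 : f * (Δ : ℍ → ℂ) ^ (k * m) ≠ 0 := by
    intro h0
    apply hf0
    funext τ
    have h1 := congrFun h0 τ
    rw [Pi.mul_apply, Pi.pow_apply, Pi.zero_apply] at h1
    exact (mul_eq_zero.mp h1).resolve_right (pow_ne_zero _ (discriminant_ne_zero τ))
  -- the orders on the upper half plane
  have hord : ∀ τ : ℍ, ∃ j : ℕ, ordH τ (divD hmf.1 (k * m) : ℍ → ℂ) = ((m * j : ℕ) : ℕ∞) := by
    intro τ₀
    have h1 : (divD hmf.1 (k * m) : ℍ → ℂ) = f := by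
      funext τ
      rw [divD_apply, Pi.mul_apply, Pi.pow_apply,
        mul_div_cancel_right₀ _ (pow_ne_zero _ (discriminant_ne_zero τ))]
    rw [h1, ← order_dExp_eq hf1]
    have hE : embF (expData_sD τ₀) hζ ((1 : SL(2, ℤ)) : XN N) z =
        HahnSeries.ofPowerSeries ℤ ℂ (dExp τ₀ f) := by
      refine embF_eq_of_hasExp (expData_sD τ₀) hζ _ hfz ?_
      rw [conjHom_one hinv]
      exact hasExp_dExp τ₀ hf1
    have hd := dvd_order_embF' hz0 hdvd (embF (expData_sD τ₀) hζ ((1 : SL(2, ℤ)) : XN N))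
      (fun a ha => by
        rw [embF_algebraMap_base]
        exact HahnSeries.order_C)
    rw [hE] at hd
    have hne : dExp τ₀ f ≠ 0 := fun h => hf0 (eq_zero_of_dExp_eq_zero τ₀ hf1 h)
    obtain ⟨n, hn⟩ := ENat.ne_top_iff_exists.mp (fun h => hne (PowerSeries.order_eq_top.mp h))
    rw [ModFun.order_ofPowerSeries hn.symm] at hd
    obtain ⟨j, rfl⟩ := Int.natCast_dvd_natCast.mp hd
    exact ⟨j, hn.symm⟩
  -- the root of the expansion
  have hP0 : P ≠ 0 := by
    rintro rfl
    rw [map_zero] at hP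
    exact (mul_ne_zero (fun h => hz0 (Subtype.ext h)) (pow_ne_zero _ (by
      intro h
      have := dSer_mul_dInvSer (L := K)
      rw [h, zero_mul] at this
      exact zero_ne_one this))) hP
  have hdS0 : dSer K ≠ 0 := by
    intro h
    have := dSer_mul_dInvSer (L := K)
    rw [h, zero_mul] at this
    exact zero_ne_one this
  obtain ⟨n, hn⟩ := ENat.ne_top_iff_exists.mp (fun h => hP0 (PowerSeries.order_eq_top.mp h))
  have hdq : (m : ℤ) ∣ (z : LaurentSeries K).order :=
    dvd_order_embF' hz0 hdvd (algebraMap (F0 K N) (LaurentSeries K)) (fun a ha => by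
      change (algebraMap K (LaurentSeries K) a).order = 0
      rw [ModularCurve.algebraMap_laurentSeries_eq_single]
      exact HahnSeries.order_C)
  have hdP : m ∣ n := by
    have h1 : (HahnSeries.ofPowerSeries ℤ K P).order = n := by
      refine order_eq_of_coeff ?_ ?_
      · rw [HahnSeries.ofPowerSeries_apply_coeff]
        exact (PowerSeries.order_eq_nat.mp hn.symm).1
      · intro j hj
        rcases lt_or_ge j 0 with h | h
        · exact ModularCurve.ofPowerSeries_coeff_of_neg _ h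
        · lift j to ℕ using h
          rw [HahnSeries.ofPowerSeries_apply_coeff]
          exact (PowerSeries.order_eq_nat.mp hn.symm).2 j (by exact_mod_cast hj)
    have h2 : (HahnSeries.ofPowerSeries ℤ K P).order =
        (z : LaurentSeries K).order + (k * m : ℕ) * (dSer K).order := by
      rw [← hP, HahnSeries.order_mul (fun h => hz0 (Subtype.ext h)) (pow_ne_zero _ hdS0),
        HahnSeries.order_pow]
      simp
    have h3 : (m : ℤ) ∣ n := by
      rw [← h1, h2]
      refine dvd_add hdq ?_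
      push_cast
      exact Dvd.intro_left ((k : ℤ) * (dSer K).order) (by ring)
    exact_mod_cast h3
  obtain ⟨j, rfl⟩ := hdP
  obtain ⟨R, hR⟩ := exists_pow_eq_of_order' hm hn.symm
  have hRQ : HasQ 1 (f * (Δ : ℍ → ℂ) ^ (k * m)) ((R.map ι) ^ m) := by
    rw [← map_pow, hR]
    exact hPQ
  obtain ⟨χ, hχ, F, hF, hF0, hFm, hFR⟩ := Fermat.Agent.JTors.exists_root_form hm
    (T_mem_Gamma0 N) (n := k) (mform_congr hmf rfl (by push_cast; ring)) hfD0 hord hRQ
  refine ⟨χ, hχ, HahnSeries.ofPowerSeries ℤ K R * dInvSer K ^ k, ?_, xSer_of_mform hF hFR, ?_⟩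
  · refine mul_ne_zero ?_ (pow_ne_zero _ ?_)
    · intro h
      have hR0 : R = 0 := HahnSeries.ofPowerSeries_injective (by rw [h, map_zero])
      rw [hR0, zero_pow hm.ne'] at hR
      exact hP0 hR.symm
    · intro h
      have := dSer_mul_dInvSer (L := K)
      rw [h, mul_zero] at this
      exact zero_ne_one this
  · rw [mul_pow, ← map_pow, hR, ← hP, ← pow_mul, mul_assoc, ← mul_pow, dSer_mul_dInvSer, one_pow,
      mul_one]

end Gen

end Fermat.Agent.Flat
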