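import Mathlib
import Fermat.Agent.LG.Th2
import Fermat.Agent.LG.KX7

/-!
The degeneracy map `f(q) ↦ f(q^p)` and its image.
-/

set_option autoImplicit false
set_option linter.unusedSectionVars false

noncomputable section

namespace Fermat.Agent.Flat

open IntermediateField Module
open Fermat.Agent.LG Fermat.Agent.ModFun
open ModularCurve

universe u

variable {K : Type u} [Field K]

theorem order_jq : (jqModC K).order = -1 := by
  refine order_eq_of_coeff ?_ fun k hk => ?_
  · have h3 := coeff_jqModC_pow_self' (R := K) 1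
    rw [pow_one, Nat.cast_one] at h3
    rw [h3]
    exact one_ne_zero
  · have h1 : k < -((1 : ℕ) : ℤ) := by
      rw [Nat.cast_one]
      exact hk
    have := coeff_jqModC_pow_of_lt' (R := K) h1
    rwa [pow_one] at this

theorem qExpand_one' (x : LaurentSeries K) : qExpand K 1 x = x := by
  ext n
  have h := qExpand_coeff_mul (R := K) 1 x n
  rwa [Nat.cast_one, one_mul] at h

/-- powers of `j` are independent over series in `q^p` -/
theorem indep_jq {p : ℕ} [NeZero p] (c : Fin p → LaurentSeries K)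
    (hc : ∀ i, c i ∈ (qExpand K p).range) (h : ∑ i, c i * jqModC K ^ (i : ℕ) = 0) (i : Fin p) :
    c i = 0 := by
  classical
  by_contra hi
  have hj0 : jqModC K ≠ 0 := by
    intro h
    have := order_jq (K := K)
    rw [h, HahnSeries.order_zero] at this
    norm_num at this
  let s : Finset (Fin p) := Finset.univ.filter fun i => c i ≠ 0
  have hs : s.Nonempty := ⟨i, by simp [s, hi]⟩
  let o : Fin p → ℤ := fun i => (c i * jqModC K ^ (i : ℕ)).order
  obtain ⟨i₀, hi₀, hmin⟩ := s.exists_min_image o hs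
  have hs' : ∀ i, i ∈ s ↔ c i ≠ 0 := fun i => by simp [s]
  have ho : ∀ i ∈ s, ∃ a : ℤ, o i = p * a - i := by
    intro i hi
    have hci := (hs' i).mp hi
    obtain ⟨x, hx⟩ := hc i
    have hx0 : x ≠ 0 := by
      rintro rfl
      rw [map_zero] at hx
      exact hci hx.symm
    refine ⟨x.order, ?_⟩
    change (c i * jqModC K ^ (i : ℕ)).order = _
    rw [HahnSeries.order_mul hci (pow_ne_zero _ hj0), HahnSeries.order_pow, order_jq, ← hx,
      order_qExpand' p hx0]
    simp
    ring
  have hdist : ∀ i ∈ s, i ≠ i₀ → o i₀ < o i := by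
    intro i hi hne
    refine lt_of_le_of_ne (hmin i hi) fun heq => hne ?_
    obtain ⟨a, ha⟩ := ho i hi
    obtain ⟨b, hb⟩ := ho i₀ hi₀
    rw [ha, hb] at heq
    have h1 : (p : ℤ) ∣ (i : ℤ) - (i₀ : ℤ) := ⟨a - b, by linarith⟩
    have h2 : ((i : ℕ) : ℤ) < p := by exact_mod_cast i.2
    have h3 : ((i₀ : ℕ) : ℤ) < p := by exact_mod_cast i₀.2
    have h4 : (0 : ℤ) ≤ (i : ℕ) := Int.natCast_nonneg _
    have h5 : (0 : ℤ) ≤ (i₀ : ℕ) := Int.natCast_nonneg _
    have h6 : (i : ℤ) - (i₀ : ℤ) = 0 := Int.eq_zero_of_abs_lt_dvd h1 (by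
      rw [abs_lt]
      constructor <;> linarith)
    apply Fin.ext
    omega
  have hcoef := congrArg (fun F : LaurentSeries K => F.coeff (o i₀)) h
  simp only [HahnSeries.coeff_sum, HahnSeries.coeff_zero] at hcoef
  rw [Finset.sum_eq_single i₀] at hcoef
  · have hne : c i₀ * jqModC K ^ (i₀ : ℕ) ≠ 0 := mul_ne_zero ((hs' _).mp hi₀) (pow_ne_zero _ hj0)
    exact HahnSeries.coeff_order_eq_zero.not.2 hne hcoef
  · intro i _ hne
    by_cases hi : i ∈ s
    · exact HahnSeries.coeff_eq_zero_of_lt_order (hdist i hi hne)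
    · have : c i = 0 := by
        by_contra h
        exact hi ((hs' i).mpr h)
      rw [this, zero_mul, HahnSeries.coeff_zero]
  · intro h
    exact absurd (Finset.mem_univ _) h

/-- the field generated by `j(q^p)` -/
def LJp (K : Type u) [Field K] (p : ℕ) [NeZero p] : IntermediateField K (LaurentSeries K) :=
  IntermediateField.adjoin K {qExpand K p (jqModC K)}

theorem LJp_le_F0 (p : ℕ) [NeZero p] : LJp K p ≤ F0 K p := by
  rw [LJp, IntermediateField.adjoin_simple_le_iff]
  exact subset_adjoin K _ ⟨p, inferInstance, dvd_rfl, rfl⟩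

/-- `[K(X₀(p)) : K(j(q^p))] = p + 1` -/
theorem finrank_LJp (ι : K →+* ℂ) {p : ℕ} [NeZero p] (hp : p.Prime) :
    letI := algI (LJp_le_F0 (K := K) p)
    FiniteDimensional (LJp K p) (F0 K p) ∧ Module.finrank (LJp K p) (F0 K p) = p + 1 := by
  obtain ⟨B⟩ := nonempty_bez (Nat.coprime_one_right p)
  have hN : p = p * 1 := (mul_one p).symm
  let w : F0 K p ≃ₐ[K] F0 K p := AlgEquiv.ofRingEquiv (f := B.wF ι hp hN) (B.wF_C hp hN)
  have G := genSet_gens ι p
  have hfd := G.finiteDimensional
  let jp : F0 K p := ⟨qExpand K p (jqModC K), LJp_le_F0 p (mem_adjoin_simple_self K _)⟩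
  have hw : w G.jF = jp := by
    apply Subtype.ext
    have h1 := B.wF_gen₁ (ι := ι) hp hN (d := 1) dvd_rfl (by
      rw [qExpand_one']
      exact G.jF.2)
    simp only [mul_one] at h1
    have h2 : (⟨qExpand K 1 (jqModC K), by
      rw [qExpand_one']
      exact G.jF.2⟩ : F0 K p) = G.jF := Subtype.ext (qExpand_one' _)
    rw [h2] at h1
    exact h1
  have hmap : (K⟮G.jF⟯).map (w : F0 K p →ₐ[K] F0 K p) = K⟮jp⟯ := by
    rw [IntermediateField.adjoin_map, Set.image_singleton]
    congr 2
  let e : K⟮G.jF⟯ ≃+* K⟮jp⟯ := ((IntermediateField.equivMap K⟮G.jF⟯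
    (w : F0 K p →ₐ[K] F0 K p)).trans (IntermediateField.equivOfEq hmap)).toRingEquiv
  have hfr : Module.finrank K⟮G.jF⟯ (F0 K p) = Module.finrank K⟮jp⟯ (F0 K p) :=
    Algebra.finrank_eq_of_equiv_equiv e w.toRingEquiv (by
      ext x
      rfl)
  have hpos : 0 < Module.finrank K⟮jp⟯ (F0 K p) := by
    rw [← hfr]
    exact Module.finrank_pos
  have hfd' : FiniteDimensional K⟮jp⟯ (F0 K p) := FiniteDimensional.of_finrank_pos hpos
  have h1 := finrank_transport (LJp_le_F0 (K := K) p) jp rfl hfd'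
  have hcard : Module.finrank K⟮G.jF⟯ (F0 K p) = ModularCurve.dedekindPsi p := by
    rw [G.finrank_eq, ← Fermat.Agent.Gamma0Comb.index_Gamma0, Subgroup.index,
      Nat.card_eq_fintype_card]
  have hpsi := Fermat.Agent.Gamma0Comb.dedekindPsi_prime_pow hp 0
  rw [zero_add, pow_one, pow_zero] at hpsi
  refine ⟨h1.1, h1.2.trans ?_⟩
  rw [← hfr, hcard, hpsi]

/-- dilation -/
def qExpH (K : Type u) [Field K] (p : ℕ) [NeZero p] : LaurentSeries K →ₐ[K] LaurentSeries K :=
  { qExpand K p with
    commutes' := fun c => by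
      change qExpand K p (algebraMap K (LaurentSeries K) c) = algebraMap K (LaurentSeries K) c
      rw [algebraMap_laurentSeries_eq_single, qExpand_single, mul_zero] }

/-- the image of the second degeneracy map -/
def imQ (K : Type u) [Field K] (p N : ℕ) [NeZero p] [NeZero N] :
    IntermediateField K (LaurentSeries K) := (F0 K N).map (qExpH K p)

theorem mem_imQ {p N : ℕ} [NeZero p] [NeZero N] {x : LaurentSeries K} :
    x ∈ imQ K p N ↔ ∃ y ∈ F0 K N, qExpand K p y = x := Iff.rfl

theorem imQ_le {p N : ℕ} [NeZero p] [NeZero N] : imQ K p N ≤ F0 K (p * N) := by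
  rintro _ ⟨y, hy, rfl⟩
  have h := qExpand_mem_F0_of_dvd (K := K) (m := p) (M := N) (N := p * N) dvd_rfl hy
  exact h

theorem LJp_le_imQ {p N : ℕ} [NeZero p] [NeZero N] : LJp K p ≤ imQ K p N := by
  rw [LJp, IntermediateField.adjoin_simple_le_iff]
  exact ⟨jqModC K, subset_adjoin K _ jqModC_mem_gens, rfl⟩

theorem F0_le_of (ι : K →+* ℂ) {p N : ℕ} [NeZero p] [NeZero N]
    (T : IntermediateField K (LaurentSeries K)) (h1 : F0 K p ≤ T) (h2 : imQ K p N ≤ T) :
    F0 K (p * N) ≤ T := by
  rw [IntermediateField.adjoin_le_iff]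
  intro x hx
  have h3 : x ∈ holC ι (p * N) := gens_subset_holC hx
  have h4 := mem_adjoin_of_mem_holC h3
  have h5 : IntermediateField.adjoin K {jqModC K, qExpand K (p * N) (jqModC K)} ≤ T := by
    rw [IntermediateField.adjoin_le_iff]
    rintro y (rfl | rfl)
    · exact h1 (subset_adjoin K _ jqModC_mem_gens)
    · refine h2 ⟨qExpand K N (jqModC K), subset_adjoin K _ ⟨N, inferInstance, dvd_rfl, rfl⟩, ?_⟩
      change qExpand K p (qExpand K N (jqModC K)) = _
      rw [qExpand_qExpand]
  exact h5 h4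

/-- series whose dilation is a modular function of level `pN` -/
theorem mem_F0_of_qExpand (ι : K →+* ℂ) {p N : ℕ} [NeZero p] [NeZero N] (hp : p.Prime)
    {v : LaurentSeries K} (hv : qExpand K p v ∈ F0 K (p * N)) : v ∈ F0 K N := by
  classical
  by_contra hvN
  have hle : imQ K p N ≤ F0 K (p * N) := imQ_le
  obtain ⟨hfd1, hfr1⟩ := finrank_LJp ι hp
  obtain ⟨hfd, hfr⟩ := finrank_compositum (LJp_le_F0 (K := K) p) (LJp_le_imQ (N := N)) hle
    (F0_le_of ι) hfd1
  let _ := algG hle
  have hw : qExpand K p v ∉ imQ K p N := by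
    rintro ⟨y, hy, hyv⟩
    have : y = v := (qExpand K p).injective hyv
    rw [this] at hy
    exact hvN hy
  have hj : jqModC K ∈ F0 K (p * N) := subset_adjoin K _ jqModC_mem_gens
  have hrange : ∀ x ∈ imQ K p N, x ∈ (qExpand K p).range := by
    rintro _ ⟨y, -, rfl⟩
    exact ⟨y, rfl⟩
  let f : Fin 2 × Fin p → F0 K (p * N) := fun k =>
    (if k.1 = 0 then 1 else ⟨qExpand K p v, hv⟩) * ⟨jqModC K, hj⟩ ^ (k.2 : ℕ)
  have hli : LinearIndependent (imQ K p N) f := by
    rw [Fintype.linearIndependent_iff]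
    intro g hg
    rw [Fintype.sum_prod_type, Fin.sum_univ_two, ← Finset.sum_add_distrib] at hg
    have h1 := congrArg (fun x : F0 K (p * N) => (x : LaurentSeries K)) hg
    simp only [AddSubmonoidClass.coe_finsetSum, ZeroMemClass.coe_zero] at h1
    have h2 : ∑ i : Fin p, ((g (0, i) : LaurentSeries K) +
        (g (1, i) : LaurentSeries K) * qExpand K p v) * jqModC K ^ (i : ℕ) = 0 := by
      rw [← h1]
      refine Finset.sum_congr rfl fun i _ => ?_
      have h3 : ((g (0, i) • f (0, i) + g (1, i) • f (1, i) : F0 K (p * N)) : LaurentSeries K) =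
          (g (0, i) : LaurentSeries K) * (1 * jqModC K ^ (i : ℕ)) +
          (g (1, i) : LaurentSeries K) * (qExpand K p v * jqModC K ^ (i : ℕ)) := rfl
      rw [h3]
      ring
    have h4 := indep_jq _ (fun i => by
      exact add_mem (hrange _ (g (0, i)).2) (mul_mem (hrange _ (g (1, i)).2) ⟨v, rfl⟩)) h2
    have h5 : ∀ i, g (1, i) = 0 := by
      intro i
      by_contra hne
      have hne' : (g (1, i) : LaurentSeries K) ≠ 0 := fun h => hne (Subtype.ext h)
      apply hw
      have h6 := h4 i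
      have h7 : qExpand K p v = -(g (0, i) : LaurentSeries K) / (g (1, i) : LaurentSeries K) := by
        rw [eq_div_iff hne', mul_comm]
        linear_combination h6
      rw [h7]
      exact div_mem (neg_mem (g (0, i)).2) (g (1, i)).2
    have h6 : ∀ i, g (0, i) = 0 := by
      intro i
      have h7 := h4 i
      rw [h5 i, ZeroMemClass.coe_zero, zero_mul, add_zero] at h7
      exact Subtype.ext h7
    rintro ⟨a, i⟩
    fin_cases a
    · exact h6 i
    · exact h5 i
  have hcard := hli.fintype_card_le_finrank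
  rw [Fintype.card_prod, Fintype.card_fin, Fintype.card_fin] at hcard
  have h8 := hp.two_le
  have h9 : Module.finrank (imQ K p N) (F0 K (p * N)) ≤ p + 1 := hfr.trans hfr1.le
  omega

end Fermat.Agent.Flat
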