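import Mathlib
import Fermat.Agent.Igusa.LocZ

/-!
The localization of `ℤ` at a prime is a discrete valuation ring.
-/

set_option autoImplicit false

noncomputable section

namespace Fermat.Agent.Flat

open Fermat.Agent.Igusa

theorem isDVR_rat {q : ℕ} (hq : q.Prime) :
    IsDiscreteValuationRing (GaloisRep.ratLocalizedAt q) := by
  classical
  have : Fact q.Prime := ⟨hq⟩
  have hirr : Irreducible (q : Lam q) := prime_l.irreducible
  refine IsDiscreteValuationRing.ofHasUnitMulPowIrreducibleFactorization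
    ⟨(q : Lam q), hirr, fun {x} hx => ?_⟩
  have h1 : ∃ k : ℕ, ¬ (q : Lam q) ^ k ∣ x := by
    by_contra hcon
    push Not at hcon
    exact hx (eq_zero_of_forall_pow_dvd hcon)
  have h2 := Nat.find_spec h1
  set n := Nat.find h1 with hn
  have hn0 : n ≠ 0 := by
    intro h
    rw [h, pow_zero] at h2
    exact h2 (one_dvd x)
  have h3 : (q : Lam q) ^ (n - 1) ∣ x := by
    by_contra hcon
    exact Nat.find_min h1 (m := n - 1) (by omega) hcon
  obtain ⟨y, hy⟩ := h3
  have h4 : IsUnit y := by
    rw [isUnit_iff]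
    rintro ⟨z, hz⟩
    apply h2
    refine ⟨z, ?_⟩
    rw [hy, hz, ← mul_assoc, ← pow_succ, Nat.sub_add_cancel (Nat.one_le_iff_ne_zero.mpr hn0)]
  obtain ⟨u, rfl⟩ := h4
  exact ⟨n - 1, u, hy.symm⟩

end Fermat.Agent.Flat
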