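import Mathlib
import Fermat.Agent.Flat.Desc

/-!
The Hopf algebra of a Hopf order.
-/

set_option autoImplicit false
set_option linter.unusedSectionVars false

noncomputable section

namespace Fermat.Agent.Flat

open Module TensorProduct

section Ev

variable {R Ω : Type*} [CommRing R] [Field Ω] [Algebra R Ω]

/-- A module of functions with a basis which is independent over `Ω`. -/
def GoodEv {X M : Type*} [AddCommGroup M] [Module R M] (φ : M →ₗ[R] (X → Ω)) : Prop :=
  ∃ (ι : Type) (_ : Fintype ι) (b : Basis ι R M), LinearIndependent Ω fun i => φ (b i)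

theorem GoodEv.injective (hinj : Function.Injective (algebraMap R Ω)) {X M : Type*}
    [AddCommGroup M] [Module R M] {φ : M →ₗ[R] (X → Ω)} (h : GoodEv φ) :
    Function.Injective φ := by
  obtain ⟨ι, _, b, hb⟩ := h
  rw [injective_iff_map_eq_zero]
  intro m hm
  rw [← b.sum_repr m, map_sum] at hm
  have h1 : ∑ i, algebraMap R Ω (b.repr m i) • φ (b i) = 0 := by
    rw [← hm]
    refine Finset.sum_congr rfl fun i _ => ?_
    rw [map_smul, algebraMap_smul]
  have h2 := Fintype.linearIndependent_iff.mp hb _ h1
  rw [← b.sum_repr m]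
  refine Finset.sum_eq_zero fun i _ => ?_
  rw [hinj (a₁ := b.repr m i) (a₂ := 0) (by rw [h2 i, map_zero]), zero_smul]

variable {X Y M M' : Type*} [AddCommGroup M] [Module R M] [AddCommGroup M'] [Module R M']

/-- Products of functions. -/
def evT (φ : M →ₗ[R] (X → Ω)) (ψ : M' →ₗ[R] (Y → Ω)) : M ⊗[R] M' →ₗ[R] (X × Y → Ω) :=
  TensorProduct.lift (LinearMap.mk₂ R (fun m m' p => φ m p.1 * ψ m' p.2)
    (fun m₁ m₂ m' => by funext p; simp only [map_add, Pi.add_apply, add_mul])
    (fun c m m' => by
      funext p; simp only [map_smul, Pi.smul_apply, Algebra.smul_def, mul_assoc])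
    (fun m m₁ m₂ => by funext p; simp only [map_add, Pi.add_apply, mul_add])
    (fun c m m' => by
      funext p; simp only [map_smul, Pi.smul_apply, Algebra.smul_def]; ring))

@[simp] theorem evT_tmul (φ : M →ₗ[R] (X → Ω)) (ψ : M' →ₗ[R] (Y → Ω)) (m : M) (m' : M')
    (p : X × Y) : evT φ ψ (m ⊗ₜ m') p = φ m p.1 * ψ m' p.2 := rfl

theorem GoodEv.tens {φ : M →ₗ[R] (X → Ω)} {ψ : M' →ₗ[R] (Y → Ω)} (h : GoodEv φ)
    (h' : GoodEv ψ) : GoodEv (evT φ ψ) := by
  obtain ⟨ι, _, b, hb⟩ := h
  obtain ⟨ι', _, b', hb'⟩ := h'
  refine ⟨ι × ι', inferInstance, b.tensorProduct b', ?_⟩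
  rw [Fintype.linearIndependent_iff]
  rintro c hc ⟨i, j⟩
  have h1 : ∀ y, ∑ i, (∑ j, c (i, j) * ψ (b' j) y) • φ (b i) = 0 := by
    intro y
    funext x
    have h2 := congrFun hc (x, y)
    rw [Fintype.sum_prod_type] at h2
    simp only [Finset.sum_apply, Pi.smul_apply, smul_eq_mul, Pi.zero_apply,
      Basis.tensorProduct_apply, evT_tmul] at h2 ⊢
    rw [← h2]
    refine Finset.sum_congr rfl fun i _ => ?_
    rw [Finset.sum_mul]
    refine Finset.sum_congr rfl fun j _ => ?_
    ring
  have h3 : ∑ j, c (i, j) • ψ (b' j) = 0 := by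
    funext y
    have h2 := Fintype.linearIndependent_iff.mp hb _ (h1 y) i
    simpa only [Finset.sum_apply, Pi.smul_apply, smul_eq_mul, Pi.zero_apply] using h2
  exact Fintype.linearIndependent_iff.mp hb' _ h3 j

end Ev

section Hopf

variable {R G Ω V : Type*} [CommRing R] [IsDomain R] [IsPrincipalIdealRing R] [Field Ω]
  [Algebra R Ω] [Group G] [MulSemiringAction G Ω] [AddCommGroup V] [Finite V]
  [DistribMulAction G V]

/-- The inclusion of `H` in the functions. -/
def incl (H : Subalgebra R (V → Ω)) : H →ₗ[R] (V → Ω) := H.val.toLinearMap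

@[simp] theorem incl_apply (H : Subalgebra R (V → Ω)) (f : H) (v : V) :
    incl H f v = (f : V → Ω) v := rfl

theorem HBasis.exists_basis {H : Subalgebra R (V → Ω)} {n : ℕ} {h : Fin n → V → Ω}
    (hinj : Function.Injective (algebraMap R Ω)) (hb : HBasis H h) :
    ∃ b : Basis (Fin n) R H, ∀ i, (b i : V → Ω) = h i := by
  have hli : LinearIndependent R fun i => (⟨h i, hb.mem i⟩ : H) := by
    rw [Fintype.linearIndependent_iff]
    intro c hc i
    have h1 : ∑ i, algebraMap R Ω (c i) • h i = 0 := by
      have h2 := congrArg (fun x : H => (x : V → Ω)) hc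
      simp only [AddSubmonoidClass.coe_finsetSum, ZeroMemClass.coe_zero] at h2
      rw [← h2]
      refine Finset.sum_congr rfl fun i _ => ?_
      rw [algebraMap_smul]
      rfl
    have h2 := Fintype.linearIndependent_iff.mp hb.li _ h1 i
    exact hinj (by rw [h2, map_zero])
  have hsp : ⊤ ≤ Submodule.span R (Set.range fun i => (⟨h i, hb.mem i⟩ : H)) := by
    rintro ⟨f, hf⟩ -
    obtain ⟨c, hc⟩ := hb.span f hf
    have : (⟨f, hf⟩ : H) = ∑ i, c i • (⟨h i, hb.mem i⟩ : H) := by
      apply Subtype.ext
      rw [AddSubmonoidClass.coe_finsetSum]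
      exact hc
    rw [this]
    exact Submodule.sum_mem _ fun i _ => Submodule.smul_mem _ _ (Submodule.subset_span ⟨i, rfl⟩)
  refine ⟨Basis.mk hli hsp, fun i => ?_⟩
  rw [Basis.mk_apply]

theorem IsHopfOrder.goodEv (hD : Desc R G Ω) {H : Subalgebra R (V → Ω)}
    (hH : IsHopfOrder R G H) : GoodEv (incl H) := by
  obtain ⟨n, h, hb⟩ := hH.exists_hbasis hD
  obtain ⟨b, hbh⟩ := hb.exists_basis hD.inj
  refine ⟨Fin n, inferInstance, b, ?_⟩
  have : (fun i => incl H (b i)) = h := funext hbh
  rw [this]
  exact hb.li

/-- The evaluation `H ⊗ H → functions on V × V`. -/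
def ev2 (H : Subalgebra R (V → Ω)) : H ⊗[R] H →ₐ[R] (V × V → Ω) :=
  Algebra.TensorProduct.productMap ((pull R Prod.fst).comp H.val) ((pull R Prod.snd).comp H.val)

theorem ev2_tmul (H : Subalgebra R (V → Ω)) (f g : H) (p : V × V) :
    ev2 H (f ⊗ₜ g) p = (f : V → Ω) p.1 * (g : V → Ω) p.2 := by
  simp [ev2]

theorem ev2_eq (H : Subalgebra R (V → Ω)) : (ev2 H).toLinearMap = evT (incl H) (incl H) := by
  apply TensorProduct.ext'
  intro f g
  funext p
  exact ev2_tmul H f g p

theorem ev2_eq' (H : Subalgebra R (V → Ω)) (x : H ⊗[R] H) :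
    ev2 H x = evT (incl H) (incl H) x := by
  rw [← ev2_eq]; rfl

theorem range_ev2 (H : Subalgebra R (V → Ω)) : (ev2 H).range = tens₂ R H H := by
  rw [ev2, Algebra.TensorProduct.productMap_range, tens₂, AlgHom.range_comp, AlgHom.range_comp,
    Subalgebra.range_val]

section Struct

variable {H : Subalgebra R (V → Ω)} (hD : Desc R G Ω) (hH : IsHopfOrder R G H)
include hD hH

theorem ev2_injective : Function.Injective (ev2 H) := by
  have h := (GoodEv.tens (hH.goodEv hD) (hH.goodEv hD)).injective hD.inj
  intro x y hxy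
  rw [ev2_eq', ev2_eq'] at hxy
  exact h hxy

/-- comultiplication -/
def cm : H →ₐ[R] H ⊗[R] H :=
  ((AlgEquiv.ofInjective (ev2 H) (ev2_injective hD hH)).symm : (ev2 H).range →ₐ[R] H ⊗[R] H).comp
    (((pull R (fun p : V × V => p.1 + p.2)).comp H.val).codRestrict (ev2 H).range fun f => by
      rw [range_ev2]
      exact hH.comul f f.2)

theorem ev2_cm (f : H) (p : V × V) : ev2 H (cm hD hH f) p = (f : V → Ω) (p.1 + p.2) := by
  have h : AlgEquiv.ofInjective (ev2 H) (ev2_injective hD hH) (cm hD hH f) =
      (((pull R (fun p : V × V => p.1 + p.2)).comp H.val).codRestrict (ev2 H).range fun f => by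
      rw [range_ev2]
      exact hH.comul f f.2) f := by
    rw [cm]
    exact AlgEquiv.apply_symm_apply _ _
  exact congrFun (congrArg Subtype.val h) p

theorem value_zero_mem (f : V → Ω) (hf : f ∈ H) : ∃ r : R, algebraMap R Ω r = f 0 := by
  have hfix : ∀ g : G, g • f 0 = f 0 := fun g => by
    rw [← hH.equiv g f hf, smul_zero]
  obtain ⟨a, ha, b, hab⟩ := hD.frac (f 0) hfix
  -- `f` is integral over `R`
  have hfin : Module.Finite R H := Module.Finite.iff_fg.mpr hH.fg
  have h1 : IsIntegral R (⟨f, hf⟩ : H) := Algebra.IsIntegral.isIntegral _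
  have h2 : IsIntegral R (f 0) := by
    have := h1.map ((Pi.evalAlgHom R (fun _ : V => Ω) 0).comp H.val)
    exact this
  have hfs : FaithfulSMul R Ω := (faithfulSMul_iff_algebraMap_injective R Ω).mpr hD.inj
  -- pass to the fraction field
  let K := FractionRing R
  letI : Algebra K Ω := FractionRing.liftAlgebra R Ω
  have : IsScalarTower R K Ω := inferInstance
  let x : K := algebraMap R K b / algebraMap R K a
  have hx : algebraMap K Ω x = f 0 := by
    have ha' : algebraMap R Ω a ≠ 0 := fun h => ha (hD.inj (by rw [h, map_zero]))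
    rw [map_div₀, ← IsScalarTower.algebraMap_apply, ← IsScalarTower.algebraMap_apply,
      div_eq_iff ha', mul_comm, hab]
  have h3 : IsIntegral R x := by
    rw [← hx] at h2
    exact (isIntegral_algebraMap_iff (algebraMap K Ω).injective).mp h2
  obtain ⟨r, hr⟩ := IsIntegrallyClosed.isIntegral_iff.mp h3
  exact ⟨r, by rw [← hx, ← hr, ← IsScalarTower.algebraMap_apply]⟩

/-- counit -/
def cu : H →ₐ[R] R :=
  ((AlgEquiv.ofInjective (Algebra.ofId R Ω) hD.inj).symm : (Algebra.ofId R Ω).range →ₐ[R] R).comp
    (((Pi.evalAlgHom R (fun _ : V => Ω) 0).comp H.val).codRestrict (Algebra.ofId R Ω).range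
      fun f => value_zero_mem hD hH f f.2)

theorem algebraMap_cu (f : H) : algebraMap R Ω (cu hD hH f) = (f : V → Ω) 0 := by
  have h : AlgEquiv.ofInjective (Algebra.ofId R Ω) hD.inj (cu hD hH f) =
      (((Pi.evalAlgHom R (fun _ : V => Ω) 0).comp H.val).codRestrict (Algebra.ofId R Ω).range
      fun f => value_zero_mem hD hH f f.2) f := by
    rw [cu]
    exact AlgEquiv.apply_symm_apply _ _
  exact congrArg Subtype.val h

theorem smul_mem (f : V → Ω) (hf : f ∈ H) (k : ℕ) : (fun v => f (k • v)) ∈ H := by
  induction k generalizing f with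
  | zero =>
    obtain ⟨r, hr⟩ := value_zero_mem hD hH f hf
    have : (fun v : V => f ((0 : ℕ) • v)) = algebraMap R (V → Ω) r := by
      funext v
      rw [zero_smul, ← hr]
      rfl
    rw [this]
    exact H.algebraMap_mem r
  | succ k ih =>
    obtain ⟨n, a, b, ha, hb, hab⟩ := mem_tens₂_iff.mp (hH.comul f hf)
    have : (fun v : V => f ((k + 1) • v)) = ∑ i, (fun v => a i (k • v)) * b i := by
      funext v
      rw [add_smul, one_smul]
      have := hab (k • v) v
      simp only at this
      rw [this, Finset.sum_apply]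
      rfl
    rw [this]
    exact sum_mem fun i _ => mul_mem (ih _ (ha i)) (hb i)

theorem neg_mem' (f : V → Ω) (hf : f ∈ H) : (fun v => f (-v)) ∈ H := by
  have h := smul_mem hD hH f hf (Nat.card V - 1)
  have : (fun v => f (-v)) = fun v => f ((Nat.card V - 1) • v) := by
    funext v
    congr 1
    have h1 : (Nat.card V - 1) • v + 1 • v = 0 := by
      rw [← add_smul, Nat.sub_add_cancel Nat.card_pos]
      exact card_nsmul_eq_zero'
    rw [one_smul] at h1
    exact (eq_neg_of_add_eq_zero_left h1).symm
  rw [this]
  exact h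

/-- antipode -/
def an : H →ₗ[R] H :=
  (((pull R (fun v : V => -v)).comp H.val).codRestrict H fun f =>
    neg_mem' hD hH f f.2).toLinearMap

theorem an_apply (f : H) (v : V) : (an hD hH f : V → Ω) v = (f : V → Ω) (-v) := rfl

/-- the bialgebra structure -/
def bial : Bialgebra R H := Bialgebra.ofAlgHom (cm hD hH) (cu hD hH)
    (by
      have hinj := (GoodEv.tens (hH.goodEv hD) (GoodEv.tens (hH.goodEv hD)
        (hH.goodEv hD))).injective hD.inj
      apply AlgHom.ext
      intro f
      apply hinj
      have h1 : ∀ (t : H ⊗[R] H) (g : H) (a b c : V),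
          evT (incl H) (evT (incl H) (incl H))
            (Algebra.TensorProduct.assoc R R R H H H (t ⊗ₜ g)) (a, (b, c)) =
            ev2 H t (a, b) * (g : V → Ω) c := by
        intro t g a b c
        induction t using TensorProduct.induction_on with
        | zero => simp
        | tmul x y =>
          rw [Algebra.TensorProduct.assoc_tmul, evT_tmul, evT_tmul, ev2_tmul]
          simp only [incl_apply]
          ring
        | add x y hx hy =>
          rw [TensorProduct.add_tmul, map_add, map_add, Pi.add_apply, hx, hy, map_add,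
            Pi.add_apply, add_mul]
      have h2 : ∀ (x : H ⊗[R] H) (a b c : V),
          evT (incl H) (evT (incl H) (incl H)) (Algebra.TensorProduct.assoc R R R H H H
            (Algebra.TensorProduct.map (cm hD hH) (.id R H) x)) (a, (b, c)) =
            ev2 H x (a + b, c) := by
        intro x a b c
        induction x using TensorProduct.induction_on with
        | zero => simp
        | tmul x y =>
          rw [Algebra.TensorProduct.map_tmul, h1, ev2_cm, ev2_tmul]
          rfl
        | add x y hx hy => rw [map_add, map_add, map_add, map_add, Pi.add_apply, hx, hy]; rfl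
      have h3 : ∀ (x : H ⊗[R] H) (a b c : V),
          evT (incl H) (evT (incl H) (incl H)) (Algebra.TensorProduct.map (.id R H)
            (cm hD hH) x) (a, (b, c)) = ev2 H x (a, b + c) := by
        intro x a b c
        induction x using TensorProduct.induction_on with
        | zero => simp
        | tmul x y =>
          rw [Algebra.TensorProduct.map_tmul, evT_tmul, ← ev2_eq', ev2_cm, ev2_tmul]
          rfl
        | add x y hx hy => rw [map_add, map_add, map_add, Pi.add_apply, hx, hy]; rfl
      funext p
      obtain ⟨a, b, c⟩ := p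
      refine (h2 (cm hD hH f) a b c).trans (Eq.trans ?_ (h3 (cm hD hH f) a b c).symm)
      rw [ev2_cm, ev2_cm]
      simp only [add_assoc])
    (by
      apply AlgHom.ext
      intro f
      have h1 : ∀ (x : H ⊗[R] H) (v : V), ((Algebra.TensorProduct.lid R H
          (Algebra.TensorProduct.map (cu hD hH) (.id R H) x) : H) : V → Ω) v =
          ev2 H x (0, v) := by
        intro x v
        induction x using TensorProduct.induction_on with
        | zero => simp
        | tmul x y =>
          rw [Algebra.TensorProduct.map_tmul, Algebra.TensorProduct.lid_tmul, ev2_tmul]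
          change (cu hD hH x • (y : V → Ω)) v = _
          rw [Pi.smul_apply, Algebra.smul_def, algebraMap_cu]
        | add x y hx hy => rw [map_add, map_add, map_add, Pi.add_apply, ← hx, ← hy]; rfl
      have h2 : Algebra.TensorProduct.lid R H (Algebra.TensorProduct.map (cu hD hH) (.id R H)
          (cm hD hH f)) = f := by
        apply Subtype.ext
        funext v
        rw [h1, ev2_cm]
        simp
      have h3 := congrArg (Algebra.TensorProduct.lid R H).symm h2
      rw [AlgEquiv.symm_apply_apply] at h3
      exact h3)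
    (by
      apply AlgHom.ext
      intro f
      have h1 : ∀ (x : H ⊗[R] H) (v : V), ((Algebra.TensorProduct.rid R R H
          (Algebra.TensorProduct.map (.id R H) (cu hD hH) x) : H) : V → Ω) v =
          ev2 H x (v, 0) := by
        intro x v
        induction x using TensorProduct.induction_on with
        | zero => simp
        | tmul x y =>
          rw [Algebra.TensorProduct.map_tmul, Algebra.TensorProduct.rid_tmul, ev2_tmul]
          change (cu hD hH y • (x : V → Ω)) v = _
          rw [Pi.smul_apply, Algebra.smul_def, algebraMap_cu, mul_comm]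
        | add x y hx hy => rw [map_add, map_add, map_add, Pi.add_apply, ← hx, ← hy]; rfl
      have h2 : Algebra.TensorProduct.rid R R H (Algebra.TensorProduct.map (.id R H) (cu hD hH)
          (cm hD hH f)) = f := by
        apply Subtype.ext
        funext v
        rw [h1, ev2_cm]
        simp
      have h3 := congrArg (Algebra.TensorProduct.rid R R H).symm h2
      rw [AlgEquiv.symm_apply_apply] at h3
      exact h3)

/-- the Hopf algebra structure -/
def hopf : HopfAlgebra R H :=
  { bial hD hH with
    antipode := an hD hH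
    mul_antipode_rTensor_comul := by
      have h1 : ∀ (x : H ⊗[R] H) (v : V), ((LinearMap.mul' R H ((an hD hH).rTensor H x) : H) :
          V → Ω) v = ev2 H x (-v, v) := by
        intro x v
        induction x using TensorProduct.induction_on with
        | zero => simp
        | tmul x y =>
          rw [LinearMap.rTensor_tmul, LinearMap.mul'_apply, ev2_tmul]
          rfl
        | add x y hx hy => rw [map_add, map_add, map_add, Pi.add_apply, ← hx, ← hy]; rfl
      apply LinearMap.ext
      intro f
      apply Subtype.ext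
      funext v
      refine (h1 (cm hD hH f) v).trans ?_
      rw [ev2_cm]
      simp only [neg_add_cancel]
      exact (algebraMap_cu hD hH f).symm
    mul_antipode_lTensor_comul := by
      have h1 : ∀ (x : H ⊗[R] H) (v : V), ((LinearMap.mul' R H ((an hD hH).lTensor H x) : H) :
          V → Ω) v = ev2 H x (v, -v) := by
        intro x v
        induction x using TensorProduct.induction_on with
        | zero => simp
        | tmul x y =>
          rw [LinearMap.lTensor_tmul, LinearMap.mul'_apply, ev2_tmul]
          rfl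
        | add x y hx hy => rw [map_add, map_add, map_add, Pi.add_apply, ← hx, ← hy]; rfl
      apply LinearMap.ext
      intro f
      apply Subtype.ext
      funext v
      refine (h1 (cm hD hH f) v).trans ?_
      rw [ev2_cm]
      simp only [add_neg_cancel]
      exact (algebraMap_cu hD hH f).symm }

/-- evaluation at a point -/
def evPt (H : Subalgebra R (V → Ω)) (v : V) : H →ₐ[R] Ω :=
  (Pi.evalAlgHom R (fun _ : V => Ω) v).comp H.val

theorem evPt_bijective : Function.Bijective (evPt H) := by
  have hinj : Function.Injective (evPt H) := by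
    intro v w hvw
    exact hH.sep v w fun f hf => DFunLike.congr_fun hvw (⟨f, hf⟩ : H)
  obtain ⟨n, h, hb⟩ := hH.exists_hbasis hD
  obtain ⟨b, hbh⟩ := hb.exists_basis hD.inj
  have := Fintype.ofFinite V
  have hfree : Module.Free R H := Module.Free.of_basis b
  have hfin : Module.Finite R H := Module.Finite.of_basis b
  refine Function.Injective.bijective_of_nat_card_le hinj ?_
  refine (card_algHom_le_finrank R H Ω).trans ?_
  rw [Module.finrank_eq_card_basis b]
  have h1 := hb.li.fintype_card_le_finrank
  rwa [Module.finrank_fintype_fun_eq_card, ← Nat.card_eq_fintype_card (α := V)] at h1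

end Struct

end Hopf

/-- **The Hopf algebra** of a flat group of points. -/
theorem IsFlat.exists_hopf {R : Type*} {G : Type*} {Ω V : Type} [CommRing R] [IsDomain R]
    [IsPrincipalIdealRing R] [Field Ω] [Algebra R Ω] [Group G] [MulSemiringAction G Ω]
    [AddCommGroup V] [Finite V] [DistribMulAction G V] (hD : Desc R G Ω)
    (h : IsFlat R G V Ω) :
    ∃ (H : Type) (_ : CommRing H) (_ : HopfAlgebra R H),
      Module.Finite R H ∧ Module.Flat R H ∧ Coalgebra.IsCocomm R H ∧
      ∃ e : WithConv (H →ₐ[R] Ω) ≃ V, (∀ f g, e (f * g) = e f + e g) ∧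
        ∀ (σ : G) (f g : WithConv (H →ₐ[R] Ω)), (∀ h : H, g h = σ • f h) → e g = σ • e f := by
  obtain ⟨H, hH⟩ := h
  obtain ⟨n, h, hb⟩ := hH.exists_hbasis hD
  obtain ⟨b, hbh⟩ := hb.exists_basis hD.inj
  have hfree : Module.Free R H := Module.Free.of_basis b
  have hfinite : Module.Finite R H := Module.Finite.of_basis b
  have hflat : Module.Flat R H := inferInstance
  let e := (Equiv.ofBijective _ (evPt_bijective hD hH)).symm
  have he : ∀ φ : H →ₐ[R] Ω, evPt H (e φ) = φ := fun φ =>
    Equiv.apply_symm_apply (Equiv.ofBijective _ (evPt_bijective hD hH)) φ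
  have hcomm : ∀ f : H, TensorProduct.comm R H H (cm hD hH f) = cm hD hH f := by
    intro f
    apply ev2_injective hD hH
    have h1 : ∀ (x : H ⊗[R] H) (p : V × V), ev2 H (TensorProduct.comm R H H x) p =
        ev2 H x (p.2, p.1) := by
      intro x p
      induction x using TensorProduct.induction_on with
      | zero => simp
      | tmul x y =>
        rw [TensorProduct.comm_tmul, ev2_tmul, ev2_tmul, mul_comm]
      | add x y hx hy => rw [map_add, map_add, map_add, Pi.add_apply, hx, hy]; rfl
    funext p
    rw [h1, ev2_cm, ev2_cm]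
    simp only [add_comm]
  have hmul : ∀ (φ ψ : H →ₐ[R] Ω) (x : H), Algebra.TensorProduct.lmul' R
      (Algebra.TensorProduct.map φ ψ (cm hD hH x)) = evPt H (e φ + e ψ) x := by
    intro φ ψ x
    have h3 : ∀ t : H ⊗[R] H, Algebra.TensorProduct.lmul' R (Algebra.TensorProduct.map φ ψ t) =
        ev2 H t (e φ, e ψ) := by
      intro t
      induction t using TensorProduct.induction_on with
      | zero => simp
      | tmul x y =>
        rw [Algebra.TensorProduct.map_tmul, Algebra.TensorProduct.lmul'_apply_tmul, ev2_tmul]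
        conv_lhs => rw [← he φ, ← he ψ]
        rfl
      | add x y hx hy => rw [map_add, map_add, map_add, Pi.add_apply, hx, hy]
    rw [h3, ev2_cm]
    rfl
  have hsm : ∀ (σ : G) (φ ψ : H →ₐ[R] Ω), (∀ x, ψ x = σ • φ x) → e ψ = σ • e φ := by
    intro σ φ ψ h
    apply (evPt_bijective hD hH).1
    rw [he]
    apply AlgHom.ext
    intro x
    rw [h]
    conv_lhs => rw [← he φ]
    exact (hH.equiv σ x x.2 (e φ)).symm
  have hadd : ∀ (φ ψ χ : H →ₐ[R] Ω), (∀ x, χ x = Algebra.TensorProduct.lmul' R
      (Algebra.TensorProduct.map φ ψ (cm hD hH x))) → e χ = e φ + e ψ := by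
    intro φ ψ χ h
    apply (evPt_bijective hD hH).1
    rw [he]
    apply AlgHom.ext
    intro x
    rw [h, hmul]
  refine ⟨H, inferInstance, hopf hD hH, hfinite, hflat, ?_, ?_⟩
  · letI := hopf hD hH
    exact ⟨LinearMap.ext hcomm⟩
  · refine ⟨(WithConv.equiv _).trans e, fun f g => ?_, fun σ f g hfg => ?_⟩
    · exact hadd f.ofConv g.ofConv (f * g).ofConv fun x => rfl
    · exact hsm σ f.ofConv g.ofConv hfg

end Fermat.Agent.Flat
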