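import Mathlib
import Fermat.Agent.Flat.Fin
import Fermat.Prelude.Def_GaloisRep_CompletionBridge

/-!
Flatness of the torsion of the class group of `X₀(N)`.
-/

set_option autoImplicit false
set_option linter.unusedSectionVars false

noncomputable section

namespace Fermat.Agent.Flat

open AlgebraicCurve IsDedekindDomain IntermediateField WithZero Module Fermat.Agent.FunField
open Fermat.Agent.LG Fermat.Agent.ModFun Fermat.Agent.Geo
open Fermat.Agent.ESCore (HauptFn haupt2 haupt3 ιC)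
open IsLocalRing ModularCurve

universe u

/-- The field of algebraic numbers. -/
local notation "Qb" => AlgebraicClosure ℚ
/-- The absolute Galois group. -/
local notation "GQ" => (AlgebraicClosure ℚ ≃ₐ[ℚ] AlgebraicClosure ℚ)

section

variable {Ω F : Type u} {κ Fb : Type*} [Field Ω] [Field κ] [Field F] [Field Fb] [Algebra Ω F]
  [Algebra κ Fb]
  {A : ValuationSubring Ω} {G : Type*} [Group G] [MulSemiringAction G Ω]
  {r : A →+* κ} {γ : G →* SemilinearAut Ω F}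
  {W : ValuationSubring F} {ρ : W →+* Fb} {t : F} {tb : Fb}
  {m : ℕ} [IsAlgClosed Ω] [CharZero Ω] [IsAlgClosed κ]

theorem finite_sel (hm : m ≠ 0) {S : Set F} (hS : S.Finite)
    (hSel : ∀ f : F, f ≠ 0 → (∀ v : Place Ω F, (m : ℤ) ∣ v.ord f) →
      ∃ f' ∈ S, ∃ u : F, u ≠ 0 ∧ f = f' * u ^ m) : Finite (Sel Ω F m) := by
  classical
  let rep : F → Sel Ω F m := fun f' =>
    if h : ∃ p : SelZ Ω F m, ∃ u : F, u ≠ 0 ∧ ((p : Fˣ) : F) = f' * u ^ m then Sel.mk h.choose else 0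
  refine Set.finite_univ_iff.mp ((hS.image rep).subset ?_)
  rintro x -
  obtain ⟨p, rfl⟩ := Sel.mk_surjective x
  obtain ⟨f', hf', u, hu, hfu⟩ := hSel ((p : Fˣ) : F) (Units.ne_zero _) p.2
  refine ⟨f', hf', ?_⟩
  have h : ∃ p : SelZ Ω F m, ∃ u : F, u ≠ 0 ∧ ((p : Fˣ) : F) = f' * u ^ m := ⟨p, u, hu, hfu⟩
  simp only [rep, dif_pos h]
  obtain ⟨w, hw, hfw⟩ := h.choose_spec
  rw [← sub_eq_zero]
  have h1 : Sel.mk h.choose - Sel.mk p = Sel.mk (h.choose * p⁻¹) := rfl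
  rw [h1, Sel.mk_eq_zero]
  have hf0 : f' ≠ 0 := by
    rintro rfl
    rw [zero_mul] at hfu
    exact (p : Fˣ).ne_zero hfu
  refine ⟨w / u, div_ne_zero hw hu, ?_⟩
  have h2 : (((h.choose * p⁻¹ : SelZ Ω F m) : Fˣ) : F) =
      ((h.choose : Fˣ) : F) * ((p : Fˣ) : F)⁻¹ := by simp
  rw [h2, hfw, hfu, div_pow]
  field_simp

/-- Flatness at the level of inertia. -/
theorem GoodCrv.flat_sel (hG : GoodCrv r γ W ρ t tb) (hI : Inert G r) (htW : t ∈ W)
    (htb : ρ ⟨t, htW⟩ = tb) (hm : m ≠ 0) {S : Set F} (hS : S.Finite)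
    (hSel : ∀ f : F, f ≠ 0 → (∀ v : Place Ω F, (m : ℤ) ∣ v.ord f) →
      ∃ f' ∈ S, ∃ u : F, u ≠ 0 ∧ f = f' * u ^ m)
    [IsDomain (fixA G A)] [IsPrincipalIdealRing (fixA G A)] (hD : Desc (fixA G A) G Ω) :
    letI := selAct m γ
    IsFlat (fixA G A) G (Sel Ω F m) Ω := by
  letI := selAct m γ
  obtain ⟨V, _, _, _, π, hV, hπ, hπm, hπs⟩ := hG.exists_flat hI htW htb hm hS hSel
  obtain ⟨g, C, hC⟩ := hG.sep.exists_crv
  have hinj := toPic_injective (m := m) hG.sep hC hm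
  choose φ hφ using fun v => toPic_surj (m := m) hG.sep hC hm (hπm v)
  let φ' : V →+ Sel Ω F m :=
    { toFun := φ
      map_zero' := hinj (by rw [hφ, map_zero, map_zero])
      map_add' := fun v w => hinj (by rw [hφ, map_add, map_add, hφ, hφ]) }
  refine hV.of_surjective hD φ' ?_ ?_
  · intro s
    obtain ⟨v, hv⟩ := hπs _ (toPic_torsion hG.sep hC hm s)
    exact ⟨v, hinj (by rw [← hv]; exact hφ v)⟩
  · intro g v
    apply hinj
    change toPic hG.sep hC hm (φ (g • v)) = toPic hG.sep hC hm (selHom m γ g (φ v))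
    rw [hφ, hπ, toPic_smul, hφ]

end

section

variable {A : ValuationSubring Qb} {q : ℕ} {p : ℕ} [Fact p.Prime] {κ : ℤ} {N : ℕ} [NeZero N]

/-- **Flatness of the torsion of `J₀(N)`**. -/
theorem flat_sel_of (hq : q.Prime) (hA : A.LiesOverPrime q) (hqN : ¬ q ∣ N) (hp : p ∣ N)
    {H : HauptFn p κ} {S : Set ℤ} {k : ℕ} {P : Polynomial ℤ} (hH : HautData H S k P)
    (hS : ∀ c ∈ S, ∀ c' ∈ S, c ≠ c' →
      IsUnit ((c - c' : ℤ) : A.comap (algebraMap (KI A) Qb))) {m : ℕ} (hm : m ≠ 0) :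
    letI := selAct m (galF0 N)
    Finite (Sel Qb (F0 Qb N) m) ∧
      IsFlat (GaloisRep.ratLocalizedAt q) GQ (Sel Qb (F0 Qb N) m) Qb := by
  letI := selAct m (galF0 N)
  obtain ⟨S₀, hS₀, hSel⟩ := exists_finite_sel (N := N) (Nat.pos_of_ne_zero hm)
  have hfin : Finite (Sel Qb (F0 Qb N) m) := finite_sel hm hS₀ hSel
  refine ⟨hfin, ?_⟩
  let G := A.inertiaSubgroupIn ℚ
  let γ : G →* SemilinearAut Qb (F0 Qb N) := (galF0 N).comp G.subtype
  have hI := inert_residue hq hA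
  have hac : IsAlgClosed (ResidueField A) := isAlgClosed_residueA hq hA
  obtain ⟨Fb, W, ρ, t, tb, htW, htb, hG⟩ := exists_goodCrv hq hA hqN hp hH hS γ
    (fun g a => rfl) (fun g x => rfl) (fun g x hx => mem_KI.mp hx g g.2) hI.stab
    (fun g a => hI.triv g a (hI.stab g a a.2))
  have hdvr : IsDiscreteValuationRing (OI A) := isDVR_OI hq hA
  have h1 := hG.flat_sel hI htW htb hm hS₀ hSel (desc_fixA (G := G) (A := A))
  exact IsFlat.descend hq hA (smooth_sel m) h1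

/-- Places exist. -/
theorem exists_place (hq : q.Prime) : ∃ A : ValuationSubring Qb, A.LiesOverPrime q := by
  have : Fact q.Prime := ⟨hq⟩
  refine ⟨padicPlace q, ?_⟩
  have hl : 1 < (q : ℝ) := by exact_mod_cast hq.one_lt
  have h1 : ‖padicEmbedding q (q : Qb)‖ = (q : ℝ)⁻¹ := by
    have h := PadicAlgCl.norm_extends q (q : ℚ_[q])
    rw [map_natCast, Padic.norm_p] at h
    rw [map_natCast]
    exact h
  rw [ValuationSubring.LiesOverPrime, ValuationSubring.mem_nonunits_iff_exists_mem_maximalIdeal]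
  have hmem : (q : Qb) ∈ padicPlace q := by
    rw [mem_padicPlace_iff, ← NNReal.coe_le_coe, coe_nnnorm, NNReal.coe_one, h1]
    exact inv_le_one_of_one_le₀ hl.le
  refine ⟨hmem, ?_⟩
  rw [IsLocalRing.mem_maximalIdeal, mem_nonunits_iff]
  intro hu
  obtain ⟨w, hw⟩ := hu.exists_right_inv
  have h2 : padicEmbedding q (q : Qb) * padicEmbedding q (w : Qb) = 1 := by
    rw [← map_mul, ← map_one (padicEmbedding q)]
    exact congrArg (padicEmbedding q) (congrArg Subtype.val hw)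
  have h3 : ‖padicEmbedding q (w : Qb)‖ ≤ 1 := by
    have := (mem_padicPlace_iff q).mp w.2
    exact_mod_cast this
  have h4 : ‖padicEmbedding q (q : Qb)‖ * ‖padicEmbedding q (w : Qb)‖ = 1 := by
    rw [← norm_mul, h2, norm_one]
  rw [h1] at h4
  have h5 : (q : ℝ)⁻¹ < 1 := inv_lt_one_of_one_lt₀ hl
  have h6 : 0 ≤ ‖padicEmbedding q (w : Qb)‖ := norm_nonneg _
  have h7 : (q : ℝ)⁻¹ * ‖padicEmbedding q (w : Qb)‖ < 1 :=
    lt_of_le_of_lt (mul_le_of_le_one_right (by positivity) h3) h5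
  exact h7.ne h4

/-- **Flatness of the torsion of `J₀(N)`**, `N` even or divisible by three. -/
theorem flat_sel (hq : q.Prime) (hqN : ¬ q ∣ N) (h : 2 ∣ N ∨ 3 ∣ N) {m : ℕ} (hm : m ≠ 0) :
    letI := selAct m (galF0 N)
    Finite (Sel Qb (F0 Qb N) m) ∧
      IsFlat (GaloisRep.ratLocalizedAt q) GQ (Sel Qb (F0 Qb N) m) Qb := by
  obtain ⟨A, hA⟩ := exists_place hq
  have hdvr := isDVR_KI hq hA
  have hNu : IsUnit ((N : ℕ) : A.comap (algebraMap (KI A) Qb)) := isUnit_natCast hq hA hqN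
  rcases h with h | h
  · exact flat_sel_of hq hA hqN h haut2 (sep2 h hNu) hm
  · exact flat_sel_of hq hA hqN h haut3 (sep3 h hNu) hm

end

end Fermat.Agent.Flat
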