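import Mathlib
import Fermat.Agent.Flat.Degen
import Fermat.Agent.Flat.SelFlat
import Fermat.Agent.Flat.Pkg
import Fermat.Agent.Flat.LocZ2

/-!
The second degeneracy map is injective on torsion; the Hopf algebra of the torsion of `J₀(N)`.
-/

set_option autoImplicit false
set_option linter.unusedSectionVars false

noncomputable section

namespace Fermat.Agent.Flat

open AlgebraicCurve IsDedekindDomain IntermediateField WithZero Module Fermat.Agent.FunField
open Fermat.Agent.LG Fermat.Agent.ModFun Fermat.Agent.Geo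
open Fermat.Agent.ESCore (ιC)
open IsLocalRing ModularCurve

/-- The field of algebraic numbers. -/
local notation "Qb" => AlgebraicClosure ℚ
/-- The absolute Galois group. -/
local notation "GQ" => (AlgebraicClosure ℚ ≃ₐ[ℚ] AlgebraicClosure ℚ)

/-- roots of Laurent series -/
theorem exists_pow_eq_laurent {L : Type*} [Field L] [IsAlgClosed L] [CharZero L]
    {f : LaurentSeries L} {m : ℕ} (hm : 0 < m) (hf : f ≠ 0) (h : (m : ℤ) ∣ f.order) :
    ∃ v : LaurentSeries L, v ^ m = f := by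
  obtain ⟨k, hk⟩ := h
  have h1 : PowerSeries.constantCoeff (LaurentSeries.powerSeriesPart f) ≠ 0 := by
    have := LaurentSeries.powerSeriesPart_coeff f 0
    rw [PowerSeries.coeff_zero_eq_constantCoeff_apply] at this
    rw [this]
    simpa using HahnSeries.coeff_order_eq_zero.not.2 hf
  obtain ⟨w, hw, -⟩ := Fermat.Agent.ESCore.exists_pow_eq_series _ h1 hm
  refine ⟨HahnSeries.single k 1 * HahnSeries.ofPowerSeries ℤ L w, ?_⟩
  have h3 : (HahnSeries.single k (1 : L)) ^ m = HahnSeries.single (m • k) 1 := by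
    rw [HahnSeries.single_pow, one_pow]
  have h2 : m • k = f.order := by rw [hk]; simp
  rw [mul_pow, h3, ← map_pow (HahnSeries.ofPowerSeries ℤ L), hw, h2]
  exact LaurentSeries.single_order_mul_powerSeriesPart f

section Map

variable (p N : ℕ) [NeZero p] [NeZero N]

/-- the second degeneracy map -/
def dg2 : F0 Qb N →+* F0 Qb (p * N) :=
  ((qExpand Qb p).comp (F0 Qb N).val.toRingHom).codRestrict (F0 Qb (p * N)).toSubfield.toSubring
    fun x => imQ_le ⟨x, x.2, rfl⟩

theorem coe_dg2 (x : F0 Qb N) : ((dg2 p N x : F0 Qb (p * N)) : LaurentSeries Qb) =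
    qExpand Qb p (x : LaurentSeries Qb) := rfl

theorem dg2_algebraMap (a : Qb) : ∃ b : Qb, dg2 p N (algebraMap Qb (F0 Qb N) a) =
    algebraMap Qb (F0 Qb (p * N)) b := by
  refine ⟨a, Subtype.ext ?_⟩
  rw [coe_dg2]
  change qExpand Qb p (algebraMap Qb (LaurentSeries Qb) a) = algebraMap Qb (LaurentSeries Qb) a
  rw [algebraMap_laurentSeries_eq_single, qExpand_single, mul_zero]

theorem sel_dg2_injective (hp : p.Prime) {m : ℕ} (hm : m ≠ 0) :
    Function.Injective (Sel.map (dg2 p N) (dg2_algebraMap p N) m) := by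
  refine Sel.map_injective _ _ m ?_
  rintro f hf hdvd ⟨u, hu0, hu⟩
  have hd : (m : ℤ) ∣ (f : LaurentSeries Qb).order :=
    dvd_order_embF hf hdvd (algebraMap (F0 Qb N) (LaurentSeries Qb)) (fun a ha => by
      change (algebraMap Qb (LaurentSeries Qb) a).order = 0
      rw [ModularCurve.algebraMap_laurentSeries_eq_single]
      exact HahnSeries.order_C)
  have hf' : (f : LaurentSeries Qb) ≠ 0 := fun h => hf (Subtype.ext h)
  obtain ⟨v, hv⟩ := exists_pow_eq_laurent (Nat.pos_of_ne_zero hm) hf' hd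
  have hv0 : v ≠ 0 := by
    rintro rfl
    rw [zero_pow hm] at hv
    exact hf' hv.symm
  have hqv0 : qExpand Qb p v ≠ 0 := (map_ne_zero _).mpr hv0
  have h1 : ((u : LaurentSeries Qb) / qExpand Qb p v) ^ m = 1 := by
    have h2 : ((dg2 p N f : F0 Qb (p * N)) : LaurentSeries Qb) = (u : LaurentSeries Qb) ^ m :=
      congrArg (fun x : F0 Qb (p * N) => (x : LaurentSeries Qb)) hu
    rw [coe_dg2, ← hv, map_pow] at h2
    rw [div_pow, h2, div_self]
    exact fun h => hu0 (by
      apply Subtype.ext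
      exact pow_eq_zero_iff hm |>.mp h)
  have h3 : IsIntegral Qb ((u : LaurentSeries Qb) / qExpand Qb p v) := by
    refine IsIntegral.of_pow (Nat.pos_of_ne_zero hm) ?_
    rw [h1]
    exact isIntegral_one
  obtain ⟨a, ha⟩ := minpoly.mem_range_of_degree_eq_one Qb _
    (IsAlgClosed.degree_eq_one_of_irreducible Qb (minpoly.irreducible h3))
  have h4 : (u : LaurentSeries Qb) = qExpand Qb p (algebraMap Qb (LaurentSeries Qb) a * v) := by
    rw [map_mul]
    have h5 : qExpand Qb p (algebraMap Qb (LaurentSeries Qb) a) =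
        algebraMap Qb (LaurentSeries Qb) a := by
      rw [algebraMap_laurentSeries_eq_single, qExpand_single, mul_zero]
    rw [h5, ha, div_mul_cancel₀ _ hqv0]
  have h6 := mem_F0_of_qExpand ιC hp (N := N) (v := algebraMap Qb (LaurentSeries Qb) a * v)
    (by rw [← h4]; exact u.2)
  refine ⟨⟨_, h6⟩, Subtype.ext ?_⟩
  change (f : LaurentSeries Qb) = (algebraMap Qb (LaurentSeries Qb) a * v) ^ m
  have h7 : algebraMap Qb (LaurentSeries Qb) a ^ m = 1 := by rw [ha, h1]
  rw [mul_pow, h7, one_mul, hv]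

theorem sel_dg2_smul {m : ℕ} (σ : GQ) (x : Sel Qb (F0 Qb N) m) :
    Sel.map (dg2 p N) (dg2_algebraMap p N) m (selHom m (galF0 N) σ x) =
      selHom m (galF0 (p * N)) σ (Sel.map (dg2 p N) (dg2_algebraMap p N) m x) := by
  obtain ⟨f, rfl⟩ := Sel.mk_surjective x
  change Sel.mk _ = Sel.mk _
  congr 1
  apply Subtype.ext
  apply Units.ext
  apply Subtype.ext
  change qExpand Qb p (coeffMap ((σ.toRingEquiv : Qb ≃+* Qb) : Qb →+* Qb)
    (((f : (F0 Qb N)ˣ) : F0 Qb N) : LaurentSeries Qb)) =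
    coeffMap ((σ.toRingEquiv : Qb ≃+* Qb) : Qb →+* Qb)
      (qExpand Qb p (((f : (F0 Qb N)ˣ) : F0 Qb N) : LaurentSeries Qb))
  rw [ModularCurve.coeffMap_qExpand]

end Map

/-- **Flatness of the torsion of `J₀(N)`**, any `N`. -/
theorem flat_sel' {q N : ℕ} [NeZero N] (hq : q.Prime) (hqN : ¬ q ∣ N) {m : ℕ} (hm : m ≠ 0) :
    letI := selAct m (galF0 N)
    Finite (Sel Qb (F0 Qb N) m) ∧
      IsFlat (GaloisRep.ratLocalizedAt q) GQ (Sel Qb (F0 Qb N) m) Qb := by
  letI := selAct m (galF0 N)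
  obtain ⟨p, hp, hpq, hp23⟩ : ∃ p : ℕ, p.Prime ∧ p ≠ q ∧ (p = 2 ∨ p = 3) := by
    by_cases h : q = 2
    · exact ⟨3, by norm_num, by omega, Or.inr rfl⟩
    · exact ⟨2, by norm_num, fun h' => h h'.symm, Or.inl rfl⟩
  have : NeZero p := ⟨hp.ne_zero⟩
  letI := selAct m (galF0 (p * N))
  have hqpN : ¬ q ∣ p * N := by
    intro h
    rcases hq.dvd_mul.mp h with h | h
    · exact hpq ((Nat.prime_dvd_prime_iff_eq hq hp).mp h).symm
    · exact hqN h
  have h23 : 2 ∣ p * N ∨ 3 ∣ p * N := by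
    rcases hp23 with rfl | rfl
    · exact Or.inl (dvd_mul_right _ _)
    · exact Or.inr (dvd_mul_right _ _)
  obtain ⟨hfin, hfl⟩ := flat_sel hq hqpN h23 hm
  have hinj := sel_dg2_injective p N hp hm
  have hfin' : Finite (Sel Qb (F0 Qb N) m) := Finite.of_injective _ hinj
  exact ⟨hfin', hfl.of_injective _ hinj fun g v => sel_dg2_smul p N g v⟩

theorem sep_F0 (N : ℕ) [NeZero N] : Sep Qb (jF Qb N) := by
  obtain ⟨ζ, hζ⟩ := exists_zeta_Qb N
  have : FiniteDimensional Qb⟮jF Qb N⟯ (F0 Qb N) := finiteDimensional_F0 hζ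
  exact ⟨transcendental_jF, this, isSeparable_adjoin_simple _⟩

/-- the Hopf algebra -/
theorem exists_hopf_pic {q N : ℕ} [NeZero N] {E : IntermediateField Qb (LaurentSeries Qb)}
    (hE : E = F0 Qb N) (γ : GQ →* SemilinearAut Qb E)
    (hγ : ∀ (σ : GQ) (x : E), ((γ σ • x : E) : LaurentSeries Qb) =
      coeffMap ((σ.toRingEquiv : Qb ≃+* Qb) : Qb →+* Qb) x)
    (hq : q.Prime) (hqN : ¬ q ∣ N) {m : ℕ} (hm : m ≠ 0) {M : ℤ} (hM : M = m) :
    ∃ (H : Type) (_ : CommRing H) (_ : HopfAlgebra (GaloisRep.ratLocalizedAt q) H),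
      Module.Finite (GaloisRep.ratLocalizedAt q) H ∧ Module.Flat (GaloisRep.ratLocalizedAt q) H ∧
      Coalgebra.IsCocomm (GaloisRep.ratLocalizedAt q) H ∧
      ∃ e : WithConv (H →ₐ[GaloisRep.ratLocalizedAt q] Qb) ≃
          ↥(Submodule.torsionBy ℤ (Pic0 Qb E) M),
        (∀ f g, e (f * g) = e f + e g) ∧
        ∀ (σ : GQ) (f g : WithConv (H →ₐ[GaloisRep.ratLocalizedAt q] Qb)),
          (∀ h : H, g h = σ (f h)) → ((e g : Pic0 Qb E)) = γ σ • (e f : Pic0 Qb E) := by
  subst hE hM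
  have hγ' : γ = galF0 N := by
    apply MonoidHom.ext
    intro σ
    have h1 : ∀ x : F0 Qb N, γ σ • x = galF0 N σ • x := fun x => Subtype.ext (hγ σ x)
    apply Subtype.ext
    refine Prod.ext (RingEquiv.ext h1) (RingEquiv.ext fun a => ?_)
    apply (algebraMap Qb (F0 Qb N)).injective
    have h2 := SemilinearAut.smul_algebraMap (γ σ) a
    have h3 := SemilinearAut.smul_algebraMap (galF0 N σ) a
    rw [h1, h3] at h2
    exact h2.symm
  subst hγ'
  letI := selAct m (galF0 N)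
  obtain ⟨hfin, hfl⟩ := flat_sel' hq hqN hm
  have hdvr := isDVR_rat hq
  obtain ⟨H, i1, i2, h1, h2, h3, e, he1, he2⟩ := hfl.exists_hopf (desc_rat (q := q))
  -- the torsion of the class group
  have ht := sep_F0 N
  obtain ⟨g, C, hC⟩ := ht.exists_crv
  have hinj := toPic_injective (m := m) ht hC hm
  let φ : Sel Qb (F0 Qb N) m →+ ↥(Submodule.torsionBy ℤ (Pic0 Qb (F0 Qb N)) (m : ℤ)) :=
    (toPic ht hC hm).codRestrict (Submodule.torsionBy ℤ (Pic0 Qb (F0 Qb N)) (m : ℤ)).toAddSubgroup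
      fun x => (Submodule.mem_torsionBy_iff _ _).mpr (toPic_torsion ht hC hm x)
  have hφ : Function.Bijective φ := by
    constructor
    · intro x y hxy
      exact hinj (congrArg Subtype.val hxy)
    · rintro ⟨y, hy⟩
      obtain ⟨x, hx⟩ := toPic_surj (m := m) ht hC hm ((Submodule.mem_torsionBy_iff _ _).mp hy)
      exact ⟨x, Subtype.ext hx⟩
  refine ⟨H, i1, i2, h1, h2, h3, e.trans (Equiv.ofBijective φ hφ), fun f g => ?_,
    fun σ f g hfg => ?_⟩
  · change φ (e (f * g)) = φ (e f) + φ (e g)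
    rw [he1, map_add]
  · change toPic ht hC hm (e g) = galF0 N σ • toPic ht hC hm (e f)
    rw [he2 σ f g hfg, ← toPic_smul]
    rfl

end Fermat.Agent.Flat
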