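import Mathlib
import Fermat.Agent.Flat.Inj

/-!
The Galois module of parabolic characters is flat.
-/

set_option autoImplicit false
set_option linter.unusedSectionVars false

noncomputable section

namespace Fermat.Agent.Flat

open AlgebraicCurve IsDedekindDomain IntermediateField WithZero Module Fermat.Agent.FunField
open Fermat.Agent.LG Fermat.Agent.ModFun Fermat.Agent.Geo
open Fermat.Agent.ESCore (ιC galX XG)
open IsLocalRing ModularCurve
open CongruenceSubgroup (Gamma0)

/-- The field of algebraic numbers. -/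
local notation "Qb" => AlgebraicClosure ℚ
/-- The absolute Galois group. -/
local notation "GQ" => (AlgebraicClosure ℚ ≃ₐ[ℚ] AlgebraicClosure ℚ)

variable {N : ℕ} [NeZero N] {m : ℕ}

/-- the `m`-th power of a series with character, as a function -/
def powF (χ : XG N m) {y : LaurentSeries Qb} (hy : XSer ιC N χ.1 y) : F0 Qb N :=
  ⟨y ^ m, hy.pow_mem_F0 χ.2.1⟩

theorem powF_ne_zero (χ : XG N m) {y : LaurentSeries Qb} (hy : XSer ιC N χ.1 y) (hy0 : y ≠ 0) :
    powF χ hy ≠ 0 := fun h => pow_ne_zero m hy0 (congrArg Subtype.val h)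

theorem powF_dvd (hN : NoEll N) (χ : XG N m) (hχ : IsPar χ.1) {y : LaurentSeries Qb}
    (hy : XSer ιC N χ.1 y) (hy0 : y ≠ 0) (v : Place Qb (F0 Qb N)) :
    (m : ℤ) ∣ v.ord (powF χ hy) := by
  obtain ⟨ζ, hζ⟩ := exists_zeta_Qb N
  have h1 := powF_ne_zero χ hy hy0
  obtain ⟨f, hf, hf', hfy⟩ := id hy
  exact ord_dvd hζ hN hχ hf hf' h1 (hfy.pow m) v

/-- the class attached to a parabolic character and a series -/
def cls (hN : NoEll N) (χ : XG N m) (hχ : IsPar χ.1) {y : LaurentSeries Qb}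
    (hy : XSer ιC N χ.1 y) (hy0 : y ≠ 0) : Sel Qb (F0 Qb N) m :=
  Sel.mk ⟨Units.mk0 (powF χ hy) (powF_ne_zero χ hy hy0), fun v => powF_dvd hN χ hχ hy hy0 v⟩

theorem cls_eq (hN : NoEll N) (hm : 0 < m) (χ : XG N m) (hχ : IsPar χ.1) {y z : LaurentSeries Qb}
    (hy : XSer ιC N χ.1 y) (hy0 : y ≠ 0) (hz : XSer ιC N χ.1 z) (hz0 : z ≠ 0) :
    cls hN χ hχ hy hy0 = cls hN χ hχ hz hz0 := by
  rw [← sub_eq_zero]
  have h1 : ∀ a b : SelZ Qb (F0 Qb N) m, Sel.mk a - Sel.mk b = Sel.mk (a / b) := fun _ _ => rfl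
  rw [cls, cls, h1, Sel.mk_eq_zero]
  refine ⟨⟨y / z, XSer.div_mem hm χ.2.1 hz hz0 hy⟩, ?_, ?_⟩
  · intro h
    exact div_ne_zero hy0 hz0 (congrArg Subtype.val h)
  · apply Subtype.ext
    change ((Units.mk0 (powF χ hy) (powF_ne_zero χ hy hy0) /
      Units.mk0 (powF χ hz) (powF_ne_zero χ hz hz0) : (F0 Qb N)ˣ) :
      LaurentSeries Qb) = (y / z) ^ m
    rw [Units.val_div_eq_div_val, div_pow]
    rfl

theorem cls_eq_zero (hN : NoEll N) (hm : 0 < m) (χ : XG N m) (hχ : IsPar χ.1)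
    {y : LaurentSeries Qb} (hy : XSer ιC N χ.1 y) (hy0 : y ≠ 0)
    (h : cls hN χ hχ hy hy0 = 0) : χ = 1 := by
  rw [cls, Sel.mk_eq_zero] at h
  obtain ⟨u, hu0, hu⟩ := h
  have hu' : y ^ m = (u : LaurentSeries Qb) ^ m := congrArg Subtype.val hu
  have hu0' : (u : LaurentSeries Qb) ≠ 0 := fun h => hu0 (Subtype.ext h)
  have h1 : (y / (u : LaurentSeries Qb)) ^ m = 1 := by
    rw [div_pow, hu', div_self (pow_ne_zero m hu0')]
  have h3 : IsIntegral Qb (y / (u : LaurentSeries Qb)) := by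
    refine IsIntegral.of_pow hm ?_
    rw [h1]
    exact isIntegral_one
  obtain ⟨a, ha⟩ := minpoly.mem_range_of_degree_eq_one Qb _
    (IsAlgClosed.degree_eq_one_of_irreducible Qb (minpoly.irreducible h3))
  have h4 : y = algebraMap Qb (LaurentSeries Qb) a * u := by
    rw [ha, div_mul_cancel₀ _ hu0']
  have h5 : y ∈ F0 Qb N := by
    rw [h4]
    exact mul_mem ((F0 Qb N).algebraMap_mem a) u.2
  exact Subtype.ext (hy.eq_one_of_mem hy0 h5)

variable (N m) in
/-- parabolic characters -/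
def PX : Subgroup (XG N m) where
  carrier := {χ | IsPar χ.1}
  one_mem' := fun _ _ => rfl
  mul_mem' := by
    intro a b ha hb γ hγ
    change a.1 γ * b.1 γ = 1
    rw [ha γ hγ, hb γ hγ, one_mul]
  inv_mem' := by
    intro a ha γ hγ
    change (a.1 γ)⁻¹ = 1
    rw [ha γ hγ, inv_one]

/-- the Galois action on parabolic characters -/
@[reducible] def parAct (hN : NoEll N) (hm : 0 < m) : DistribMulAction GQ (Additive (PX N m)) where
  smul σ χ := Additive.ofMul ⟨galX N hm σ χ.toMul.1, isPar_galX hN hm σ _ χ.toMul.2⟩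
  one_smul χ := by
    apply Additive.toMul.injective
    apply Subtype.ext
    change galX N hm 1 χ.toMul.1 = χ.toMul.1
    rw [map_one]
    rfl
  mul_smul σ τ χ := by
    apply Additive.toMul.injective
    apply Subtype.ext
    change galX N hm (σ * τ) χ.toMul.1 = galX N hm σ (galX N hm τ χ.toMul.1)
    rw [map_mul]
    rfl
  smul_zero σ := by
    apply Additive.toMul.injective
    apply Subtype.ext
    change galX N hm σ 1 = 1
    rw [map_one]
  smul_add σ χ ψ := by
    apply Additive.toMul.injective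
    apply Subtype.ext
    change galX N hm σ (χ.toMul.1 * ψ.toMul.1) = galX N hm σ χ.toMul.1 * galX N hm σ ψ.toMul.1
    rw [map_mul]

/-- the homomorphism to the group of divisible functions -/
def parSel (hN : NoEll N) (hm : 0 < m) : Additive (PX N m) →+ Sel Qb (F0 Qb N) m where
  toFun χ := cls hN χ.toMul.1 χ.toMul.2 (exists_xSer hm χ.toMul.1).choose_spec.2
    (exists_xSer hm χ.toMul.1).choose_spec.1
  map_zero' := by
    have h1 : XSer ιC N ((1 : XG N m) : Gamma0 N →* ℂˣ) (1 : LaurentSeries Qb) := xSer_one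
    refine (cls_eq hN hm 1 (fun _ _ => rfl) _ _ h1 one_ne_zero).trans ?_
    rw [cls, Sel.mk_eq_zero]
    refine ⟨1, one_ne_zero, ?_⟩
    apply Subtype.ext
    change (1 : LaurentSeries Qb) ^ m = ((1 : F0 Qb N) : LaurentSeries Qb) ^ m
    rfl
  map_add' χ ψ := by
    have hχ := (exists_xSer hm χ.toMul.1).choose_spec
    have hψ := (exists_xSer hm ψ.toMul.1).choose_spec
    have h1 : XSer ιC N ((χ + ψ).toMul.1.1) _ := hχ.2.mul hψ.2
    refine (cls_eq hN hm _ (χ + ψ).toMul.2 _ _ h1 (mul_ne_zero hχ.1 hψ.1)).trans ?_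
    rw [cls, cls, cls, ← Sel.mk_mul]
    congr 1
    apply Subtype.ext
    apply Units.ext
    apply Subtype.ext
    exact mul_pow _ _ m

theorem parSel_injective (hN : NoEll N) (hm : 0 < m) : Function.Injective (parSel hN hm) := by
  rw [injective_iff_map_eq_zero]
  intro χ h
  have h1 := cls_eq_zero hN hm χ.toMul.1 χ.toMul.2 (exists_xSer hm χ.toMul.1).choose_spec.2
    (exists_xSer hm χ.toMul.1).choose_spec.1 h
  apply Additive.toMul.injective
  exact Subtype.ext h1

theorem parSel_smul (hN : NoEll N) (hm : 0 < m) (σ : GQ) (χ : Additive (PX N m)) :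
    letI := parAct hN hm
    parSel hN hm (σ • χ) = selHom m (galF0 N) σ (parSel hN hm χ) := by
  letI := parAct hN hm
  have hχ := (exists_xSer hm χ.toMul.1).choose_spec
  have h1 := xSer_galX hm σ χ.toMul.1 hχ.2
  have h2 : coeffMap (σ.toRingEquiv.toRingHom : Qb →+* Qb)
      (exists_xSer hm χ.toMul.1).choose ≠ 0 := by
    rw [Ne, _root_.map_eq_zero]
    exact hχ.1
  refine (cls_eq hN hm (galX N hm σ χ.toMul.1) (isPar_galX hN hm σ _ χ.toMul.2)
    (exists_xSer hm (galX N hm σ χ.toMul.1)).choose_spec.2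
    (exists_xSer hm (galX N hm σ χ.toMul.1)).choose_spec.1 h1 h2).trans ?_
  change Sel.mk _ = Sel.mk _
  congr 1
  apply Subtype.ext
  apply Units.ext
  apply Subtype.ext
  change (coeffMap (σ.toRingEquiv.toRingHom : Qb →+* Qb) _) ^ m =
    coeffMap ((σ.toRingEquiv : Qb ≃+* Qb) : Qb →+* Qb) (_ ^ m)
  rw [map_pow]
  rfl

/-- **Flatness of the parabolic characters.** -/
theorem flat_par {q : ℕ} (hq : q.Prime) (hqN : ¬ q ∣ N) (hN : NoEll N) (hm : 0 < m) :
    letI := parAct hN hm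
    Finite (Additive (PX N m)) ∧
      IsFlat (GaloisRep.ratLocalizedAt q) GQ (Additive (PX N m)) Qb := by
  letI := parAct (N := N) hN hm
  letI := selAct m (galF0 N)
  obtain ⟨h1, h2⟩ := flat_sel' hq hqN hm.ne'
  refine ⟨Finite.of_injective _ (parSel_injective hN hm), ?_⟩
  exact h2.of_injective (parSel hN hm) (parSel_injective hN hm)
    fun σ χ => parSel_smul hN hm σ χ

end Fermat.Agent.Flat
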