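import Fermat.Agent.ESCore.InertiaMult

/-!
Group ring elements killing the parabolic characters act by highly divisible matrices.
-/

set_option autoImplicit false
set_option linter.unusedSectionVars false

noncomputable section

namespace Fermat.Agent.Flat

open IsLocalRing CongruenceSubgroup Matrix.SpecialLinearGroup Polynomial
open Fermat.Agent.ESCore Fermat.Agent.UnivDef
open Fermat.Agent.ESCore.ModP Fermat.Agent.ESCore.Tower Fermat.Agent.ESCore.Univ
open scoped MatrixGroups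

section Abs

variable {A G ι : Type*} [Ring A] [Group G] {r χ : G →* A}

theorem comm_aux (h1 : ∀ g h, Commute (χ g) (r h)) (h2 : ∀ g h, Commute (χ g) (χ h))
    (h3 : ∀ g h, Commute (trS r χ g) (r h)) {J : Submodule A A}
    (hJ : ∀ a ∈ J, ∀ g, a * r g ∈ J) (s : Finset ι) (a : ι → ℤ) (γ : ι → G)
    (hx : ∑ i ∈ s, a i • r (γ i) ∈ J) (g h : G) :
    (r h * r g - r g * r h) * ∑ i ∈ s, a i • trS r χ (γ i) ∈ J := by
  set X := ∑ i ∈ s, a i • r (γ i) with hX
  set X' := ∑ i ∈ s, a i • (χ (γ i) * r (γ i)⁻¹) with hX'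
  set f := ∑ i ∈ s, a i • trS r χ (γ i) with hf
  have hf' : f = X + X' := by
    rw [hf, hX, hX', ← Finset.sum_add_distrib]
    exact Finset.sum_congr rfl fun i _ => by rw [trS, smul_add]
  have hlJ : ∀ b : A, ∀ a ∈ J, b * a ∈ J := fun b a ha => J.smul_mem b ha
  have hcf : ∀ k, f * r k = r k * f := by
    intro k
    rw [hf, Finset.sum_mul, Finset.mul_sum]
    refine Finset.sum_congr rfl fun i _ => ?_
    rw [smul_mul_assoc, (h3 _ _).eq, mul_smul_comm]
  -- translates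
  have key : ∀ σ k : G, (r k * (χ σ * r σ⁻¹) - χ σ * r σ⁻¹ * r k) * f ∈ J := by
    intro σ k
    set F := ∑ i ∈ s, a i • trS r χ (γ i * σ) with hF
    have hF' : F = X * r σ + χ σ * r σ⁻¹ * X' := by
      rw [hF, hX, hX', Finset.sum_mul, Finset.mul_sum, ← Finset.sum_add_distrib]
      refine Finset.sum_congr rfl fun i _ => ?_
      rw [trS, smul_add, smul_mul_assoc, mul_smul_comm]
      congr 2
      · rw [map_mul]
      · rw [map_mul, mul_inv_rev, map_mul, (h2 (γ i) σ).eq]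
        simp only [mul_assoc]
        congr 1
        rw [← mul_assoc, (h1 (γ i) σ⁻¹).eq, mul_assoc]
    have hcF : F * r k = r k * F := by
      rw [hF, Finset.sum_mul, Finset.mul_sum]
      refine Finset.sum_congr rfl fun i _ => ?_
      rw [smul_mul_assoc, (h3 _ _).eq, mul_smul_comm]
    have e1 : F - χ σ * r σ⁻¹ * f ∈ J := by
      have : F - χ σ * r σ⁻¹ * f = X * r σ - χ σ * r σ⁻¹ * X := by
        rw [hF', hf', mul_add]
        abel
      rw [this]
      exact J.sub_mem (hJ X hx σ) (hlJ _ X hx)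
    have e2 := J.sub_mem (hJ _ e1 k) (hlJ (r k) _ e1)
    have e3 : (F - χ σ * r σ⁻¹ * f) * r k - r k * (F - χ σ * r σ⁻¹ * f) =
        (r k * (χ σ * r σ⁻¹) - χ σ * r σ⁻¹ * r k) * f := by
      rw [sub_mul, mul_sub, hcF, sub_mul, mul_assoc (χ σ * r σ⁻¹) f, hcf, mul_assoc (r k),
        mul_assoc (χ σ * r σ⁻¹) (r k)]
      abel
    rwa [e3] at e2
  have e4 := hlJ (χ g) _ (key g⁻¹ h)
  rw [inv_inv, ← mul_assoc, mul_sub] at e4
  have e5 : χ g * (r h * (χ g⁻¹ * r g)) = r h * r g := by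
    rw [← mul_assoc (r h), ← (h1 g⁻¹ h).eq, mul_assoc, ← mul_assoc, ← map_mul, mul_inv_cancel,
      map_one, one_mul]
  have e6 : χ g * (χ g⁻¹ * r g * r h) = r g * r h := by
    rw [← mul_assoc, ← mul_assoc, ← map_mul, mul_inv_cancel, map_one, one_mul]
  rwa [e5, e6] at e4

theorem key_aux (h1 : ∀ g h, Commute (χ g) (r h)) (h2 : ∀ g h, Commute (χ g) (χ h))
    (h3 : ∀ g h, Commute (trS r χ g) (r h)) {J : Submodule A A}
    (hJ : ∀ a ∈ J, ∀ g, a * r g ∈ J) (s : Finset ι) (a : ι → ℤ) (γ : ι → G)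
    (hx : ∑ i ∈ s, a i • r (γ i) ∈ J) (g h k : G) :
    (trS r χ (g * h * k) - trS r χ (h * g * k)) * ∑ i ∈ s, a i • trS r χ (γ i) ∈ J := by
  have hlJ : ∀ b : A, ∀ a ∈ J, b * a ∈ J := fun b a ha => J.smul_mem b ha
  set f := ∑ i ∈ s, a i • trS r χ (γ i) with hf
  have hcf : ∀ k, f * r k = r k * f := by
    intro k
    rw [hf, Finset.sum_mul, Finset.mul_sum]
    refine Finset.sum_congr rfl fun i _ => ?_
    rw [smul_mul_assoc, (h3 _ _).eq, mul_smul_comm]
  have e0 := comm_aux h1 h2 h3 hJ s a γ hx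
  rw [← hf] at e0
  have e1 : (r (g * h * k) - r (h * g * k)) * f ∈ J := by
    have := hJ _ (e0 h g) k
    rw [mul_assoc, hcf, ← mul_assoc, sub_mul, ← map_mul, ← map_mul, ← map_mul, ← map_mul] at this
    exact this
  have e2 : (r (g * h * k)⁻¹ - r (h * g * k)⁻¹) * f ∈ J := by
    have := hlJ (r k⁻¹) _ (e0 g⁻¹ h⁻¹)
    rw [← mul_assoc, mul_sub, ← map_mul, ← map_mul, ← map_mul, ← map_mul] at this
    have e3 : (g * h * k)⁻¹ = k⁻¹ * (h⁻¹ * g⁻¹) := by group
    have e4 : (h * g * k)⁻¹ = k⁻¹ * (g⁻¹ * h⁻¹) := by group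
    rw [e3, e4]
    exact this
  have e3 : χ (h * g * k) = χ (g * h * k) := by
    rw [map_mul, map_mul, (h2 h g).eq, ← map_mul, ← map_mul]
  have e4 : (trS r χ (g * h * k) - trS r χ (h * g * k)) * f =
      (r (g * h * k) - r (h * g * k)) * f +
        χ (g * h * k) * ((r (g * h * k)⁻¹ - r (h * g * k)⁻¹) * f) := by
    rw [trS, trS, e3]
    simp only [sub_mul, mul_sub, add_mul, mul_assoc]
    abel
  rw [e4]
  exact J.add_mem e1 (hlJ _ _ e2)

end Abs

section Tow

variable {N : ℕ} [NeZero N] {S : Finset ℕ} {p : ℕ}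

/-- the trace of an element killing the lattice characters -/
theorem trace_aux (hp : p.Prime) (hpS : p ∈ S) (hNS : ∀ q : ℕ, q.Prime → q ∣ N → q ∈ S)
    (hKL : ∀ l : ℕ, l.Prime → ¬ l ∣ N → l ≠ p → ∀ B : ValuationSubring Qb,
      B.LiesOverPrime l → ∀ n, KLProp N (p ^ n) B)
    {O : Type} [CommRing O]
    {π : CuspForm.heckeAlgebra N 2 (↑S : Set ℕ) →+* O} {c : ℕ} {t : GQ → O}
    (ht : ∀ σ, ∀ f ∈ algP (TxS N S p) (TtS N S), ∀ n m, n + c ≤ m →
        f.1 m = trS (rhoT N hp.pos m) (chiT N hp.pos m) σ →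
        t σ - π f.2 ∈ Ideal.span {(p : O) ^ n}) :
    ∃ c₁ : ℕ, ∀ n m : ℕ, n + c₁ ≤ m → ∀ (d : ℕ) {ι : Type} (s : Finset ι) (a : ι → ℤ) (γ : ι → GQ),
      (∀ (g : GQ) (φ : Multiplicative (LatM N (↑S : Set ℕ)) →* ℂˣ) (hφ : φ ^ (p ^ m) = 1),
        (d : ℤ) • (∑ i ∈ s, a i • rhoT N hp.pos m (γ i)) (rhoT N hp.pos m g
          (Additive.ofMul ⟨φ.comp (perM N S), latX_mem φ hφ⟩)) = 0) →
      ∀ g h k : GQ, (d : O) * ((∑ i ∈ s, (a i : O) * t (γ i)) * (t (g * h * k) - t (h * g * k))) ∈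
        Ideal.span {(p : O) ^ n} := by
  obtain ⟨c', hc'⟩ := faithful_weak_S (N := N) (S := S) hp.ne_zero
  refine ⟨c + c', fun n m hm d ι s a γ hx g h k => ?_⟩
  have hT := galTower (N := N) hp hpS hNS hKL
  set r := rhoT N hp.pos m with hr
  set χ := chiT N hp.pos m with hχ
  choose F hF hFm using trS_mem hT m
  have h1 : ∀ g h, Commute (χ g) (r h) := fun g h => χcomm hT m g h
  have h2 : ∀ g h, Commute (χ g) (χ h) := by
    intro g h
    obtain ⟨f, hf, hf'⟩ := hT.χmem m g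
    obtain ⟨f₁, hf₁, hf₁'⟩ := hT.χmem m h
    rw [hχ, ← hf', ← hf₁']
    exact algP_comm hT.Tcomm hf hf₁ m
  have h3 : ∀ g h, Commute (trS r χ g) (r h) := by
    intro g h
    rw [hr, hχ, ← hFm]
    exact algP_commute (fun i => hT.ρcomm i m h) (hF g)
  -- the left ideal
  let J : Submodule (Module.End ℤ (Additive (XG N (p ^ m)))) (Module.End ℤ (Additive (XG N (p ^ m))))
      :=
    { carrier := {b | ∀ (g : GQ) (φ : Multiplicative (LatM N (↑S : Set ℕ)) →* ℂˣ)
        (hφ : φ ^ (p ^ m) = 1), (d : ℤ) • b (r g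
          (Additive.ofMul ⟨φ.comp (perM N S), latX_mem φ hφ⟩)) = 0}
      add_mem' := by
        intro a b ha hb g φ hφ
        rw [LinearMap.add_apply, smul_add, ha g φ hφ, hb g φ hφ, add_zero]
      zero_mem' := by
        intro g φ hφ
        rw [LinearMap.zero_apply, smul_zero]
      smul_mem' := by
        intro a b hb g φ hφ
        rw [smul_eq_mul, Module.End.mul_apply, ← map_zsmul, hb g φ hφ, map_zero] }
  have hJ : ∀ b ∈ J, ∀ g, b * r g ∈ J := by
    intro b hb g g' φ hφ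
    rw [Module.End.mul_apply, ← Module.End.mul_apply (r g), ← map_mul]
    exact hb (g * g') φ hφ
  have hkey := key_aux h1 h2 h3 hJ s a γ hx g h k
  -- the element of the Hecke algebra
  set e := (F (g * h * k) - F (h * g * k)) * ∑ i ∈ s, a i • F (γ i) with he
  have he1 : e ∈ algP (TxS N S p) (TtS N S) :=
    mul_mem (sub_mem (hF _) (hF _)) (sum_mem fun i _ =>
      (algP (TxS N S p) (TtS N S)).zsmul_mem (hF _) _)
  have he2 : e.1 m = (trS r χ (g * h * k) - trS r χ (h * g * k)) *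
      ∑ i ∈ s, a i • trS r χ (γ i) := by
    rw [he, Prod.fst_mul, Pi.mul_apply, Prod.fst_sub, Pi.sub_apply, hFm, hFm, Prod.fst_sum,
      Finset.sum_apply]
    congr 1
    refine Finset.sum_congr rfl fun i _ => ?_
    rw [Prod.smul_fst, Pi.smul_apply, hFm]
  have he3 : e.2 = ((F (g * h * k)).2 - (F (h * g * k)).2) * ∑ i ∈ s, a i • (F (γ i)).2 := by
    rw [he, Prod.snd_mul, Prod.snd_sub, Prod.snd_sum]
    rfl
  have h4 := hc' (n + c) m (by omega) ((d : ℤ) • e)
    ((algP (TxS N S p) (TtS N S)).zsmul_mem he1 _) (by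
      intro φ hφ
      have h5 := hkey 1 φ hφ
      rw [map_one, Module.End.one_apply, ← he2] at h5
      exact h5)
  have h5 : (d : O) * ((∑ i ∈ s, (a i : O) * π (F (γ i)).2) *
      (π (F (g * h * k)).2 - π (F (h * g * k)).2)) ∈ Ideal.span {(p : O) ^ n} := by
    have h6 : ((d : ℤ) • e).2 = (d : CuspForm.heckeAlgebra N 2 (↑S : Set ℕ)) * e.2 := by
      rw [Prod.smul_snd, zsmul_eq_mul, Int.cast_natCast]
    rw [h6, he3, Ideal.mem_span_singleton] at h4
    obtain ⟨y, hy⟩ := h4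
    rw [Ideal.mem_span_singleton]
    have h7 := congrArg π hy
    rw [map_mul, map_mul, map_sub, map_sum, map_natCast, map_mul, map_pow, map_natCast] at h7
    have h8 : ∑ i ∈ s, π (a i • (F (γ i)).2) = ∑ i ∈ s, (a i : O) * π (F (γ i)).2 :=
      Finset.sum_congr rfl fun i _ => by rw [zsmul_eq_mul, map_mul, map_intCast]
    rw [h8] at h7
    refine ⟨(p : O) ^ c * π y, ?_⟩
    linear_combination h7
  have h6 : ∀ σ, t σ - π (F σ).2 ∈ Ideal.span {(p : O) ^ n} := fun σ =>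
    ht σ (F σ) (hF σ) n m (by omega) (hFm σ)
  have h7 : (∑ i ∈ s, (a i : O) * t (γ i)) - (∑ i ∈ s, (a i : O) * π (F (γ i)).2) ∈
      Ideal.span {(p : O) ^ n} := by
    rw [← Finset.sum_sub_distrib]
    refine sum_mem fun i _ => ?_
    rw [← mul_sub]
    exact Ideal.mul_mem_left _ _ (h6 _)
  have h8 : (t (g * h * k) - t (h * g * k)) - (π (F (g * h * k)).2 - π (F (h * g * k)).2) ∈
      Ideal.span {(p : O) ^ n} := by
    have := sub_mem (h6 (g * h * k)) (h6 (h * g * k))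
    rw [sub_sub_sub_comm] at this
    exact this
  generalize (∑ i ∈ s, (a i : O) * t (γ i)) = X at h7 ⊢
  generalize (∑ i ∈ s, (a i : O) * π (F (γ i)).2) = X' at h5 h7
  generalize (t (g * h * k) - t (h * g * k)) = Y at h8 ⊢
  generalize (π (F (g * h * k)).2 - π (F (h * g * k)).2) = Y' at h5 h8
  have h9 : (d : O) * (X * Y) = (d : O) * (X' * Y') + (d : O) * Y * (X - X') +
      (d : O) * X' * (Y - Y') := by ring
  rw [h9]
  exact add_mem (add_mem h5 (Ideal.mul_mem_left _ _ h7)) (Ideal.mul_mem_left _ _ h8)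

end Tow

end Fermat.Agent.Flat
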