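import Fermat.Agent.Flat.Claim
import Fermat.Agent.LG.KX7

/-!
Group ring elements killing the parabolic characters act by highly divisible matrices.
-/

set_option autoImplicit false
set_option linter.unusedSectionVars false

noncomputable section

namespace Fermat.Agent.Flat

open IsLocalRing CongruenceSubgroup Matrix.SpecialLinearGroup Polynomial
open Fermat.Agent.ESCore Fermat.Agent.UnivDef
open Fermat.Agent.ESCore.ModP Fermat.Agent.ESCore.Tower Fermat.Agent.ESCore.Univ
open scoped MatrixGroups

section Mat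

variable {T G : Type*} [CommRing T] [Group G] {r : G →* Matrix (Fin 2) (Fin 2) T}

/-- from commutators to the trace -/
theorem mat_aux (hspan : Submodule.span T (Set.range r) = ⊤) {I : Ideal T} {y : T}
    (h : ∀ g h k : G, y * ((r (g * h * k)).trace - (r (h * g * k)).trace) ∈ I) : y ∈ I := by
  have key : ∀ A B C : Matrix (Fin 2) (Fin 2) T,
      y * ((A * B * C).trace - (B * A * C).trace) ∈ I := by
    intro A B C
    have hA : A ∈ Submodule.span T (Set.range r) := by rw [hspan]; trivial
    have hB : B ∈ Submodule.span T (Set.range r) := by rw [hspan]; trivial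
    have hC : C ∈ Submodule.span T (Set.range r) := by rw [hspan]; trivial
    induction hA using Submodule.span_induction with
    | mem x hx =>
      obtain ⟨g, rfl⟩ := hx
      induction hB using Submodule.span_induction with
      | mem x hx =>
        obtain ⟨g', rfl⟩ := hx
        induction hC using Submodule.span_induction with
        | mem x hx =>
          obtain ⟨k, rfl⟩ := hx
          rw [← map_mul, ← map_mul, ← map_mul, ← map_mul]
          exact h g g' k
        | zero => simp
        | add x z _ _ hx hz =>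
          have e : y * ((r g * r g' * (x + z)).trace - (r g' * r g * (x + z)).trace) =
              y * ((r g * r g' * x).trace - (r g' * r g * x).trace) +
              y * ((r g * r g' * z).trace - (r g' * r g * z).trace) := by
            simp only [mul_add, Matrix.trace_add]
            ring
          rw [e]
          exact add_mem hx hz
        | smul c x _ hx =>
          have e : y * ((r g * r g' * (c • x)).trace - (r g' * r g * (c • x)).trace) =
              c * (y * ((r g * r g' * x).trace - (r g' * r g * x).trace)) := by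
            simp only [mul_smul_comm, Matrix.trace_smul, smul_eq_mul]
            ring
          rw [e]
          exact Ideal.mul_mem_left _ _ hx
      | zero => simp
      | add x z _ _ hx hz =>
        have e : y * ((r g * (x + z) * C).trace - ((x + z) * r g * C).trace) =
            y * ((r g * x * C).trace - (x * r g * C).trace) +
            y * ((r g * z * C).trace - (z * r g * C).trace) := by
          simp only [mul_add, add_mul, Matrix.trace_add]
          ring
        rw [e]
        exact add_mem hx hz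
      | smul c x _ hx =>
        have e : y * ((r g * (c • x) * C).trace - ((c • x) * r g * C).trace) =
            c * (y * ((r g * x * C).trace - (x * r g * C).trace)) := by
          simp only [mul_smul_comm, smul_mul_assoc, Matrix.trace_smul, smul_eq_mul]
          ring
        rw [e]
        exact Ideal.mul_mem_left _ _ hx
    | zero => simp
    | add x z _ _ hx hz =>
      have e : y * (((x + z) * B * C).trace - (B * (x + z) * C).trace) =
          y * ((x * B * C).trace - (B * x * C).trace) +
          y * ((z * B * C).trace - (B * z * C).trace) := by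
        simp only [mul_add, add_mul, Matrix.trace_add]
        ring
      rw [e]
      exact add_mem hx hz
    | smul c x _ hx =>
      have e : y * ((c • x * B * C).trace - (B * (c • x) * C).trace) =
          c * (y * ((x * B * C).trace - (B * x * C).trace)) := by
        simp only [mul_smul_comm, smul_mul_assoc, Matrix.trace_smul, smul_eq_mul]
        ring
      rw [e]
      exact Ideal.mul_mem_left _ _ hx
  have h1 := key (Matrix.single 0 1 1) (Matrix.single 1 0 1) (Matrix.single 0 0 1)
  simpa [Matrix.trace_fin_two] using h1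

/-- from traces to the matrix -/
theorem mat_aux' (hspan : Submodule.span T (Set.range r) = ⊤) {I : Ideal T}
    {M : Matrix (Fin 2) (Fin 2) T} (h : ∀ g : G, (M * r g).trace ∈ I) (i j : Fin 2) :
    M i j ∈ I := by
  have key : ∀ C : Matrix (Fin 2) (Fin 2) T, (M * C).trace ∈ I := by
    intro C
    have hC : C ∈ Submodule.span T (Set.range r) := by rw [hspan]; trivial
    induction hC using Submodule.span_induction with
    | mem x hx =>
      obtain ⟨g, rfl⟩ := hx
      exact h g
    | zero => simp
    | add x y _ _ hx hy =>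
      rw [mul_add, Matrix.trace_add]
      exact add_mem hx hy
    | smul c x _ hx =>
      rw [mul_smul_comm, Matrix.trace_smul]
      exact Ideal.mul_mem_left _ _ hx
  have h1 := key (Matrix.single j i 1)
  rw [Matrix.trace_mul_single] at h1
  simpa using h1

end Mat

section Tow

variable {N : ℕ} [NeZero N] {S : Finset ℕ} {p : ℕ}

/-- elements killing the parabolic characters of a deeper level -/
def KillPar (N' m : ℕ) [NeZero N'] (hm : 0 < m) {ι : Type} (s : Finset ι) (a : ι → ℤ)
    (γ : ι → GQ) : Prop :=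
  ∀ χ : XG N' m, ParC χ.1 → ∏ i ∈ s, galX N' hm (γ i) χ ^ a i = 1

theorem killPar_mul {N' m : ℕ} [NeZero N'] (hN : LG.NoEll N') (hm : 0 < m) {ι : Type}
    {s : Finset ι} {a : ι → ℤ} {γ : ι → GQ} (h : KillPar N' m hm s a γ) (k : GQ) :
    KillPar N' m hm s a (fun i => γ i * k) := by
  intro χ hχ
  have h1 := h (galX N' hm k χ) (LG.isPar_galX hN hm k χ hχ)
  rw [← h1]
  refine Finset.prod_congr rfl fun i _ => ?_
  rw [map_mul]
  rfl

/-- the hypothesis of `trace_aux` -/
theorem killPar_lat {N' : ℕ} [NeZero N'] (hN : LG.NoEll N') (hNN' : N ∣ N') {d : ℕ}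
    (hd : ∀ χ : Gamma0 N →* ℂˣ, resChar hNN' χ = 1 → χ ^ d = 1) (hp : 0 < p) {m : ℕ} {ι : Type}
    {s : Finset ι} {a : ι → ℤ} {γ : ι → GQ} (h : KillPar N' (p ^ m) (pow_pos hp m) s a γ)
    (g : GQ) (φ : Multiplicative (LatM N (↑S : Set ℕ)) →* ℂˣ) (hφ : φ ^ (p ^ m) = 1) :
    (d : ℤ) • (∑ i ∈ s, a i • rhoT N hp m (γ i)) (rhoT N hp m g
      (Additive.ofMul ⟨φ.comp (perM N S), latX_mem φ hφ⟩)) = 0 := by
  set y : XG N (p ^ m) := ⟨φ.comp (perM N S), latX_mem φ hφ⟩ with hy
  have h1 := killPar_mul hN _ h g (resX hNN' (p ^ m) y) ((parC_lat φ).res hNN')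
  have h2 : resX hNN' (p ^ m) (∏ i ∈ s, galX N (pow_pos hp m) (γ i * g) y ^ a i) = 1 := by
    rw [map_prod, ← h1]
    refine Finset.prod_congr rfl fun i _ => ?_
    rw [map_zpow, galX_res]
  have h3 := hd _ (congrArg Subtype.val h2)
  apply Additive.toMul.injective
  apply Subtype.ext
  rw [natCast_zsmul, toMul_nsmul, Subgroup.coe_pow]
  have h4 : (∑ i ∈ s, a i • rhoT N hp m (γ i)) (rhoT N hp m g (Additive.ofMul y)) =
      Additive.ofMul (∏ i ∈ s, galX N (pow_pos hp m) (γ i * g) y ^ a i) := by
    rw [LinearMap.sum_apply, ofMul_prod]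
    refine Finset.sum_congr rfl fun i _ => ?_
    rw [LinearMap.smul_apply, map_mul]
    rfl
  rw [h4]
  exact h3

/-- **Elements killing the parabolic characters act by divisible matrices.** -/
theorem claim (hp : p.Prime) (hpS : p ∈ S) (hNS : ∀ q : ℕ, q.Prime → q ∣ N → q ∈ S)
    (hKL : ∀ l : ℕ, l.Prime → ¬ l ∣ N → l ≠ p → ∀ B : ValuationSubring Qb,
      B.LiesOverPrime l → ∀ n, KLProp N (p ^ n) B)
    {N' : ℕ} [NeZero N'] (hN : LG.NoEll N') (hNN' : N ∣ N')
    {O : Type} [CommRing O] [IsLocalRing O] (hpO : (p : O) ∈ maximalIdeal O)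
    (htf : ∀ x : O, (p : O) * x = 0 → x = 0)
    {π : CuspForm.heckeAlgebra N 2 (↑S : Set ℕ) →+* O} {c : ℕ} {t : GQ → O}
    (ht : ∀ σ, ∀ f ∈ algP (TxS N S p) (TtS N S), ∀ n m, n + c ≤ m →
        f.1 m = trS (rhoT N hp.pos m) (chiT N hp.pos m) σ →
        t σ - π f.2 ∈ Ideal.span {(p : O) ^ n})
    {r : GQ →* Matrix (Fin 2) (Fin 2) O} (hspan : Submodule.span O (Set.range r) = ⊤)
    (hrt : ∀ σ, (r σ).trace = t σ) (n : ℕ) :
    ∃ m : ℕ, ∀ {ι : Type} (s : Finset ι) (a : ι → ℤ) (γ : ι → GQ),
      KillPar N' (p ^ m) (pow_pos hp.pos m) s a γ →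
      ∀ i j, (∑ k ∈ s, a k • r (γ k)) i j ∈ Ideal.span {(p : O) ^ n} := by
  obtain ⟨d, hd0, hd⟩ := exists_pow_res (N' := N') hNN'
  obtain ⟨e, d', hd', rfl⟩ : ∃ e d' : ℕ, ¬ p ∣ d' ∧ d = p ^ e * d' := by
    obtain ⟨e, d', h1, h2⟩ := Nat.exists_eq_pow_mul_and_not_dvd hd0 p hp.ne_one
    exact ⟨e, d', h1, h2⟩
  obtain ⟨c₁, hc₁⟩ := trace_aux hp hpS hNS hKL ht
  refine ⟨n + e + c₁, fun {ι} s a γ hx i j => ?_⟩
  have hu : IsUnit (d' : O) := by
    by_contra hnu
    rw [← mem_nonunits_iff, ← mem_maximalIdeal] at hnu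
    have hcop : IsCoprime (d' : ℤ) (p : ℤ) := by
      rw [Nat.isCoprime_iff_coprime, Nat.coprime_comm]
      exact (Nat.Prime.coprime_iff_not_dvd hp).mpr hd'
    obtain ⟨u, v, huv⟩ := hcop
    have h1 := congrArg (fun z : ℤ => (z : O)) huv
    push_cast at h1
    have h2 : (1 : O) ∈ maximalIdeal O := by
      rw [← h1]
      exact add_mem (Ideal.mul_mem_left _ _ hnu) (Ideal.mul_mem_left _ _ hpO)
    exact (Ideal.ne_top_iff_one _).mp (IsLocalRing.maximalIdeal.isMaximal O).ne_top h2
  have htf' : ∀ (e : ℕ) (x : O), (p : O) ^ e * x = 0 → x = 0 := by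
    intro e
    induction e with
    | zero =>
      intro x hx
      simpa using hx
    | succ e ih =>
      intro x hx
      rw [pow_succ, mul_assoc] at hx
      exact htf _ (ih _ hx)
  have hdiv : ∀ y : O, ((p ^ e * d' : ℕ) : O) * y ∈ Ideal.span {(p : O) ^ (n + e)} →
      y ∈ Ideal.span {(p : O) ^ n} := by
    intro y hy
    rw [Ideal.mem_span_singleton] at hy ⊢
    obtain ⟨z, hz⟩ := hy
    have h1 : (p : O) ^ e * ((d' : O) * y - (p : O) ^ n * z) = 0 := by
      push_cast at hz
      rw [pow_add] at hz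
      linear_combination hz
    have h2 := sub_eq_zero.mp (htf' e _ h1)
    obtain ⟨u, hu⟩ := hu
    refine ⟨((u⁻¹ : Oˣ) : O) * z, ?_⟩
    have h3 : ((u⁻¹ : Oˣ) : O) * (d' : O) = 1 := by rw [← hu, Units.inv_mul]
    linear_combination ((u⁻¹ : Oˣ) : O) * h2 - y * h3
  refine mat_aux' hspan (fun g => ?_) i j
  refine hdiv _ ?_
  have h1 : ((∑ k ∈ s, a k • r (γ k)) * r g).trace = ∑ k ∈ s, (a k : O) * t (γ k * g) := by
    rw [Finset.sum_mul, Matrix.trace_sum]
    refine Finset.sum_congr rfl fun k _ => ?_
    rw [smul_mul_assoc, ← map_mul, Matrix.trace_smul, hrt, zsmul_eq_mul]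
  rw [h1]
  refine mat_aux hspan fun g₁ h k => ?_
  rw [hrt, hrt, mul_assoc]
  exact hc₁ (n + e) _ le_rfl (p ^ e * d') s a (fun i => γ i * g)
    (fun g' φ hφ => killPar_lat hN hNN' hd hp.pos (killPar_mul hN _ hx g) g' φ hφ) g₁ h k

end Tow

end Fermat.Agent.Flat
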