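import Fermat.Agent.Flat.FlatRep
import Fermat.Agent.ESCore.OrdPoint
import Fermat.Agent.Conn.Main
import Fermat.Agent.Pet.Gamma0

/-!
Determinants of modular representations; the ordinary case for old points.
-/

set_option autoImplicit false
set_option linter.unusedSectionVars false

noncomputable section

namespace Fermat.Agent.Flat

open IsLocalRing CongruenceSubgroup Matrix.SpecialLinearGroup Polynomial
open Fermat.Agent.ESCore Fermat.Agent.UnivDef Fermat.Agent.Conn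
open Fermat.Agent.ESCore.ModP Fermat.Agent.ESCore.Tower Fermat.Agent.ESCore.Univ
open scoped MatrixGroups

variable {N : ℕ} [NeZero N] {S : Finset ℕ} {p : ℕ}

theorem frob_charpoly_coeff {A : Type} [CommRing A] {M : Matrix (Fin 2) (Fin 2) A} {a d : A}
    (h : M.charpoly = X ^ 2 - C a * X + C d) : M.trace = a ∧ M.det = d := by
  nontriviality A
  rw [Matrix.charpoly_fin_two] at h
  constructor
  · have h3 := congrArg (fun P : Polynomial A => P.coeff 1) h
    simp only [Polynomial.coeff_add, Polynomial.coeff_sub, Polynomial.coeff_X_pow,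
      Polynomial.coeff_C_mul, Polynomial.coeff_X_one, Polynomial.coeff_C_succ, mul_one,
      add_zero] at h3
    simpa using h3
  · have h3 := congrArg (fun P : Polynomial A => P.coeff 0) h
    simpa using h3

theorem detIsCyclotomic_of_hecke (hp : p.Prime) (hp2 : p ≠ 2) (hpS : p ∈ S)
    (hNS : ∀ q : ℕ, q.Prime → q ∣ N → q ∈ S)
    {T : Type} [CommRing T] [IsLocalRing T] [IsNoetherianRing T]
    [IsAdicComplete (maximalIdeal T) T] (hpT : (p : T) ∈ maximalIdeal T)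
    (π : CuspForm.heckeAlgebra N 2 (↑S : Set ℕ) →+* T) (ρ : GaloisRepAdic T)
    (hfrob : ∀ (l : ℕ) (hl : l.Prime) (hlN : ¬ l ∣ N) (hlS : l ∉ (↑S : Set ℕ)),
      ∀ A : ValuationSubring Qb, A.LiesOverPrime l → ∀ σ : GQ, A.IsFrobeniusAt σ l →
        LinearMap.charpoly (ρ.ρ σ) = Polynomial.X ^ 2 -
          Polynomial.C (π (CuspForm.heckeAlgebra.T hl hlN hlS)) * Polynomial.X +
            Polynomial.C ((l : T))) : ρ.DetIsCyclotomic p := by
  have hKL : ∀ l : ℕ, l.Prime → ¬ l ∣ N → l ≠ p → ∀ B : ValuationSubring Qb,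
      B.LiesOverPrime l → ∀ n, KLProp N (p ^ n) B := fun l hl hlN hlp B hB n =>
    Fermat.Agent.KL.klProp (pow_pos hp.pos n) hl hlN
      (fun h => hlp ((Nat.prime_dvd_prime_iff_eq hl hp).mp (hl.dvd_of_dvd_pow h))) hB
  obtain ⟨c, t, ε, hps, h1, -, h2, h3, -⟩ := Univ.exists_pseudo_full hp hpS hNS hKL hpT π
  let b : Module.Basis (Fin 2) T ρ.V :=
    (Module.finBasis T ρ.V).reindex (finCongr ρ.finrank_eq)
  have h2u : IsUnit (2 : T) := by
    by_contra hnu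
    rw [← mem_nonunits_iff, ← mem_maximalIdeal] at hnu
    obtain ⟨k, hk⟩ := hp.odd_of_ne_two hp2
    have h4 : (1 : T) ∈ maximalIdeal T := by
      have h5 := congrArg (fun z : ℕ => (z : T)) hk
      push_cast at h5
      have h6 : (1 : T) = p - 2 * k := by linear_combination -h5
      rw [h6]
      exact sub_mem hpT (Ideal.mul_mem_right _ _ hnu)
    exact (Ideal.ne_top_iff_one _).mp (IsLocalRing.maximalIdeal.isMaximal T).ne_top h4
  have htd := trace_det_of_frob (isContMat_matOf ρ b) hps (fun n => by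
      obtain ⟨L, hL, h4⟩ := h3 n
      exact ⟨L, hL, fun σ hσ g => span_pow_le hpT n ((h4 σ hσ).1 g)⟩) S (by
      intro l hl hlS B hB σ hσ
      have hlN : ¬ l ∣ N := fun h => hlS (hNS l hl h)
      obtain ⟨h4, h5⟩ := h2 l hl hlN hlS B hB σ hσ
      have h6 := hfrob l hl hlN hlS B hB σ hσ
      rw [← LinearMap.charpoly_toMatrix (ρ.ρ σ) b] at h6
      rw [h4, h5]
      exact frob_charpoly_coeff h6) (fun x hx => by
        obtain ⟨u, hu⟩ := h2u
        rw [← hu] at hx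
        simpa using hx)
  refine ⟨hpT, fun n σ a ha => ?_⟩
  have hdet : LinearMap.det (ρ.ρ σ) = (ε σ : T) := by
    rw [← (htd σ).2, ← LinearMap.det_toMatrix b]
    rfl
  rw [hdet, Nat.cast_pow]
  obtain ⟨L₁, hL₁, h₁⟩ := h3 n
  have hne : NeZero (p ^ n) := ⟨(pow_pos hp.pos n).ne'⟩
  obtain ⟨L₂, hL₂, h₂⟩ := cyc_finite (p ^ n)
  obtain ⟨l, hl, hlS, B, hB, φ, hφ, i, -, hi, -⟩ :=
    FrobDensity.exists_frobenius_pow (L₁ ⊔ L₂) σ S
  have hlp : l ≠ p := fun h => hlS (h ▸ hpS)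
  have hlN : ¬ l ∣ N := fun h => hlS (hNS l hl h)
  have hδ : ∀ x ∈ L₁ ⊔ L₂, (σ⁻¹ * φ ^ i : GQ) x = x := by
    intro x hx
    rw [AlgEquiv.mul_apply, hi x hx, ← AlgEquiv.mul_apply, inv_mul_cancel, AlgEquiv.one_apply]
  set δ : GQ := σ⁻¹ * φ ^ i with hδdef
  have hσδ : σ * δ = φ ^ i := by rw [hδdef, mul_inv_cancel_left]
  have e1 := (h₁ δ fun x hx => hδ x ((le_sup_left : L₁ ≤ L₁ ⊔ L₂) hx)).2
  have e2 := h₂ δ fun x hx => hδ x ((le_sup_right : L₂ ≤ L₁ ⊔ L₂) hx)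
  have e3 : (ε (φ ^ i) : T) - ε σ ∈ Ideal.span {(p : T) ^ n} := by
    rw [← hσδ, map_mul, Units.val_mul]
    have : (ε σ : T) * ε δ - ε σ = ε σ * (ε δ - 1) := by ring
    rw [this]
    exact Ideal.mul_mem_left _ _ e1
  have e4 : (ε (φ ^ i) : T) = ((l ^ i : ℕ) : T) := by
    rw [map_pow, Units.val_pow_eq_pow_val, (h2 l hl hlN hlS B hB φ hφ).2, Nat.cast_pow]
  -- the cyclotomic character
  obtain ⟨ζ, hζ⟩ := exists_primitiveRoot (p ^ n)
  have e5 : ((cyc (p ^ n) σ : (ZMod (p ^ n))ˣ) : ZMod (p ^ n)) = (a : ZMod (p ^ n)) :=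
    cyc_eq_of hζ (ha ζ hζ.pow_eq_one)
  have hlpn : ¬ l ∣ p ^ n := fun h => hlp ((Nat.prime_dvd_prime_iff_eq hl hp).mp
    (hl.dvd_of_dvd_pow h))
  have e6 : cyc (p ^ n) σ = cyc (p ^ n) (φ ^ i) := by rw [← hσδ, map_mul, e2, mul_one]
  have e7 : (a : ZMod (p ^ n)) = ((l ^ i : ℕ) : ZMod (p ^ n)) := by
    rw [← e5, e6, map_pow, Units.val_pow_eq_pow_val, cyc_frob hB hl hφ hlpn, Nat.cast_pow]
  have e8 : ((l ^ i : ℕ) : T) - (a : T) ∈ Ideal.span {(p : T) ^ n} := by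
    have e9 : ((a : ℤ) : ZMod (p ^ n)) = (((l ^ i : ℕ) : ℤ) : ZMod (p ^ n)) := by
      rw [Int.cast_natCast, Int.cast_natCast, e7]
    obtain ⟨w, hw⟩ := (ZMod.intCast_eq_intCast_iff_dvd_sub _ _ _).mp e9
    rw [Ideal.mem_span_singleton]
    refine ⟨(w : T), ?_⟩
    have e3 := congrArg (Int.cast : ℤ → T) hw
    push_cast at e3 ⊢
    exact e3
  have e9 : (ε σ : T) - a = -((ε (φ ^ i) : T) - ε σ) + (((l ^ i : ℕ) : T) - (a : T)) := by
    rw [e4]
    ring
  rw [e9]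
  exact add_mem (neg_mem e3) e8

theorem oldOrd (hp : p.Prime) (hp2 : p ≠ 2) (hpS : p ∈ S) : OldOrd p S := by
  intro M _ hpM hMS B _ _ _ _ _ _ hpB π ρ hfrob habs hres
  have hfl := isFlatAt_of_hecke hp hp2 hpM hpS hMS (T := B) inferInstance hpB
    (fun x hx => (mul_eq_zero.mp hx).resolve_left (Nat.cast_ne_zero.mpr hp.ne_zero)) π ρ hfrob habs
  have hdet := detIsCyclotomic_of_hecke hp hp2 hpS hMS (T := B) hpB π ρ hfrob
  exact isOrdinaryAt_of_flat ρ hp hp2 hfl hdet hres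

end Fermat.Agent.Flat
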