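import Fermat.Agent.Flat.GRing
import Fermat.Agent.Flat.Claim2
import Fermat.Agent.Flat.PMod
import Fermat.Agent.KL.Final
import Fermat.Agent.Conn.Level

/-!
Flatness of the Galois representations attached to modular forms of level prime to `p`.
-/

set_option autoImplicit false
set_option linter.unusedSectionVars false

noncomputable section

namespace Fermat.Agent.Flat

open IsLocalRing CongruenceSubgroup Matrix.SpecialLinearGroup Polynomial
open Fermat.Agent.ESCore Fermat.Agent.UnivDef Fermat.Agent.Conn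
open Fermat.Agent.ESCore.ModP Fermat.Agent.ESCore.Tower Fermat.Agent.ESCore.Univ
open scoped MatrixGroups

section Lev

variable {T : Type} [CommRing T] [IsLocalRing T]

theorem finite_lev (ρ : GaloisRepAdic T) (I : Ideal T) (hI : Finite (T ⧸ I)) :
    Finite (Lev ρ I) := by
  have h1 : Module.Finite (T ⧸ I) (ρ.V ⧸ (I • (⊤ : Submodule T ρ.V))) :=
    Module.Finite.of_restrictScalars_finite T (T ⧸ I) _
  have h2 : Finite (ρ.V ⧸ (I • (⊤ : Submodule T ρ.V))) := Module.finite_of_finite (T ⧸ I)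
  exact h2

theorem isFlatAt_of_lev (ρ : GaloisRepAdic T) {p : ℕ} (hp : p.Prime)
    (hfin : Finite (ResidueField T)) (h : ∀ I : Ideal T, Finite (T ⧸ I) →
      IsFlat (GaloisRep.ratLocalizedAt p) GQ (Lev ρ I) Qb) : ρ.IsFlatAt p := by
  refine ⟨hfin, fun I hI => ?_⟩
  have := isDVR_rat hp
  have := finite_lev ρ I hI
  obtain ⟨H, i1, i2, h1, h2, h3, e, he1, he2⟩ := (h I hI).exists_hopf (desc_rat p)
  exact ⟨H, i1, i2, h1, h2, h3, e, he1, fun σ f g hfg => he2 σ f g hfg⟩

theorem exists_pow_mem {p : ℕ} (hpT : (p : T) ∈ maximalIdeal T) (I : Ideal T)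
    (hI : Finite (T ⧸ I)) : ∃ n : ℕ, (p : T) ^ n ∈ I := by
  obtain ⟨i, j, hij, h⟩ : ∃ i j : ℕ, i < j ∧
      (Ideal.Quotient.mk I ((p : T) ^ i)) = Ideal.Quotient.mk I ((p : T) ^ j) := by
    obtain ⟨i, j, hne, h⟩ := Finite.exists_ne_map_eq_of_infinite
      fun k : ℕ => Ideal.Quotient.mk I ((p : T) ^ k)
    rcases lt_or_gt_of_ne hne with h1 | h1
    · exact ⟨i, j, h1, h⟩
    · exact ⟨j, i, h1, h.symm⟩
  refine ⟨i, ?_⟩
  rw [Ideal.Quotient.eq] at h
  have h1 : (p : T) ^ i - (p : T) ^ j = (p : T) ^ i * (1 - (p : T) ^ (j - i)) := by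
    rw [mul_sub, mul_one, ← pow_add, Nat.add_sub_cancel' hij.le]
  have h2 : IsUnit (1 - (p : T) ^ (j - i)) := by
    by_contra hnu
    rw [← mem_nonunits_iff, ← mem_maximalIdeal] at hnu
    have h3 : (p : T) ^ (j - i) ∈ maximalIdeal T :=
      Ideal.pow_mem_of_mem _ hpT _ (by omega)
    have h4 : (1 : T) ∈ maximalIdeal T := by
      have := add_mem hnu h3
      rwa [sub_add_cancel] at this
    exact (Ideal.ne_top_iff_one _).mp (IsLocalRing.maximalIdeal.isMaximal T).ne_top h4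
  rw [h1] at h
  obtain ⟨u, hu⟩ := h2
  rw [← hu] at h
  have := I.mul_mem_right ((u⁻¹ : Tˣ) : T) h
  rwa [mul_assoc, Units.mul_inv, mul_one] at this

end Lev

variable {N : ℕ} [NeZero N] {S : Finset ℕ} {p : ℕ}

/-- **Flatness** of the representations attached to homomorphisms of the Hecke algebra of level
prime to `p`. -/
theorem isFlatAt_of_hecke (hp : p.Prime) (hp2 : p ≠ 2) (hpN : ¬ p ∣ N) (hpS : p ∈ S)
    (hNS : ∀ q : ℕ, q.Prime → q ∣ N → q ∈ S)
    {T : Type} [CommRing T] [IsLocalRing T] [IsNoetherianRing T]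
    [IsAdicComplete (maximalIdeal T) T] (hfin : Finite (ResidueField T))
    (hpT : (p : T) ∈ maximalIdeal T) (htf : ∀ x : T, (p : T) * x = 0 → x = 0)
    (π : CuspForm.heckeAlgebra N 2 (↑S : Set ℕ) →+* T) (ρ : GaloisRepAdic T)
    (hfrob : ∀ (l : ℕ) (hl : l.Prime) (hlN : ¬ l ∣ N) (hlS : l ∉ (↑S : Set ℕ)),
      ∀ A : ValuationSubring Qb, A.LiesOverPrime l → ∀ σ : GQ, A.IsFrobeniusAt σ l →
        LinearMap.charpoly (ρ.ρ σ) = Polynomial.X ^ 2 -
          Polynomial.C (π (CuspForm.heckeAlgebra.T hl hlN hlS)) * Polynomial.X +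
            Polynomial.C ((l : T)))
    (habs : ρ.residual.IsAbsolutelyIrreducible) : ρ.IsFlatAt p := by
  refine isFlatAt_of_lev ρ hp hfin fun I hI => ?_
  have := isDVR_rat hp
  have hfinL := finite_lev ρ I hI
  obtain ⟨n, hn⟩ := exists_pow_mem hpT I hI
  have hKL : ∀ l : ℕ, l.Prime → ¬ l ∣ N → l ≠ p → ∀ B : ValuationSubring Qb,
      B.LiesOverPrime l → ∀ n, KLProp N (p ^ n) B := fun l hl hlN hlp B hB n =>
    Fermat.Agent.KL.klProp (pow_pos hp.pos n) hl hlN
      (fun h => hlp ((Nat.prime_dvd_prime_iff_eq hl hp).mp (hl.dvd_of_dvd_pow h))) hB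
  obtain ⟨c, t, ε, hps, h1, -, h2, h3, -⟩ := Univ.exists_pseudo_full hp hpS hNS hKL hpT π
  let b : Module.Basis (Fin 2) T ρ.V :=
    (Module.finBasis T ρ.V).reindex (finCongr ρ.finrank_eq)
  have htr : ∀ σ, (matOf ρ b σ).trace = t σ := by
    refine trace_eq_of_frob (isContMat_matOf ρ b) hps (fun n => ?_) S
      fun l hl hlS B hB σ hσ => ?_
    · obtain ⟨L, hL, h4⟩ := h3 n
      exact ⟨L, hL, fun σ hσ g => span_pow_le hpT n ((h4 σ hσ).1 g)⟩
    · have hlN : ¬ l ∣ N := fun h => hlS (hNS l hl h)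
      obtain ⟨h4, h5⟩ := h2 l hl hlN hlS B hB σ hσ
      have h2 := hfrob l hl hlN hlS B hB σ hσ
      rw [← LinearMap.charpoly_toMatrix (ρ.ρ σ) b] at h2
      change (matOf ρ b σ).charpoly = _ at h2
      rw [Matrix.charpoly_fin_two] at h2
      constructor
      · have h3 := congrArg (fun P : Polynomial T => P.coeff 1) h2
        simp only [Polynomial.coeff_add, Polynomial.coeff_sub, Polynomial.coeff_X_pow,
          Polynomial.coeff_C_mul, Polynomial.coeff_X_one, Polynomial.coeff_C_succ, mul_one,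
          add_zero] at h3
        rw [h4]
        simpa using h3
      · have h3 := congrArg (fun P : Polynomial T => P.coeff 0) h2
        rw [h5]
        simpa using h3
  have hspan := span_matOf_eq_top ρ habs b
  -- the auxiliary level
  have hN' : LG.NoEll (4 * N) := LG.noEll_of_four_dvd (dvd_mul_right 4 N)
  have : NeZero (4 * N) := ⟨mul_ne_zero (by norm_num) (NeZero.ne N)⟩
  have hpN' : ¬ p ∣ 4 * N := by
    intro h
    rcases hp.dvd_mul.mp h with h | h
    · have h5 : p ∣ 2 ^ 2 := by simpa using h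
      exact hp2 ((Nat.prime_dvd_prime_iff_eq hp Nat.prime_two).mp (hp.dvd_of_dvd_pow h5))
    · exact hpN h
  obtain ⟨m, hm⟩ := claim hp hpS hNS hKL hN' (dvd_mul_left N 4) hpT htf h1 hspan htr n
  letI := parAct (N := 4 * N) hN' (pow_pos hp.pos m)
  obtain ⟨hf, hfl⟩ := flat_par (N := 4 * N) hp hpN' hN' (pow_pos hp.pos m)
  refine hfl.of_kill (desc_rat p) fun s a hx w => ?_
  have h4 : KillPar (4 * N) (p ^ m) (pow_pos hp.pos m) s a id := by
    intro χ hχ
    have h5 := hx (Additive.ofMul ⟨χ, hχ⟩)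
    have h6 := congrArg (fun z : Additive (PX (4 * N) (p ^ m)) => (Additive.toMul z).1) h5
    refine Eq.trans ?_ h6
    change _ = (PX (4 * N) (p ^ m)).subtype (Additive.toMul (∑ g ∈ s, a g • (g • _)))
    rw [toMul_sum, map_prod]
    rfl
  have h5 := hm s a id h4
  obtain ⟨v, rfl⟩ := toLev_surjective ρ I w
  have h6 : ∑ g ∈ s, a g • (g • toLev ρ I v) = toLev ρ I ((∑ g ∈ s, a g • ρ.ρ g) v) := by
    rw [LinearMap.sum_apply, map_sum]
    refine Finset.sum_congr rfl fun g _ => ?_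
    rw [LinearMap.smul_apply, map_zsmul, smul_toLev]
  rw [h6, toLev_eq_zero]
  set f : Module.End T ρ.V := ∑ g ∈ s, a g • ρ.ρ g with hf'
  have h7 : LinearMap.toMatrix b b f = ∑ k ∈ s, a k • matOf ρ b (id k) := by
    rw [hf', map_sum]
    refine Finset.sum_congr rfl fun g _ => ?_
    rw [map_zsmul]
    rfl
  have h8 : ∀ i j, b.repr (f (b j)) i ∈ I := by
    intro i j
    have := h5 i j
    rw [← h7, LinearMap.toMatrix_apply, Ideal.mem_span_singleton] at this
    obtain ⟨y, hy⟩ := this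
    rw [hy]
    exact I.mul_mem_right _ hn
  have h9 : ∀ j, f (b j) ∈ I • (⊤ : Submodule T ρ.V) := by
    intro j
    rw [← b.sum_repr (f (b j))]
    exact sum_mem fun i _ => Submodule.smul_mem_smul (h8 i j) Submodule.mem_top
  rw [← b.sum_repr v, map_sum]
  refine sum_mem fun j _ => ?_
  rw [map_smul]
  exact Submodule.smul_mem _ _ (h9 j)

end Fermat.Agent.Flat
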