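import Mathlib
import Fermat.Agent.Flat.SubQuot

/-!
Subquotients given by annihilators in the group ring.
-/

set_option autoImplicit false
set_option linter.unusedSectionVars false

noncomputable section

namespace Fermat.Agent.Flat

variable {R G Ω : Type*} [CommRing R] [Field Ω] [Algebra R Ω] [Group G] [MulSemiringAction G Ω]

/-- finite products -/
theorem IsFlat.piFin {V X : Type*} [AddCommGroup V] [DistribMulAction G V] [Finite X]
    (hD : Desc R G Ω) (hV : IsFlat R G V Ω) : IsFlat R G (X → V) Ω := by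
  obtain ⟨n, ⟨e⟩⟩ := Finite.exists_equiv_fin X
  refine (hV.pi hD n).of_injective
    { toFun := fun f i => f (e.symm i)
      map_zero' := rfl
      map_add' := fun _ _ => rfl } ?_ fun g v => rfl
  intro f f' h
  funext x
  have := congrFun h (e x)
  simpa using this

section Mod

variable (G) (M : Type*) [AddCommGroup M] [DistribMulAction G M]

/-- the group ring acting -/
def grHom : MonoidAlgebra ℤ G →+* AddMonoid.End M :=
  (MonoidAlgebra.lift ℤ (AddMonoid.End M) G (DistribMulAction.toAddMonoidEnd G M)).toRingHom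

/-- modules over the group ring -/
@[reducible] def grMod : Module (MonoidAlgebra ℤ G) M :=
  Module.compHom M (grHom G M)

theorem grHom_apply (x : MonoidAlgebra ℤ G) (v : M) :
    grHom G M x v = ∑ g ∈ x.coeff.support, x.coeff g • (g • v) := by
  change (MonoidAlgebra.lift ℤ (AddMonoid.End M) G (DistribMulAction.toAddMonoidEnd G M) x) v = _
  rw [MonoidAlgebra.lift_apply, Finsupp.sum]
  have : ∀ (s : Finset G) (f : G → AddMonoid.End M), (∑ g ∈ s, f g) v = ∑ g ∈ s, f g v := by
    intro s f
    exact map_sum (AddMonoidHom.eval v : (M →+ M) →+ M) f s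
  rw [this]
  rfl

theorem grHom_of (g : G) (v : M) : grHom G M (MonoidAlgebra.of ℤ G g) v = g • v := by
  change (MonoidAlgebra.lift ℤ (AddMonoid.End M) G (DistribMulAction.toAddMonoidEnd G M)
    (MonoidAlgebra.of ℤ G g)) v = _
  rw [MonoidAlgebra.lift_of]
  rfl

end Mod

/-- **Flatness from annihilators.** -/
theorem IsFlat.of_kill [IsDomain R] [IsPrincipalIdealRing R] (hD : Desc R G Ω) [CharZero Ω] {P W : Type*} [AddCommGroup P]
    [AddCommGroup W] [DistribMulAction G P] [DistribMulAction G W] [Finite P] [Finite W]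
    (hP : IsFlat R G P Ω)
    (h : ∀ (s : Finset G) (a : G → ℤ), (∀ χ : P, ∑ g ∈ s, a g • (g • χ) = 0) →
      ∀ w : W, ∑ g ∈ s, a g • (g • w) = 0) : IsFlat R G W Ω := by
  classical
  letI := grMod G P
  letI := grMod G W
  have hkill : ∀ x : MonoidAlgebra ℤ G, (∀ χ : P, grHom G P x χ = 0) →
      ∀ w : W, grHom G W x w = 0 := by
    intro x hx w
    rw [grHom_apply]
    exact h _ _ (fun χ => by rw [← grHom_apply]; exact hx χ) w
  let Θ : MonoidAlgebra ℤ G →ₗ[MonoidAlgebra ℤ G] (P → P) :=
    LinearMap.pi fun χ => LinearMap.toSpanSingleton (MonoidAlgebra ℤ G) P χ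
  have hΘ : ∀ x χ, Θ x χ = grHom G P x χ := fun x χ => rfl
  let K := LinearMap.ker Θ
  let Q := MonoidAlgebra ℤ G ⧸ K
  letI actQ : DistribMulAction G Q := DistribMulAction.compHom Q (MonoidAlgebra.of ℤ G)
  have hactQ : ∀ (g : G) (x : MonoidAlgebra ℤ G), g • (Submodule.Quotient.mk x : Q) =
      Submodule.Quotient.mk (MonoidAlgebra.of ℤ G g * x) := fun g x => rfl
  -- the embedding
  let θ : Q →+ (P → P) := (K.liftQ Θ le_rfl).toAddMonoidHom
  have hθ : ∀ x, θ (Submodule.Quotient.mk x) = Θ x := fun x => rfl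
  have hθinj : Function.Injective θ := by
    have : Function.Injective (K.liftQ Θ le_rfl) := by
      rw [← LinearMap.ker_eq_bot]
      exact Submodule.ker_liftQ_eq_bot _ _ _ le_rfl
    exact this
  have hPP : IsFlat R G (P → P) Ω := hP.piFin hD
  have hQ : IsFlat R G Q Ω := hPP.of_injective θ hθinj (by
    intro g v
    obtain ⟨x, rfl⟩ := Submodule.Quotient.mk_surjective K v
    rw [hactQ, hθ, hθ]
    funext χ
    rw [hΘ, map_mul]
    change grHom G P (MonoidAlgebra.of ℤ G g) (grHom G P x χ) = g • (Θ x χ)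
    rw [grHom_of, hΘ])
  have hfinQ : Finite Q := Finite.of_injective θ hθinj
  have hWQ : IsFlat R G (W → Q) Ω := hQ.piFin hD
  -- evaluation
  let ev : W → (Q →ₗ[MonoidAlgebra ℤ G] W) := fun w =>
    K.liftQ (LinearMap.toSpanSingleton (MonoidAlgebra ℤ G) W w) (by
      intro x hx
      rw [LinearMap.mem_ker] at hx ⊢
      exact hkill x (fun χ => by rw [← hΘ, hx]; rfl) w)
  have hev : ∀ w x, ev w (Submodule.Quotient.mk x) = grHom G W x w := fun w x => rfl
  have := Fintype.ofFinite W
  let Ψ : (W → Q) →+ W :=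
    { toFun := fun F => ∑ w, ev w (F w)
      map_zero' := by simp
      map_add' := fun F F' => by simp [Finset.sum_add_distrib] }
  refine hWQ.of_surjective hD Ψ ?_ ?_
  · intro w
    refine ⟨Pi.single w (Submodule.Quotient.mk 1), ?_⟩
    change ∑ w', ev w' ((Pi.single w (Submodule.Quotient.mk 1) : W → Q) w') = w
    rw [Finset.sum_eq_single w]
    · rw [Pi.single_eq_same, hev, map_one]
      rfl
    · intro w' _ hne
      rw [Pi.single_eq_of_ne hne, map_zero]
    · intro hw
      exact absurd (Finset.mem_univ w) hw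
  · intro g F
    change ∑ w, ev w (g • F w) = g • ∑ w, ev w (F w)
    rw [Finset.smul_sum]
    refine Finset.sum_congr rfl fun w _ => ?_
    obtain ⟨x, hx⟩ := Submodule.Quotient.mk_surjective K (F w)
    rw [← hx, hactQ, hev, hev, map_mul]
    change grHom G W (MonoidAlgebra.of ℤ G g) (grHom G W x w) = _
    rw [grHom_of]

end Fermat.Agent.Flat
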