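import Fermat.Agent.Flat.DetCyc
import Fermat.Agent.KL.Main

/-!
**S33 in general form**: ordinarity of Hecke–Galois representations of level exactly divisible
by `p`.
-/

set_option autoImplicit false
set_option linter.unusedSectionVars false

noncomputable section

namespace Fermat.Agent.Flat

open IsLocalRing CongruenceSubgroup Matrix.SpecialLinearGroup Polynomial
open Fermat.Agent.ESCore Fermat.Agent.UnivDef Fermat.Agent.Conn
open Fermat.Agent.ESCore.ModP Fermat.Agent.ESCore.Tower Fermat.Agent.ESCore.Univ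
open scoped MatrixGroups Pointwise

/-- **Points of finite algebras.** -/
theorem exists_dvr_point' {𝒪 : Type} [CommRing 𝒪] [IsDomain 𝒪] [IsDiscreteValuationRing 𝒪]
    [IsAdicComplete (maximalIdeal 𝒪) 𝒪] [Finite (ResidueField 𝒪)] [CharZero 𝒪]
    {T : Type} [CommRing T] [Algebra 𝒪 T] [Module.Finite 𝒪 T] [Module.Free 𝒪 T]
    {x : T} (hx : ¬ IsNilpotent x) :
    ∃ (B : Type) (_ : CommRing B) (_ : IsDomain B) (_ : IsDiscreteValuationRing B)
      (_ : IsAdicComplete (maximalIdeal B) B) (_ : Finite (ResidueField B)) (_ : CharZero B)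
      (_ : Algebra 𝒪 B) (_ : Module.Finite 𝒪 B) (_ : IsLocalHom (algebraMap 𝒪 B))
      (ψ : T →ₐ[𝒪] B), ψ x ≠ 0 ∧ Function.Injective (algebraMap 𝒪 B) := by
  have h1 : ∃ q : Ideal T, q ∈ minimalPrimes T ∧ x ∉ q := by
    by_contra hcon
    push Not at hcon
    have : x ∈ sInf (minimalPrimes T) := (Submodule.mem_sInf).mpr hcon
    have h2 : sInf (minimalPrimes T) = nilradical T := by
      rw [minimalPrimes, Ideal.sInf_minimalPrimes]; rfl
    rw [h2, mem_nilradical] at this
    exact hx this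
  obtain ⟨q, hq, hxq⟩ := h1
  have hqp : q.IsPrime := hq.1.1
  have hinj : Function.Injective (algebraMap 𝒪 (T ⧸ q)) := by
    rw [injective_iff_map_eq_zero]
    intro a ha
    by_contra ha0
    rw [IsScalarTower.algebraMap_apply 𝒪 T (T ⧸ q), Ideal.Quotient.algebraMap_eq,
      Ideal.Quotient.eq_zero_iff_mem] at ha
    have h2 := Ideal.disjoint_nonZeroDivisors_of_mem_minimalPrimes hq
    refine Set.disjoint_left.mp h2 ha ?_
    rw [SetLike.mem_coe, mem_nonZeroDivisors_iff]
    constructor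
    · intro y hy
      rw [← Algebra.smul_def] at hy
      exact (smul_eq_zero.mp hy).resolve_left ha0
    · intro y hy
      rw [mul_comm, ← Algebra.smul_def] at hy
      exact (smul_eq_zero.mp hy).resolve_left ha0
  obtain ⟨B, i1, i2, i3, i4, i5, i6, i7, i8, i9, ψ, hψ, hB⟩ :=
    exists_integralClosure (𝒪 := 𝒪) (T ⧸ q) hinj
  refine ⟨B, i1, i2, i3, i4, i5, i6, i7, i8, i9, ψ.comp (Ideal.Quotient.mkₐ 𝒪 q), ?_, hB⟩
  intro h
  rw [AlgHom.comp_apply, ← map_zero ψ] at h
  have := hψ h
  rw [Ideal.Quotient.mkₐ_eq_mk, Ideal.Quotient.eq_zero_iff_mem] at this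
  exact hxq this

/-- **Ordinarity**, for `p` exactly dividing the level. No reducedness of `T` and no generation
hypothesis is required. -/
theorem isOrdinaryAt_of_hecke {N : ℕ} [NeZero N] {S : Finset ℕ} {p : ℕ} (hp : p.Prime)
    (hp2 : p ≠ 2) (hpN : p ∣ N) (hpN2 : ¬ p ^ 2 ∣ N) (hNS : ∀ q : ℕ, q.Prime → q ∣ N → q ∈ S)
    {𝒪 : Type} [CommRing 𝒪] [IsDomain 𝒪] [IsDiscreteValuationRing 𝒪]
    [IsAdicComplete (maximalIdeal 𝒪) 𝒪] [Finite (ResidueField 𝒪)] [CharZero 𝒪]
    {T : Type} [CommRing T] [IsLocalRing T] [IsNoetherianRing T]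
    [IsAdicComplete (maximalIdeal T) T] [Algebra 𝒪 T]
    [Module.Finite 𝒪 T] [Module.Free 𝒪 T] (hp𝒪 : (p : 𝒪) ∈ maximalIdeal 𝒪)
    (π : CuspForm.heckeAlgebra N 2 (↑S : Set ℕ) →+* T) (ρ : GaloisRepAdic T)
    (hfrob : ∀ (l : ℕ) (hl : l.Prime) (hlN : ¬ l ∣ N) (hlS : l ∉ (↑S : Set ℕ)),
      ∀ A : ValuationSubring Qb, A.LiesOverPrime l → ∀ σ : GQ, A.IsFrobeniusAt σ l →
        LinearMap.charpoly (ρ.ρ σ) = Polynomial.X ^ 2 -
          Polynomial.C (π (CuspForm.heckeAlgebra.T hl hlN hlS)) * Polynomial.X +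
            Polynomial.C ((l : T)))
    (habs : ρ.residual.IsAbsolutelyIrreducible)
    (hres : (GaloisRepAdic.ofResidualGaloisRep ρ.residual).IsOrdinaryAt p) :
    ρ.IsOrdinaryAt p := by
  have hpF : Fact p.Prime := ⟨hp⟩
  have hloc𝒪 : IsLocalHom (algebraMap 𝒪 T) := isLocalHom_of_finite (𝒪 := 𝒪) T
  have hKL : ∀ (M : ℕ) [NeZero M], ∀ l : ℕ, l.Prime → ¬ l ∣ M → l ≠ p → ∀ B : ValuationSubring Qb,
      B.LiesOverPrime l → ∀ n, KLProp M (p ^ n) B := fun M _ l hl hlM hlp B hB n =>
    Fermat.Agent.KL.klProp (pow_pos hp.pos n) hl hlM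
      (fun h => hlp ((Nat.prime_dvd_prime_iff_eq hl hp).mp (hl.dvd_of_dvd_pow h))) hB
  have hOld : OldOrd p S := oldOrd hp hp2 (hNS p hp hpN)
  have hpS : p ∈ S := hNS p hp hpN
  have hpT : (p : T) ∈ maximalIdeal T := by
    rw [← map_natCast (algebraMap 𝒪 T)]
    exact map_nonunit (algebraMap 𝒪 T) _ hp𝒪
  -- the subring generated by the Hecke operators
  let A : Subalgebra 𝒪 T := Algebra.adjoin 𝒪 (Set.range π)
  have hAfin : Module.Finite 𝒪 A :=
    Module.Finite.of_injective A.val.toLinearMap Subtype.val_injective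
  have hint : (algebraMap A T).IsIntegral := by
    have h2 : Algebra.IsIntegral 𝒪 T := Algebra.IsIntegral.of_finite 𝒪 T
    have h3 : (algebraMap 𝒪 T).IsIntegral := algebraMap_isIntegral_iff.mpr h2
    have h4 : algebraMap 𝒪 T = (algebraMap A T).comp (algebraMap 𝒪 A) := by
      ext x
      rfl
    rw [h4] at h3
    exact RingHom.IsIntegral.tower_top _ _ h3
  have hlocA : IsLocalHom (algebraMap A T) := hint.isLocalHom Subtype.val_injective
  have hAloc : IsLocalRing A := RingHom.domain_isLocalRing (algebraMap A T)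
  have hAN : IsNoetherianRing A := IsNoetherianRing.of_finite 𝒪 A
  have hAc : IsAdicComplete (maximalIdeal A) A := RT.isAdicComplete_finite_local (𝒪 := 𝒪) A
  let π' : CuspForm.heckeAlgebra N 2 (↑S : Set ℕ) →+* A :=
    π.codRestrict A.toSubring fun x => Algebra.subset_adjoin ⟨x, rfl⟩
  have hπ' : Algebra.adjoin 𝒪 (Set.range π') = ⊤ := by
    rw [eq_top_iff]
    rintro ⟨x, hx⟩ -
    induction hx using Algebra.adjoin_induction with
    | mem x hx =>
      obtain ⟨y, rfl⟩ := hx
      exact Algebra.subset_adjoin ⟨y, rfl⟩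
    | algebraMap r => exact Subalgebra.algebraMap_mem _ r
    | add x y hx hy h1 h2 => exact add_mem h1 h2
    | mul x y hx hy h1 h2 => exact mul_mem h1 h2
  have hAt : Module.IsTorsionFree 𝒪 A := inferInstance
  have hAred : IsReduced A := Pet.isReduced_of_heckeAlgebra (O := 𝒪) hNS π' hπ'
  have hpA : (p : A) ∈ maximalIdeal A := by
    rw [mem_maximalIdeal, mem_nonunits_iff]
    intro h
    have h2 := h.map (algebraMap A T)
    rw [map_natCast] at h2
    exact (mem_nonunits_iff.mp ((mem_maximalIdeal _).mp hpT)) h2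
  obtain ⟨c, t₀, ε₀, hps₀, -, -, h2₀, h3₀, -⟩ := Univ.exists_pseudo_full hp hpS hNS (hKL N) hpA π'
  let t : GQ → T := fun σ => (t₀ σ : T)
  let ε : GQ →* Tˣ := (Units.map ((algebraMap A T) : A →* T)).comp ε₀
  have hε : ∀ σ, (ε σ : T) = ((ε₀ σ : A) : T) := fun σ => rfl
  have hps : IsPseudo t ε := by
    constructor
    · change ((t₀ 1 : A) : T) = 2
      rw [hps₀.one]
      rfl
    · intro g h
      change ((t₀ g : A) : T) * ((t₀ h : A) : T) = ((t₀ (g * h) : A) : T) +
        ((ε₀ g : A) : T) * ((t₀ (g⁻¹ * h) : A) : T)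
      have := congrArg (Subtype.val) (hps₀.mul g h)
      exact this
  have h2 : ∀ (l : ℕ) (hl : l.Prime) (hlN : ¬ l ∣ N) (hlS : l ∉ (↑S : Set ℕ)),
      ∀ B : ValuationSubring Qb, B.LiesOverPrime l → ∀ σ : GQ, B.IsFrobeniusAt σ l →
        t σ = π (CuspForm.heckeAlgebra.T hl hlN hlS) ∧ (ε σ : T) = l := by
    intro l hl hlN hlS B hB σ hσ
    obtain ⟨h4, h5⟩ := h2₀ l hl hlN hlS B hB σ hσ
    constructor
    · exact congrArg Subtype.val h4
    · rw [hε, h5]
      rfl
  have hspan : ∀ (n : ℕ) (x : A), x ∈ Ideal.span {(p : A) ^ n} →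
      (x : T) ∈ Ideal.span {(p : T) ^ n} := by
    intro n x hx
    rw [Ideal.mem_span_singleton] at hx ⊢
    obtain ⟨y, rfl⟩ := hx
    exact ⟨(y : T), by push_cast; rfl⟩
  have h3 : ∀ n : ℕ, ∃ L : IntermediateField ℚ Qb, FiniteDimensional ℚ L ∧
        ∀ σ : GQ, (∀ x ∈ L, σ x = x) → (∀ g, t (σ * g) - t g ∈ Ideal.span {(p : T) ^ n}) ∧
          (ε σ : T) - 1 ∈ Ideal.span {(p : T) ^ n} := by
    intro n
    obtain ⟨L, hL, h⟩ := h3₀ n
    refine ⟨L, hL, fun σ hσ => ⟨fun g => ?_, ?_⟩⟩
    · exact hspan n _ ((h σ hσ).1 g)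
    · exact hspan n _ (h σ hσ).2
  let b : Module.Basis (Fin 2) T ρ.V :=
    (Module.finBasis T ρ.V).reindex (finCongr ρ.finrank_eq)
  have hdiv : ∀ x : T, 2 * x = 0 → x = 0 := by
    intro x hx
    have h1 : ((2 : ℕ) : 𝒪) • x = 0 := by
      rw [Algebra.smul_def, map_natCast, Nat.cast_ofNat, hx]
    exact (smul_eq_zero.mp h1).resolve_left (Nat.cast_ne_zero.mpr two_ne_zero)
  have htd := trace_det_of_frob (isContMat_matOf ρ b) hps (fun n => by
      obtain ⟨L, hL, h4⟩ := h3 n
      exact ⟨L, hL, fun σ hσ g => span_pow_le hpT n ((h4 σ hσ).1 g)⟩) S (by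
      intro l hl hlS B hB σ hσ
      have hlN : ¬ l ∣ N := fun h => hlS (hNS l hl h)
      obtain ⟨h4, h5⟩ := h2 l hl hlN hlS B hB σ hσ
      have h6 := hfrob l hl hlN hlS B hB σ hσ
      rw [← LinearMap.charpoly_toMatrix (ρ.ρ σ) b] at h6
      rw [h4, h5]
      exact frob_charpoly_coeff h6) hdiv
  have hεc := eps_cyc (ε := ε) hpT hpS (fun l hl hlS B hB σ hσ =>
    (h2 l hl (fun h => hlS (hNS l hl h)) hlS B hB σ hσ).2) (by
      obtain ⟨L, hL, h⟩ := h3 1
      refine ⟨L, hL, fun σ hσ => ?_⟩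
      have h4 := (h σ hσ).2
      rw [pow_one] at h4
      exact (Ideal.span_singleton_le_iff_mem _).mpr hpT h4)
  refine isOrdinary_of_trace ρ habs hp2 hpT b (fun σ => (htd σ).1)
    (fun σ => (htd σ).2) hεc fun P hP σ hσ τ hτ g => ?_
  by_contra hx
  have hxn : ¬ IsNilpotent (t (σ * τ * g) - t (σ * g) - ε σ * (t (τ * g) - t g)) := by
    intro h
    obtain ⟨n, hn⟩ := h
    apply hx
    have h4 : (t₀ (σ * τ * g) - t₀ (σ * g) - ε₀ σ * (t₀ (τ * g) - t₀ g)) ^ n = 0 :=
      Subtype.ext hn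
    exact congrArg Subtype.val (eq_zero_of_pow_eq_zero h4)
  obtain ⟨B, i1, i2, i3, i4, i5, i6, i7, i8, i9, ψ, hψ, hBinj⟩ := exists_dvr_point' (𝒪 := 𝒪) hxn
  apply hψ
  have hpB : (p : B) ∈ maximalIdeal B := by
    rw [← map_natCast (algebraMap 𝒪 B)]
    exact map_nonunit (algebraMap 𝒪 B) _ hp𝒪
  have hψloc : IsLocalHom (ψ : T →+* B) := isLocalHom_of_algHom ψ
  obtain ⟨M, hM0, f, chi, iota, hMN, hf, hchi, hiota⟩ := exists_newform_point hNS
    ((ψ : T →+* B).comp π)
  have hMS : ∀ q : ℕ, q.Prime → q ∣ M → q ∈ S := fun q hq hqM => hNS q hq (hqM.trans hMN)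
  set r := mapMat (ψ : T →+* B) (matOf ρ b) with hr
  have hrc : IsContMat r := isContMat_mapMat _ hψloc (isContMat_matOf ρ b)
  have hrt : ∀ σ, (r σ).trace = ψ (t σ) := fun σ => by
    rw [hr, mapMat_trace, (htd σ).1]
    rfl
  have hrd : ∀ σ, (r σ).det = ψ (ε σ) := fun σ => by
    rw [hr, mapMat_det, (htd σ).2]
    rfl
  suffices hgoal : (r (σ * τ * g)).trace - (r (σ * g)).trace -
      (r σ).det * ((r (τ * g)).trace - (r g).trace) = 0 by
    rw [hrt, hrt, hrt, hrt, hrd] at hgoal
    rw [← hgoal]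
    simp only [map_sub, map_mul]
  by_cases hpM : p ∣ M
  · -- new points
    have hpM2 : ¬ p ^ 2 ∣ M := fun h => hpN2 (h.trans hMN)
    obtain ⟨t', ε', hps', h2', h3', h4'⟩ := exists_pseudo_ord hf hpS hMS (hKL M) hpM hpM2 hpB chi
      hchi iota
    have key := trace_det_of_frob hrc hps' (fun n => by
        obtain ⟨L, hL, h5⟩ := h3' n
        exact ⟨L, hL, fun σ hσ g => span_pow_le hpB n ((h5 σ hσ).1 g)⟩) S (by
        intro l hl hlS A hA φ hφ
        have hlN : ¬ l ∣ N := fun h => hlS (hNS l hl h)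
        have hlM : ¬ l ∣ M := fun h => hlN (h.trans hMN)
        obtain ⟨h5, h6⟩ := h2' l hl hlM hlS A hA φ hφ
        obtain ⟨h7, h8⟩ := h2 l hl hlN hlS A hA φ hφ
        rw [hrt, hrd, h5, h6, h7, h8, hiota l hl hlM hlN hlS, map_natCast]
        exact ⟨rfl, rfl⟩) (fun x hx => by
        have : (2 : B) ≠ 0 := by exact_mod_cast (two_ne_zero : (2 : ℕ) ≠ 0)
        exact (mul_eq_zero.mp hx).resolve_left this)
    rw [(key _).1, (key _).1, (key _).1, (key _).1, (key _).2]
    exact h4' P hP σ hσ τ hτ g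
  · -- old points
    have h6 : matOf (ofMat r hrc) (stdBasis r hrc) = r := by
      ext σ : 1
      exact toMatrix_ofMat r hrc σ
    let κ : ResidueField T →+* ResidueField B := ResidueField.map (ψ : T →+* B)
    have hmat : ∀ σ, LinearMap.toMatrix (basisResidual _ (stdBasis r hrc))
        (basisResidual _ (stdBasis r hrc)) ((ofMat r hrc).residual.ρ σ) =
        (LinearMap.toMatrix (basisResidual ρ b) (basisResidual ρ b)
          (ρ.residual.ρ σ)).map κ := by
      intro σ
      rw [toMatrix_residual, toMatrix_ofMat, toMatrix_residual]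
      rfl
    have hspan : Submodule.span (ResidueField B) (Set.range fun σ : GQ =>
        LinearMap.toMatrix (basisResidual _ (stdBasis r hrc))
          (basisResidual _ (stdBasis r hrc)) ((ofMat r hrc).residual.ρ σ)) = ⊤ := by
      have h7 := span_map_eq_top κ
        (span_matrix_eq_top ρ.residual habs (basisResidual ρ b))
      rw [← h7]
      congr 2
      funext σ
      exact hmat σ
    have hord := hOld M hpM hMS B hpB (iota.comp chi.rangeRestrict) (ofMat r hrc) (by
      intro l hl hlM hlS A hA φ hφ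
      have hlN : ¬ l ∣ N := fun h => hlS (hNS l hl h)
      obtain ⟨h7, h8⟩ := h2 l hl hlN hlS A hA φ hφ
      rw [← LinearMap.charpoly_toMatrix _ (stdBasis r hrc), toMatrix_ofMat,
        Matrix.charpoly_fin_two, hrt, hrd, h7, h8, map_natCast]
      congr 4
      exact (hiota l hl hlM hlN hlS).symm) (isAbsolutelyIrreducible_of_span _
        (basisResidual _ (stdBasis r hrc)) hspan) (by
      have hpk : (p : ResidueField B) ∈ maximalIdeal (ResidueField B) := by
        rw [← map_natCast (residue B), (residue_eq_zero_iff (p : B)).mpr hpB]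
        exact zero_mem _
      have h7 : ∀ σ, (matOf (GaloisRepAdic.ofResidualGaloisRep (ofMat r hrc).residual)
          (basisResidual _ (stdBasis r hrc)) σ) =
          (matOf (GaloisRepAdic.ofResidualGaloisRep ρ.residual) (basisResidual ρ b) σ).map κ :=
        hmat
      have h8 : ∀ σ, (matOf (GaloisRepAdic.ofResidualGaloisRep ρ.residual)
          (basisResidual ρ b) σ) = (matOf ρ b σ).map (residue T) :=
        fun σ => toMatrix_residual ρ b σ
      refine isOrdinary_of_trace_span (p := p)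
        (GaloisRepAdic.ofResidualGaloisRep (ofMat r hrc).residual) hp2 hpk
        (basisResidual _ (stdBasis r hrc)) hspan (t := fun σ => κ (residue T (t σ)))
        (ε := (Units.map ((κ.comp (residue T)) : T →* ResidueField B)).comp ε)
        (fun σ => ?_) (fun σ => ?_) (fun σ => ?_) fun P hP σ hσ τ hτ g => ?_
      · rw [h7, h8, Matrix.trace_fin_two, ← (htd σ).1, Matrix.trace_fin_two, map_add, map_add]
        rfl
      · rw [h7, h8]
        change _ = κ (residue T (ε σ))
        rw [← (htd σ).2, Matrix.det_fin_two, Matrix.det_fin_two, map_sub, map_sub, map_mul,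
          map_mul, map_mul, map_mul]
        rfl
      · change κ (residue T (ε σ)) - _ ∈ _
        have h9 := (residue_eq_zero_iff _).mpr (hεc σ)
        have h10 := congrArg κ h9
        rw [map_zero, map_sub, map_sub, map_natCast, map_natCast] at h10
        rw [h10]
        exact zero_mem _
      · have h9 := trace_of_isOrdinary hres (basisResidual ρ b) hP hσ hτ g
        have h10 : ∀ σ, (matOf (GaloisRepAdic.ofResidualGaloisRep ρ.residual)
            (basisResidual ρ b) σ).trace = residue T (t σ) := fun σ => by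
          rw [h8, Matrix.trace_fin_two, ← (htd σ).1, Matrix.trace_fin_two, map_add]
          rfl
        have h11 : (matOf (GaloisRepAdic.ofResidualGaloisRep ρ.residual)
            (basisResidual ρ b) σ).det = residue T (ε σ) := by
          rw [h8, ← (htd σ).2, Matrix.det_fin_two, Matrix.det_fin_two, map_sub, map_mul, map_mul]
          rfl
        rw [h10, h10, h10, h10, h11] at h9
        have h12 := congrArg κ h9
        rw [map_zero] at h12
        rw [← h12]
        change κ (residue T _) - κ (residue T _) - κ (residue T (ε σ)) *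
          (κ (residue T _) - κ (residue T _)) = _
        simp only [map_sub, map_mul])
    have h5 := trace_of_isOrdinary hord (stdBasis r hrc) hP hσ hτ g
    rw [h6] at h5
    exact h5

end Fermat.Agent.Flat
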